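import Fermat.Agent.LT.ThetaM.Kernel
import Fermat.Agent.LT.Hyp.Measure

/-!
# The mean value property of the Bessel term

For continuous compactly supported `H`, averaging `q ↦ wTerm q ξ` against `H (coshDist p q)` gives
`∫ H (cosh r) 4π r sinh r dr · wTerm p ξ`.  It suffices to treat `H = exp (-λ ·)`, where both
sides reduce to the identity `K_0`-product formula proved by a translation in a double integral.
-/

set_option autoImplicit false

noncomputable section

namespace FLTAgent.LT.ThetaM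

open MeasureTheory Complex Filter
open scoped Real ComplexConjugate Topology Polynomial

theorem cosh_le_exp_abs (s : ℝ) : Real.cosh s ≤ Real.exp |s| := by
  rw [← Real.cosh_abs, Real.cosh_eq]
  have : Real.exp (-|s|) ≤ Real.exp |s| := Real.exp_le_exp.2 (by linarith [abs_nonneg s])
  linarith

theorem integrable_exp_neg_two {f : ℝ → ℝ → ℝ} (hf : Continuous (Function.uncurry f)) {c d : ℝ}
    (hc : 0 < c) (hd : 0 < d) (h : ∀ r s, c * Real.cosh r + d * Real.cosh s ≤ f r s) :
    Integrable fun x : ℝ × ℝ => Real.exp (-f x.1 x.2) := by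
  have h1 : Integrable fun r : ℝ => Real.exp (-(c * Real.cosh r)) := by
    simpa using integrable_exp_neg_cosh hc one_ne_zero
  have h2 : Integrable fun s : ℝ => Real.exp (-(d * Real.cosh s)) := by
    simpa using integrable_exp_neg_cosh hd one_ne_zero
  refine (h1.mul_prod h2).mono' (by fun_prop) (Eventually.of_forall fun x => ?_)
  rw [Real.norm_eq_abs, abs_of_pos (Real.exp_pos _), ← Real.exp_add, Real.exp_le_exp]
  linarith [h x.1 x.2]

theorem sqrt_mul_cosh_le {A B lam K : ℝ} (hA : 0 ≤ A) (hB : 0 ≤ B) (hl : 0 ≤ lam) (hK : 0 ≤ K)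
    (s : ℝ) (h : lam * K * Real.exp (2 * |s|) ≤ 4 * (A * B)) :
    Real.sqrt (lam * K) * Real.cosh s ≤ A + B := by
  refine (mul_le_mul_of_nonneg_left (cosh_le_exp_abs s) (Real.sqrt_nonneg _)).trans ?_
  refine abs_le_of_sq_le_sq' ?_ (add_nonneg hA hB) |>.2
  rw [mul_pow, Real.sq_sqrt (mul_nonneg hl hK), ← Real.exp_nat_mul]
  push_cast
  nlinarith [sq_nonneg (A - B)]

theorem integral_exp_two_sided {A B : ℝ} (hA : 0 < A) (hB : 0 < B) :
    ∫ r : ℝ, Real.exp (-(A * Real.exp r + B * Real.exp (-r))) =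
      ∫ r : ℝ, Real.exp (-(2 * Real.sqrt (A * B) * Real.cosh r)) := by
  obtain ⟨a, ha, rfl⟩ : ∃ a, 0 < a ∧ A = a ^ 2 :=
    ⟨Real.sqrt A, Real.sqrt_pos.2 hA, (Real.sq_sqrt hA.le).symm⟩
  obtain ⟨b, hb, rfl⟩ : ∃ b, 0 < b ∧ B = b ^ 2 :=
    ⟨Real.sqrt B, Real.sqrt_pos.2 hB, (Real.sq_sqrt hB.le).symm⟩
  rw [← integral_add_right_eq_self (μ := volume)
    (fun r => Real.exp (-(a ^ 2 * Real.exp r + b ^ 2 * Real.exp (-r)))) (Real.log (b / a))]
  refine integral_congr_ae (Eventually.of_forall fun r => ?_)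
  show Real.exp _ = Real.exp _
  rw [← mul_pow, Real.sqrt_sq (by positivity), Real.cosh_eq,
    show -(r + Real.log (b / a)) = -r + -Real.log (b / a) by ring, Real.exp_add, Real.exp_add,
    Real.exp_neg (Real.log _), Real.exp_log (div_pos hb ha)]
  congr 1
  field_simp

/-! ### Change of variable `t = eʳ` -/

theorem integrableOn_Ioi_of_exp {g : ℝ → ℝ}
    (h : Integrable fun r => Real.exp r * g (Real.exp r)) : IntegrableOn g (Set.Ioi 0) := by
  rw [← Real.range_exp, ← Set.image_univ,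
    integrableOn_image_iff_integrableOn_abs_deriv_smul MeasurableSet.univ
      (fun r _ => (Real.hasDerivAt_exp r).hasDerivWithinAt) Real.exp_injective.injOn,
    integrableOn_univ]
  exact h.congr (Eventually.of_forall fun r => by simp)

theorem integral_Ioi_of_exp (g : ℝ → ℝ) :
    ∫ t in Set.Ioi (0 : ℝ), g t = ∫ r : ℝ, Real.exp r * g (Real.exp r) := by
  rw [← Real.range_exp, ← Set.image_univ,
    integral_image_eq_integral_abs_deriv_smul MeasurableSet.univ
      (fun r _ => (Real.hasDerivAt_exp r).hasDerivWithinAt) Real.exp_injective.injOn,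
    setIntegral_univ]
  simp

/-! ### The double integral -/

/-- The radial integrand after the horizontal integration. -/
def tFun (lam κ y t : ℝ) : ℝ :=
  2 * π / lam * (Real.exp (-(lam * (t + t⁻¹) / 2 + κ * t)) * bK (t * y) * t⁻¹)

theorem tFun_exp (lam κ y r : ℝ) :
    Real.exp r * tFun lam κ y (Real.exp r) = ∫ s : ℝ, 2 * π / lam *
      Real.exp (-(lam * Real.cosh r + κ * Real.exp r + 4 * π * y * Real.exp r * Real.cosh (2 * s))) := by
  rw [tFun, bK]
  rw [show Real.exp r * (2 * π / lam * (Real.exp (-(lam * (Real.exp r + (Real.exp r)⁻¹) / 2 +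
      κ * Real.exp r)) * (∫ s, Real.exp (-(4 * π * (Real.exp r * y) * Real.cosh (2 * s)))) *
        (Real.exp r)⁻¹)) =
    2 * π / lam * Real.exp (-(lam * (Real.exp r + (Real.exp r)⁻¹) / 2 + κ * Real.exp r)) *
      ∫ s, Real.exp (-(4 * π * (Real.exp r * y) * Real.cosh (2 * s))) by field_simp,
    ← integral_const_mul]
  refine integral_congr_ae (Eventually.of_forall fun s => ?_)
  show _ * Real.exp _ * Real.exp _ = _
  rw [mul_assoc, ← Real.exp_add, Real.cosh_eq r, ← Real.exp_neg]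
  ring_nf

theorem integrable_tFun_double {lam κ y : ℝ} (hl : 0 < lam) (hκ : 0 ≤ κ) (hy : 0 < y) :
    Integrable fun x : ℝ × ℝ => 2 * π / lam *
      Real.exp (-(lam * Real.cosh x.1 + κ * Real.exp x.1 +
        4 * π * y * Real.exp x.1 * Real.cosh (2 * x.2))) := by
  refine (integrable_exp_neg_two (f := fun r s => lam * Real.cosh r + κ * Real.exp r +
    4 * π * y * Real.exp r * Real.cosh (2 * s)) (by fun_prop) (c := lam / 2)
    (d := Real.sqrt (lam * (4 * π * y)) / 2) (by positivity) (by positivity)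
    fun r s => ?_).const_mul _
  have hK : (0 : ℝ) < 4 * π * y := by positivity
  have hc : Real.exp (2 * |s|) / 2 ≤ Real.cosh (2 * s) := by
    rw [← Real.cosh_abs, abs_mul, abs_two, Real.cosh_eq]
    linarith [Real.exp_pos (-(2 * |s|))]
  have h := sqrt_mul_cosh_le (A := lam / 2 * Real.exp (-r))
    (B := 4 * π * y * Real.exp r * Real.cosh (2 * s)) (by positivity)
    (mul_nonneg (by positivity) (Real.cosh_pos _).le) hl.le hK.le s (by
      rw [show lam / 2 * Real.exp (-r) * (4 * π * y * Real.exp r * Real.cosh (2 * s)) =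
        lam * (4 * π * y) / 2 * Real.cosh (2 * s) by rw [Real.exp_neg]; field_simp]
      nlinarith [mul_le_mul_of_nonneg_left hc (mul_nonneg hl.le hK.le)])
  have h1 : lam / 2 * Real.exp (-r) ≤ lam * Real.cosh r := by
    rw [Real.cosh_eq]; nlinarith [Real.exp_pos r]
  have h2 : 0 ≤ 4 * π * y * Real.exp r * Real.cosh (2 * s) :=
    mul_nonneg (by positivity) (Real.cosh_pos _).le
  nlinarith [Real.exp_pos r, Real.cosh_pos r]

theorem integrableOn_tFun {lam κ y : ℝ} (hl : 0 < lam) (hκ : 0 ≤ κ) (hy : 0 < y) :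
    IntegrableOn (tFun lam κ y) (Set.Ioi 0) :=
  integrableOn_Ioi_of_exp ((integrable_tFun_double hl hκ hy).integral_prod_left.congr
    (Eventually.of_forall fun r => (tFun_exp lam κ y r).symm))

theorem integral_tFun {lam y : ℝ} (hl : 0 < lam) (hy : 0 < y) :
    ∫ t in Set.Ioi (0 : ℝ), tFun lam (8 * π ^ 2 * y ^ 2 / lam) y t =
      2 * π / lam * bK y * ∫ r : ℝ, Real.exp (-(lam * Real.cosh r)) := by
  set κ := 8 * π ^ 2 * y ^ 2 / lam with hκd
  set K := 4 * π * y with hKd
  have hK : 0 < K := by positivity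
  have hκ : 0 ≤ κ := by positivity
  have hL : ∫ t in Set.Ioi (0 : ℝ), tFun lam κ y t = 2 * π / lam * ∫ s : ℝ, ∫ r : ℝ,
      Real.exp (-((lam / 2 + κ + K * Real.cosh (2 * s)) * Real.exp r + lam / 2 * Real.exp (-r))) := by
    rw [integral_Ioi_of_exp]
    simp only [tFun_exp]
    rw [integral_integral_swap (integrable_tFun_double hl hκ hy), ← integral_const_mul]
    refine integral_congr_ae (Eventually.of_forall fun s => ?_)
    show ∫ r, _ = _ * _
    rw [← integral_const_mul]
    refine integral_congr_ae (Eventually.of_forall fun r => ?_)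
    show _ * Real.exp _ = _ * Real.exp _
    rw [Real.cosh_eq r, hKd]
    ring_nf
  have hint : Integrable fun x : ℝ × ℝ =>
      Real.exp (-(lam * Real.cosh x.1 + K * Real.cosh (2 * x.2 + x.1))) := by
    refine integrable_exp_neg_two (f := fun r s => lam * Real.cosh r + K * Real.cosh (2 * s + r))
      (by fun_prop) (c := lam / 2) (d := Real.sqrt (lam * K) / 2) (by positivity) (by positivity)
      fun r s => ?_
    have hKc : 0 ≤ K * Real.cosh (2 * s + r) := mul_nonneg hK.le (Real.cosh_pos _).le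
    rcases le_total 0 s with hs | hs
    · have := sqrt_mul_cosh_le (A := lam / 2 * Real.exp (-r))
        (B := K / 2 * Real.exp (2 * s + r)) (by positivity) (by positivity) hl.le hK.le s
        (le_of_eq (by rw [abs_of_nonneg hs, Real.exp_neg, Real.exp_add]; field_simp; ring))
      have h1 : lam / 2 * Real.exp (-r) ≤ lam * Real.cosh r := by
        rw [Real.cosh_eq]; nlinarith [Real.exp_pos r]
      have h2 : K / 2 * Real.exp (2 * s + r) ≤ K * Real.cosh (2 * s + r) := by
        rw [Real.cosh_eq]; nlinarith [Real.exp_pos (-(2 * s + r))]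
      nlinarith [Real.cosh_pos r]
    · have := sqrt_mul_cosh_le (A := lam / 2 * Real.exp r)
        (B := K / 2 * Real.exp (-(2 * s + r))) (by positivity) (by positivity) hl.le hK.le s
        (le_of_eq (by
          rw [abs_of_nonpos hs, neg_add, Real.exp_add, Real.exp_neg r,
            show 2 * -s = -(2 * s) by ring]
          field_simp; ring))
      have h1 : lam / 2 * Real.exp r ≤ lam * Real.cosh r := by
        rw [Real.cosh_eq]; nlinarith [Real.exp_pos (-r)]
      have h2 : K / 2 * Real.exp (-(2 * s + r)) ≤ K * Real.cosh (2 * s + r) := by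
        rw [Real.cosh_eq]; nlinarith [Real.exp_pos (2 * s + r)]
      nlinarith [Real.cosh_pos r]
  have hR : bK y * ∫ r : ℝ, Real.exp (-(lam * Real.cosh r)) = ∫ s : ℝ, ∫ r : ℝ,
      Real.exp (-((lam + K * Real.exp (2 * s)) / 2 * Real.exp r +
        (lam + K * Real.exp (-(2 * s))) / 2 * Real.exp (-r))) := by
    calc bK y * ∫ r : ℝ, Real.exp (-(lam * Real.cosh r))
        = ∫ r : ℝ, ∫ s : ℝ, Real.exp (-(lam * Real.cosh r + K * Real.cosh (2 * s + r))) := by
          rw [← integral_const_mul]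
          refine integral_congr_ae (Eventually.of_forall fun r => ?_)
          show bK y * Real.exp _ = ∫ s : ℝ, Real.exp _
          rw [bK, ← integral_add_right_eq_self (μ := volume)
            (fun s => Real.exp (-(4 * π * y * Real.cosh (2 * s)))) (r / 2), ← integral_mul_const]
          refine integral_congr_ae (Eventually.of_forall fun s => ?_)
          show Real.exp _ * Real.exp _ = Real.exp _
          rw [← Real.exp_add, show 2 * (s + r / 2) = 2 * s + r by ring, hKd]
          ring_nf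
      _ = _ := by
          rw [integral_integral_swap hint]
          refine integral_congr_ae (Eventually.of_forall fun s => ?_)
          refine integral_congr_ae (Eventually.of_forall fun r => ?_)
          show Real.exp _ = Real.exp _
          rw [Real.cosh_eq, Real.cosh_eq, neg_add (2 * s), Real.exp_add, Real.exp_add]
          ring_nf
  rw [hL, mul_assoc (2 * π / lam) (bK y), hR]
  congr 1
  refine integral_congr_ae (Eventually.of_forall fun s => ?_)
  show ∫ r, _ = ∫ r, _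
  rw [integral_exp_two_sided (add_pos (add_pos_of_pos_of_nonneg (half_pos hl) hκ)
      (mul_pos hK (Real.cosh_pos _))) (half_pos hl),
    integral_exp_two_sided (half_pos (add_pos hl (mul_pos hK (Real.exp_pos _))))
      (half_pos (add_pos hl (mul_pos hK (Real.exp_pos _))))]
  congr 1
  funext r
  congr 4
  rw [Real.cosh_eq, hκd, hKd, Real.exp_neg]
  field_simp
  ring_nf

/-- The spherical weight. -/
def sphW (r : ℝ) : ℝ := 4 * π * r * Real.sinh r

theorem integrable_sphW {lam : ℝ} (hl : 0 < lam) :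
    IntegrableOn (fun r => Real.exp (-(lam * Real.cosh r)) * sphW r) (Set.Ioi 0) := by
  have hb : Integrable fun r : ℝ =>
      4 * π * (16 / lam ^ 2) * Real.exp (-(lam / 2 * Real.cosh (1 * r))) :=
    (integrable_exp_neg_cosh (half_pos hl) one_ne_zero).const_mul _
  refine hb.integrableOn.mono' (by unfold sphW; fun_prop) ?_
  filter_upwards [self_mem_ae_restrict measurableSet_Ioi] with r (hr : 0 < r)
  have hs : r ≤ Real.sinh r := Real.self_le_sinh_iff.2 hr.le
  have hsc : Real.sinh r ≤ Real.cosh r := (Real.sinh_lt_cosh r).le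
  have hp : 0 ≤ r * Real.sinh r := mul_nonneg hr.le (hr.le.trans hs)
  have h2 : r * Real.sinh r ≤ 16 / lam ^ 2 * Real.exp (lam / 2 * Real.cosh r) := by
    have hx : lam / 4 * Real.cosh r ≤ Real.exp (lam / 4 * Real.cosh r) := by
      linarith [Real.add_one_le_exp (lam / 4 * Real.cosh r)]
    have hx0 : 0 ≤ lam / 4 * Real.cosh r := by positivity
    have := mul_self_le_mul_self hx0 hx
    rw [← Real.exp_add, show lam / 4 * Real.cosh r + lam / 4 * Real.cosh r =
      lam / 2 * Real.cosh r by ring] at this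
    calc r * Real.sinh r ≤ Real.cosh r * Real.cosh r :=
          mul_le_mul (hs.trans hsc) hsc (hr.le.trans hs) (Real.cosh_pos r).le
      _ = 16 / lam ^ 2 * (lam / 4 * Real.cosh r * (lam / 4 * Real.cosh r)) := by
          field_simp; ring
      _ ≤ _ := mul_le_mul_of_nonneg_left this (by positivity)
  have hnn : 0 ≤ Real.exp (-(lam * Real.cosh r)) * sphW r :=
    mul_nonneg (Real.exp_pos _).le (by unfold sphW; rw [mul_assoc]; positivity)
  rw [Real.norm_eq_abs, abs_of_nonneg hnn, sphW, one_mul]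
  calc Real.exp (-(lam * Real.cosh r)) * (4 * π * r * Real.sinh r)
      = 4 * π * Real.exp (-(lam * Real.cosh r)) * (r * Real.sinh r) := by ring
    _ ≤ 4 * π * Real.exp (-(lam * Real.cosh r)) *
        (16 / lam ^ 2 * Real.exp (lam / 2 * Real.cosh r)) := by gcongr
    _ = _ := by
        rw [show -(lam / 2 * Real.cosh r) = -(lam * Real.cosh r) + lam / 2 * Real.cosh r by ring,
          Real.exp_add]
        ring

theorem integral_sphW {lam : ℝ} (hl : 0 < lam) :
    ∫ r in Set.Ioi (0 : ℝ), Real.exp (-(lam * Real.cosh r)) * sphW r =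
      2 * π / lam * ∫ r : ℝ, Real.exp (-(lam * Real.cosh r)) := by
  have hI : Integrable fun r : ℝ => Real.exp (-(lam * Real.cosh r)) := by
    simpa using integrable_exp_neg_cosh hl one_ne_zero
  have habs := integral_comp_abs (f := fun r => Real.exp (-(lam * Real.cosh r)))
  simp only [Real.cosh_abs] at habs
  have hd : ∀ x ∈ Set.Ioi (0 : ℝ), HasDerivAt
      (fun r => -(4 * π / lam) * Real.exp (-(lam * Real.cosh r)))
      (Real.exp (-(lam * Real.cosh x)) * (4 * π * Real.sinh x)) x := by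
    intro x _
    refine (((Real.hasDerivAt_cosh x).const_mul lam).neg.exp.const_mul _).congr_deriv ?_
    simp only [Pi.neg_apply]
    field_simp
  have h := integral_Ioi_mul_deriv_eq_deriv_mul (u := fun r : ℝ => r) (u' := fun _ => 1)
    (a' := 0) (b' := 0) (fun x _ => hasDerivAt_id x) hd
    ((integrable_sphW hl).congr_fun (fun r _ => by simp [sphW]; ring) measurableSet_Ioi)
    (((hI.const_mul (-(4 * π / lam))).integrableOn).congr_fun (fun r _ => by simp) measurableSet_Ioi)
    ?_ ?_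
  · rw [setIntegral_congr_fun measurableSet_Ioi
      (g := fun r => r * (Real.exp (-(lam * Real.cosh r)) * (4 * π * Real.sinh r)))
      (fun r _ => by simp [sphW]; ring), h]
    simp only [one_mul, integral_const_mul, habs]
    ring
  · refine tendsto_nhdsWithin_of_tendsto_nhds ?_
    have : Continuous fun r : ℝ => r * (-(4 * π / lam) * Real.exp (-(lam * Real.cosh r))) := by
      fun_prop
    simpa [Pi.mul_def] using this.tendsto 0
  · have hlim := (tendsto_rpow_mul_exp_neg_mul_atTop_nhds_zero 1 lam hl).const_mul (4 * π / lam)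
    rw [mul_zero] at hlim
    refine squeeze_zero_norm' ?_ hlim
    filter_upwards [eventually_ge_atTop 0] with r hr
    simp only [Pi.mul_apply, Real.norm_eq_abs, abs_mul, abs_neg, Real.abs_exp, Real.rpow_one,
      abs_of_nonneg hr, abs_of_nonneg (by positivity : (0 : ℝ) ≤ 4 * π / lam)]
    rw [← mul_assoc, mul_comm r, mul_assoc]
    gcongr
    rw [neg_mul]
    gcongr
    nlinarith [one_add_sq_half_le_cosh r, sq_nonneg (r - 1)]

/-! ### Averages over upper half space -/

/-- Integrals for the hyperbolic measure. -/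
theorem integral_hyp (G : ℂ × ℝ → ℂ) :
    ∫ p, G (Hyp.emb p) ∂hypMeasure =
      ∫ x in Set.univ ×ˢ Set.Ioi (0 : ℝ), (((x.2 ^ 3)⁻¹ : ℝ) : ℂ) * G x := by
  have hrange : Set.range Hyp.emb = Set.univ ×ˢ Set.Ioi (0 : ℝ) := by
    ext x
    exact ⟨by rintro ⟨p, rfl⟩; exact ⟨trivial, p.2.2⟩,
      fun h => ⟨(x.1, ⟨x.2, h.2⟩), rfl⟩⟩
  rw [Hyp.hypMeasure_eq, integral_withDensity_eq_integral_toReal_smul (by fun_prop)
    (Eventually.of_forall fun _ => ENNReal.ofReal_lt_top), ← hrange,
    ← Hyp.measurableEmbedding_emb.map_comap, Hyp.measurableEmbedding_emb.integral_map]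
  refine integral_congr_ae (Eventually.of_forall fun p => ?_)
  have hp : (0 : ℝ) < p.2 := p.2.2
  simp [Hyp.emb, ENNReal.toReal_ofReal (le_of_lt (inv_pos.2 (pow_pos hp 3))), Complex.real_smul]

theorem integrable_hyp (G : ℂ × ℝ → ℂ)
    (hG : IntegrableOn (fun x => (((x.2 ^ 3)⁻¹ : ℝ) : ℂ) * G x) (Set.univ ×ˢ Set.Ioi (0 : ℝ))) :
    Integrable (fun p => G (Hyp.emb p)) hypMeasure := by
  have hrange : Set.range Hyp.emb = Set.univ ×ˢ Set.Ioi (0 : ℝ) := by
    ext x
    exact ⟨by rintro ⟨p, rfl⟩; exact ⟨trivial, p.2.2⟩,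
      fun h => ⟨(x.1, ⟨x.2, h.2⟩), rfl⟩⟩
  rw [IntegrableOn, ← hrange, ← Hyp.measurableEmbedding_emb.map_comap,
    Hyp.measurableEmbedding_emb.integrable_map_iff] at hG
  rw [Hyp.hypMeasure_eq, integrable_withDensity_iff_integrable_smul' (by fun_prop)
    (Eventually.of_forall fun _ => ENNReal.ofReal_lt_top)]
  refine hG.congr (Eventually.of_forall fun p => ?_)
  have hp : (0 : ℝ) < p.2 := p.2.2
  simp [Hyp.emb, ENNReal.toReal_ofReal (le_of_lt (inv_pos.2 (pow_pos hp 3))), Complex.real_smul]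

/-- The base point `j`. -/
def jPt : H3 := (0, ⟨1, Set.mem_Ioi.2 one_pos⟩)

/-- The integrand at the base point. -/
def expInt (lam : ℝ) (ξ : ℂ) (x : ℂ × ℝ) : ℂ :=
  ((Real.exp (-(lam * (1 + (Complex.normSq x.1 + (1 - x.2) ^ 2) / (2 * x.2)))) *
    (x.2 * bK (x.2 * ‖ξ‖)) : ℝ) : ℂ) * cexp (((4 * π * (x.1 * ξ).re : ℝ) : ℂ) * I)

theorem exp_coshDist_mul_wTerm (lam : ℝ) (ξ : ℂ) (q : H3) :
    (Real.exp (-(lam * coshDist jPt q)) : ℂ) * wTerm q ξ = expInt lam ξ (Hyp.emb q) := by
  simp [expInt, Hyp.emb, coshDist, jPt, wTerm, Complex.ofReal_mul, Complex.normSq_neg]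
  ring_nf

theorem integral_expInt {lam : ℝ} (hl : 0 < lam) {ξ : ℂ} (hξ : ξ ≠ 0) :
    IntegrableOn (fun x => (((x.2 ^ 3)⁻¹ : ℝ) : ℂ) * expInt lam ξ x)
        (Set.univ ×ˢ Set.Ioi (0 : ℝ)) ∧
      ∫ x in Set.univ ×ˢ Set.Ioi (0 : ℝ), (((x.2 ^ 3)⁻¹ : ℝ) : ℂ) * expInt lam ξ x =
        ((∫ r in Set.Ioi (0 : ℝ), Real.exp (-(lam * Real.cosh r)) * sphW r : ℝ) : ℂ) *
          wTerm jPt ξ := by
  obtain ⟨y, hyd⟩ : ∃ y, y = ‖ξ‖ := ⟨_, rfl⟩
  have hy : 0 < y := hyd ▸ norm_pos_iff.2 hξ
  have hF : ∀ t : ℝ, 0 < t → ∀ z : ℂ,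
      (((t ^ 3)⁻¹ : ℝ) : ℂ) * expInt lam ξ (z, t) =
        ((Real.exp (-(lam * (t + t⁻¹) / 2)) * bK (t * y) * (t ^ 2)⁻¹ : ℝ) : ℂ) *
          cexp (-((lam / (2 * t) : ℝ) : ℂ) * ((‖z‖ ^ 2 : ℝ) : ℂ) +
            ((4 * π * ξ.re : ℝ) * I) * (z.re : ℂ) + ((-(4 * π * ξ.im) : ℝ) * I) * (z.im : ℂ)) := by
    intro t ht z
    have e : -(lam * (1 + (Complex.normSq z + (1 - t) ^ 2) / (2 * t))) =
        -(lam * (t + t⁻¹) / 2) + -(lam / (2 * t) * Complex.normSq z) := by field_simp; ring
    simp only [expInt, ← hyd]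
    rw [e, Real.exp_add, Complex.sq_norm, Complex.mul_re, add_assoc, Complex.exp_add]
    push_cast
    have ht' : (t : ℂ) ≠ 0 := ofReal_ne_zero.2 ht.ne'
    field_simp
    ring_nf
  have hn : ∀ t : ℝ, 0 < t → ∀ z : ℂ, ‖(((t ^ 3)⁻¹ : ℝ) : ℂ) * expInt lam ξ (z, t)‖ =
      (Real.exp (-(lam * (t + t⁻¹) / 2)) * bK (t * y) * (t ^ 2)⁻¹) *
        Real.exp (-(lam / (2 * t)) * ‖z‖ ^ 2) := by
    intro t ht z
    rw [hF t ht z, norm_mul, Complex.norm_real, Complex.norm_exp, Real.norm_eq_abs,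
      abs_of_nonneg (mul_nonneg (mul_nonneg (Real.exp_pos _).le (bK_nonneg _)) (by positivity))]
    simp only [Complex.add_re, Complex.neg_re, Complex.neg_im, Complex.ofReal_re, Complex.mul_re,
      Complex.I_re, Complex.I_im, Complex.ofReal_im, mul_zero, zero_mul, mul_one, sub_zero,
      add_zero, neg_zero]
  have hmeas : AEStronglyMeasurable (fun x : ℂ × ℝ => (((x.2 ^ 3)⁻¹ : ℝ) : ℂ) * expInt lam ξ x)
      ((volume : Measure (ℂ × ℝ)).restrict (Set.univ ×ˢ Set.Ioi (0 : ℝ))) := by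
    refine ContinuousOn.aestronglyMeasurable ?_ (MeasurableSet.univ.prod measurableSet_Ioi)
    have hb : ContinuousOn (fun x : ℂ × ℝ => bK (x.2 * ‖ξ‖)) (Set.univ ×ˢ Set.Ioi (0 : ℝ)) :=
      continuousOn_bK.comp (by fun_prop) fun x hx => mul_pos hx.2 (hyd ▸ hy)
    have h0 : ∀ x ∈ Set.univ ×ˢ Set.Ioi (0 : ℝ), (x : ℂ × ℝ).2 ≠ 0 := fun x hx => ne_of_gt hx.2
    refine ContinuousOn.mul (Complex.continuous_ofReal.comp_continuousOn
      ((continuous_snd.continuousOn.pow 3).inv₀ fun x hx => pow_ne_zero _ (h0 x hx))) ?_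
    refine ContinuousOn.mul (Complex.continuous_ofReal.comp_continuousOn (ContinuousOn.mul
      (Real.continuous_exp.comp_continuousOn ((continuousOn_const.mul (continuousOn_const.add
        (ContinuousOn.div (by fun_prop) (by fun_prop)
          fun x hx => mul_ne_zero two_ne_zero (h0 x hx)))).neg))
      (continuous_snd.continuousOn.mul hb))) (by fun_prop)
  have hvol : (volume : Measure (ℂ × ℝ)).restrict (Set.univ ×ˢ Set.Ioi (0 : ℝ)) =
      (volume : Measure ℂ).prod ((volume : Measure ℝ).restrict (Set.Ioi 0)) := by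
    rw [MeasureTheory.Measure.volume_eq_prod, ← Measure.prod_restrict, Measure.restrict_univ]
  have hint : IntegrableOn (fun x : ℂ × ℝ => (((x.2 ^ 3)⁻¹ : ℝ) : ℂ) * expInt lam ξ x)
      (Set.univ ×ˢ Set.Ioi (0 : ℝ)) := by
    rw [IntegrableOn, hvol]
    rw [hvol] at hmeas
    rw [integrable_prod_iff' hmeas]
    refine ⟨?_, ?_⟩
    · filter_upwards [self_mem_ae_restrict measurableSet_Ioi] with t (ht : 0 < t)
      refine Integrable.mono' ((?_ : Integrable fun z : ℂ => Real.exp (-(lam / (2 * t)) * ‖z‖ ^ 2)).const_mul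
        (Real.exp (-(lam * (t + t⁻¹) / 2)) * bK (t * y) * (t ^ 2)⁻¹)) ?_
        (Eventually.of_forall fun z => (hn t ht z).le)
      · exact integrable_gaussC (by positivity)
      · exact (show Continuous fun z : ℂ => (((t ^ 3)⁻¹ : ℝ) : ℂ) * expInt lam ξ (z, t) by
          unfold expInt; dsimp only; fun_prop).aestronglyMeasurable
    · refine (integrableOn_tFun (κ := 0) hl le_rfl hy).congr_fun ?_ measurableSet_Ioi
      intro t ht
      replace ht : 0 < t := ht
      simp only [hn t ht, integral_const_mul,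
        GaussianFourier.integral_rexp_neg_mul_sq_norm (V := ℂ) (b := lam / (2 * t)) (by positivity),
        Complex.finrank_real_complex, tFun, zero_mul, add_zero]
      norm_num
      field_simp
  refine ⟨hint, ?_⟩
  rw [IntegrableOn, hvol] at hint
  rw [hvol, integral_prod_symm _ hint]
  have hval : ∀ t ∈ Set.Ioi (0 : ℝ), (∫ z : ℂ, (((t ^ 3)⁻¹ : ℝ) : ℂ) * expInt lam ξ (z, t)) =
      ((tFun lam (8 * π ^ 2 * y ^ 2 / lam) y t : ℝ) : ℂ) := by
    intro t ht
    replace ht : 0 < t := ht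
    simp only [hF t ht]
    rw [integral_const_mul, integral_gauss_complex (by positivity)]
    have hy2 : ((y : ℂ)) ^ 2 = (ξ.re : ℂ) ^ 2 + (ξ.im : ℂ) ^ 2 := by
      rw [hyd, ← Complex.ofReal_pow, Complex.sq_norm, Complex.normSq_apply]
      push_cast; ring
    rw [tFun, neg_add, Real.exp_add]
    push_cast
    rw [show ((4 * π * ξ.re : ℂ) * I) ^ 2 + (-(4 * π * ξ.im : ℂ) * I) ^ 2 =
      -(16 * π ^ 2 * (y : ℂ) ^ 2) by rw [hy2]; ring_nf; simp only [Complex.I_sq]; ring]
    have hl' : (lam : ℂ) ≠ 0 := ofReal_ne_zero.2 hl.ne'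
    have ht' : (t : ℂ) ≠ 0 := ofReal_ne_zero.2 ht.ne'
    rw [show -(16 * (π : ℂ) ^ 2 * (y : ℂ) ^ 2) / (4 * ((lam : ℂ) / (2 * t))) =
      -(8 * (π : ℂ) ^ 2 * (y : ℂ) ^ 2 / lam * t) by field_simp; ring]
    field_simp
  rw [setIntegral_congr_fun measurableSet_Ioi hval, integral_complex_ofReal,
    integral_tFun hl hy, integral_sphW hl, wTerm]
  simp [jPt, hyd]
  ring

theorem mean_value_jPt (H : ℝ → ℂ) (hc : Continuous H) (hs : HasCompactSupport H) {ξ : ℂ}
    (hξ : ξ ≠ 0) :
    ∫ q, H (coshDist jPt q) * wTerm q ξ ∂hypMeasure =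
      (∫ r in Set.Ioi (0 : ℝ), H (Real.cosh r) * (sphW r : ℂ)) * wTerm jPt ξ := by
  classical
  -- integrability and value for exponentials
  have hexp : ∀ lam : ℝ, 0 < lam →
      Integrable (fun q => (Real.exp (-(lam * coshDist jPt q)) : ℂ) * wTerm q ξ) hypMeasure ∧
      ∫ q, (Real.exp (-(lam * coshDist jPt q)) : ℂ) * wTerm q ξ ∂hypMeasure =
        (∫ r in Set.Ioi (0 : ℝ), ((Real.exp (-(lam * Real.cosh r)) : ℝ) : ℂ) * (sphW r : ℂ)) *
          wTerm jPt ξ := by
    intro lam hlam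
    simp only [exp_coshDist_mul_wTerm]
    refine ⟨integrable_hyp _ (integral_expInt hlam hξ).1, ?_⟩
    rw [integral_hyp, (integral_expInt hlam hξ).2, ← integral_complex_ofReal]
    push_cast
    rfl
  have hw : ∀ lam : ℝ, 0 < lam →
      IntegrableOn (fun r => ((Real.exp (-(lam * Real.cosh r)) : ℝ) : ℂ) * (sphW r : ℂ))
        (Set.Ioi 0) := fun lam hlam =>
    ((integrable_sphW hlam).ofReal (𝕜 := ℂ)).congr
      (Eventually.of_forall fun r => Complex.ofReal_mul _ _)
  -- the approximation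
  set g : ℝ → ℂ := fun u => H (-Real.log u) * (u : ℂ)⁻¹ with hg
  have hgc : ContinuousOn g (Set.Icc 0 1) := by
    intro u _
    refine ContinuousAt.continuousWithinAt ?_
    rcases eq_or_ne u 0 with rfl | hu
    · obtain ⟨R, hR⟩ := hs.isCompact.isBounded.subset_closedBall 0
      have h0 : g =ᶠ[𝓝 (0 : ℝ)] fun _ => 0 := by
        filter_upwards [Metric.ball_mem_nhds (0 : ℝ) (Real.exp_pos (-(|R| + 1)))] with v hv
        rcases eq_or_ne v 0 with rfl | hv0
        · simp [g]
        · have hv1 : Real.log v < -(|R| + 1) := by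
            rw [← Real.log_abs, ← Real.log_exp (-(|R| + 1))]
            exact Real.log_lt_log (abs_pos.2 hv0) (by simpa [dist_eq_norm] using hv)
          have : H (-Real.log v) = 0 := image_eq_zero_of_notMem_tsupport fun hm => by
            have := hR hm
            rw [mem_closedBall_zero_iff, Real.norm_eq_abs] at this
            linarith [le_abs_self (-Real.log v), le_abs_self R]
          simp [g, this]
      exact continuousAt_const.congr h0.symm
    · exact ((hc.continuousAt.comp (Real.continuousAt_log hu).neg).mul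
        (Complex.continuous_ofReal.continuousAt.inv₀ (ofReal_ne_zero.2 hu)))
  have happ : ∀ ε : ℝ, 0 < ε → ∃ P : ℂ[X], ∀ x : ℝ, 0 ≤ x →
      ‖H x - (Real.exp (-x) : ℂ) * P.eval (Real.exp (-x) : ℂ)‖ ≤ ε * Real.exp (-x) := by
    intro ε hε
    obtain ⟨p₁, h₁⟩ := exists_polynomial_near_of_continuousOn 0 1 (fun u => (g u).re)
      (Complex.continuous_re.comp_continuousOn hgc) (ε / 2) (half_pos hε)
    obtain ⟨p₂, h₂⟩ := exists_polynomial_near_of_continuousOn 0 1 (fun u => (g u).im)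
      (Complex.continuous_im.comp_continuousOn hgc) (ε / 2) (half_pos hε)
    refine ⟨p₁.map Complex.ofRealHom + Polynomial.C I * p₂.map Complex.ofRealHom, fun x hx => ?_⟩
    set u := Real.exp (-x) with hu
    have hu0 : 0 < u := Real.exp_pos _
    have hu1 : u ≤ 1 := Real.exp_le_one_iff.2 (by linarith)
    have hHg : H x = (u : ℂ) * g u := by
      simp only [g, hu, Real.log_exp, neg_neg]
      field_simp [ofReal_ne_zero.2 (Real.exp_pos (-x)).ne']
    have e : ∀ p : ℝ[X], (p.map Complex.ofRealHom).eval (u : ℂ) = ((p.eval u : ℝ) : ℂ) := fun p =>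
      Polynomial.eval_map_apply (f := Complex.ofRealHom) u
    rw [hHg, ← mul_sub, norm_mul, Complex.norm_real, Real.norm_eq_abs, abs_of_pos hu0, mul_comm ε]
    refine mul_le_mul_of_nonneg_left ?_ hu0.le
    simp only [Polynomial.eval_add, Polynomial.eval_mul, Polynomial.eval_C, e]
    refine (Complex.norm_le_abs_re_add_abs_im _).trans ?_
    have a1 := h₁ u ⟨hu0.le, hu1⟩
    have a2 := h₂ u ⟨hu0.le, hu1⟩
    rw [abs_sub_comm] at a1 a2
    simp only [Complex.sub_re, Complex.sub_im, Complex.add_re, Complex.add_im, Complex.mul_re,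
      Complex.mul_im, Complex.I_re, Complex.I_im, Complex.ofReal_re, Complex.ofReal_im, zero_mul,
      one_mul, add_zero, zero_add, sub_self]
    linarith
  -- bounds
  have hcd : Continuous fun q => coshDist jPt q :=
    Hyp.continuous_coshDist.comp (Continuous.prodMk_right jPt)
  set C₁ := ∫ q, ‖(Real.exp (-(1 * coshDist jPt q)) : ℂ) * wTerm q ξ‖ ∂hypMeasure
  set C₂ := ∫ r in Set.Ioi (0 : ℝ), ‖((Real.exp (-(1 * Real.cosh r)) : ℝ) : ℂ) * (sphW r : ℂ)‖
  have hC₁ := (hexp 1 one_pos).1.norm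
  have hC₂ := (hw 1 one_pos).norm
  refine eq_of_forall_dist_le fun δ hδ => ?_
  have hpos : 0 < C₁ + C₂ * ‖wTerm jPt ξ‖ + 1 := by positivity
  obtain ⟨P, hP⟩ := happ _ (div_pos hδ hpos)
  set ε := δ / (C₁ + C₂ * ‖wTerm jPt ξ‖ + 1) with hεd
  set A : ℝ → ℂ := fun x => (Real.exp (-x) : ℂ) * P.eval (Real.exp (-x) : ℂ) with hA
  have hsum : ∀ x : ℝ, A x = ∑ i ∈ Finset.range (P.natDegree + 1),
      P.coeff i * (Real.exp (-(((i + 1 : ℕ) : ℝ) * x)) : ℂ) := fun x => by
    simp only [hA, Polynomial.eval_eq_sum_range, Finset.mul_sum]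
    refine Finset.sum_congr rfl fun i _ => ?_
    rw [← mul_assoc, mul_comm _ (P.coeff i), mul_assoc, ← pow_succ', ← Complex.ofReal_pow,
      ← Real.exp_nat_mul, mul_neg]
  have hterm : ∀ i : ℕ, (0 : ℝ) < ((i + 1 : ℕ) : ℝ) := fun i => Nat.cast_pos.2 i.succ_pos
  have hAint : Integrable (fun q => A (coshDist jPt q) * wTerm q ξ) hypMeasure := by
    simp only [hsum, Finset.sum_mul, mul_assoc]
    exact integrable_finsetSum _ fun i _ => (hexp _ (hterm i)).1.const_mul _
  have hAintr : IntegrableOn (fun r => A (Real.cosh r) * (sphW r : ℂ)) (Set.Ioi 0) := by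
    simp only [hsum, Finset.sum_mul, mul_assoc]
    exact integrable_finsetSum _ fun i _ => (hw _ (hterm i)).const_mul _
  have hAval : ∫ q, A (coshDist jPt q) * wTerm q ξ ∂hypMeasure =
      (∫ r in Set.Ioi (0 : ℝ), A (Real.cosh r) * (sphW r : ℂ)) * wTerm jPt ξ := by
    simp only [hsum, Finset.sum_mul, mul_assoc]
    rw [integral_finsetSum _ fun i _ => (hexp _ (hterm i)).1.const_mul _,
      integral_finsetSum _ fun i _ => (hw _ (hterm i)).const_mul _, Finset.sum_mul]
    refine Finset.sum_congr rfl fun i _ => ?_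
    rw [integral_const_mul, integral_const_mul, (hexp _ (hterm i)).2, mul_assoc]
  have hbd : ∀ x : ℝ, 0 ≤ x → ‖H x - A x‖ ≤ ε * Real.exp (-x) := hP
  have hb1 : ∀ q, ‖H (coshDist jPt q) * wTerm q ξ - A (coshDist jPt q) * wTerm q ξ‖ ≤
      ε * ‖(Real.exp (-(1 * coshDist jPt q)) : ℂ) * wTerm q ξ‖ := fun q => by
    rw [← sub_mul, norm_mul, norm_mul, Complex.norm_real, Real.norm_eq_abs, Real.abs_exp,
      ← mul_assoc, one_mul]
    exact mul_le_mul_of_nonneg_right
      (hbd _ (zero_le_one.trans (Hyp.one_le_coshDist _ _))) (norm_nonneg _)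
  have hb2 : ∀ r : ℝ, ‖H (Real.cosh r) * (sphW r : ℂ) - A (Real.cosh r) * (sphW r : ℂ)‖ ≤
      ε * ‖((Real.exp (-(1 * Real.cosh r)) : ℝ) : ℂ) * (sphW r : ℂ)‖ := fun r => by
    rw [← sub_mul, norm_mul, norm_mul, Complex.norm_real, Complex.norm_real (r := Real.exp _),
      Real.norm_eq_abs (Real.exp _), Real.abs_exp, ← mul_assoc, one_mul]
    exact mul_le_mul_of_nonneg_right (hbd _ (Real.cosh_pos r).le) (norm_nonneg _)
  have hwm : AEStronglyMeasurable (fun q => wTerm q ξ) hypMeasure := by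
    refine Continuous.aestronglyMeasurable ?_
    have : Continuous fun q : H3 => bK (q.2 * ‖ξ‖) :=
      continuousOn_bK.comp_continuous (by fun_prop) fun q =>
        mul_pos q.2.2 (norm_pos_iff.2 hξ)
    unfold wTerm
    fun_prop
  have hdiff : Integrable (fun q =>
      H (coshDist jPt q) * wTerm q ξ - A (coshDist jPt q) * wTerm q ξ) hypMeasure :=
    (hC₁.const_mul ε).mono' (((hc.comp hcd).aestronglyMeasurable.mul hwm).sub hAint.1)
      (Eventually.of_forall hb1)
  have hdiffr : IntegrableOn (fun r =>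
      H (Real.cosh r) * (sphW r : ℂ) - A (Real.cosh r) * (sphW r : ℂ)) (Set.Ioi 0) :=
    (hC₂.const_mul ε).mono' ((Continuous.aestronglyMeasurable (by unfold sphW; fun_prop)).sub
      hAintr.1) (Eventually.of_forall hb2)
  have e1 : ‖(∫ q, H (coshDist jPt q) * wTerm q ξ ∂hypMeasure) -
      ∫ q, A (coshDist jPt q) * wTerm q ξ ∂hypMeasure‖ ≤ ε * C₁ := by
    rw [← integral_sub ((hdiff.add hAint).congr (Eventually.of_forall fun q => by simp)) hAint]
    refine (norm_integral_le_of_norm_le (hC₁.const_mul ε) (Eventually.of_forall hb1)).trans ?_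
    rw [integral_const_mul]
  have e2 : ‖(∫ r in Set.Ioi (0 : ℝ), H (Real.cosh r) * (sphW r : ℂ)) -
      ∫ r in Set.Ioi (0 : ℝ), A (Real.cosh r) * (sphW r : ℂ)‖ ≤ ε * C₂ := by
    rw [← integral_sub ((hdiffr.add hAintr).congr (Eventually.of_forall fun r => by simp)) hAintr]
    refine (norm_integral_le_of_norm_le (hC₂.const_mul ε) (Eventually.of_forall hb2)).trans ?_
    rw [integral_const_mul]
  rw [dist_eq_norm, show (∫ q, H (coshDist jPt q) * wTerm q ξ ∂hypMeasure) -
      (∫ r in Set.Ioi (0 : ℝ), H (Real.cosh r) * (sphW r : ℂ)) * wTerm jPt ξ =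
    ((∫ q, H (coshDist jPt q) * wTerm q ξ ∂hypMeasure) -
      ∫ q, A (coshDist jPt q) * wTerm q ξ ∂hypMeasure) -
    ((∫ r in Set.Ioi (0 : ℝ), H (Real.cosh r) * (sphW r : ℂ)) -
      ∫ r in Set.Ioi (0 : ℝ), A (Real.cosh r) * (sphW r : ℂ)) * wTerm jPt ξ by
    rw [hAval]; ring]
  refine (norm_sub_le _ _).trans ?_
  rw [norm_mul]
  calc _ ≤ ε * C₁ + ε * C₂ * ‖wTerm jPt ξ‖ :=
        add_le_add e1 (mul_le_mul_of_nonneg_right e2 (norm_nonneg _))
    _ = ε * (C₁ + C₂ * ‖wTerm jPt ξ‖) := by ring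
    _ ≤ ε * (C₁ + C₂ * ‖wTerm jPt ξ‖ + 1) := by
        exact mul_le_mul_of_nonneg_left (by linarith) (div_pos hδ hpos).le
    _ = δ := by rw [hεd, div_mul_cancel₀ _ hpos.ne']

/-- Similarities of upper half space. -/
def affC (a b : ℂ) (ha : a ≠ 0) : GL (Fin 2) ℂ :=
  Matrix.GeneralLinearGroup.mkOfDetNeZero !![a, b; 0, 1] (by simpa [Matrix.det_fin_two_of] using ha)

theorem act_affC (a b : ℂ) (ha : a ≠ 0) (p : H3) :
    act (affC a b ha) p = (a * p.1 + b, ⟨‖a‖ * p.2, mul_pos (norm_pos_iff.2 ha) p.2.2⟩) := by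
  refine Prod.ext ?_ (Subtype.ext ?_)
  · rw [Hyp.coe_act_fst]; simp [affC, den]
  · rw [Hyp.coe_act_snd]; simp [affC, den, Matrix.det_fin_two_of]

theorem wTerm_aff (p : H3) (a b ξ : ℂ) (ha : a ≠ 0) :
    wTerm (act (affC a b ha) p) ξ =
      ((‖a‖ : ℝ) : ℂ) * cexp (((4 * π * (b * ξ).re : ℝ) : ℂ) * I) * wTerm p (a * ξ) := by
  simp only [wTerm, act_affC, norm_mul]
  rw [show (p.2 : ℝ) * (‖a‖ * ‖ξ‖) = ‖a‖ * p.2 * ‖ξ‖ by ring,
    show p.1 * (a * ξ) = a * p.1 * ξ by ring, add_mul (a * p.1) b, Complex.add_re, mul_add,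
    Complex.ofReal_add, add_mul, Complex.exp_add]
  push_cast
  ring

/-- The mean value property. -/
theorem mean_value (H : ℝ → ℂ) (hc : Continuous H) (hs : HasCompactSupport H) (p : H3) {ξ : ℂ}
    (hξ : ξ ≠ 0) :
    ∫ q, H (coshDist p q) * wTerm q ξ ∂hypMeasure =
      (∫ r in Set.Ioi (0 : ℝ), H (Real.cosh r) * ((4 * π * r * Real.sinh r : ℝ) : ℂ)) *
        wTerm p ξ := by
  have hp : (0 : ℝ) < p.2 := p.2.2
  have ha : ((p.2 : ℝ) : ℂ) ≠ 0 := ofReal_ne_zero.2 hp.ne'
  have hj : act (affC _ p.1 ha) jPt = p := by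
    rw [act_affC]
    refine Prod.ext ?_ (Subtype.ext ?_) <;> simp [jPt, abs_of_pos hp]
  rw [← Hyp.integral_act (affC _ p.1 ha)]
  have hd : ∀ q, coshDist p (act (affC _ p.1 ha) q) = coshDist jPt q := fun q => by
    conv_lhs => arg 1; rw [← hj]
    exact Hyp.coshDist_act _ _ _
  conv_lhs => enter [2, q]; rw [wTerm_aff, hd, ← mul_assoc, mul_comm (H _), mul_assoc]
  rw [integral_const_mul, mean_value_jPt H hc hs (mul_ne_zero ha hξ)]
  conv_rhs => rw [← hj, wTerm_aff]
  simp only [sphW]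
  ring

end FLTAgent.LT.ThetaM
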