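import Fermat.Agent.LT.Adjoint.OctaGroup
import Fermat.Agent.LT.Asai.TraceValues

/-!
# The cyclic subgroup of order four of the quaternion group and its character
-/

set_option autoImplicit false

noncomputable section

namespace FLTAgent.LT.ThetaM

/-- The cyclic subgroup of order four generated by the quaternion `i`. -/
def cyc4 : Subgroup G3 where
  carrier := {g | ∃ n : Fin 4, g = g3I ^ (n : ℕ)}
  one_mem' := ⟨0, (pow_zero _).symm⟩
  mul_mem' := by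
    rintro _ _ ⟨m, rfl⟩ ⟨n, rfl⟩
    revert m n
    decide
  inv_mem' := by
    rintro _ ⟨n, rfl⟩
    revert n
    decide

theorem mem_cyc4 {g : G3} : g ∈ cyc4 ↔ ∃ n : Fin 4, g = g3I ^ (n : ℕ) := Iff.rfl

instance (g : G3) : Decidable (g ∈ cyc4) := decidable_of_iff _ mem_cyc4.symm

theorem cyc4_le_quat : cyc4 ≤ Octa.quat := by
  rintro _ ⟨n, rfl⟩
  exact pow_mem (q8_mem_quat 1) _

theorem g3J_notMem_cyc4 : g3J ∉ cyc4 := by decide

theorem q8_cases (k : Fin 4) :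
    ((q8 k ∈ cyc4 ∨ (q8 k * q8 k = -1 ∧ g3J⁻¹ * q8 k ∈ cyc4 ∧ q8 k * g3J ∈ cyc4)) ∧
      (-q8 k ∈ cyc4 ∨ (-q8 k * -q8 k = -1 ∧ g3J⁻¹ * -q8 k ∈ cyc4 ∧ -q8 k * g3J ∈ cyc4))) := by
  revert k
  decide

theorem quat_cases {g : G3} (hg : g ∈ Octa.quat) :
    g ∈ cyc4 ∨ (g * g = -1 ∧ g3J⁻¹ * g ∈ cyc4 ∧ g * g3J ∈ cyc4) := by
  obtain ⟨k, rfl | rfl⟩ := exists_upSign_q8_of_mem_quat hg
  · exact (q8_cases k).1
  · exact (q8_cases k).2

/-- The exponent of an element of `cyc4`. -/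
def expI (g : G3) : ZMod 4 :=
  if g = g3I then 1 else if g = -1 then 2 else if g = -g3I then 3 else 0

theorem expI_mul_pow : ∀ m n : Fin 4,
    expI (g3I ^ (m : ℕ) * g3I ^ (n : ℕ)) = expI (g3I ^ (m : ℕ)) + expI (g3I ^ (n : ℕ)) := by
  decide

theorem expI_mul {g g' : G3} (hg : g ∈ cyc4) (hg' : g' ∈ cyc4) :
    expI (g * g') = expI g + expI g' := by
  obtain ⟨m, rfl⟩ := hg
  obtain ⟨n, rfl⟩ := hg'
  exact expI_mul_pow m n

theorem expI_one : expI 1 = 0 := by decide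

theorem expI_g3I : expI g3I = 1 := by decide

theorem conj_g3J_cyc4 : ∀ n : Fin 4,
    g3J⁻¹ * g3I ^ (n : ℕ) * g3J ∈ cyc4 ∧ g3J * g3I ^ (n : ℕ) * g3J⁻¹ ∈ cyc4 ∧
      expI (g3J * g3I ^ (n : ℕ) * g3J⁻¹) = -expI (g3I ^ (n : ℕ)) := by
  decide

theorem expI_sq_of_notMem {g : G3} (h : g * g = -1) : expI (g * g) = 2 := by
  rw [h]
  decide

/-- The unit `i` of `ℂ`. -/
def iUnit : ℂˣ := Units.mk0 Complex.I Complex.I_ne_zero

theorem iUnit_pow_four : iUnit ^ 4 = 1 := Units.ext Complex.I_pow_four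

theorem iUnit_sq : iUnit ^ 2 = -1 := Units.ext (by simp [iUnit, Complex.I_sq])

/-- The character of `cyc4`. -/
def chiI (g : G3) : ℂˣ := iUnit ^ (expI g).val

theorem chiI_mul {g g' : G3} (hg : g ∈ cyc4) (hg' : g' ∈ cyc4) :
    chiI (g * g') = chiI g * chiI g' := by
  rw [chiI, chiI, chiI, expI_mul hg hg', ← pow_add, ZMod.val_add]
  exact (pow_eq_pow_mod _ iUnit_pow_four).symm

theorem chiI_one : chiI 1 = 1 := by rw [chiI, expI_one, ZMod.val_zero, pow_zero]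

theorem chiI_pow_four (g : G3) : chiI g ^ 4 = 1 := by
  rw [chiI, ← pow_mul, mul_comm, pow_mul, iUnit_pow_four, one_pow]

theorem chiI_conj {g : G3} (hg : g ∈ cyc4) : chiI g * chiI (g3J * g * g3J⁻¹) = 1 := by
  obtain ⟨n, rfl⟩ := hg
  rw [chiI, chiI, (conj_g3J_cyc4 n).2.2, ← pow_add, pow_eq_pow_mod _ iUnit_pow_four,
    ← ZMod.val_add, add_neg_cancel, ZMod.val_zero, pow_zero]

theorem chiI_g3I : chiI g3I = iUnit := by
  rw [chiI, expI_g3I]
  exact pow_one _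

theorem chiI_of_sq {g : G3} (h : g * g = -1) : (chiI (g * g) : ℂ) = -1 := by
  rw [chiI, expI_sq_of_notMem h, show (2 : ZMod 4).val = 2 from rfl, iUnit_sq, Units.val_neg,
    Units.val_one]

theorem val_cases_cyc4 : ∀ n : Fin 4,
    (g3I ^ (n : ℕ) = 1 ∧ expI (g3I ^ (n : ℕ)) = 0) ∨
    ((g3I ^ (n : ℕ) : G3).val = -1 ∧ expI (g3I ^ (n : ℕ)) = 2) ∨
    ((g3I ^ (n : ℕ) : G3).val * (g3I ^ (n : ℕ) : G3).val = -1 ∧
      (expI (g3I ^ (n : ℕ)) = 1 ∨ expI (g3I ^ (n : ℕ)) = 3)) := by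
  decide

/-- The trace of the lift on `cyc4` is the sum of the character and its inverse. -/
theorem tr0_of_mem_cyc4 (d : Octa) {σ : Gam} (hσ : d.rbar σ ∈ cyc4) :
    d.tr0 σ = (chiI (d.rbar σ) : ℂ) + (chiI (g3J * d.rbar σ * g3J⁻¹) : ℂ) := by
  have hinv : chiI (g3J * d.rbar σ * g3J⁻¹) = (chiI (d.rbar σ))⁻¹ :=
    (inv_eq_of_mul_eq_one_right (chiI_conj hσ)).symm
  rw [Asai.tr0_eq, hinv, chiI]
  obtain ⟨n, hn⟩ := hσ
  rw [hn]
  rcases val_cases_cyc4 n with ⟨h, he⟩ | ⟨h, he⟩ | ⟨h, he | he⟩ <;> rw [he]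
  · rw [h, Asai.liftMat_one, Matrix.trace_fin_two, ZMod.val_zero]
    simp
  · rw [Asai.liftMat_neg_one d h, Matrix.trace_fin_two, show (2 : ZMod 4).val = 2 from rfl,
      iUnit_sq]
    simp
  · rw [Asai.trace_liftMat_of_sq d h, show (1 : ZMod 4).val = 1 from rfl, pow_one, map_zero]
    simp [iUnit]
  · rw [Asai.trace_liftMat_of_sq d h, show (3 : ZMod 4).val = 2 + 1 from rfl, pow_succ, iUnit_sq,
      map_zero]
    simp [iUnit]

/-- The trace of the lift vanishes on the rest of the quaternion group. -/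
theorem tr0_of_sq (d : Octa) {σ : Gam} (h : d.rbar σ * d.rbar σ = -1) : d.tr0 σ = 0 := by
  rw [Asai.tr0_eq, Asai.trace_liftMat_of_sq d (by
    rw [← Units.val_mul, h, Units.val_neg, Units.val_one]), map_zero]

end FLTAgent.LT.ThetaM
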