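import Fermat.Agent.LT.ThetaM.Setting
import Fermat.Agent.LT.ThetaM.DihedralGroup
import Fermat.Agent.LT.Recip.SplitField
import Fermat.Agent.TW.PlaceTools
import Fermat.Agent.Chebotarev.Main
import Fermat.Agent.Global.Semilocal.Valuation
import Fermat.Agent.LT.Asai.Kfield

/-!
# The field of the dihedral data and its places

`E` is the fixed field of the preimage of a cyclic subgroup of order four of the quaternion group,
and the character of order four is carried to ideals by reciprocity.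
-/

set_option autoImplicit false
set_option linter.unusedSectionVars false
set_option synthInstance.maxHeartbeats 400000

open IsDedekindDomain NumberField
open scoped Pointwise

noncomputable section

namespace FLTAgent.LT.ThetaM

open FLTAgent.Frobenius
open FLTAgent.TW (placeIn inclAlgebra isInclusion_inclAlgebra IsInclusion
  natCast_mem_placeIn exists_placeIn exists_prime_mem below_placeIn)

local instance : IsGalois ℚ Qb := Octa.isGalois_Qb

variable (d : Octa)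

/-- The preimage of the cyclic subgroup. -/
def HI : Subgroup Gam := cyc4.comap d.rbar

/-- The quadratic extension of `M`. -/
def EI : IntermediateField ℚ Qb := IntermediateField.fixedField (HI d)

theorem fixing_EI : (EI d).fixingSubgroup = HI d :=
  (Octa.fixing_of_open (d.isOpen_comap _)).1

instance finiteDimensional_EI : FiniteDimensional ℚ (EI d) :=
  (Octa.fixing_of_open (d.isOpen_comap _)).2

instance numberField_EI : NumberField (EI d) where

theorem HI_le : HI d ≤ d.GM := Subgroup.comap_mono cyc4_le_quat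

theorem Mf_le : d.Mf ≤ EI d := fun _ hx s => hx ⟨s, HI_le d s.2⟩

local instance algebraEI : Algebra d.Mf (EI d) := inclAlgebra (Mf_le d)

local instance isInclusionEI : IsInclusion d.Mf (EI d) := isInclusion_inclAlgebra (Mf_le d)

theorem mem_fixing_Mf {σ : Gam} : σ ∈ d.Mf.fixingSubgroup ↔ d.rbar σ ∈ Octa.quat := by
  rw [d.fixing_Mf]
  rfl

theorem mem_fixing_EI {σ : Gam} : σ ∈ (EI d).fixingSubgroup ↔ d.rbar σ ∈ cyc4 := by
  rw [fixing_EI]
  rfl

theorem GM_le_GK : d.GM ≤ d.GK := by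
  refine Subgroup.comap_mono (f := d.rbar) (K' := Matrix.GeneralLinearGroup.det.ker) ?_
  exact (Subgroup.closure_le _).mpr fun g hg => hg.1

theorem isTotallyComplex_Mf : IsTotallyComplex d.Mf := by
  have hle : d.Kf ≤ d.Mf := fun x hx s => hx ⟨s, GM_le_GK d s.2⟩
  have hc := Asai.isTotallyComplex_Kf d
  refine ⟨fun v => ?_⟩
  rw [InfinitePlace.isComplex_iff]
  intro hreal
  have h := hc.isComplex
    (InfinitePlace.mk (v.embedding.comp (IntermediateField.inclusion hle).toRingHom))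
  rw [InfinitePlace.isComplex_mk_iff] at h
  exact h (ComplexEmbedding.IsReal.comp _ hreal)

theorem isTotallyComplex_EI : IsTotallyComplex (EI d) := by
  have hc := isTotallyComplex_Mf d
  refine ⟨fun v => ?_⟩
  rw [InfinitePlace.isComplex_iff]
  intro hreal
  have h := hc.isComplex
    (InfinitePlace.mk (v.embedding.comp (IntermediateField.inclusion (Mf_le d)).toRingHom))
  rw [InfinitePlace.isComplex_mk_iff] at h
  exact h (ComplexEmbedding.IsReal.comp _ hreal)

/-! ### The involution -/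

/-- An element over the quaternion `j`. -/
def tauJ : Gam := (d.surj g3J).choose

theorem rbar_tauJ : d.rbar (tauJ d) = g3J := (d.surj g3J).choose_spec

theorem apply_mem_EI {τ : Gam} (hτ : ∀ g ∈ cyc4, (d.rbar τ)⁻¹ * g * d.rbar τ ∈ cyc4) {x : Qb}
    (hx : x ∈ EI d) : τ x ∈ EI d := by
  refine TW.mem_of_forall_fixed _ fun σ hσ => ?_
  rw [mem_fixing_EI] at hσ
  have h : τ⁻¹ * σ * τ ∈ (EI d).fixingSubgroup := by
    rw [mem_fixing_EI, map_mul, map_mul, map_inv]
    exact hτ _ hσ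
  conv_rhs => rw [← TW.apply_eq_of_mem_fixing h hx]
  rw [← AlgEquiv.mul_apply, ← AlgEquiv.mul_apply]
  congr 1
  group

/-- The involution of `E` over `M`. -/
def conjEI : EI d ≃ₐ[d.Mf] EI d :=
  AlgEquiv.ofRingEquiv
    (f :=
    { toFun := fun x => ⟨tauJ d (x : Qb), apply_mem_EI d (fun g hg => by
        obtain ⟨n, rfl⟩ := hg
        rw [rbar_tauJ]
        exact (conj_g3J_cyc4 n).1) x.2⟩
      invFun := fun x => ⟨(tauJ d)⁻¹ (x : Qb), apply_mem_EI d (fun g hg => by
        obtain ⟨n, rfl⟩ := hg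
        rw [map_inv, rbar_tauJ, inv_inv]
        exact (conj_g3J_cyc4 n).2.1) x.2⟩
      left_inv := fun x => Subtype.ext (by
        show ((tauJ d)⁻¹ * tauJ d) (x : Qb) = x
        rw [inv_mul_cancel]; rfl)
      right_inv := fun x => Subtype.ext (by
        show (tauJ d * (tauJ d)⁻¹) (x : Qb) = x
        rw [mul_inv_cancel]; rfl)
      map_mul' := fun x y => Subtype.ext (by simp)
      map_add' := fun x y => Subtype.ext (by simp) })
    fun m => Subtype.ext (by
      show tauJ d ((algebraMap d.Mf (EI d) m : EI d) : Qb) = _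
      rw [IsInclusion.coe_algebraMap]
      exact TW.apply_eq_of_mem_fixing
        ((mem_fixing_Mf d).mpr (by rw [rbar_tauJ]; exact q8_mem_quat 2)) m.2)

theorem coe_conjEI (x : EI d) : ((conjEI d x : EI d) : Qb) = tauJ d (x : Qb) := rfl

theorem conjEI_ne_refl : conjEI d ≠ AlgEquiv.refl := fun h => g3J_notMem_cyc4 (by
  rw [← rbar_tauJ d, ← mem_fixing_EI, IntermediateField.mem_fixingSubgroup_iff]
  intro x hx
  exact congrArg Subtype.val (DFunLike.congr_fun h ⟨x, hx⟩))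

theorem conjEI_conjEI (x : EI d) : conjEI d (conjEI d x) = x := by
  refine Subtype.ext ?_
  rw [coe_conjEI, coe_conjEI, ← AlgEquiv.mul_apply]
  refine TW.apply_eq_of_mem_fixing ((mem_fixing_EI d).mpr ?_) x.2
  rw [map_mul, rbar_tauJ]
  decide

theorem finiteDimensional_EI_Mf : FiniteDimensional d.Mf (EI d) :=
  have := IsInclusion.scalarTower (K := d.Mf) (L := EI d)
  Module.Finite.of_restrictScalars_finite ℚ d.Mf (EI d)

theorem finrank_EI : Module.finrank d.Mf (EI d) = 2 := by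
  have := finiteDimensional_EI_Mf d
  set G := Subgroup.zpowers (conjEI d)
  have hG : Nat.card G = 2 := by
    rw [Nat.card_zpowers, orderOf_eq_prime_iff]
    exact ⟨by rw [pow_two]; exact AlgEquiv.ext fun x => conjEI_conjEI d x, conjEI_ne_refl d⟩
  have hfix : IntermediateField.fixedField G = ⊥ := by
    refine eq_bot_iff.mpr fun x hx => ?_
    have hxc : conjEI d x = x := hx ⟨_, Subgroup.mem_zpowers _⟩
    have hxM : (x : Qb) ∈ d.Mf := TW.mem_of_forall_fixed _ fun σ hσ => by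
      rw [mem_fixing_Mf] at hσ
      rcases quat_cases hσ with h | ⟨-, -, h⟩
      · exact TW.apply_eq_of_mem_fixing ((mem_fixing_EI d).mpr h) x.2
      · conv_lhs => rw [← congrArg Subtype.val hxc, coe_conjEI, ← AlgEquiv.mul_apply]
        refine TW.apply_eq_of_mem_fixing ((mem_fixing_EI d).mpr ?_) x.2
        rw [map_mul, rbar_tauJ]
        exact h
    exact IntermediateField.mem_bot.mpr ⟨⟨x, hxM⟩, Subtype.ext (IsInclusion.coe_algebraMap _)⟩
  rw [← IntermediateField.finrank_bot' (F := d.Mf) (E := EI d), ← hfix,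
    IntermediateField.finrank_fixedField_eq_card, hG]

/-- The quadratic structure. -/
def quadEI : Quad d.Mf (EI d) := ⟨conjEI d, finrank_EI d, conjEI_ne_refl d⟩

/-! ### Places -/

variable {A : ValuationSubring Qb} {l : ℕ} (hl : l.Prime) (hA : A.LiesOverPrime l)

theorem isFrobeniusAt_pow {σ : Gam} {q : ℕ} (hq : 0 < q) (h : A.IsFrobeniusAt σ q) :
    ∀ m : ℕ, A.IsFrobeniusAt (σ ^ m) (q ^ m) := by
  intro m
  refine (isFrobeniusAt_iff_centre (pow_pos hq _)).mpr ?_
  induction m with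
  | zero => intro x; simp
  | succ m ih =>
    intro x
    have hmem : σ ^ m ∈ A.decompositionSubgroup ℚ := Subgroup.pow_mem _ h.mem_decompositionSubgroup m
    have h1 := (TW.Local.smul_mem_centre_iff hmem).mpr ((isFrobeniusAt_iff_centre hq).mp h x)
    have h2 := ih (x ^ q)
    rw [smul_sub, ← mul_smul, ← pow_succ] at h1
    rw [← pow_mul, ← pow_succ'] at h2
    simpa using add_mem h1 h2

theorem rbar_eq_of_frobenius
    (hI : ∀ ι ∈ A.inertiaSubgroupIn ℚ, ι ∈ d.GM → d.rbar ι = 1) {σ σ' : Gam} {q : ℕ}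
    (hq : 0 < q) (hσ : σ ∈ d.GM) (hσ' : σ' ∈ d.GM) (h : A.IsFrobeniusAt σ q)
    (h' : A.IsFrobeniusAt σ' q) : d.rbar σ = d.rbar σ' := by
  have := hI _ (inv_mul_mem_inertiaSubgroupIn hq h h') (mul_mem (inv_mem hσ) hσ')
  rwa [map_mul, map_inv, inv_mul_eq_one] at this

variable {τ : Gam} (hτM : τ ∈ d.Mf.fixingSubgroup)
  (hτ : A.IsFrobeniusAt τ (Nat.card (𝓞 d.Mf ⧸ (placeIn d.Mf A hl hA).asIdeal)))
  (hI : ∀ ι ∈ A.inertiaSubgroupIn ℚ, ι ∈ d.GM → d.rbar ι = 1)

include hτM hτ hI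

theorem rbar_mem_zpowers {g : Gam} (hg : g ∈ A.decompositionSubgroup ℚ)
    (hgM : g ∈ d.Mf.fixingSubgroup) : d.rbar g ∈ Subgroup.zpowers (d.rbar τ) := by
  obtain ⟨hFfix, hFfd⟩ := Octa.fixing_of_open (show IsOpen (d.rbar.ker : Set Gam) from
    d.isOpen_comap ⊥)
  set F := IntermediateField.fixedField d.rbar.ker
  have : FiniteDimensional ℚ (d.Mf ⊔ F : IntermediateField ℚ Qb) :=
    IntermediateField.finiteDimensional_sup _ _
  set L := IntermediateField.normalClosure ℚ (d.Mf ⊔ F : IntermediateField ℚ Qb) Qb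
  have : FiniteDimensional ℚ L := normalClosure.is_finiteDimensional ℚ _ Qb
  have : Normal ℚ L := normalClosure.normal ℚ _ Qb
  have hle : d.Mf ⊔ F ≤ L := IntermediateField.le_normalClosure _
  obtain ⟨m, ι, hι, hιM, hgι⟩ :=
    Recip.exists_pow_mul_inertia hl hA hτ hτM L (le_sup_left.trans hle) hg hgM
  have hker : (τ ^ m * ι)⁻¹ * g ∈ d.rbar.ker := by
    rw [← hFfix, IntermediateField.mem_fixingSubgroup_iff]
    intro x hx
    rw [AlgEquiv.mul_apply, hgι x (hle (le_sup_right (a := d.Mf) hx)), ← AlgEquiv.mul_apply,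
      inv_mul_cancel]
    rfl
  rw [MonoidHom.mem_ker, map_mul, map_inv, inv_mul_eq_one] at hker
  rw [← hker, map_mul, map_pow, hI ι hι (d.fixing_Mf ▸ hιM), mul_one]
  exact Subgroup.npow_mem_zpowers _ m

theorem absNorm_map_eq :
    Ideal.absNorm ((placeIn d.Mf A hl hA).asIdeal.map (algebraMap (𝓞 d.Mf) (𝓞 (EI d))))
      = Nat.card (𝓞 d.Mf ⧸ (placeIn d.Mf A hl hA).asIdeal) ^ 2 := by
  have := finiteDimensional_EI_Mf d
  rw [← Ideal.absNorm_relNorm (R := 𝓞 d.Mf), Ideal.relNorm_algebraMap, map_pow,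
    ← IsFractionRing.finrank_eq (𝓞 d.Mf) d.Mf (𝓞 (EI d)) (EI d), finrank_EI,
    Ideal.absNorm_apply, Submodule.cardQuot_apply]

omit hτM hτ hI in
theorem map_le_placeIn :
    (placeIn d.Mf A hl hA).asIdeal.map (algebraMap (𝓞 d.Mf) (𝓞 (EI d)))
      ≤ (placeIn (EI d) A hl hA).asIdeal :=
  Ideal.map_le_iff_le_comap.mpr (le_of_eq (congrArg HeightOneSpectrum.asIdeal
    (below_placeIn (K := d.Mf) (L := EI d) (hl := hl) (hA := hA)).symm))

omit hτM hτ hI in
theorem map_conjEI_placeIn :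
    (placeIn (EI d) A hl hA).asIdeal.map
        (RingOfIntegers.mapRingEquiv (conjEI d).toRingEquiv : 𝓞 (EI d) →+* 𝓞 (EI d))
      = (placeIn (EI d) (tauJ d • A) hl (liesOverPrime_smul hA _)).asIdeal := by
  rw [TW.placeIn_smul (conjEI d).toRingEquiv (tauJ d) (fun x => coe_conjEI d x)]
  exact (Ideal.comap_symm _).symm

/-- The split places. -/
theorem split_places (hτE : d.rbar τ ∈ cyc4) :
    placeIn (EI d) A hl hA ≠ placeIn (EI d) (tauJ d • A) hl (liesOverPrime_smul hA _) ∧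
    (placeIn d.Mf A hl hA).asIdeal.map (algebraMap (𝓞 d.Mf) (𝓞 (EI d)))
      = (placeIn (EI d) A hl hA).asIdeal *
        (placeIn (EI d) (tauJ d • A) hl (liesOverPrime_smul hA _)).asIdeal ∧
    A.IsFrobeniusAt τ (Nat.card (𝓞 (EI d) ⧸ (placeIn (EI d) A hl hA).asIdeal)) ∧
    (tauJ d • A).IsFrobeniusAt (tauJ d * τ * (tauJ d)⁻¹) (Nat.card (𝓞 (EI d) ⧸
      (placeIn (EI d) (tauJ d • A) hl (liesOverPrime_smul hA _)).asIdeal)) := by
  set hA' := liesOverPrime_smul hA (tauJ d)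
  have hJM : tauJ d ∈ d.Mf.fixingSubgroup := by
    rw [mem_fixing_Mf, rbar_tauJ]; exact q8_mem_quat 2
  have hq := Recip.natCard_residue_eq (Mf_le d) hl hA hτ ((mem_fixing_EI d).mpr hτE)
  have hMeq : placeIn d.Mf (tauJ d • A) hl hA' = placeIn d.Mf A hl hA := TW.placeIn_smul_fix hJM
  have hq0 : 0 < Nat.card (𝓞 d.Mf ⧸ (placeIn d.Mf A hl hA).asIdeal) :=
    zero_lt_one.trans (Recip.one_lt_natCard_residue hl hA)
  have hτ' := isFrobeniusAt_conj hq0 hτ (tauJ d)
  have hq' : Nat.card (𝓞 (EI d) ⧸ (placeIn (EI d) (tauJ d • A) hl hA').asIdeal)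
      = Nat.card (𝓞 d.Mf ⧸ (placeIn d.Mf A hl hA).asIdeal) := by
    rw [← hMeq] at hτ'
    rw [Recip.natCard_residue_eq (Mf_le d) hl hA' hτ' ((mem_fixing_EI d).mpr (by
      rw [map_mul, map_mul, map_inv, rbar_tauJ]
      obtain ⟨n, hn⟩ := hτE
      rw [hn]
      exact (conj_g3J_cyc4 n).2.1)), hMeq]
  have hne : placeIn (EI d) A hl hA ≠ placeIn (EI d) (tauJ d • A) hl hA' := fun h => by
    obtain ⟨σ, hσ, hσA⟩ := TW.exists_fix_smul_eq (EI d) (congrArg HeightOneSpectrum.asIdeal h)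
    rw [mem_fixing_EI] at hσ
    have hdec : (tauJ d)⁻¹ * σ ∈ A.decompositionSubgroup ℚ :=
      MulAction.mem_stabilizer_iff.mpr (by rw [mul_smul, hσA, inv_smul_smul])
    have hmem := Subgroup.zpowers_le.mpr hτE (rbar_mem_zpowers d hl hA hτM hτ hI hdec
      (mul_mem (inv_mem hJM) ((mem_fixing_Mf d).mpr (cyc4_le_quat hσ))))
    rw [map_mul, map_inv, rbar_tauJ] at hmem
    exact g3J_notMem_cyc4 (inv_mem_iff.mp ((Subgroup.mul_mem_cancel_right _ hσ).mp hmem))
  refine ⟨hne, ?_, by rw [hq]; exact hτ, by rw [hq']; exact hτ'⟩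
  set P := (placeIn (EI d) A hl hA).asIdeal
  set P' := (placeIn (EI d) (tauJ d • A) hl hA').asIdeal
  have hle : (placeIn d.Mf A hl hA).asIdeal.map (algebraMap (𝓞 d.Mf) (𝓞 (EI d))) ≤ P * P' := by
    rw [Ideal.mul_eq_inf_of_coprime ((placeIn (EI d) A hl hA).isPrime.isMaximal
      (placeIn (EI d) A hl hA).ne_bot |>.coprime_of_ne ((placeIn (EI d) (tauJ d • A) hl
        hA').isPrime.isMaximal (placeIn (EI d) (tauJ d • A) hl hA').ne_bot)
      fun h => hne (HeightOneSpectrum.ext h))]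
    exact le_inf (map_le_placeIn d hl hA) (hMeq ▸ map_le_placeIn d hl hA')
  obtain ⟨J, hJ⟩ := Ideal.dvd_iff_le.mpr hle
  have h := congrArg Ideal.absNorm hJ
  rw [absNorm_map_eq d hl hA hτM hτ hI, map_mul, map_mul, pow_two,
    show Ideal.absNorm P = Nat.card (𝓞 d.Mf ⧸ (placeIn d.Mf A hl hA).asIdeal) by
      rw [Ideal.absNorm_apply, Submodule.cardQuot_apply, hq],
    show Ideal.absNorm P' = Nat.card (𝓞 d.Mf ⧸ (placeIn d.Mf A hl hA).asIdeal) by
      rw [Ideal.absNorm_apply, Submodule.cardQuot_apply, hq']] at h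
  rw [hJ, Ideal.absNorm_eq_one_iff.mp (mul_left_cancel₀ (mul_ne_zero hq0.ne' hq0.ne')
    (h.symm.trans (mul_one _).symm)), Ideal.mul_top]

/-- The inert places. -/
theorem inert_places (hτE : d.rbar τ ∉ cyc4) :
    (placeIn d.Mf A hl hA).asIdeal.map (algebraMap (𝓞 d.Mf) (𝓞 (EI d)))
      = (placeIn (EI d) A hl hA).asIdeal ∧
    τ ^ 2 ∈ (EI d).fixingSubgroup ∧ d.rbar τ * d.rbar τ = -1 ∧
    A.IsFrobeniusAt (τ ^ 2) (Nat.card (𝓞 (EI d) ⧸ (placeIn (EI d) A hl hA).asIdeal)) := by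
  set v := (placeIn d.Mf A hl hA).asIdeal
  set P := (placeIn (EI d) A hl hA).asIdeal
  set q := Nat.card (𝓞 d.Mf ⧸ v) with hq
  have hq1 : 1 < q := Recip.one_lt_natCard_residue hl hA
  have hsq : d.rbar τ * d.rbar τ = -1 :=
    ((quat_cases ((mem_fixing_Mf d).mp hτM)).resolve_left hτE).1
  have hτ2 : τ ^ 2 ∈ (EI d).fixingSubgroup := by
    rw [mem_fixing_EI, map_pow, pow_two, hsq]
    decide
  have hfr := isFrobeniusAt_pow (zero_lt_one.trans hq1) hτ 2
  have hle := Recip.natCard_residue_le hl hA (Nat.one_lt_pow two_ne_zero hq1) hfr hτ2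
  have : v.IsMaximal := (placeIn d.Mf A hl hA).isPrime.isMaximal (placeIn d.Mf A hl hA).ne_bot
  let _ : Field (𝓞 d.Mf ⧸ v) := Ideal.Quotient.field v
  let i : 𝓞 d.Mf ⧸ v →+* 𝓞 (EI d) ⧸ P := Ideal.quotientMap P
    (algebraMap (𝓞 d.Mf) (𝓞 (EI d))) (Ideal.map_le_iff_le_comap.mp (map_le_placeIn d hl hA))
  let _ : Algebra (𝓞 d.Mf ⧸ v) (𝓞 (EI d) ⧸ P) := i.toAlgebra
  have : Finite (𝓞 (EI d) ⧸ P) :=
    Ideal.finiteQuotientOfFreeOfNeBot P (placeIn (EI d) A hl hA).ne_bot
  obtain ⟨j, hj⟩ : ∃ j, Nat.card (𝓞 (EI d) ⧸ P) = q ^ j :=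
    ⟨_, Module.natCard_eq_pow_finrank (K := 𝓞 d.Mf ⧸ v)⟩
  have hne : Nat.card (𝓞 (EI d) ⧸ P) ≠ q := fun h => by
    obtain ⟨σ, hσ, hσF⟩ := Recip.exists_frobenius_fixing (K := EI d) hl hA
    rw [h] at hσF
    rw [mem_fixing_EI] at hσ
    exact hτE (rbar_eq_of_frobenius d hI (zero_lt_one.trans hq1) (cyc4_le_quat hσ)
      (d.fixing_Mf ▸ hτM) hσF hτ ▸ hσ)
  have hj2 : Nat.card (𝓞 (EI d) ⧸ P) = q ^ 2 := by
    have h1 : 1 < Nat.card (𝓞 (EI d) ⧸ P) := Recip.one_lt_natCard_residue hl hA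
    rw [hj] at hle hne h1 ⊢
    have hj' := (Nat.pow_le_pow_iff_right hq1).mp hle
    obtain rfl | rfl | rfl : j = 0 ∨ j = 1 ∨ j = 2 := by omega
    · simp at h1
    · simp at hne
    · rfl
  refine ⟨?_, hτ2, hsq, by rw [hj2]; exact hfr⟩
  obtain ⟨J, hJ⟩ := Ideal.dvd_iff_le.mpr (map_le_placeIn d hl hA)
  have h := congrArg Ideal.absNorm hJ
  rw [absNorm_map_eq d hl hA hτM hτ hI, map_mul, Ideal.absNorm_apply, Submodule.cardQuot_apply,
    hj2] at h
  rw [hJ, Ideal.absNorm_eq_one_iff.mp (mul_left_cancel₀ (pow_ne_zero 2 (by omega))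
    (h.symm.trans (mul_one _).symm)), Ideal.mul_top]

end FLTAgent.LT.ThetaM
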