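import Fermat.Agent.LT.Interface
import Fermat.Agent.LT.ThetaM.DihedralPlaces

/-!
# The dihedral data of the theta function over `M`

The modulus is the conductor of the character, the places of `M` ramified in the representation and
one auxiliary place which splits completely in it.
-/

set_option autoImplicit false
set_option linter.unusedSectionVars false
set_option synthInstance.maxHeartbeats 400000

open IsDedekindDomain NumberField
open scoped Pointwise

noncomputable section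

namespace FLTAgent.LT.ThetaM

open FLTAgent.Frobenius
open FLTAgent.TW (placeIn inclAlgebra IsInclusion natCast_mem_placeIn exists_placeIn exists_prime_mem
  below_placeIn isInclusion_inclAlgebra)

local instance : IsGalois ℚ Qb := Octa.isGalois_Qb

variable (d : Octa)

local instance algebraEI' : Algebra d.Mf (EI d) := inclAlgebra (Mf_le d)

local instance isInclusionEI' : IsInclusion d.Mf (EI d) := isInclusion_inclAlgebra (Mf_le d)

/-- Divisors of a product of two primes. -/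
theorem dvd_two_primes {R : Type*} [CommRing R] [IsDedekindDomain R] {P P' b : Ideal R}
    (hP : P.IsMaximal) (hP' : P'.IsMaximal) (hP0 : P ≠ ⊥) (h : b ∣ P * P') :
    b = ⊤ ∨ b = P ∨ b = P' ∨ b = P * P' := by
  have hdiv : ∀ {Q c : Ideal R}, Q.IsMaximal → c ∣ Q → c = ⊤ ∨ c = Q := fun hQ hc =>
    (eq_or_ne _ ⊤).imp id fun hne => (hQ.eq_of_le hne (Ideal.dvd_iff_le.mp hc)).symm
  by_cases hb : P ∣ b
  · obtain ⟨c, rfl⟩ := hb
    rcases hdiv hP' ((mul_dvd_mul_iff_left hP0).mp h) with rfl | rfl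
    · exact Or.inr (Or.inl (Ideal.mul_top P))
    · exact Or.inr (Or.inr (Or.inr rfl))
  · have hco : IsCoprime b P := by
      rw [Ideal.isCoprime_iff_sup_eq]
      by_contra hne
      exact hb (Ideal.dvd_iff_le.mpr (le_sup_left.trans
        (hP.eq_of_le hne le_sup_right).ge))
    rcases hdiv hP' (hco.dvd_of_dvd_mul_left h) with rfl | rfl
    · exact Or.inl rfl
    · exact Or.inr (Or.inr (Or.inl rfl))

/-- The character of `Gal(ℚ̄/E)`. -/
def chiE : (EI d).fixingSubgroup →* ℂˣ where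
  toFun σ := chiI (d.rbar σ)
  map_one' := by rw [OneMemClass.coe_one, map_one, chiI_one]
  map_mul' σ σ' := by
    rw [Subgroup.coe_mul, map_mul]
    exact chiI_mul ((mem_fixing_EI d).mp σ.2) ((mem_fixing_EI d).mp σ'.2)

theorem isOpen_ker_chiE : IsOpen ((chiE d).ker : Set (EI d).fixingSubgroup) :=
  Subgroup.isOpen_mono (H₁ := d.rbar.ker.subgroupOf (EI d).fixingSubgroup)
    (fun σ hσ => by
      show chiI (d.rbar σ) = 1
      rw [show d.rbar σ = 1 from hσ, chiI_one])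
    ((d.isOpen_comap ⊥).preimage continuous_subtype_val)

theorem exists_good (m : ℕ) (hm : 0 < m) : ∃ N : ℕ, d.Good N ∧ m ∣ N := by
  classical
  have hopen : IsOpen (d.rbar.ker : Set Gam) := d.isOpen_comap ⊥
  obtain ⟨hFfix, hFfd⟩ := Octa.fixing_of_open hopen
  obtain ⟨L, hL⟩ := Global.exists_level (IntermediateField.fixedField d.rbar.ker)
  set S := (Global.finite_ramified L).toFinset
  have hS : 0 < ∏ q ∈ S, (q : ℕ) := Finset.prod_pos fun q _ => q.2.pos
  refine ⟨3 * m * ∏ q ∈ S, (q : ℕ), ⟨by positivity, ⟨m * ∏ q ∈ S, (q : ℕ), by ring⟩,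
    fun p hp hpN A hA σ hσ => ?_⟩, ⟨3 * ∏ q ∈ S, (q : ℕ), by ring⟩⟩
  have hu : L.UnrAt ⟨p, hp⟩ := by
    by_contra hu
    exact hpN ((Finset.dvd_prod_of_mem (fun q : Nat.Primes => (q : ℕ))
      ((Global.finite_ramified L).mem_toFinset.mpr hu)).trans (Dvd.intro_left _ rfl))
  have h : σ ∈ (IntermediateField.fixedField d.rbar.ker).fixingSubgroup :=
    IntermediateField.fixingSubgroup_antitone hL (hu A hA hσ)
  rw [hFfix] at h
  exact h

/-- The representation is trivial on the part of inertia in `G_M` at every ring over `v`. -/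
def UnrM (v : HeightOneSpectrum (𝓞 d.Mf)) : Prop :=
  ∀ (A : ValuationSubring Qb) (l : ℕ) (hl : l.Prime) (hA : A.LiesOverPrime l),
    placeIn d.Mf A hl hA = v → ∀ ι ∈ A.inertiaSubgroupIn ℚ, ι ∈ d.GM → d.rbar ι = 1

variable {d}

theorem unrM_of_inertia {A : ValuationSubring Qb} {l : ℕ} (hl : l.Prime) (hA : A.LiesOverPrime l)
    (h : ∀ ι ∈ A.inertiaSubgroupIn ℚ, ι ∈ d.GM → d.rbar ι = 1) :
    UnrM d (placeIn d.Mf A hl hA) := by
  intro B l' hl' hB he ι hι hιM
  obtain ⟨c, hc, hcB⟩ := TW.exists_fix_smul_eq d.Mf (A := A) (B := B)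
    (congrArg HeightOneSpectrum.asIdeal he).symm
  rw [d.fixing_Mf] at hc
  have h1 := inertiaSubgroupIn_conj hι c⁻¹
  rw [← hcB, inv_smul_smul, inv_inv] at h1
  have h2 := h _ h1 (mul_mem (mul_mem (inv_mem hc) hιM) hc)
  rwa [map_mul, map_mul, map_inv, mul_eq_one_iff_eq_inv, mul_eq_left] at h2

/-- A place of `E` with the conductor above it lies over a place with the modulus above it. -/
theorem not_le_placeIn {I : Ideal (𝓞 (EI d))} {A : ValuationSubring Qb} {l : ℕ} {hl : l.Prime}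
    {hA : A.LiesOverPrime l}
    (h : ¬ I.comap (algebraMap (𝓞 d.Mf) (𝓞 (EI d))) ≤ (placeIn d.Mf A hl hA).asIdeal) :
    ¬ I ≤ (placeIn (EI d) A hl hA).asIdeal := fun hle => h ((Ideal.comap_mono hle).trans_eq
  (congrArg HeightOneSpectrum.asIdeal (below_placeIn (K := d.Mf) (L := EI d) (hl := hl) (hA := hA))))

/-- The dihedral data, with the modulus as small as needed. -/
theorem exists_data' (d : Octa) (h : CyclicReciprocity) :
    IsTotallyComplex d.Mf ∧
    ∃ (E : IntermediateField ℚ Qb) (_ : NumberField E) (_ : Algebra d.Mf E)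
      (D : ThetaM.Data d.Mf E) (N : ℕ), d.Good N ∧ (N : 𝓞 d.Mf) ∈ D.nf ∧
      (∀ v : HeightOneSpectrum (𝓞 d.Mf), (N : 𝓞 d.Mf) ∉ v.asIdeal → ¬ D.nf ≤ v.asIdeal) ∧
      (∀ p : ℕ, p.Prime → ∀ A : ValuationSubring Qb, A.LiesOverPrime p →
        ∀ v : HeightOneSpectrum (𝓞 d.Mf),
          (∀ x : 𝓞 d.Mf, x ∈ v.asIdeal ↔ ((x : d.Mf) : Qb) ∈ A.nonunits) →
          (∀ σ ∈ A.inertiaSubgroupIn ℚ, σ ∈ d.GM → d.rbar σ = 1) →
          ¬ (∀ σ ∈ A.decompositionSubgroup ℚ, σ ∈ d.GK → σ ∈ d.GM) → ¬ D.nf ≤ v.asIdeal) ∧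
      ∀ p : ℕ, p.Prime → ∀ A : ValuationSubring Qb, A.LiesOverPrime p →
        ∀ v : HeightOneSpectrum (𝓞 d.Mf),
          (∀ x : 𝓞 d.Mf, x ∈ v.asIdeal ↔ ((x : d.Mf) : Qb) ∈ A.nonunits) →
          ¬ D.nf ≤ v.asIdeal → ∀ τ ∈ d.GM, A.IsFrobeniusAt τ (Nat.card (𝓞 d.Mf ⧸ v.asIdeal)) →
            D.coef v.asIdeal = d.tr0 τ := by
  classical
  refine ⟨isTotallyComplex_Mf d, EI d, numberField_EI d, algebraEI' d, ?_⟩
  obtain ⟨f, Ω, hf, htop, hmul, hray, hΩ⟩ := h (EI d) (isTotallyComplex_EI d) (chiE d)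
    (isOpen_ker_chiE d) (fun σ => chiI_pow_four _)
  -- the ramified places
  obtain ⟨N₀, hgood₀, -⟩ := exists_good d 1 one_pos
  have hfinR : {v : HeightOneSpectrum (𝓞 d.Mf) | ¬ UnrM d v}.Finite := by
    refine (TW.NormChar.finite_places_above d.Mf N₀.primeFactors).subset fun v hv => ?_
    obtain ⟨l, hl, hlv⟩ := exists_prime_mem v
    obtain ⟨A, hA, rfl⟩ := exists_placeIn d.Mf v hl hlv
    refine ⟨l, Nat.mem_primeFactors.mpr ⟨hl, ?_, hgood₀.1.ne'⟩, hl, hlv⟩
    by_contra hlN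
    exact hv (unrM_of_inertia hl hA fun ι hι _ => hgood₀.2.2 l hl hlN A hA ι hι)
  -- the auxiliary place
  obtain ⟨hFfix, hFfd⟩ := Octa.fixing_of_open (show IsOpen (d.rbar.ker : Set Gam) from
    d.isOpen_comap ⊥)
  obtain ⟨l₀, hl₀, hl₀S, A₀, hA₀, -, φ₀, hφ₀, hφ₀1⟩ := Chebotarev.exists_frobenius_eqOn
    (IntermediateField.fixedField d.rbar.ker) 1 N₀.primeFactors
  have hl₀N : ¬ l₀ ∣ N₀ := fun hd => hl₀S (Nat.mem_primeFactors.mpr ⟨hl₀, hd, hgood₀.1.ne'⟩)
  have hI₀ := hgood₀.2.2 l₀ hl₀ hl₀N A₀ hA₀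
  have hdec₀ : ∀ g ∈ A₀.decompositionSubgroup ℚ, d.rbar g = 1 := by
    intro g hg
    obtain ⟨L, _, _, hFL⟩ : ∃ L : IntermediateField ℚ Qb, FiniteDimensional ℚ L ∧ Normal ℚ L ∧
        IntermediateField.fixedField d.rbar.ker ≤ L :=
      ⟨_, normalClosure.is_finiteDimensional ℚ _ Qb, normalClosure.normal ℚ _ Qb,
        IntermediateField.le_normalClosure _⟩
    obtain ⟨n, ι, hι, hgι⟩ := TW.Local.exists_frobenius_pow_mul hl₀ hA₀ hφ₀ L hg
    have hker : ∀ s : Gam, (∀ x ∈ IntermediateField.fixedField d.rbar.ker, s x = x) →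
        d.rbar s = 1 := fun s hs => by
      rw [← MonoidHom.mem_ker, ← hFfix, IntermediateField.mem_fixingSubgroup_iff]
      exact hs
    have h1 := hker ((φ₀ ^ n * ι)⁻¹ * g) fun x hx => by
      rw [AlgEquiv.mul_apply, hgι x (hFL hx), ← AlgEquiv.mul_apply, inv_mul_cancel]
      rfl
    rw [map_mul, map_inv, inv_mul_eq_one] at h1
    rw [← h1, map_mul, map_pow, hker φ₀ (fun x hx => hφ₀1 x hx), one_pow, one_mul, hI₀ ι hι]
  set v₀ := placeIn d.Mf A₀ hl₀ hA₀
  set R := ∏ v ∈ hfinR.toFinset, v.asIdeal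
  set nf := f.comap (algebraMap (𝓞 d.Mf) (𝓞 (EI d))) * R * v₀.asIdeal
  have hnfle : nf ≤ f.comap (algebraMap (𝓞 d.Mf) (𝓞 (EI d))) :=
    Ideal.mul_le_left.trans Ideal.mul_le_left
  have hnf0 : nf ≠ ⊥ := mul_ne_zero (mul_ne_zero
    (fun he => hf (Ideal.eq_bot_of_comap_eq_bot he))
    (Finset.prod_ne_zero_iff.mpr fun v _ => v.ne_bot)) v₀.ne_bot
  have hnfv : ∀ v : HeightOneSpectrum (𝓞 d.Mf), ¬ nf ≤ v.asIdeal →
      UnrM d v ∧ ¬ f.comap (algebraMap (𝓞 d.Mf) (𝓞 (EI d))) ≤ v.asIdeal := fun v hv =>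
    ⟨by_contra fun hu => hv ((Ideal.mul_le_left.trans Ideal.mul_le_right).trans
        ((Ideal.IsPrime.prod_le v.isPrime).mpr ⟨v, hfinR.mem_toFinset.mpr hu, le_rfl⟩)),
      fun hle => hv (hnfle.trans hle)⟩
  obtain ⟨N, hgood, hnN⟩ := exists_good d (Ideal.absNorm nf)
    (Nat.pos_of_ne_zero (mt Ideal.absNorm_eq_zero_iff.mp hnf0))
  have hNmem : (N : 𝓞 d.Mf) ∈ nf := by
    obtain ⟨c, rfl⟩ := hnN
    rw [Nat.cast_mul]
    exact Ideal.mul_mem_right _ _ (Ideal.absNorm_mem nf)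
  have hmap : nf.map (algebraMap (𝓞 d.Mf) (𝓞 (EI d))) ≤ f :=
    (Ideal.map_mono hnfle).trans Ideal.map_comap_le
  -- values at the places prime to the modulus
  have hval : ∀ (A : ValuationSubring Qb) (l : ℕ) (hl : l.Prime) (hA : A.LiesOverPrime l),
      ¬ nf ≤ (placeIn d.Mf A hl hA).asIdeal → ∀ σ : Gam, σ ∈ (EI d).fixingSubgroup →
        A.IsFrobeniusAt σ (Nat.card (𝓞 (EI d) ⧸ (placeIn (EI d) A hl hA).asIdeal)) →
        Ω (placeIn (EI d) A hl hA).asIdeal = (chiI (d.rbar σ) : ℂ) := fun A l hl hA hv σ hσ hF =>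
    (hΩ l hl A hA (placeIn (EI d) A hl hA) fun x => Iff.rfl).2
      (not_le_placeIn (hnfv _ hv).2) σ hσ hF
  have hJM : tauJ d ∈ d.Mf.fixingSubgroup := by
    rw [mem_fixing_Mf, rbar_tauJ]; exact q8_mem_quat 2
  have hvJ : ∀ (A : ValuationSubring Qb) (l : ℕ) (hl : l.Prime) (hA : A.LiesOverPrime l),
      placeIn d.Mf (tauJ d • A) hl (liesOverPrime_smul hA _) = placeIn d.Mf A hl hA :=
    fun A l hl hA => TW.placeIn_smul_fix hJM
  have hJE : ∀ σ : Gam, d.rbar σ ∈ cyc4 → tauJ d * σ * (tauJ d)⁻¹ ∈ (EI d).fixingSubgroup := by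
    intro σ hσ
    rw [mem_fixing_EI, map_mul, map_mul, map_inv, rbar_tauJ]
    obtain ⟨n, hn⟩ := hσ
    rw [hn]
    exact (conj_g3J_cyc4 n).2.1
  have hJv : ∀ σ : Gam, d.rbar (tauJ d * σ * (tauJ d)⁻¹) = g3J * d.rbar σ * g3J⁻¹ := fun σ => by
    rw [map_mul, map_mul, map_inv, rbar_tauJ]
  let D : ThetaM.Data d.Mf (EI d) :=
  { quadEI d with
    nf := nf
    nf_ne_bot := hnf0
    nf_ne_top := fun he => v₀.isPrime.ne_top (top_le_iff.mp (he ▸ Ideal.mul_le_right))
    chi := Ω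
    chi_top := htop
    chi_mul := fun I J hI hJ => hmul I J (top_le_iff.mp (hI ▸ sup_le_sup_left hmap I))
      (top_le_iff.mp (hJ ▸ sup_le_sup_left hmap J))
    chi_one := fun α h0 hα => hray α h0 (hmap hα)
    places := fun v hv => by
      obtain ⟨l, hl, hlv⟩ := exists_prime_mem v
      obtain ⟨A, hA, rfl⟩ := exists_placeIn d.Mf v hl hlv
      have hI := (hnfv _ hv).1 A l hl hA rfl
      obtain ⟨τ, hτM, hτ⟩ := Recip.exists_frobenius_fixing (K := d.Mf) hl hA
      by_cases hτE : d.rbar τ ∈ cyc4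
      · obtain ⟨hne, hmap', hF, hF'⟩ := split_places d hl hA hτM hτ hI hτE
        refine Or.inl ⟨_, _, hne, hmap', map_conjEI_placeIn d hl hA, ?_⟩
        rw [hval A l hl hA hv τ ((mem_fixing_EI d).mpr hτE) hF,
          hval _ l hl (liesOverPrime_smul hA _) (by rw [hvJ A l hl hA]; exact hv) _ (hJE τ hτE) hF',
          hJv, ← Units.val_mul, chiI_conj hτE, Units.val_one]
      · obtain ⟨hmap', hτ2, hsq, hF⟩ := inert_places d hl hA hτM hτ hI hτE
        refine Or.inr ⟨_, hmap', ?_⟩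
        rw [hval A l hl hA hv _ hτ2 hF, map_pow, pow_two, chiI_of_sq hsq]
    separated := fun S hS => by
      obtain ⟨σ, hσ⟩ := d.surj g3I
      obtain ⟨l, hl, hlS, A, hA, -, φ, hφ, hφσ⟩ := Chebotarev.exists_frobenius_eqOn
        (IntermediateField.fixedField d.rbar.ker) σ
        (N.primeFactors ∪ hS.toFinset.biUnion fun P => (Ideal.absNorm P.asIdeal).primeFactors)
      have hφI : d.rbar φ = g3I := by
        have hmem : σ⁻¹ * φ ∈ d.rbar.ker := by
          rw [← hFfix, IntermediateField.mem_fixingSubgroup_iff]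
          intro x hx
          rw [AlgEquiv.mul_apply, hφσ x hx]
          exact σ.symm_apply_apply x
        rw [MonoidHom.mem_ker, map_mul, map_inv, inv_mul_eq_one, hσ] at hmem
        exact hmem.symm
      have hφE : φ ∈ (EI d).fixingSubgroup := by
        rw [mem_fixing_EI, hφI]
        decide
      have hv : ¬ nf ≤ (placeIn d.Mf A hl hA).asIdeal := fun hle =>
        Recip.natCast_notMem_placeIn hl hA (fun hd => hlS (Finset.mem_union_left _
          (Nat.mem_primeFactors.mpr ⟨hl, hd, hgood.1.ne'⟩))) (hle hNmem)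
      have hnorm : Ideal.absNorm (placeIn (EI d) A hl hA).asIdeal = l :=
        TW.NormChar.absNorm_eq_of_isDegreeOne (TW.NormChar.isDegreeOne_of_frobenius_mem hφ hφE)
      refine ⟨placeIn (EI d) A hl hA, fun hm => hlS (Finset.mem_union_right _
        (Finset.mem_biUnion.mpr ⟨_, hS.mem_toFinset.mpr hm, by
          rw [hnorm, hl.primeFactors]
          exact Finset.mem_singleton_self l⟩)), ?_⟩
      rw [hval A l hl hA hv φ hφE (by
        rw [← Submodule.cardQuot_apply, ← Ideal.absNorm_apply, hnorm]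
        exact hφ), hφI, chiI_g3I]
      show Complex.I ^ 2 ≠ 1
      rw [Complex.I_sq]
      norm_num }
  refine ⟨D, N, hgood, hNmem, fun v hv hle => hv (hle hNmem),
    fun p hp A hA v hv hI hns hle => ?_, fun p hp A hA v hv hv' τ hτM hτ => ?_⟩
  · obtain rfl : v = placeIn d.Mf A hp hA :=
      HeightOneSpectrum.ext (Ideal.ext fun x => (hv x).trans Iff.rfl)
    have hu := unrM_of_inertia hp hA hI
    rcases (placeIn d.Mf A hp hA).isPrime.mul_le.mp hle with hle' | hle'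
    · rcases (placeIn d.Mf A hp hA).isPrime.mul_le.mp hle' with hle'' | hle''
      · -- the conductor
        obtain ⟨Q, hQf, hQ, hQv⟩ :=
          Ideal.exists_ideal_over_prime_of_isIntegral (placeIn d.Mf A hp hA).asIdeal f hle''
        have hQ0 : Q ≠ ⊥ := fun he => hf (le_bot_iff.mp (he ▸ hQf))
        obtain ⟨l, hl, hlQ⟩ := exists_prime_mem (⟨Q, hQ, hQ0⟩ : HeightOneSpectrum (𝓞 (EI d)))
        obtain ⟨B, hB, hBQ⟩ := exists_placeIn (EI d) _ hl hlQ
        have hBv : placeIn d.Mf B hl hB = placeIn d.Mf A hp hA := by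
          refine HeightOneSpectrum.ext ?_
          rw [← hQv, ← congrArg HeightOneSpectrum.asIdeal
            (below_placeIn (K := d.Mf) (L := EI d) (hl := hl) (hA := hB))]
          show Ideal.comap _ (placeIn (EI d) B hl hB).asIdeal = _
          rw [hBQ]
        have hIB := hu B l hl hB hBv
        refine (hΩ l hl B hB (placeIn (EI d) B hl hB) fun x => Iff.rfl).1 (fun ι hι hιI => ?_)
          (hBQ ▸ hQf)
        show chiI (d.rbar ι) = 1
        rw [hIB ι hιI (cyc4_le_quat ((mem_fixing_EI d).mp hι)), chiI_one]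
      · obtain ⟨w, hw, hwle⟩ := (Ideal.IsPrime.prod_le (placeIn d.Mf A hp hA).isPrime).mp hle''
        have hwv : w = placeIn d.Mf A hp hA :=
          HeightOneSpectrum.ext (w.isPrime.isMaximal w.ne_bot |>.eq_of_le
            (placeIn d.Mf A hp hA).isPrime.ne_top hwle)
        exact hfinR.mem_toFinset.mp hw (hwv ▸ hu)
    · -- the auxiliary place
      have hv₀ : v₀ = placeIn d.Mf A hp hA := HeightOneSpectrum.ext
        (v₀.isPrime.isMaximal v₀.ne_bot |>.eq_of_le (placeIn d.Mf A hp hA).isPrime.ne_top hle')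
      obtain ⟨c, -, hcA⟩ := TW.exists_fix_smul_eq d.Mf (A := A₀) (B := A)
        (congrArg HeightOneSpectrum.asIdeal hv₀)
      refine hns fun σ hσ _ => ?_
      have h1 := hdec₀ (c⁻¹ * σ * c) (MulAction.mem_stabilizer_iff.mpr (by
        rw [mul_smul, mul_smul, hcA, MulAction.mem_stabilizer_iff.mp hσ, ← hcA, inv_smul_smul]))
      rw [map_mul, map_mul, map_inv, mul_eq_one_iff_eq_inv, mul_eq_left] at h1
      show d.rbar σ ∈ Octa.quat
      rw [h1]
      exact one_mem _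
  obtain rfl : v = placeIn d.Mf A hp hA :=
    HeightOneSpectrum.ext (Ideal.ext fun x => (hv x).trans Iff.rfl)
  have hI := (hnfv _ hv').1 A p hp hA rfl
  rw [← d.fixing_Mf] at hτM
  set v := (placeIn d.Mf A hp hA).asIdeal
  have hv0 : v ≠ ⊥ := (placeIn d.Mf A hp hA).ne_bot
  have hsup : ∀ (B : ValuationSubring Qb) (hB : B.LiesOverPrime p),
      placeIn d.Mf B hp hB = placeIn d.Mf A hp hA →
      (placeIn (EI d) B hp hB).asIdeal ⊔ D.f = ⊤ := fun B hB he => by
    by_contra hne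
    refine hv' ?_
    have hle := ((placeIn (EI d) B hp hB).isPrime.isMaximal
      (placeIn (EI d) B hp hB).ne_bot).eq_of_le hne le_sup_left
    have h2 : D.f ≤ (placeIn (EI d) B hp hB).asIdeal := le_sup_right.trans hle.ge
    exact (Ideal.map_le_iff_le_comap.mp h2).trans_eq ((congrArg HeightOneSpectrum.asIdeal
      (below_placeIn (K := d.Mf) (L := EI d) (hl := hp) (hA := hB))).trans
      (congrArg HeightOneSpectrum.asIdeal he))
  rw [Data.coef, dif_neg hv0]
  have hcc : ∀ I, D.conjId (D.conjId I) = I := fun I => by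
    show (I.map (D.conjO : 𝓞 (EI d) →+* 𝓞 (EI d))).map (D.conjO : 𝓞 (EI d) →+* 𝓞 (EI d)) = I
    rw [Ideal.map_map]
    convert Ideal.map_id I using 2
    ext x
    exact congrArg Subtype.val (conjEI_conjEI d (x : EI d))
  have hcm : ∀ I J, D.conjId (I * J) = D.conjId I * D.conjId J := fun I J => Ideal.map_mul _ I J
  have hct : D.conjId ⊤ = ⊤ := Ideal.map_top _
  by_cases hτE : d.rbar τ ∈ cyc4
  · obtain ⟨hne, hmap, hF, hF'⟩ := split_places d hp hA hτM hτ hI hτE
    set P := placeIn (EI d) A hp hA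
    set P' := placeIn (EI d) (tauJ d • A) hp (liesOverPrime_smul hA _)
    have hP : D.conjId P.asIdeal = P'.asIdeal := map_conjEI_placeIn d hp hA
    have hP' : D.conjId P'.asIdeal = P.asIdeal := by rw [← hP, hcc]
    have hmax := P.isPrime.isMaximal P.ne_bot
    have hmax' := P'.isPrime.isMaximal P'.ne_bot
    have hset : D.normSet v = {P.asIdeal, P'.asIdeal} := by
      ext b
      constructor
      · rintro ⟨-, hb⟩
        rw [hmap] at hb
        rcases dvd_two_primes hmax hmax' P.ne_bot ⟨D.conjId b, hb.symm⟩ with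
          rfl | rfl | rfl | rfl
        · rw [hct, Ideal.mul_top] at hb
          exact absurd (top_le_iff.mp (hb ▸ Ideal.mul_le_left)) hmax.ne_top
        · exact Set.mem_insert _ _
        · exact Set.mem_insert_of_mem _ rfl
        · rw [hcm, hP, hP', mul_comm P'.asIdeal P.asIdeal] at hb
          have h1 : P.asIdeal * P'.asIdeal = 1 :=
            mul_left_cancel₀ (mul_ne_zero P.ne_bot P'.ne_bot) (hb.trans (mul_one _).symm)
          rw [Ideal.one_eq_top] at h1
          exact absurd (top_le_iff.mp (h1 ▸ Ideal.mul_le_left)) hmax.ne_top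
      · rintro (rfl | rfl)
        · exact ⟨hsup A hA rfl, by rw [hP, hmap]⟩
        · exact ⟨hsup _ _ (hvJ A p hp hA), by rw [hP', hmap, mul_comm]⟩
    have hfs : (D.normSet_finite hv0).toFinset = {P.asIdeal, P'.asIdeal} := by
      ext b; simp [hset]
    rw [hfs, Finset.sum_pair fun he => hne (HeightOneSpectrum.ext he)]
    show Ω P.asIdeal + Ω P'.asIdeal = _
    rw [hval A p hp hA hv' τ ((mem_fixing_EI d).mpr hτE) hF,
      hval _ p hp (liesOverPrime_smul hA _) (by rw [hvJ A p hp hA]; exact hv') _ (hJE τ hτE) hF', hJv, tr0_of_mem_cyc4 d hτE]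
  · obtain ⟨hmap, -, hsq, -⟩ := inert_places d hp hA hτM hτ hI hτE
    set P := placeIn (EI d) A hp hA
    have hset : D.normSet v = ∅ := by
      refine Set.eq_empty_iff_forall_notMem.mpr fun b hb => ?_
      obtain ⟨-, hb⟩ := hb
      rw [hmap] at hb
      have hb1 : b = ⊤ ∨ b = P.asIdeal := (eq_or_ne b ⊤).imp id fun hne' =>
        ((P.isPrime.isMaximal P.ne_bot).eq_of_le hne' (hb ▸ Ideal.mul_le_left)).symm
      rcases hb1 with rfl | rfl
      · rw [hct, Ideal.mul_top] at hb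
        exact P.isPrime.ne_top hb.symm
      · have h1 : D.conjId P.asIdeal = 1 := mul_left_cancel₀ P.ne_bot (hb.trans (mul_one _).symm)
        have h2 := hcc P.asIdeal
        rw [h1, Ideal.one_eq_top, hct] at h2
        exact P.isPrime.ne_top h2.symm
    have hfs : (D.normSet_finite hv0).toFinset = ∅ := by
      ext b; simp [hset]
    rw [hfs, Finset.sum_empty, tr0_of_sq d hsq]

/-- The dihedral data. -/
theorem exists_data (d : Octa) (h : CyclicReciprocity) :
    IsTotallyComplex d.Mf ∧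
    ∃ (E : IntermediateField ℚ Qb) (_ : NumberField E) (_ : Algebra d.Mf E)
      (D : ThetaM.Data d.Mf E) (N : ℕ), d.Good N ∧
      (∀ v : HeightOneSpectrum (𝓞 d.Mf), (N : 𝓞 d.Mf) ∉ v.asIdeal → ¬ D.nf ≤ v.asIdeal) ∧
      ∀ p : ℕ, p.Prime → ¬ p ∣ N → ∀ A : ValuationSubring Qb, A.LiesOverPrime p →
        ∀ v : HeightOneSpectrum (𝓞 d.Mf),
          (∀ x : 𝓞 d.Mf, x ∈ v.asIdeal ↔ ((x : d.Mf) : Qb) ∈ A.nonunits) →
          ∀ σ : Gam, A.IsFrobeniusAt σ p → ∀ f : ℕ, Nat.card (𝓞 d.Mf ⧸ v.asIdeal) = p ^ f →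
            σ ^ f ∈ d.GM → D.coef v.asIdeal = d.tr0 (σ ^ f) := by
  obtain ⟨hc, E, hE, hA', D, N, hgood, -, hN, -, hcoef⟩ := exists_data' d h
  refine ⟨hc, E, hE, hA', D, N, hgood, hN, fun p hp hpN A hA v hv σ hσ f hf hmem => ?_⟩
  refine hcoef p hp A hA v hv (hN v ?_) _ hmem (hf ▸ isFrobeniusAt_pow hp.pos hσ f)
  obtain rfl : v = placeIn d.Mf A hp hA :=
    HeightOneSpectrum.ext (Ideal.ext fun x => (hv x).trans Iff.rfl)
  exact Recip.natCast_notMem_placeIn hp hA hpN

end FLTAgent.LT.ThetaM
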