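import Fermat.Agent.LT.ThetaM.Cusp.Twist
import Fermat.Agent.LT.Hyp.Measure
import Fermat.Agent.LT.RS.Coef

/-!
# The theta function at the cusps

Every translate of the theta function by a global matrix is a finite sum of series with zero
coefficient `0`: its constant terms vanish and it is bounded on `t ≥ c`.
-/

set_option autoImplicit false
set_option linter.style.haveILetI false
set_option linter.unusedSectionVars false

noncomputable section

namespace FLTAgent.LT.ThetaM

open NumberField IsDedekindDomain MeasureTheory Complex FractionalIdeal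
open scoped Real nonZeroDivisors

variable {M E : Type} [Field M] [NumberField M] [Field E] [NumberField E] [Algebra M E]

theorem actInf_eq_affX (γ : GL (Fin 2) M) (hc : γ 1 0 = 0) {α : M} (hα : α ≠ 0) {b : M}
    (ha : γ 0 0 = α * γ 1 1) (hb : γ 0 1 = b * γ 1 1) (x : Xinf M) :
    actInf γ x = affX α hα b x := by
  have hdet := (Matrix.GeneralLinearGroup.det γ).ne_zero
  have hd : γ 1 1 ≠ 0 := fun h => hdet (by simp [Matrix.det_fin_two, hc, h])
  funext w
  have hdw : w.embedding (γ 1 1) ≠ 0 := (_root_.map_ne_zero _).2 hd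
  have hg : Matrix.GeneralLinearGroup.map w.embedding γ = Hyp.upperC (w.embedding (γ 0 0))
      (w.embedding (γ 0 1)) (w.embedding (γ 1 1))
      ((_root_.map_ne_zero _).2 (by rw [ha]; exact mul_ne_zero hα hd)) hdw := by
    refine Units.ext ?_
    ext i j
    fin_cases i <;> fin_cases j <;> simp [Hyp.upperC, hc]
  have h := Hyp.act_upperC (w.embedding (γ 0 0)) (w.embedding (γ 0 1)) (w.embedding (γ 1 1))
    ((_root_.map_ne_zero _).2 (by rw [ha]; exact mul_ne_zero hα hd)) hdw (x w)
  rw [← hg] at h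
  refine Prod.ext ((congrArg Prod.fst h).trans ?_) (Subtype.ext ((congrArg Prod.snd h).trans ?_))
  · show _ / _ = w.embedding α * (x w).1 + w.embedding b
    rw [ha, hb, map_mul, map_mul]
    field_simp
  · show _ * _ = ‖w.embedding α‖ * ((x w).2 : ℝ)
    rw [ha, map_mul, mul_div_cancel_right₀ _ hdw]

theorem actInf_eq_twX (γ : GL (Fin 2) M) (hc : γ 1 0 ≠ 0) :
    ∃ (τ α : M) (hα : α ≠ 0) (b : M),
      ∀ x : Xinf M, actInf γ x = Data.twX τ (affX α hα b x) := by
  set a := γ 0 0 with ha
  set b := γ 0 1 with hb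
  set c := γ 1 0 with hc'
  set d := γ 1 1 with hd
  set e := (Matrix.GeneralLinearGroup.det γ : M) / c with he
  have hdet := (Matrix.GeneralLinearGroup.det γ).ne_zero
  have he0 : e ≠ 0 := div_ne_zero hdet hc
  let U : GL (Fin 2) M :=
    Matrix.GeneralLinearGroup.mkOfDetNeZero !![c, d; 0, e] (by simp [Matrix.det_fin_two, hc, he0])
  refine ⟨a / c, c / e, div_ne_zero hc he0, d / e, fun x => ?_⟩
  rw [← actInf_eq_affX U (by simp [U]) (div_ne_zero hc he0) (b := d / e)
    (by simp [U, he0]) (by simp [U, he0]) x]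
  funext w
  have hg : Matrix.GeneralLinearGroup.map w.embedding γ =
      Matrix.GeneralLinearGroup.map w.embedding (RS.unipF (a / c)) *
        (wC * Matrix.GeneralLinearGroup.map w.embedding U) := by
    refine Units.ext ?_
    have hcw : w.embedding c ≠ 0 := (_root_.map_ne_zero _).2 hc
    have hew : w.embedding e = (w.embedding a * w.embedding d - w.embedding b * w.embedding c) /
        w.embedding c := by
      rw [he, show (Matrix.GeneralLinearGroup.det γ : M) = a * d - b * c by
        simp [Matrix.det_fin_two, ha, hb, hc', hd], map_div₀, map_sub, map_mul, map_mul]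
    ext i j
    fin_cases i <;> fin_cases j <;>
      simp [RS.unipF, wC, U, Matrix.mul_apply, Fin.sum_univ_two, Matrix.vecMul,
        dotProduct, hew, ← ha, ← hb, ← hc', ← hd] <;> (field_simp; try ring)
  show act (Matrix.GeneralLinearGroup.map w.embedding γ) (x w) = _
  rw [hg, Hyp.act_mul, Hyp.act_mul]
  exact congrFun (RS.actInf_unipF (a / c) (invX (actInf U x))) w

namespace Data

variable (D : Data M E) [IsTotallyComplex M] {W : (InfinitePlace M → ℝ) → ℝ}
  {R : D.Cl → D.primeGroup}

/-- The zero coefficient at `∞` vanishes. -/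
theorem hasZero_theta (hW : IsTorusWeight W) (R : D.Cl → D.primeGroup) (a : (FIM M)ˣ) :
    HasZero D.toQuad (D.theta W R a) 0 := by
  classical
  haveI := Fintype.ofFinite D.Cl
  haveI := fun r : D.primeGroup => Fintype.ofFinite (D.Xi a (r : (FIE E)ˣ))
  have hpart : ∀ (r : D.primeGroup) (q : D.Xi a (r : (FIE E)ˣ)),
      HasZero D.toQuad (D.part W a (r : (FIE E)ˣ) q) 0 := fun r q => by
    let P : Piece D.toQuad := ⟨(Quotient.out (s := D.genSetoid a (r : (FIE E)ˣ)) q).1,
      IsGen.ne_zero D (Quotient.out (s := D.genSetoid a (r : (FIE E)ˣ)) q).2,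
      D.lat (r : (FIE E)ˣ), (D.exists_beta r.2).choose, fun _ => 1, 1, fun _ => norm_one.le,
      W, hW⟩
    have hz : P.zero = 0 := by
      have h0 : ∀ v, P.coef₀ v = 0 := fun v => if_neg fun h => ?_
      · rw [Piece.zero, tsum_congr h0, tsum_zero, mul_zero]
      have hv := ((D.exists_beta r.2).choose_spec.2
        ((D.exists_beta r.2).choose + (v : E))).2 (by rw [add_sub_cancel_left]; exact v.2)
      exact One.ne_zero D hv.2 h
    exact hz ▸ (HasZero.of_piece P).congr fun x => D.part_eq_ser W a r q x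
  have h := HasZero.sum fun c : D.Cl =>
    (HasZero.sum (fun q : D.Xi a (R c : (FIE E)ˣ) => hpart (R c) q)).const_mul (D.chiCl c)⁻¹
  simp only [Finset.sum_const_zero, mul_zero] at h
  refine h.congr fun x => ?_
  rw [theta, finsum_eq_sum_of_fintype]
  exact Finset.sum_congr rfl fun c _ => by rw [finsum_eq_sum_of_fintype]

/-- Every translate has zero coefficient `0`. -/
theorem hasZero_theta_actInf (hW : D.IsWeight W) (hR : D.IsReps R) (a : (FIM M)ˣ)
    (γ : GL (Fin 2) M) : HasZero D.toQuad (fun x => D.theta W R a (actInf γ x)) 0 := by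
  rcases eq_or_ne (γ 1 0) 0 with hc | hc
  · have hdet := (Matrix.GeneralLinearGroup.det γ).ne_zero
    have hd : γ 1 1 ≠ 0 := fun h => hdet (by simp [Matrix.det_fin_two, hc, h])
    have ha : γ 0 0 ≠ 0 := fun h => hdet (by simp [Matrix.det_fin_two, hc, h])
    have h := (D.hasZero_theta hW.toIsTorusWeight R a).comp_affX (γ 0 0 / γ 1 1)
      (div_ne_zero ha hd) (γ 0 1 / γ 1 1)
    rw [mul_zero] at h
    refine h.congr fun x => ?_
    rw [actInf_eq_affX γ hc (div_ne_zero ha hd) (div_mul_cancel₀ _ hd).symm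
      (div_mul_cancel₀ _ hd).symm x]
  · obtain ⟨τ, α, hα, b, hx⟩ := actInf_eq_twX γ hc
    have h := (D.hasZero_theta_twX hW hR a τ).comp_affX α hα b
    rw [mul_zero] at h
    exact h.congr fun x => by rw [hx]

/-- The constant terms vanish. -/
theorem exists_box_theta (hW : D.IsWeight W) (hR : D.IsReps R) (a : (FIM M)ˣ)
    (γ : GL (Fin 2) M) :
    ∃ m₀ : ℕ, 0 < m₀ ∧ ∀ m : ℕ, 0 < m → m₀ ∣ m → ∀ x : Xinf M,
      ∫ y in RS.boxSet (RS.Idx M), D.theta W R a (actInf γ (translate (boxVec m y) x)) = 0 := by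
  obtain ⟨m₀, hm₀, h⟩ := (D.hasZero_theta_actInf hW hR a γ).exists_mean
  exact ⟨m₀, hm₀, fun m hm hd x => (h m hm hd x).trans (zero_mul _)⟩

/-- Boundedness near the cusps. -/
theorem exists_bound_theta (hW : D.IsWeight W) (hR : D.IsReps R) (a : (FIM M)ˣ)
    (γ : GL (Fin 2) M) {c : ℝ} (hc : 0 < c) :
    ∃ C : ℝ, ∀ x : Xinf M, (∀ w, c ≤ (x w).2) → ‖D.theta W R a (actInf γ x)‖ ≤ C :=
  (D.hasZero_theta_actInf hW hR a γ).exists_bound hc

end Data

end FLTAgent.LT.ThetaM
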