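import Fermat.Agent.LT.ThetaM.GaussPrime

/-!
# The Gauss sum of the norm form: the general ideal

By induction on the norm, using the prime case and the two reduction steps.
-/

set_option autoImplicit false
set_option linter.style.haveILetI false
set_option linter.unusedSectionVars false

noncomputable section

namespace FLTAgent.LT.ThetaM

open NumberField IsDedekindDomain

variable {M E : Type} [Field M] [NumberField M] [Field E] [NumberField E] [Algebra M E]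

theorem extId_sup_eq_top {P nf : Ideal (𝓞 M)} (h : P ⊔ nf = ⊤) :
    extId E P ⊔ nf.map (algebraMap (𝓞 M) (𝓞 E)) = ⊤ := by
  rw [extId, ← Ideal.map_sup, h, Ideal.map_top]

/-- The prime case: value, sign and non-degeneracy of the trace form. -/
theorem prime_facts (D : Data M E) {P : Ideal (𝓞 M)} [hPm : P.IsMaximal] (hP : P ≠ ⊥)
    (hn : P ⊔ D.nf = ⊤) :
    D.chi (extId E P) ^ 2 = 1 ∧
    (∀ Ψ : AddChar (𝓞 M) ℂ, (∀ x ∈ P, Ψ x = 1) → (∀ I, P < I → ∃ x ∈ I, Ψ x ≠ 1) →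
      gauss (E := E) P Ψ = (Ideal.absNorm P : ℂ) * D.chi (extId E P)) ∧
    ∀ x : 𝓞 E, (∀ y, Algebra.intTrace (𝓞 M) (𝓞 E) (x * y) ∈ P) → x ∈ extId E P := by
  have hnle : ¬ D.nf ≤ P := fun h => hPm.ne_top (by rwa [sup_eq_left.2 h] at hn)
  rcases D.places ⟨P, hPm.isPrime, hP⟩ hnle with ⟨Q₁, Q₂, hne, hmap, hc, hchi⟩ | ⟨Q₁, hmap, hchi⟩
  · haveI := Q₁.isPrime.isMaximal Q₁.ne_bot
    haveI := Q₂.isPrime.isMaximal Q₂.ne_bot
    have hne' : Q₁.asIdeal ≠ Q₂.asIdeal := fun h => hne (HeightOneSpectrum.ext h)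
    have hchiP : D.chi (extId E P) = 1 := by
      have hs := extId_sup_eq_top (E := E) hn
      show D.chi (P.map _) = 1
      rw [hmap, D.chi_mul _ _ (top_le_iff.1 (hs.ge.trans (sup_le_sup_right
        (hmap.le.trans Ideal.mul_le_left) _))) (top_le_iff.1 (hs.ge.trans (sup_le_sup_right
        (hmap.le.trans Ideal.mul_le_right) _))), hchi]
    refine ⟨by rw [hchiP, one_pow], fun Ψ h1 h2 => ?_, nondeg_split D.toQuad hne' hc hmap⟩
    rw [hchiP, mul_one]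
    exact gauss_split D.toQuad hP hne' hc hmap h1 h2
  · haveI : (extId E P).IsMaximal :=
      show (P.map (algebraMap (𝓞 M) (𝓞 E))).IsMaximal from
        hmap ▸ Q₁.isPrime.isMaximal Q₁.ne_bot
    have hchiP : D.chi (extId E P) = -1 := by
      show D.chi (P.map _) = -1
      rw [hmap, hchi]
    refine ⟨by rw [hchiP]; norm_num, fun Ψ h1 h2 => ?_, nondeg_inert D.toQuad hP⟩
    rw [hchiP, mul_neg, mul_one]
    exact gauss_inert D.toQuad hP h1 h2

theorem gauss_value (D : Data M E) (a : Ideal (𝓞 M)) (ha : a ⊔ D.nf = ⊤)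
    (Ψ : AddChar (𝓞 M) ℂ) (htriv : ∀ x ∈ a, Ψ x = 1) (hprim : ∀ I, a < I → ∃ x ∈ I, Ψ x ≠ 1) :
    gauss (E := E) a Ψ = (Ideal.absNorm a : ℂ) * D.chi (extId E a) := by
  induction h : Ideal.absNorm a using Nat.strong_induction_on generalizing a Ψ with
  | _ n ih =>
  subst h
  have ha0 : a ≠ ⊥ := fun h => D.nf_ne_top (by rwa [h, bot_sup_eq] at ha)
  by_cases ht : a = ⊤
  · subst ht
    rw [gauss_eq_sum D.toQuad htriv (ι := Unit) (fun _ => 0) (fun _ _ _ => rfl)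
      (fun x => ⟨(), by rw [extId, Ideal.map_top]; trivial⟩)]
    rw [Ideal.absNorm_top, extId, Ideal.map_top, D.chi_top, Finset.sum_eq_single ()
      (fun b _ hb => absurd rfl hb) (fun h => absurd (Finset.mem_univ _) h)]
    rw [htriv _ trivial]
    simp
  obtain ⟨P, hPm, haP⟩ := Ideal.exists_le_maximal a ht
  obtain ⟨b, rfl⟩ := Ideal.dvd_iff_le.2 haP
  have hP : P ≠ ⊥ := fun h => ha0 (by rw [h, Ideal.bot_mul])
  have hb : b ≠ ⊥ := fun h => ha0 (by rw [h, Ideal.mul_bot])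
  have hPn : P ⊔ D.nf = ⊤ := top_le_iff.1 (ha.ge.trans (sup_le_sup_right Ideal.mul_le_left _))
  have hbn : b ⊔ D.nf = ⊤ := top_le_iff.1 (ha.ge.trans (sup_le_sup_right Ideal.mul_le_right _))
  have hP2 : 2 ≤ Ideal.absNorm P := by
    have h1 : Ideal.absNorm P ≠ 0 := Ideal.absNorm_eq_zero_iff.not.2 hP
    have h2 : Ideal.absNorm P ≠ 1 := Ideal.absNorm_eq_one_iff.not.2 hPm.ne_top
    omega
  obtain ⟨hsq, hval, hnd⟩ := prime_facts D hP hPn
  have hchimul : ∀ I J : Ideal (𝓞 M), I ⊔ D.nf = ⊤ → J ⊔ D.nf = ⊤ →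
      D.chi (extId E (I * J)) = D.chi (extId E I) * D.chi (extId E J) := fun I J hI hJ => by
    rw [extId, Ideal.map_mul]
    exact D.chi_mul _ _ (extId_sup_eq_top hI) (extId_sup_eq_top hJ)
  by_cases hco : P ⊔ b = ⊤
  · obtain ⟨Ψ₁, Ψ₂, h1, h1', h2, h2', heq⟩ :=
      gauss_mul hP hb hco htriv hprim D.toQuad
    have hlt : Ideal.absNorm b < Ideal.absNorm (P * b) := by
      rw [map_mul]
      have h0 : 0 < Ideal.absNorm b := Nat.pos_of_ne_zero (Ideal.absNorm_eq_zero_iff.not.2 hb)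
      nlinarith
    rw [heq, hval Ψ₁ h1 h1', ih _ hlt b hbn Ψ₂ h2 h2' rfl, map_mul Ideal.absNorm,
      hchimul P b hPn hbn]
    push_cast
    ring
  · have hbP : b ≤ P := by
      by_contra h
      exact hco (hPm.1.2 _ (lt_of_le_of_ne le_sup_left fun e => h (e ▸ le_sup_right)))
    obtain ⟨c, rfl⟩ := Ideal.dvd_iff_le.2 hbP
    have hc : c ≠ ⊥ := fun h => hb (by rw [h, Ideal.mul_bot])
    have hcn : c ⊔ D.nf = ⊤ := top_le_iff.1 (hbn.ge.trans (sup_le_sup_right Ideal.mul_le_right _))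
    obtain ⟨Ψ₃, h3, h3', heq⟩ := gauss_sq_mul hP hc hnd htriv hprim D.toQuad
    have hlt : Ideal.absNorm c < Ideal.absNorm (P * (P * c)) := by
      rw [map_mul, map_mul]
      have h0 : 0 < Ideal.absNorm c := Nat.pos_of_ne_zero (Ideal.absNorm_eq_zero_iff.not.2 hc)
      have h4 : 4 ≤ Ideal.absNorm P * Ideal.absNorm P := Nat.mul_le_mul hP2 hP2
      nlinarith
    rw [heq, ih _ hlt c hcn Ψ₃ h3 h3' rfl, map_mul Ideal.absNorm, map_mul Ideal.absNorm,
      hchimul P (P * c) hPn hbn, hchimul P c hPn hcn]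
    push_cast
    linear_combination -((Ideal.absNorm P : ℂ) ^ 2 * (Ideal.absNorm c : ℂ) *
      D.chi (extId E c)) * hsq

/-- The Gauss sum of the norm form of `E / M`. -/
theorem gauss_sum (D : Data M E) (a : Ideal (𝓞 M)) (ha : a ⊔ D.nf = ⊤) (Ψ : AddChar (𝓞 M) ℂ)
    (htriv : ∀ x ∈ a, Ψ x = 1) (hprim : ∀ I, a < I → ∃ x ∈ I, Ψ x ≠ 1) :
    ∑ᶠ x : 𝓞 E ⧸ a.map (algebraMap (𝓞 M) (𝓞 E)),
        Ψ (Algebra.intNorm (𝓞 M) (𝓞 E) (Quotient.out x)) =
      (Ideal.absNorm a : ℂ) * D.chi (a.map (algebraMap (𝓞 M) (𝓞 E))) :=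
  gauss_value D a ha Ψ htriv hprim

end FLTAgent.LT.ThetaM
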