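import Fermat.Agent.LT.ThetaM.TransformAux
import Fermat.Agent.LT.TF.Action
import Fermat.Agent.LT.ThetaM.Gauss

/-!
# The transformation of the theta function

For `δ = (A B; C D)` of determinant one at the level `N`, with `(A) = 𝔷 J`, the coset sums at `x` and
at `δ x` are related by Poisson summation over `lat r / 𝔷` and the Gauss sum of the norm form mod `J`.
-/

set_option autoImplicit false
set_option linter.style.haveILetI false
set_option linter.unusedSectionVars false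

noncomputable section

namespace FLTAgent.LT.ThetaM

open NumberField IsDedekindDomain MeasureTheory Complex FractionalIdeal Filter
open scoped Real nonZeroDivisors

variable {M E : Type} [Field M] [NumberField M] [Field E] [NumberField E] [Algebra M E]

theorem act_eq_act_of_mul {g : GL (Fin 2) ℂ} (p : H3) {c : ℂ} (hc : c ≠ 0)
    (h : ∀ i j, (g : Matrix (Fin 2) (Fin 2) ℂ) i j = if i = j then c else 0) : act g p = p := by
  have hg : g = Matrix.GeneralLinearGroup.scalar (Fin 2) (Units.mk0 c hc) :=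
    Units.ext (Matrix.ext fun i j => by
      rw [h]; simp [Matrix.GeneralLinearGroup.scalar, Matrix.diagonal_apply])
  rw [hg, LT.act_scalar]

/-- The translation, dilation and inversions that undo `δ`. -/
theorem eq_chain_actInf (δ : GL (Fin 2) M) (hdet : (δ : Matrix (Fin 2) (Fin 2) M).det = 1)
    (hA : δ 0 0 ≠ 0) (x : Xinf M) :
    x = translate (RS.embF (-(δ 0 1) / δ 0 0)) (scaleX (δ 0 0)⁻¹
      (invX (translate (RS.embF (δ 1 0 / δ 0 0)) (invX (actInf δ x))))) := by
  funext w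
  have hA' : w.embedding (δ 0 0) ≠ 0 := (_root_.map_ne_zero _).2 hA
  have h2 : (w.embedding (δ 0 0))⁻¹ ^ 2 ≠ 0 := pow_ne_zero _ (inv_ne_zero hA')
  set U1 := Hyp.upperC 1 (w.embedding (-(δ 0 1) / δ 0 0)) 1 one_ne_zero one_ne_zero with hU1
  set U2 := Hyp.upperC ((w.embedding (δ 0 0))⁻¹ ^ 2) 0 1 h2 one_ne_zero with hU2
  set U3 := Hyp.upperC 1 (w.embedding (δ 1 0 / δ 0 0)) 1 one_ne_zero one_ne_zero with hU3
  have et : ∀ (b : ℂ) (p : H3), act (Hyp.upperC 1 b 1 one_ne_zero one_ne_zero) p = (p.1 + b, p.2) := by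
    intro b p
    have h := Hyp.act_upperC 1 b 1 one_ne_zero one_ne_zero p
    simp only [Hyp.emb, Prod.mk.injEq, one_mul, _root_.div_one, norm_one] at h
    exact Prod.ext h.1 (Subtype.ext h.2)
  have es : ∀ p : H3, act U2 p = ((w.embedding (δ 0 0))⁻¹ ^ 2 * p.1,
      ⟨‖(w.embedding (δ 0 0))⁻¹‖ ^ 2 * (p.2 : ℝ),
        mul_pos (pow_pos (norm_pos_iff.2 (inv_ne_zero hA')) 2) p.2.2⟩) := by
    intro p
    have h := Hyp.act_upperC ((w.embedding (δ 0 0))⁻¹ ^ 2) 0 1 h2 one_ne_zero p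
    simp only [Hyp.emb, Prod.mk.injEq, add_zero, _root_.div_one, norm_pow] at h
    exact Prod.ext h.1 (Subtype.ext h.2)
  have hchain : translate (RS.embF (-(δ 0 1) / δ 0 0)) (scaleX (δ 0 0)⁻¹
      (invX (translate (RS.embF (δ 1 0 / δ 0 0)) (invX (actInf δ x))))) w =
      act (U1 * U2 * wC * U3 * wC * Matrix.GeneralLinearGroup.map w.embedding δ) (x w) := by
    rw [Hyp.act_mul, Hyp.act_mul, Hyp.act_mul, Hyp.act_mul, Hyp.act_mul, et, es, et]
    simp only [scaleX, dif_neg (inv_ne_zero hA), map_inv₀, invX, translate, RS.embF, actInf]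
  rw [hchain]
  refine (act_eq_act_of_mul (x w) (c := -(w.embedding (δ 0 0))⁻¹)
    (neg_ne_zero.2 (inv_ne_zero hA')) fun i j => ?_).symm
  have hd : w.embedding (δ 0 0) * w.embedding (δ 1 1) -
      w.embedding (δ 0 1) * w.embedding (δ 1 0) = 1 := by
    rw [← map_mul, ← map_mul, ← map_sub, ← map_one w.embedding, ← hdet, Matrix.det_fin_two]
  fin_cases i <;> fin_cases j <;>
    simp [hU1, hU2, hU3, Hyp.upperC, wC, Matrix.mul_apply, Fin.sum_univ_two, map_div₀] <;>
    field_simp <;>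
    first
      | ring1
      | linear_combination hd
      | linear_combination -hd
      | linear_combination (w.embedding (δ 0 1)) * hd
      | linear_combination -(w.embedding (δ 0 1)) * hd

namespace Data

variable (D : Data M E)

theorem exists_gen_mod (r : (FIE E)ˣ) {J : Ideal (𝓞 E)} (hJ : J ≠ ⊥) :
    ∃ e ∈ (r : FIE E), (J : FIE E) * (r : FIE E) + spanSingleton (𝓞 E)⁰ e = (r : FIE E) := by
  obtain ⟨d, I, hd, hI⟩ := exists_eq_spanSingleton_mul (r : FIE E)
  have hI0 : I ≠ 0 := fun h => r.ne_zero (by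
    rw [hI, h, Ideal.zero_eq_bot, coeIdeal_bot, mul_zero])
  have hJI : J * I ≠ 0 := mul_ne_zero hJ hI0
  obtain ⟨e, he⟩ := IsDedekindDomain.exists_sup_span_eq (Ideal.mul_le_right (I := J) (J := I)) hJI
  have key : (J : FIE E) * (r : FIE E) +
      spanSingleton (𝓞 E)⁰ ((algebraMap (𝓞 E) E d)⁻¹ * (e : E)) = (r : FIE E) := by
    rw [hI, mul_left_comm, ← coeIdeal_mul, ← spanSingleton_mul_spanSingleton, ← mul_add,
      ← coeIdeal_span_singleton, ← coeIdeal_sup, he]
  refine ⟨_, ?_, key⟩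
  have h : spanSingleton (𝓞 E)⁰ ((algebraMap (𝓞 E) E d)⁻¹ * (e : E)) ≤ (r : FIE E) := by
    conv_rhs => rw [← key]
    rw [← sup_eq_add]
    exact le_sup_right
  exact spanSingleton_le_iff_mem.1 h

/-- The Gauss sum evaluation used by the transformation. -/
def GaussEval : Prop :=
  ∀ a : Ideal (𝓞 M), a ⊔ D.nf = ⊤ → ∀ Ψ : AddChar (𝓞 M) ℂ, (∀ x ∈ a, Ψ x = 1) →
    (∀ I, a < I → ∃ x ∈ I, Ψ x ≠ 1) →
    ∑ᶠ x : 𝓞 E ⧸ a.map (algebraMap (𝓞 M) (𝓞 E)),
        Ψ (Algebra.intNorm (𝓞 M) (𝓞 E) (Quotient.out x)) =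
      (Ideal.absNorm a : ℂ) * D.chi (a.map (algebraMap (𝓞 M) (𝓞 E)))

variable [IsTotallyComplex M]

/-- The transformation of one coset. -/
theorem tsum_vset_transform {W : (InfinitePlace M → ℝ) → ℝ} (hW : IsTorusWeight W)
    (hG : D.GaussEval) {N : ℕ} (hlev : D.IsLev N) {a : (FIM M)ˣ} {r r' : D.primeGroup} {ξ : M}
    (hgen : D.IsGen a (r : (FIE E)ˣ) ξ) {z : Ideal (𝓞 M)}
    (hr' : ((r' : (FIE E)ˣ) : FIE E) *
      ((z.map (algebraMap (𝓞 M) (𝓞 E)) : Ideal (𝓞 E)) : FIE E) = ((r : (FIE E)ˣ) : FIE E))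
    {δ : GL (Fin 2) M} (hdet : (δ : Matrix (Fin 2) (Fin 2) M).det = 1) {A : 𝓞 M}
    (hA : δ 0 0 = (A : M)) (hAz : A ∈ z) (hA1 : A - 1 ∈ D.nf)
    (hB : spanSingleton (𝓞 M)⁰ (δ 0 1) ≤
      spanSingleton (𝓞 M)⁰ (N : M) * (z : FIM M) * (a : FIM M))
    (hC : spanSingleton (𝓞 M)⁰ (δ 1 0) * (z : FIM M) * (a : FIM M) ≤
      spanSingleton (𝓞 M)⁰ (N : M))
    (hD : spanSingleton (𝓞 M)⁰ (δ 1 1) * (z : FIM M) ≤ 1) (x : Xinf M) :
    ∑' v : D.vset (r : (FIE E)ˣ), termW D.toQuad W ξ x (v : E) =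
      D.chi (z.map (algebraMap (𝓞 M) (𝓞 E))) / (Ideal.absNorm z : ℂ) *
        ∑' v : D.vset (r' : (FIE E)ˣ), termW D.toQuad W ξ (actInf δ x) (v : E) := by
  classical
  haveI := D.finiteDimensional
  set B := δ 0 1 with hBd
  set C := δ 1 0 with hCd
  set Dd := δ 1 1 with hDdd
  have hdet' : (A : M) * Dd - B * C = 1 := by rw [← hdet, Matrix.det_fin_two, hA]
  have hA0 : A ≠ 0 := fun h => by
    rw [h, zero_sub] at hA1
    exact D.nf_ne_top ((Ideal.eq_top_iff_one _).2 (by simpa using D.nf.neg_mem hA1))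
  have hAM : (A : M) ≠ 0 := RingOfIntegers.coe_ne_zero_iff.2 hA0
  have hAE : algebraMap M E (A : M) ≠ 0 := (_root_.map_ne_zero _).2 hAM
  -- `(A) = z J`
  obtain ⟨J, hJ⟩ : z ∣ Ideal.span {A} :=
    Ideal.dvd_iff_le.2 (by rwa [Ideal.span_le, Set.singleton_subset_iff])
  have hAnf : Ideal.span {A} ⊔ D.nf = ⊤ := (Ideal.eq_top_iff_one _).2 (Submodule.mem_sup.2
    ⟨A, Ideal.mem_span_singleton_self A, -(A - 1), D.nf.neg_mem hA1, by ring⟩)
  have hzJ := Ideal.isCoprime_iff_sup_eq.2 hAnf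
  rw [hJ] at hzJ
  have hznf : z ⊔ D.nf = ⊤ := Ideal.isCoprime_iff_sup_eq.1 hzJ.of_mul_left_left
  have hJnf : J ⊔ D.nf = ⊤ := Ideal.isCoprime_iff_sup_eq.1 hzJ.of_mul_left_right
  have hJ0 : J ≠ ⊥ := fun h => D.nf_ne_top (by rwa [h, bot_sup_eq] at hJnf)
  have hz0 : z ≠ ⊥ := fun h => D.nf_ne_top (by rwa [h, bot_sup_eq] at hznf)
  have hAzJ : spanSingleton (𝓞 M)⁰ (A : M) = (z : FIM M) * (J : FIM M) := by
    rw [← coeIdeal_mul, ← hJ, coeIdeal_span_singleton]
  set J' : Ideal (𝓞 E) := J.map (algebraMap (𝓞 M) (𝓞 E)) with hJ'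
  set z' : Ideal (𝓞 E) := z.map (algebraMap (𝓞 M) (𝓞 E)) with hz'
  have hJf : J' ⊔ D.f = ⊤ := D.sup_map_eq_top hJnf
  have hzf : z' ⊔ D.f = ⊤ := D.sup_map_eq_top hznf
  have hz'0 : (z' : FIE E) ≠ 0 := coeIdeal_ne_zero.2 (D.ne_bot_of_sup hzf)
  have hAE' : spanSingleton (𝓞 E)⁰ (algebraMap M E (A : M)) = (z' : FIE E) * (J' : FIE E) := by
    rw [← extI_spanSingleton, hAzJ, map_mul, extI_coe, extI_coe]
  set R0 : FIE E := ((r : (FIE E)ˣ) : FIE E) with hR0
  set R1 : FIE E := ((r' : (FIE E)ˣ) : FIE E) with hR1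
  set L0 : FIE E := (D.lat (r : (FIE E)ˣ) : FIE E) with hL0
  set L1 : FIE E := (D.lat (r' : (FIE E)ˣ) : FIE E) with hL1
  have hL0f : L0 = (D.f : FIE E) * R0 := rfl
  have hL1f : L1 = (D.f : FIE E) * R1 := rfl
  have hL0r : L0 ≤ R0 := hL0f ▸ (mul_le_mul' coeIdeal_le_one le_rfl).trans (one_mul _).le
  have hAL : spanSingleton (𝓞 E)⁰ (algebraMap M E (A : M)) * L1 = (J' : FIE E) * L0 := by
    rw [hAE', hL0f, hL1f, ← hr']; ring
  have hJL : (J' : FIE E) * L0 ≤ (J' : FIE E) * R0 := mul_le_mul' le_rfl hL0r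
  have hDL : ∀ l ∈ L0, algebraMap M E Dd * l ∈ L1 := fun l hl => by
    refine spanSingleton_le_iff_mem.1 ?_
    rw [← spanSingleton_mul_spanSingleton]
    refine (mul_le_mul' le_rfl (spanSingleton_le_iff_mem.2 hl)).trans ?_
    calc spanSingleton (𝓞 E)⁰ (algebraMap M E Dd) * L0
        = extI M E (spanSingleton (𝓞 M)⁰ Dd * (z : FIM M)) * L1 := by
          rw [hL0f, hL1f, ← hr', map_mul, extI_spanSingleton, extI_coe]; ring
      _ ≤ 1 * L1 := mul_le_mul' ((extendedHom_le_one_iff E (𝓞 E)).2 hD) le_rfl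
      _ = L1 := one_mul _
  -- the cosets
  obtain ⟨hβ, hβv⟩ := (D.exists_beta r.2).choose_spec
  set β := (D.exists_beta r.2).choose with hβd
  obtain ⟨hβ', hβv'⟩ := (D.exists_beta r'.2).choose_spec
  set β' := (D.exists_beta r'.2).choose with hβ'd
  have hβR : β ∈ R0 := hβ.1
  have hN0 : (N : M) ≠ 0 := Nat.cast_ne_zero.2 hlev.1.ne'
  have hza0 : (z : FIM M) * (a : FIM M) ≠ 0 := mul_ne_zero (coeIdeal_ne_zero.2 hz0) a.ne_zero
  have hDβ : algebraMap M E Dd * β - β' ∈ L1 := by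
    refine (hβv' _).1 ⟨spanSingleton_le_iff_mem.1 ?_, ?_⟩
    · rw [← spanSingleton_mul_spanSingleton]
      refine (mul_le_mul' le_rfl (spanSingleton_le_iff_mem.2 hβR)).trans ?_
      calc spanSingleton (𝓞 E)⁰ (algebraMap M E Dd) * R0
          = extI M E (spanSingleton (𝓞 M)⁰ Dd * (z : FIM M)) * R1 := by
            rw [map_mul, extI_spanSingleton, extI_coe, ← hz', ← hr']; ring
        _ ≤ 1 * R1 := mul_le_mul' ((extendedHom_le_one_iff E (𝓞 E)).2 hD) le_rfl
        _ = R1 := one_mul _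
    · have hBC : spanSingleton (𝓞 M)⁰ (B * C / ((N : M) * N)) ≤ 1 := by
        refine (mul_le_mul_iff_left₀ (zero_lt_iff.2
          (show spanSingleton (𝓞 M)⁰ ((N : M) * N) ≠ 0 from
            spanSingleton_ne_zero_iff.2 (mul_ne_zero hN0 hN0)))).1 ?_
        rw [spanSingleton_mul_spanSingleton, div_mul_cancel₀ _ (mul_ne_zero hN0 hN0), one_mul,
          ← mul_le_mul_iff_left₀ (zero_lt_iff.2 hza0)]
        calc spanSingleton (𝓞 M)⁰ (B * C) * ((z : FIM M) * a)
            = spanSingleton (𝓞 M)⁰ B * (spanSingleton (𝓞 M)⁰ C * z * a) := by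
              rw [← spanSingleton_mul_spanSingleton]; ring
          _ ≤ (spanSingleton (𝓞 M)⁰ (N : M) * z * a) * spanSingleton (𝓞 M)⁰ (N : M) :=
              mul_le_mul' hB hC
          _ = _ := by rw [← spanSingleton_mul_spanSingleton]; ring
      obtain ⟨o, ho⟩ := (mem_one_iff _).1 (spanSingleton_le_iff_mem.1 hBC)
      refine One.mul D ⟨algebraMap (𝓞 M) (𝓞 E) (1 + (N : 𝓞 M) * N * o),
        algebraMap (𝓞 M) (𝓞 E) A, ?_, ?_, ?_⟩ hβ.2
      · rw [← map_one (algebraMap (𝓞 M) (𝓞 E)), ← map_sub]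
        refine Ideal.mem_map_of_mem _ ?_
        rw [add_sub_cancel_left]
        exact D.nf.mul_mem_right _ (D.nf.mul_mem_right _ hlev.2.1)
      · rw [← map_one (algebraMap (𝓞 M) (𝓞 E)), ← map_sub]
        exact Ideal.mem_map_of_mem _ hA1
      · show algebraMap M E Dd * algebraMap (𝓞 E) E (algebraMap (𝓞 M) (𝓞 E) A) =
          algebraMap (𝓞 E) E (algebraMap (𝓞 M) (𝓞 E) (1 + (N : 𝓞 M) * N * o))
        rw [← IsScalarTower.algebraMap_apply, ← IsScalarTower.algebraMap_apply,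
          IsScalarTower.algebraMap_apply (𝓞 M) M E, IsScalarTower.algebraMap_apply (𝓞 M) M E,
          ← map_mul]
        congr 1
        push_cast
        simp only [RingOfIntegers.coe_eq_algebraMap, ho]
        field_simp
        linear_combination hdet'
  -- the character of the quadratic form
  set t : M := -B / (A : M) with ht
  have htJ : spanSingleton (𝓞 M)⁰ t * (J : FIM M) ≤ (a : FIM M) := by
    have h1 : spanSingleton (𝓞 M)⁰ t * (J : FIM M) * (z : FIM M) ≤ (z : FIM M) * a := by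
      rw [mul_assoc, mul_comm (J : FIM M), ← hAzJ, spanSingleton_mul_spanSingleton, ht,
        div_mul_cancel₀ _ hAM]
      refine le_trans ?_ ((mul_le_mul' (mul_le_mul' (spanSingleton_le_iff_mem.2 (mem_one_of_isIntegral
        (isIntegral_algebraMap (x := (N : ℤ))))) le_rfl) le_rfl).trans (by rw [one_mul]))
      have hneg : spanSingleton (𝓞 M)⁰ (-B) ≤ spanSingleton (𝓞 M)⁰ B := by
        rw [spanSingleton_le_iff_mem]
        exact Submodule.neg_mem _ (mem_spanSingleton_self _ _)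
      rw [map_natCast]
      exact hneg.trans hB
    rw [mul_comm (z : FIM M)] at h1
    exact le_of_mul_le_mul_right h1 (zero_lt_iff.2 (coeIdeal_ne_zero.2 hz0))
  have hper : ∀ {v m : E}, v ∈ R0 → m ∈ (J' : FIE E) * R0 →
      psi (t * qF ξ (v + m)) = psi (t * qF ξ v) := fun hv hm =>
    D.psi_qF_periodic hgen htJ hv (by rw [extI_coe]; exact hm)
  -- `C w / 2` for `w` in the dual
  have hhalf : ∀ w ∈ dualSet D.toQuad ξ (D.lat (r' : (FIE E)ˣ)),
      algebraMap M E C / 2 * w ∈ L0 := by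
    intro w hw
    refine spanSingleton_le_iff_mem.1 ?_
    have hL00 : (L0 : FIE E) ≠ 0 := (D.lat _).ne_zero
    rw [← mul_le_mul_iff_left₀ (zero_lt_iff.2 (inv_ne_zero hL00)), mul_inv_cancel₀ hL00,
      spanSingleton_mul_le_iff]
    intro y₁ hy₁
    have hc' : spanSingleton (𝓞 M)⁰ (C / (N : M)) * ((z : FIM M) * a) ≤ 1 := by
      refine le_of_mul_le_mul_right (a := spanSingleton (𝓞 M)⁰ (N : M)) ?_
        (zero_lt_iff.2 (spanSingleton_ne_zero_iff.2 hN0))
      rw [one_mul, mul_right_comm, spanSingleton_mul_spanSingleton, div_mul_cancel₀ _ hN0,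
        ← mul_assoc]
      exact hC
    set c' := C / (N : M) with hc'd
    have hξE : algebraMap M E ξ ≠ 0 := (_root_.map_ne_zero _).2 (hgen.ne_zero D)
    have key := hlev.2.2 (algebraMap M E c' * w * y₁) fun y hy => by
      set u := D.conj (algebraMap M E c' * y₁ * (y : E)) / algebraMap M E ξ with hu
      have hu1 : u ∈ L1 := by
        refine spanSingleton_le_iff_mem.1 ?_
        have hy' : spanSingleton (𝓞 E)⁰ (y : E) ≤ (D.f : FIE E) * (D.f : FIE E) := by
          rw [spanSingleton_le_iff_mem, ← coeIdeal_mul]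
          exact (mem_coeIdeal _).2 ⟨y, hy, rfl⟩
        have h1 : spanSingleton (𝓞 E)⁰ (algebraMap M E c' * y₁ * (y : E)) *
            extI M E ((z : FIM M) * a) ≤ L0⁻¹ * ((D.f : FIE E) * (D.f : FIE E)) := by
          rw [← spanSingleton_mul_spanSingleton, ← spanSingleton_mul_spanSingleton,
            ← extI_spanSingleton]
          calc extI M E (spanSingleton (𝓞 M)⁰ c') * spanSingleton (𝓞 E)⁰ y₁ *
                spanSingleton (𝓞 E)⁰ (y : E) * extI M E ((z : FIM M) * a)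
              = extI M E (spanSingleton (𝓞 M)⁰ c' * ((z : FIM M) * a)) *
                (spanSingleton (𝓞 E)⁰ y₁ * spanSingleton (𝓞 E)⁰ (y : E)) := by
                simp only [map_mul]; ring
            _ ≤ 1 * (L0⁻¹ * ((D.f : FIE E) * (D.f : FIE E))) :=
                mul_le_mul' ((extendedHom_le_one_iff E (𝓞 E)).2 hc')
                  (mul_le_mul' (spanSingleton_le_iff_mem.2 hy₁) hy')
            _ = _ := one_mul _
        have h2 := D.conjI_mono h1
        simp only [map_mul, map_inv₀, D.conjI_spanSingleton, D.conjI_extI, hL0f, D.conjI_coe] at h2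
        change _ ≤ (((D.conjId D.f : Ideal (𝓞 E)) : FIE E) * D.conjI R0)⁻¹ *
          ((((D.conjId D.f : Ideal (𝓞 E)) : FIE E)) * (((D.conjId D.f : Ideal (𝓞 E)) : FIE E))) at h2
        rw [D.conjId_f] at h2
        have hf0 : (D.f : FIE E) ≠ 0 := coeIdeal_ne_zero.2 D.f_ne_bot
        have hcR : D.conjI R0 ≠ 0 := ((r : (FIE E)ˣ).map D.conjI.toMonoidHom).ne_zero
        rw [extI_coe, ← hz'] at h2
        have hξ1 : spanSingleton (𝓞 E)⁰ (algebraMap M E ξ) *
            extI M E (a : FIM M) * (R0 * D.conjI R0) = 1 := hgen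
        refine le_of_mul_le_mul_right (a := (z' : FIE E) * extI M E (a : FIM M) *
          spanSingleton (𝓞 E)⁰ (algebraMap M E ξ)) ?_ (zero_lt_iff.2 (mul_ne_zero (mul_ne_zero hz'0
            (fun h => by rw [h, mul_zero, zero_mul] at hξ1; exact zero_ne_one hξ1))
            (spanSingleton_ne_zero_iff.2 hξE)))
        calc spanSingleton (𝓞 E)⁰ u * ((z' : FIE E) * extI M E (a : FIM M) *
              spanSingleton (𝓞 E)⁰ (algebraMap M E ξ))
            = spanSingleton (𝓞 E)⁰ (u * algebraMap M E ξ) *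
              ((z' : FIE E) * extI M E (a : FIM M)) := by
              rw [← spanSingleton_mul_spanSingleton]; ring
          _ ≤ ((D.f : FIE E) * D.conjI R0)⁻¹ * ((D.f : FIE E) * (D.f : FIE E)) := by
              rw [hu, div_mul_cancel₀ _ hξE]; simp only [map_mul]; exact h2
          _ = (D.f : FIE E) * (D.conjI R0)⁻¹ := by field_simp
          _ = (D.f : FIE E) * (D.conjI R0)⁻¹ * (spanSingleton (𝓞 E)⁰ (algebraMap M E ξ) *
              extI M E (a : FIM M) * (R0 * D.conjI R0)) := by rw [hξ1, mul_one]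
          _ = L1 * ((z' : FIE E) * extI M E (a : FIM M) *
              spanSingleton (𝓞 E)⁰ (algebraMap M E ξ)) := by
              rw [hL1f]
              field_simp
              rw [← hr']
              ring
      obtain ⟨n, hn⟩ := hw u hu1
      refine ⟨n, ?_⟩
      rw [← hn, bil_comm, bil_apply, hu, map_div₀ D.conj, D.conj_conj, D.conj_algebraMap]
      congr 1
      field_simp
    convert mem_one_of_isIntegral key using 1
    rw [hc'd, map_div₀, map_natCast]
    have hNE : (N : E) ≠ 0 := Nat.cast_ne_zero.2 hlev.1.ne'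
    field_simp
  have hCw : ∀ w ∈ dualSet D.toQuad ξ (D.lat (r' : (FIE E)ˣ)),
      algebraMap M E C * w ∈ L0 := fun w hw => by
    have h := Submodule.add_mem _ (hhalf w hw) (hhalf w hw)
    rwa [← add_mul, add_halves] at h
  -- the generator modulo `J`
  have hJ'0 : J' ≠ ⊥ := D.ne_bot_of_sup hJf
  obtain ⟨e, heR, he⟩ := Data.exists_gen_mod (r : (FIE E)ˣ) hJ'0
  change e ∈ R0 at heR
  change (J' : FIE E) * R0 + spanSingleton (𝓞 E)⁰ e = R0 at he
  haveI : Finite (𝓞 E ⧸ J') := Ideal.finiteQuotientOfFreeOfNeBot _ hJ'0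
  haveI := Fintype.ofFinite (𝓞 E ⧸ J')
  obtain ⟨j, hj, φ, hφ, hjφ⟩ := Submodule.mem_sup.1 ((Ideal.eq_top_iff_one _).1 hJf)
  have hey : ∀ y : 𝓞 E, e * (y : E) ∈ R0 := fun y => by
    have := Submodule.smul_mem (R0 : Submodule (𝓞 E) E) y heR
    rwa [Algebra.smul_def, mul_comm] at this
  set l : 𝓞 E → E := fun y => (φ : E) * (e * (y : E) - β) with hld
  have hl0 : ∀ y, l y ∈ L0 := fun y => by
    rw [hL0f]
    exact FractionalIdeal.mul_mem_mul ((mem_coeIdeal _).2 ⟨φ, hφ, rfl⟩)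
      (Submodule.sub_mem _ (hey y) hβR)
  have hjφ' : (j : E) + (φ : E) = 1 := by rw [← map_add, hjφ, map_one]
  have hlJ : ∀ y, β + l y - e * (y : E) ∈ (J' : FIE E) * R0 := fun y => by
    rw [show β + l y - e * (y : E) = (j : E) * (β - e * (y : E)) by
      rw [hld]; linear_combination (β - e * (y : E)) * -hjφ']
    exact FractionalIdeal.mul_mem_mul ((mem_coeIdeal _).2 ⟨j, hj, rfl⟩)
      (Submodule.sub_mem _ hβR (hey y))
  have hinj : ∀ y : 𝓞 E, e * (y : E) ∈ (J' : FIE E) * R0 → y ∈ J' := fun y hy => by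
    have hR00 : R0 ≠ 0 := (r : (FIE E)ˣ).ne_zero
    have h : spanSingleton (𝓞 E)⁰ (y : E) * R0 ≤ (J' : FIE E) * R0 := by
      calc spanSingleton (𝓞 E)⁰ (y : E) * R0
          = spanSingleton (𝓞 E)⁰ (y : E) * ((J' : FIE E) * R0) +
              spanSingleton (𝓞 E)⁰ (e * (y : E)) := by
            conv_lhs => rw [← he]
            rw [mul_add, spanSingleton_mul_spanSingleton, mul_comm (y : E)]
        _ ≤ (J' : FIE E) * R0 := by
            rw [← sup_eq_add]
            refine sup_le ?_ (spanSingleton_le_iff_mem.2 hy)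
            calc _ ≤ 1 * ((J' : FIE E) * R0) := mul_le_mul' (spanSingleton_le_iff_mem.2
                  (mem_one_of_isIntegral y.2)) le_rfl
              _ = _ := one_mul _
    obtain ⟨y', hy', he'⟩ := (mem_coeIdeal _).1
      (spanSingleton_le_iff_mem.1 (le_of_mul_le_mul_right h (zero_lt_iff.2 hR00)))
    exact RingOfIntegers.coe_injective he' ▸ hy'
  have hsurj : ∀ m : E, m ∈ R0 → ∃ y : 𝓞 E, m - e * (y : E) ∈ (J' : FIE E) * R0 := fun m hm => by
    rw [← he, ← sup_eq_add] at hm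
    obtain ⟨p, hp, q, hq, hpq⟩ := Submodule.mem_sup.1 (show m ∈ ((((J' : FIE E) * R0 : FIE E) :
      Submodule (𝓞 E) E) ⊔ ((spanSingleton (𝓞 E)⁰ e : FIE E) : Submodule (𝓞 E) E)) by
        rw [← coe_sup]; exact hm)
    obtain ⟨y, hy⟩ := (mem_spanSingleton _).1 hq
    refine ⟨y, ?_⟩
    rw [Algebra.smul_def] at hy
    rwa [← hpq, ← hy, mul_comm (algebraMap (𝓞 E) E y), add_sub_cancel_right]
  let out : 𝓞 E ⧸ J' → 𝓞 E := fun c => Quotient.out c
  have hout : ∀ c, Ideal.Quotient.mk J' (out c) = c := fun c => Quotient.out_eq c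
  have hmemA : ∀ u ∈ L1, algebraMap M E (A : M) * u ∈ (J' : FIE E) * L0 := fun u hu => by
    rw [← hAL]
    exact FractionalIdeal.mul_mem_mul (mem_spanSingleton_self _ _) hu
  have hbij : Function.Bijective
      fun cu : (𝓞 E ⧸ J') × Latt (D.lat (r' : (FIE E)ˣ)) =>
        (⟨l (out cu.1) + algebraMap M E (A : M) * (cu.2 : E),
          Submodule.add_mem _ (hl0 _) (((mul_le_mul' coeIdeal_le_one le_rfl).trans (one_mul L0).le)
            (hmemA _ cu.2.2))⟩ : Latt (D.lat (r : (FIE E)ˣ))) := by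
    constructor
    · rintro ⟨c, u⟩ ⟨c', u'⟩ h
      have h' : l (out c) + algebraMap M E (A : M) * (u : E) =
          l (out c') + algebraMap M E (A : M) * (u' : E) := congrArg Subtype.val h
      have hcc : c = c' := by
        rw [← hout c, ← hout c', Ideal.Quotient.eq]
        refine hinj _ ?_
        have h3 : l (out c) - l (out c') ∈ (J' : FIE E) * R0 := by
          rw [show l (out c) - l (out c') =
            algebraMap M E (A : M) * (u' : E) - algebraMap M E (A : M) * (u : E) by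
              linear_combination h']
          exact Submodule.sub_mem _ (hJL (hmemA _ u'.2)) (hJL (hmemA _ u.2))
        have h4 := Submodule.add_mem _ (Submodule.sub_mem _ h3 (hlJ (out c))) (hlJ (out c'))
        rwa [show l (out c) - l (out c') - (β + l (out c) - e * (out c : E)) +
          (β + l (out c') - e * (out c' : E)) = e * ((out c - out c' : 𝓞 E) : E) by
            push_cast; ring] at h4
      subst hcc
      exact Prod.ext rfl (Subtype.ext (mul_left_cancel₀ hAE (add_left_cancel h')))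
    · rintro ⟨m, hm⟩
      obtain ⟨y, hy⟩ := hsurj (β + m) (Submodule.add_mem _ hβR (hL0r hm))
      set c := Ideal.Quotient.mk J' y
      have h1 : m - l (out c) ∈ (J' : FIE E) * R0 := by
        have h2 : e * (((y - out c : 𝓞 E)) : E) ∈ (J' : FIE E) * R0 := by
          rw [mul_comm e]
          exact FractionalIdeal.mul_mem_mul
            ((mem_coeIdeal _).2 ⟨_, Ideal.Quotient.eq.1 (hout c).symm, rfl⟩) heR
        have h3 := Submodule.add_mem _ (Submodule.sub_mem _ hy (hlJ (out c))) h2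
        rwa [show β + m - e * (y : E) - (β + l (out c) - e * (out c : E)) +
          e * (((y - out c : 𝓞 E)) : E) = m - l (out c) by push_cast; ring] at h3
      have h2 : m - l (out c) ∈ spanSingleton (𝓞 E)⁰ (algebraMap M E (A : M)) * L1 := by
        rw [hAL, show m - l (out c) = (φ : E) * (m - l (out c)) + (j : E) * (m - l (out c)) by
          linear_combination (m - l (out c)) * -hjφ']
        refine Submodule.add_mem _ ?_ ?_
        · have h4 := FractionalIdeal.mul_mem_mul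
            ((mem_coeIdeal (𝓞 E)⁰ (I := D.f) (P := E)).2 ⟨φ, hφ, rfl⟩) h1
          rwa [hL0f, mul_left_comm]
        · exact FractionalIdeal.mul_mem_mul ((mem_coeIdeal _).2 ⟨j, hj, rfl⟩)
            (Submodule.sub_mem _ hm (hl0 _))
      obtain ⟨u, hu, hue⟩ := mem_singleton_mul.1 h2
      exact ⟨⟨c, u, hu⟩, Subtype.ext (show l (out c) + _ * u = m by rw [← hue]; ring)⟩
  -- the Gauss sum
  have hNB : ∀ {p : M}, IsIntegral ℤ ((N : M) * p) →
      spanSingleton (𝓞 M)⁰ (C * p) * ((z : FIM M) * a) ≤ 1 := by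
    intro p hp
    rw [← spanSingleton_mul_spanSingleton]
    calc spanSingleton (𝓞 M)⁰ C * spanSingleton (𝓞 M)⁰ p * ((z : FIM M) * a)
        = spanSingleton (𝓞 M)⁰ p * (spanSingleton (𝓞 M)⁰ C * z * a) := by ring
      _ ≤ spanSingleton (𝓞 M)⁰ p * spanSingleton (𝓞 M)⁰ (N : M) := mul_le_mul' le_rfl hC
      _ ≤ 1 := by
        rw [spanSingleton_mul_spanSingleton, mul_comm, spanSingleton_le_iff_mem]
        exact mem_one_of_isIntegral hp
  have hqa : spanSingleton (𝓞 M)⁰ (qF ξ e) * (a : FIM M) ≤ 1 := by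
    have h0 : spanSingleton (𝓞 M)⁰ (qF ξ ((0 : E) + e) - qF ξ (0 : E)) * (a : FIM M) ≤
        ((⊤ : Ideal (𝓞 M)) : FIM M) :=
      D.qF_sub_le hgen (J := ⊤) (zero_mem _) (by rw [coeIdeal_top, map_one, one_mul]; exact heR)
    simpa [qF, nM] using h0
  let Ψ : AddChar (𝓞 M) ℂ :=
    { toFun := fun m => psi (t * qF ξ e * (m : M))
      map_zero_eq_one' := by simp [psi_zero]
      map_add_eq_mul' := fun m m' => by push_cast; rw [mul_add, psi_add] }
  have htriv : ∀ m ∈ J, Ψ m = 1 := fun m hm => by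
    refine psi_integral (isIntegral_of_mem_one (spanSingleton_le_iff_mem.1 ?_))
    refine le_of_mul_le_mul_right (a := (a : FIM M)) ?_ (zero_lt_iff.2 a.ne_zero)
    rw [one_mul, ← spanSingleton_mul_spanSingleton, ← spanSingleton_mul_spanSingleton]
    calc spanSingleton (𝓞 M)⁰ t * spanSingleton (𝓞 M)⁰ (qF ξ e) * spanSingleton (𝓞 M)⁰ (m : M) * a
        = spanSingleton (𝓞 M)⁰ t * spanSingleton (𝓞 M)⁰ (m : M) *
          (spanSingleton (𝓞 M)⁰ (qF ξ e) * a) := by ring
      _ ≤ spanSingleton (𝓞 M)⁰ t * (J : FIM M) * 1 := mul_le_mul' (mul_le_mul' le_rfl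
          (spanSingleton_le_iff_mem.2 ((mem_coeIdeal _).2 ⟨m, hm, rfl⟩))) hqa
      _ ≤ _ := by rw [mul_one]; exact htJ
  -- `qF e a` is prime to `J`
  obtain ⟨Q0, hQ0⟩ := le_one_iff_exists_coeIdeal.1 hqa
  have hQJ : Q0 ⊔ J = ⊤ := by
    have hle : spanSingleton (𝓞 E)⁰ e * R0⁻¹ ≤ 1 := by
      calc _ ≤ R0 * R0⁻¹ := mul_le_mul' (spanSingleton_le_iff_mem.2 heR) le_rfl
        _ = 1 := mul_inv_cancel₀ (r : (FIE E)ˣ).ne_zero
    obtain ⟨ee, hee⟩ := le_one_iff_exists_coeIdeal.1 hle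
    have heR' : (ee : FIE E) * R0 = spanSingleton (𝓞 E)⁰ e := by
      rw [hee, mul_assoc, inv_mul_cancel₀ (r : (FIE E)ˣ).ne_zero, mul_one]
    have h1 : J' ⊔ ee = ⊤ := by
      refine coeIdeal_inj (K := E).1 (mul_right_cancel₀ (r : (FIE E)ˣ).ne_zero ?_)
      rw [coeIdeal_sup, coeIdeal_top, add_mul, one_mul, heR']
      exact he
    have hconjJ : D.conjId J' = J' := by
      rw [conjId, hJ', Ideal.map_map]
      congr 1
      exact RingHom.ext fun m => D.conjO_algebraMap m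
    have h2 : J' ⊔ D.conjId ee = ⊤ := by
      conv_lhs => rw [← hconjJ]
      rw [conjId, conjId, ← Ideal.map_sup, h1, Ideal.map_top]
    have h3 : Q0.map (algebraMap (𝓞 M) (𝓞 E)) = ee * D.conjId ee := by
      refine coeIdeal_inj (K := E).1 ?_
      rw [← extI_coe, hQ0, map_mul, coeIdeal_mul, conjId, ← D.conjI_coe]
      calc extI M E (spanSingleton (𝓞 M)⁰ (qF ξ e)) * extI M E (a : FIM M)
          = ((ee : FIE E) * R0) * D.conjI ((ee : FIE E) * R0) *
            (spanSingleton (𝓞 E)⁰ (algebraMap M E ξ) * extI M E (a : FIM M)) := by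
            rw [heR', D.conjI_spanSingleton, spanSingleton_mul_spanSingleton, extI_spanSingleton,
              qF, map_mul, nM, D.algebraMap_norm,
              ← spanSingleton_mul_spanSingleton (x := algebraMap M E ξ)]
            ring
        _ = (ee : FIE E) * D.conjI (ee : FIE E) * (spanSingleton (𝓞 E)⁰ (algebraMap M E ξ) *
            extI M E (a : FIM M) * (R0 * D.conjI R0)) := by rw [map_mul]; ring
        _ = _ := by rw [hgen, mul_one]
    refine (Ideal.map_eq_top_iff (algebraMap (𝓞 M) (𝓞 E))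
      (FaithfulSMul.algebraMap_injective (𝓞 M) (𝓞 E))
      (Algebra.IsIntegral.isIntegral (R := 𝓞 M))).1 ?_
    rw [Ideal.map_sup, h3, ← hJ', sup_comm]
    exact Ideal.isCoprime_iff_sup_eq.1
      ((Ideal.isCoprime_iff_sup_eq.2 h1).mul_right (Ideal.isCoprime_iff_sup_eq.2 h2))
  have hprim : ∀ I, J < I → ∃ m ∈ I, Ψ m ≠ 1 := by
    intro I hI
    by_contra hcon
    push_neg at hcon
    refine hI.not_ge ?_
    suffices h : Q0 * I ≤ J by
      calc I = (Q0 ⊔ J) * I := by rw [hQJ, Ideal.top_mul]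
        _ = Q0 * I ⊔ J * I := Ideal.sup_mul ..
        _ ≤ J := sup_le h Ideal.mul_le_left
    refine (coeIdeal_le_coeIdeal M).1 ?_
    rw [coeIdeal_mul, hQ0, mul_comm, mul_le]
    intro m hm g hg
    obtain ⟨m, hmI, rfl⟩ := (mem_coeIdeal _).1 hm
    obtain ⟨b, hb, rfl⟩ := mem_singleton_mul.1 hg
    have hp : IsIntegral ℤ ((N : M) * (t * qF ξ e * (m : M))) := hlev.isIntegral_mul D fun o => by
      obtain ⟨n, hn⟩ := exists_int_of_eQ (show eQ (Algebra.trace ℚ M
          (t * qF ξ e * ((m * o : 𝓞 M) : M))) = 1 from hcon _ (I.mul_mem_right o hmI))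
      exact ⟨n, by rw [← hn]; congr 1; push_cast; ring⟩
    -- `qF e m / A = C p + D qF e m`
    have hmain : spanSingleton (𝓞 M)⁰ (qF ξ e * (m : M) / (A : M)) *
        ((z : FIM M) * a) ≤ 1 := by
      rw [show qF ξ e * (m : M) / (A : M) =
        C * (t * qF ξ e * (m : M)) + Dd * (qF ξ e * (m : M)) by
          rw [ht]; field_simp; linear_combination (-(qF ξ e) * (m : M)) * hdet',
        spanSingleton_mul_le_iff]
      intro y hy
      rw [add_mul]
      refine Submodule.add_mem _ (spanSingleton_mul_le_iff.1 (hNB hp) y hy)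
        (spanSingleton_mul_le_iff.1 (?_ : spanSingleton (𝓞 M)⁰ (Dd * (qF ξ e * (m : M))) *
          ((z : FIM M) * a) ≤ 1) y hy)
      rw [← spanSingleton_mul_spanSingleton, ← spanSingleton_mul_spanSingleton]
      calc spanSingleton (𝓞 M)⁰ Dd * (spanSingleton (𝓞 M)⁰ (qF ξ e) *
            spanSingleton (𝓞 M)⁰ (m : M)) * ((z : FIM M) * a)
          = (spanSingleton (𝓞 M)⁰ Dd * z) * (spanSingleton (𝓞 M)⁰ (qF ξ e) * a) *
            spanSingleton (𝓞 M)⁰ (m : M) := by ring
        _ ≤ 1 * 1 * 1 := mul_le_mul' (mul_le_mul' hD hqa)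
            (spanSingleton_le_iff_mem.2 (mem_one_of_isIntegral m.2))
        _ = 1 := by rw [one_mul, one_mul]
    refine spanSingleton_le_iff_mem.1 ?_
    rw [show (m : M) * (qF ξ e * b) = qF ξ e * (m : M) / (A : M) * b * (A : M) by field_simp,
      ← spanSingleton_mul_spanSingleton, ← spanSingleton_mul_spanSingleton, hAzJ]
    calc spanSingleton (𝓞 M)⁰ (qF ξ e * (m : M) / (A : M)) * spanSingleton (𝓞 M)⁰ b *
          ((z : FIM M) * (J : FIM M))
        ≤ spanSingleton (𝓞 M)⁰ (qF ξ e * (m : M) / (A : M)) * (a : FIM M) *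
          ((z : FIM M) * (J : FIM M)) := mul_le_mul' (mul_le_mul' le_rfl
            (spanSingleton_le_iff_mem.2 hb)) le_rfl
      _ = spanSingleton (𝓞 M)⁰ (qF ξ e * (m : M) / (A : M)) * ((z : FIM M) * a) *
          (J : FIM M) := by ring
      _ ≤ 1 * (J : FIM M) := mul_le_mul' hmain le_rfl
      _ = _ := one_mul _
  set G : ℂ := ∑ c : 𝓞 E ⧸ J', psi (t * qF ξ (e * (out c : E))) with hGd
  have hGval : G = (Ideal.absNorm J : ℂ) * D.chi J' := by
    rw [← hG J hJnf Ψ htriv hprim, finsum_eq_sum_of_fintype, hGd]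
    refine Finset.sum_congr rfl fun c _ => ?_
    show psi _ = psi (t * qF ξ e *
      algebraMap (𝓞 M) M (Algebra.intNorm (𝓞 M) (𝓞 E) (out c)))
    rw [Algebra.algebraMap_intNorm (L := E), qF, qF, nM, nM, map_mul]
    congr 1
    ring
  have hperY : ∀ y y' : 𝓞 E, y - y' ∈ J' →
      psi (t * qF ξ (e * (y : E))) = psi (t * qF ξ (e * (y' : E))) := fun y y' h => by
    rw [show e * (y : E) = e * (y' : E) + ((y - y' : 𝓞 E) : E) * e by push_cast; ring]
    exact hper (hey y') (FractionalIdeal.mul_mem_mul ((mem_coeIdeal _).2 ⟨_, h, rfl⟩) heR)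
  have hbracket : ∀ w ∈ dualSet D.toQuad ξ (D.lat (r' : (FIE E)ˣ)),
      ∑ c : 𝓞 E ⧸ J', psi (t * qF ξ (β + l (out c))) *
        eQ (bil D.toQuad ξ ((β + l (out c)) * (algebraMap M E (A : M))⁻¹) w) *
          psi (C / (A : M) * qF ξ w) = eQ (bil D.toQuad ξ β' w) * G := by
    intro w hw
    obtain ⟨y₀, hy₀⟩ := hsurj _ (hL0r (hCw w hw))
    have hterm : ∀ c : 𝓞 E ⧸ J', psi (t * qF ξ (β + l (out c))) *
        eQ (bil D.toQuad ξ ((β + l (out c)) * (algebraMap M E (A : M))⁻¹) w) *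
          psi (C / (A : M) * qF ξ w) =
        eQ (bil D.toQuad ξ β' w) *
          psi (t * qF ξ (e * (out (c + Ideal.Quotient.mk J' y₀) : E))) := by
      intro c
      set v := β + l (out c) with hvd
      have hbp : ∀ u : E, eQ (bil D.toQuad ξ u w) =
          psi (ξ * Algebra.trace M E (u * D.conj w)) := fun u => by rw [bil_eq_trace]; rfl
      set vC := v + algebraMap M E C * w with hvC
      have e1 : psi (t * qF ξ v) * eQ (bil D.toQuad ξ (v * (algebraMap M E (A : M))⁻¹) w) *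
          psi (C / (A : M) * qF ξ w) = psi (t * qF ξ vC) *
            (eQ (bil D.toQuad ξ (algebraMap M E Dd * vC) w) *
              eQ (bil D.toQuad ξ (-(algebraMap M E Dd * (algebraMap M E C / 2 * w))) w)) := by
        rw [hbp, hbp, hbp, ← psi_add, ← psi_add, ← psi_add, ← psi_add]
        congr 1
        have hw2 : Algebra.trace M E (w * D.conj w) = 2 * nM w := by
          refine FaithfulSMul.algebraMap_injective M E ?_
          rw [D.algebraMap_trace, map_mul D.conj, D.conj_conj, nM, map_mul (algebraMap M E),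
            D.algebraMap_norm, map_ofNat]
          ring
        have s1 : Algebra.trace M E (v * (algebraMap M E (A : M))⁻¹ * D.conj w) =
            (A : M)⁻¹ * Algebra.trace M E (v * D.conj w) := by
          rw [show v * (algebraMap M E (A : M))⁻¹ * D.conj w = ((A : M)⁻¹) • (v * D.conj w) by
            rw [Algebra.smul_def, map_inv₀]; ring, map_smul, smul_eq_mul]
        have s2 : Algebra.trace M E (algebraMap M E Dd * vC * D.conj w) =
            Dd * (Algebra.trace M E (v * D.conj w) + C * Algebra.trace M E (w * D.conj w)) := by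
          rw [show algebraMap M E Dd * vC * D.conj w =
            Dd • (v * D.conj w + C • (w * D.conj w)) by
              rw [hvC, Algebra.smul_def, Algebra.smul_def]; ring, map_smul, map_add, map_smul,
            smul_eq_mul, smul_eq_mul]
        have s3 : Algebra.trace M E
            (-(algebraMap M E Dd * (algebraMap M E C / 2 * w)) * D.conj w) =
            -(Dd * C / 2) * Algebra.trace M E (w * D.conj w) := by
          rw [show -(algebraMap M E Dd * (algebraMap M E C / 2 * w)) * D.conj w =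
            (-(Dd * C / 2)) • (w * D.conj w) by
              rw [Algebra.smul_def, map_neg, map_div₀, map_mul, map_ofNat]; ring, map_smul,
            smul_eq_mul]
        have s4 : qF ξ vC = qF ξ v + C * (ξ * Algebra.trace M E (v * D.conj w)) +
            C ^ 2 * qF ξ w := by
          rw [hvC, qF_add D.toQuad, qF, qF, qF, nM_smul D.toQuad,
            show v * D.conj (algebraMap M E C * w) = C • (v * D.conj w) by
              rw [map_mul D.conj, D.conj_algebraMap, Algebra.smul_def]; ring, map_smul,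
            smul_eq_mul]
          ring
        rw [s1, s2, s3, s4, hw2, ht, qF, qF]
        field_simp
        linear_combination (-(ξ * Algebra.trace M E (v * D.conj w)) -
          C * ξ * nM w) * hdet'
      rw [e1]
      have hd1 : eQ (bil D.toQuad ξ (algebraMap M E Dd * vC) w) =
          eQ (bil D.toQuad ξ β' w) := by
        have hm : (algebraMap M E Dd * β - β') + algebraMap M E Dd * (l (out c) +
            algebraMap M E C * w) ∈ L1 :=
          Submodule.add_mem _ hDβ (hDL _ (Submodule.add_mem _ (hl0 _) (hCw w hw)))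
        obtain ⟨n, hn⟩ := hw _ hm
        rw [show algebraMap M E Dd * vC = β' + ((algebraMap M E Dd * β - β') +
          algebraMap M E Dd * (l (out c) + algebraMap M E C * w)) by rw [hvC, hvd]; ring,
          map_add, LinearMap.add_apply, eQ_add, hn, eQ_int, mul_one]
      have hd2 : eQ (bil D.toQuad ξ (-(algebraMap M E Dd * (algebraMap M E C / 2 * w))) w) = 1 := by
        obtain ⟨n, hn⟩ := hw _ (Submodule.neg_mem _ (hDL _ (hhalf w hw)))
        rw [hn, eQ_int]
      rw [hd1, hd2, mul_one, mul_comm]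
      congr 1
      have hm : vC - e * ((out c + y₀ : 𝓞 E) : E) ∈ (J' : FIE E) * R0 := by
        rw [show vC - e * ((out c + y₀ : 𝓞 E) : E) =
          (β + l (out c) - e * (out c : E)) + (algebraMap M E C * w - e * (y₀ : E)) by
            rw [hvC, hvd]; push_cast; ring]
        exact Submodule.add_mem _ (hlJ _) hy₀
      rw [show vC = e * ((out c + y₀ : 𝓞 E) : E) + (vC - e * ((out c + y₀ : 𝓞 E) : E)) by ring,
        hper (hey _) hm]
      refine hperY _ _ (Ideal.Quotient.eq.1 ?_)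
      rw [map_add, hout, hout]
    rw [Finset.sum_congr rfl fun c _ => hterm c, ← Finset.mul_sum, hGd]
    congr 1
    exact Equiv.sum_comp (Equiv.addRight (Ideal.Quotient.mk J' y₀))
      (fun c => psi (t * qF ξ (e * (out c : E))))
  -- Poisson summation
  obtain ⟨κ, hκ⟩ := exists_poisson D.toQuad ξ (D.lat (r' : (FIE E)ˣ)) (hgen.ne_zero D)
  set y' := actInf δ x with hy'
  set c0 : ℂ := ((|(Algebra.norm ℚ (A : M)⁻¹ : ℚ)| : ℝ) : ℂ) with hc0
  have hmainS : ∀ s, ∑' m : Latt (D.lat (r : (FIE E)ˣ)), term D.toQuad ξ x s (β + m) =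
      c0 * G * ∑' u : Latt (D.lat (r' : (FIE E)ˣ)), term D.toQuad ξ y' s (β' + u) := by
    intro s
    set X1 := invX (translate (RS.embF (C / (A : M))) (invX y')) with hX1
    have hx : x = translate (RS.embF t) (scaleX (A : M)⁻¹ X1) := by
      have h := eq_chain_actInf δ hdet (by rw [hA]; exact hAM) x
      rwa [hA] at h
    have hterm : ∀ cu : (𝓞 E ⧸ J') × Latt (D.lat (r' : (FIE E)ˣ)),
        term D.toQuad ξ x s (β + (l (out cu.1) + algebraMap M E (A : M) * (cu.2 : E))) =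
          c0 * psi (t * qF ξ (β + l (out cu.1))) *
            term D.toQuad ξ X1 s
              ((β + l (out cu.1)) * (algebraMap M E (A : M))⁻¹ + (cu.2 : E)) := by
      intro cu
      rw [← add_assoc, hx, term_translate, term_scale _ _ _ _ (inv_ne_zero hAM),
        hper (Submodule.add_mem _ hβR (hL0r (hl0 _))) (hJL (hmemA _ cu.2.2)),
        map_inv₀ (algebraMap M E),
        show (algebraMap M E (A : M))⁻¹ * (β + l (out cu.1) + algebraMap M E (A : M) * (cu.2 : E)) =
          (β + l (out cu.1)) * (algebraMap M E (A : M))⁻¹ + (cu.2 : E) by field_simp, hc0]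
      ring
    have hsum : Summable fun cu : (𝓞 E ⧸ J') × Latt (D.lat (r' : (FIE E)ˣ)) =>
        term D.toQuad ξ x s (β + ((Equiv.ofBijective _ hbij cu : Latt (D.lat (r : (FIE E)ˣ))) : E)) :=
      ((Equiv.ofBijective _ hbij).summable_iff (f := fun m : Latt (D.lat (r : (FIE E)ˣ)) =>
        term D.toQuad ξ x s (β + (m : E)))).2
        (summable_norm_term D.toQuad ξ _ (hgen.ne_zero D) β x s).of_norm
    rw [← (Equiv.ofBijective _ hbij).tsum_eq, hsum.tsum_prod, tsum_fintype]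
    have hterm' : ∀ (c : 𝓞 E ⧸ J') (u : Latt (D.lat (r' : (FIE E)ˣ))),
        term D.toQuad ξ x s (β + (l (out c) + algebraMap M E (A : M) * (u : E))) =
          c0 * psi (t * qF ξ (β + l (out c))) * term D.toQuad ξ X1 s
            ((β + l (out c)) * (algebraMap M E (A : M))⁻¹ + (u : E)) := fun c u => hterm (c, u)
    simp only [Equiv.ofBijective_apply, hterm', tsum_mul_left]
    have hin : ∀ c : 𝓞 E ⧸ J', HasSum (fun w : dualSet D.toQuad ξ (D.lat (r' : (FIE E)ˣ)) =>
        c0 * κ * term D.toQuad ξ (invX y') s (w : E) * (psi (t * qF ξ (β + l (out c))) *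
          eQ (bil D.toQuad ξ ((β + l (out c)) * (algebraMap M E (A : M))⁻¹) (w : E)) *
            psi (C / (A : M) * qF ξ (w : E))))
        (c0 * psi (t * qF ξ (β + l (out c))) * ∑' u : Latt (D.lat (r' : (FIE E)ˣ)),
          term D.toQuad ξ X1 s ((β + l (out c)) * (algebraMap M E (A : M))⁻¹ + (u : E))) := by
      intro c
      refine ((hκ X1 s _).mul_left _).congr_fun fun w => ?_
      rw [hX1, invX_invX, term_translate]
      ring
    have hL := hasSum_sum (s := Finset.univ) fun c _ => hin c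
    have hR := (hκ y' s β').mul_left (c0 * G)
    rw [← hL.tsum_eq, ← hR.tsum_eq]
    refine tsum_congr fun w => ?_
    rw [← Finset.mul_sum, hbracket w w.2]
    ring
  -- the constant
  have hconst : c0 * G = D.chi z' / (Ideal.absNorm z : ℂ) := by
    have hchi : D.chi J' = D.chi z' := by
      have h1 : D.chi z' * D.chi J' = 1 := by
        rw [← D.chi_mul _ _ hzf hJf, hz', hJ', ← Ideal.map_mul, ← hJ, Ideal.map_span,
          Set.image_singleton]
        refine D.chi_one _ ((map_ne_zero_iff _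
          (FaithfulSMul.algebraMap_injective (𝓞 M) (𝓞 E))).2 hA0) ?_
        rw [← map_one (algebraMap (𝓞 M) (𝓞 E)), ← map_sub]
        exact Ideal.mem_map_of_mem _ hA1
      have h2 := D.chi_map_sq hznf
      rw [← hz', sq] at h2
      exact mul_left_cancel₀ (D.chi_ne_zero hzf) (h1.trans h2.symm)
    have hnorm : ((|(Algebra.norm ℚ (A : M) : ℚ)| : ℝ) : ℂ) =
        (Ideal.absNorm z : ℂ) * (Ideal.absNorm J : ℂ) := by
      rw [← Nat.cast_mul, ← map_mul, ← hJ, Ideal.absNorm_span_singleton, ← Algebra.coe_norm_int]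
      push_cast
      rw [Nat.cast_natAbs]
      norm_cast
    have hJN : (Ideal.absNorm J : ℂ) ≠ 0 :=
      Nat.cast_ne_zero.2 fun h => hJ0 (Ideal.absNorm_eq_zero_iff.1 h)
    have hinv : Algebra.norm ℚ ((A : M)⁻¹) = (Algebra.norm ℚ (A : M))⁻¹ :=
      eq_inv_of_mul_eq_one_left (by rw [← map_mul, inv_mul_cancel₀ hAM, map_one])
    rw [hGval, hchi, hc0, hinv, Rat.cast_inv, abs_inv, Complex.ofReal_inv, hnorm, mul_inv]
    field_simp
  have hLHS : ∑' v : D.vset (r : (FIE E)ˣ), termW D.toQuad W ξ x (v : E) =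
      ser D.toQuad W ξ (D.lat (r : (FIE E)ˣ)) β (fun _ => 1) x := by
    rw [ser, ← (D.vsetEquiv r).tsum_eq]
    exact tsum_congr fun v => (one_mul _).symm
  have hRHS : ∑' v : D.vset (r' : (FIE E)ˣ), termW D.toQuad W ξ y' (v : E) =
      ser D.toQuad W ξ (D.lat (r' : (FIE E)ˣ)) β' (fun _ => 1) y' := by
    rw [ser, ← (D.vsetEquiv r').tsum_eq]
    exact tsum_congr fun v => (one_mul _).symm
  rw [hLHS, hRHS, ser_eq_integral _ _ _ _ hW (hgen.ne_zero D) (B := 1) (fun _ => by simp),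
    ser_eq_integral _ _ _ _ hW (hgen.ne_zero D) (B := 1) (fun _ => by simp), ← hconst,
    ← integral_const_mul]
  refine integral_congr_ae (Eventually.of_forall fun s => ?_)
  simp only [one_mul, hmainS s]
  ring

/-- Sums over the parameters only depend on the predicate. -/
theorem finsum_Xi_congr {a a' : (FIM M)ˣ} {r r' : (FIE E)ˣ}
    (h : ∀ ξ, D.IsGen a r ξ ↔ D.IsGen a' r' ξ) (F : M → ℂ) :
    ∑ᶠ q : D.Xi a r, F (Quotient.out (s := D.genSetoid a r) q).1 =
      ∑ᶠ q : D.Xi a' r', F (Quotient.out (s := D.genSetoid a' r') q).1 := by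
  have key : ∀ (P P' : M → Prop) (s : Setoid {ξ : M // P ξ}) (s' : Setoid {ξ : M // P' ξ}), P = P' →
      (∀ x hx hx' y hy hy', s.r ⟨x, hx⟩ ⟨y, hy⟩ ↔ s'.r ⟨x, hx'⟩ ⟨y, hy'⟩) →
      ∑ᶠ q : Quotient s, F (Quotient.out q).1 = ∑ᶠ q : Quotient s', F (Quotient.out q).1 := by
    intro P P' s s' hP hs
    subst hP
    obtain rfl : s = s' := Setoid.ext fun u v => hs u.1 u.2 u.2 v.1 v.2 v.2
    rfl
  exact key _ _ _ _ (funext fun ξ => propext (h ξ)) fun _ _ _ _ _ _ => Iff.rfl

/-- Generators for `a z²` and `r / z`. -/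
theorem isGen_div_iff {a zu : (FIM M)ˣ} {r Z : (FIE E)ˣ} (hZ : (Z : FIE E) = extI M E (zu : FIM M))
    (ξ : M) : D.IsGen (a * zu * zu) (r * Z⁻¹) ξ ↔ D.IsGen a r ξ := by
  have hc : D.conjI ((Z⁻¹ : (FIE E)ˣ) : FIE E) = ((Z⁻¹ : (FIE E)ˣ) : FIE E) := by
    rw [Units.val_inv_eq_inv_val, map_inv₀, hZ, D.conjI_extI]
  have h : (extI M E (zu : FIM M)) * ((Z⁻¹ : (FIE E)ˣ) : FIE E) = 1 := by
    rw [← hZ, Units.mul_inv]
  simp only [IsGen, Units.val_mul, map_mul, hc]
  rw [show spanSingleton (𝓞 E)⁰ (algebraMap M E ξ) *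
      (extI M E (a : FIM M) * extI M E (zu : FIM M) * extI M E (zu : FIM M)) *
      ((r : FIE E) * ((Z⁻¹ : (FIE E)ˣ) : FIE E) *
        (D.conjI (r : FIE E) * ((Z⁻¹ : (FIE E)ˣ) : FIE E))) =
    spanSingleton (𝓞 E)⁰ (algebraMap M E ξ) * extI M E (a : FIM M) *
      ((r : FIE E) * D.conjI (r : FIE E)) *
      ((extI M E (zu : FIM M)) * ((Z⁻¹ : (FIE E)ˣ) : FIE E)) *
      ((extI M E (zu : FIM M)) * ((Z⁻¹ : (FIE E)ˣ) : FIE E)) by ring, h, mul_one, mul_one]

/-- The transformation of the normalised theta function. -/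
theorem thetaN_transform {W : (InfinitePlace M → ℝ) → ℝ} {R : D.Cl → D.primeGroup}
    (hW : D.IsWeight W) (hR : D.IsReps R) {N : ℕ} (hlev : D.IsLev N) (a : (FIM M)ˣ)
    {z : Ideal (𝓞 M)} (zu : (FIM M)ˣ) (hz : (zu : FIM M) = (z : FIM M))
    {δ : GL (Fin 2) M} (hdet : (δ : Matrix (Fin 2) (Fin 2) M).det = 1) {A : 𝓞 M}
    (hA : δ 0 0 = (A : M)) (hAz : A ∈ z) (hA1 : A - 1 ∈ D.nf)
    (hB : spanSingleton (𝓞 M)⁰ (δ 0 1) ≤
      spanSingleton (𝓞 M)⁰ (N : M) * (z : FIM M) * (a : FIM M))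
    (hC : spanSingleton (𝓞 M)⁰ (δ 1 0) * (z : FIM M) * (a : FIM M) ≤
      spanSingleton (𝓞 M)⁰ (N : M))
    (hD : spanSingleton (𝓞 M)⁰ (δ 1 1) * (z : FIM M) ≤ 1) (x : Xinf M) :
    D.thetaN W R (a * zu * zu) (actInf δ x) = D.thetaN W R a x := by
  classical
  haveI := Fintype.ofFinite D.Cl
  have hzle : z ⊔ D.nf = ⊤ := (Ideal.eq_top_iff_one _).2 (Submodule.mem_sup.2
    ⟨A, hAz, -(A - 1), D.nf.neg_mem hA1, by ring⟩)
  have hzf := D.sup_map_eq_top hzle
  set Z : D.primeGroup := ⟨D.unitI _ hzf, D.unitI_mem _ hzf⟩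
  have hZ : ((Z : (FIE E)ˣ) : FIE E) = extI M E (zu : FIM M) := by
    rw [hz, extI_coe]; rfl
  set cz : D.Cl := QuotientGroup.mk Z
  have hcz : D.chiCl cz = D.chi (z.map (algebraMap (𝓞 M) (𝓞 E))) := D.chiCl_cls hzf
  set R' : D.Cl → D.primeGroup := fun c => R (c * cz) * Z⁻¹
  have hR' : D.IsReps R' := fun c => by
    show QuotientGroup.mk (R (c * cz) * Z⁻¹) = c
    rw [QuotientGroup.mk_mul, hR, QuotientGroup.mk_inv, mul_inv_cancel_right]
  set y := actInf δ x
  set K := D.chi (z.map (algebraMap (𝓞 M) (𝓞 E))) / (Ideal.absNorm z : ℂ)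
  set S : D.Cl → ℂ := fun c =>
    ∑ᶠ q : D.Xi (a * zu * zu) ((R c * Z⁻¹ : D.primeGroup) : (FIE E)ˣ),
      D.part W (a * zu * zu) _ q y
  have hcomp : ∀ c, ∑ᶠ q : D.Xi a ((R c : (FIE E)ˣ)), D.part W a _ q x = K * S c := by
    intro c
    refine (D.finsum_Xi_congr (a := a * zu * zu) (r := ((R c * Z⁻¹ : D.primeGroup) : (FIE E)ˣ))
      (D.isGen_div_iff hZ) (fun ξ => ∑' v : D.vset ((R c : (FIE E)ˣ)),
        termW D.toQuad W ξ x (v : E))).symm.trans ?_
    simp only [S]
    haveI := Fintype.ofFinite (D.Xi (a * zu * zu) ((R c * Z⁻¹ : D.primeGroup) : (FIE E)ˣ))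
    rw [finsum_eq_sum_of_fintype, finsum_eq_sum_of_fintype, Finset.mul_sum]
    refine Finset.sum_congr rfl fun q _ => ?_
    refine D.tsum_vset_transform hW.toIsTorusWeight (fun b hb Ψ h1 h2 => gauss_sum D b hb Ψ h1 h2)
      hlev (r := R c) (r' := R c * Z⁻¹) ((D.isGen_div_iff hZ _).1 (Quotient.out q).2) ?_ hdet hA
      hAz hA1 hB hC hD x
    rw [← extI_coe, ← hz, ← hZ, Subgroup.coe_mul, Subgroup.coe_inv, Units.val_mul,
      mul_assoc, Units.inv_mul, mul_one]
  have hz0 : (Ideal.absNorm z : ℂ) ≠ 0 := Nat.cast_ne_zero.2 fun h => D.nf_ne_top (by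
    rwa [Ideal.absNorm_eq_zero_iff.1 h, bot_sup_eq] at hzle)
  have hθ : D.theta W R a x = (Ideal.absNorm z : ℂ)⁻¹ * D.theta W R (a * zu * zu) y := by
    rw [D.theta_eq_of_reps hW hR hR' (a * zu * zu), theta, theta, finsum_eq_sum_of_fintype,
      finsum_eq_sum_of_fintype, Finset.mul_sum]
    rw [← Equiv.sum_comp (Equiv.mulRight cz)
      (fun c : D.Cl => (D.chiCl c)⁻¹ * ∑ᶠ q : D.Xi a ((R c : (FIE E)ˣ)), D.part W a _ q x)]
    refine Finset.sum_congr rfl fun c _ => ?_
    show (D.chiCl (c * cz))⁻¹ * _ = _ * ((D.chiCl c)⁻¹ * S (c * cz))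
    rw [hcomp, D.chiCl_mul, hcz, mul_inv]
    simp only [K]
    field_simp [D.chi_ne_zero hzf]
    rfl
  have hcN : cN ((a * zu * zu : (FIM M)ˣ) : FIM M) = cN (a : FIM M) / (Ideal.absNorm z : ℝ) := by
    simp only [cN, Units.val_mul, map_mul, hz, coeIdeal_absNorm]
    push_cast
    rw [mul_assoc, ← sq, Real.sqrt_mul' _ (sq_nonneg _), Real.sqrt_sq (Nat.cast_nonneg _), mul_inv,
      div_eq_mul_inv]
  rw [thetaN, thetaN, hθ, hcN]
  push_cast
  ring

end Data

end FLTAgent.LT.ThetaM
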