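import Fermat.Agent.LT.ThetaM.FormAux
import Fermat.Agent.LT.ThetaM.Cusp
import Fermat.Agent.LT.ThetaM.Transform
import Fermat.Agent.LT.Hyp.Moments

/-!
# The adelic theta function

`g = γ · diag(det g) · k` gives the value `thetaN` of the idele `det g` at `γ⁻¹ x`.  It is a cusp
form with trivial central character and spectral parameter `0`.
-/

set_option autoImplicit false
set_option linter.style.haveILetI false
set_option linter.unusedSectionVars false

noncomputable section

namespace FLTAgent.LT.ThetaM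

open NumberField IsDedekindDomain MeasureTheory Complex Matrix
open FractionalIdeal (spanSingleton)
open scoped Real nonZeroDivisors

variable {M E : Type} [Field M] [NumberField M] [Field E] [NumberField E] [Algebra M E]

/-- An idele is a global element times one integral and congruent to one. -/
theorem exists_scalar_split {N : ℕ} (hN : 0 < N) (a : (Af M)ˣ) :
    ∃ (η : Mˣ) (z : (Af M)ˣ), a = gIdele η * z ∧
      (∀ v : HeightOneSpectrum (𝓞 M), Valued.v ((z : Af M) v) ≤ 1) ∧
      ∀ v : HeightOneSpectrum (𝓞 M),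
        Valued.v (((z : Af M) - 1 : Af M) v) ≤ Valued.v ((N : Af M) v) := by
  classical
  obtain ⟨n, hn, hna⟩ := Red.exists_natCast_le a⁻¹
  obtain ⟨y₀, hy₀⟩ := Red.exists_sub_le ((a⁻¹ : (Af M)ˣ) : Af M) (Nat.mul_pos hN hn)
  set y : M := if y₀ = 0 then ((N * n : ℕ) : M) else y₀ with hy
  have hy0 : y ≠ 0 := by
    rw [hy]
    split_ifs with h
    · exact Nat.cast_ne_zero.2 (Nat.mul_pos hN hn).ne'
    · exact h
  have hy' : ∀ v : HeightOneSpectrum (𝓞 M),
      Valued.v ((((a⁻¹ : (Af M)ˣ) : Af M) - algebraMap M (Af M) y) v) ≤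
        Valued.v (((N * n : ℕ) : Af M) v) := by
    intro v
    rw [hy]
    split_ifs with h
    · have h0 := hy₀ v
      rw [h, map_zero, sub_zero] at h0
      rw [map_natCast]
      exact (Valued.v.map_sub _ _).trans (max_le h0 le_rfl)
    · exact hy₀ v
  set η : Mˣ := Units.mk0 y hy0
  have hzN : ∀ v : HeightOneSpectrum (𝓞 M),
      Valued.v (((((a * gIdele η : (Af M)ˣ)) : Af M) - 1 : Af M) v) ≤
        Valued.v ((N : Af M) v) := by
    intro v
    have e : (((a * gIdele η : (Af M)ˣ)) : Af M) - 1 =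
        -((a : Af M) * (((a⁻¹ : (Af M)ˣ) : Af M) - algebraMap M (Af M) y)) := by
      rw [mul_sub, Units.mul_inv, neg_sub, Units.val_mul]
      rfl
    rw [e]
    show Valued.v (-((a : Af M) v * _)) ≤ _
    rw [Valuation.map_neg, map_mul]
    refine (mul_le_mul' le_rfl (hy' v)).trans ?_
    rw [Nat.cast_mul, RS.af_mul_apply, map_mul, mul_left_comm]
    refine mul_le_of_le_one_right' ?_
    refine (mul_le_mul' le_rfl (hna v)).trans_eq ?_
    rw [Red.valued_inv, mul_inv_cancel₀ ((map_ne_zero _).2 (Red.unit_apply_ne_zero a v))]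
  refine ⟨η⁻¹, a * gIdele η, ?_, fun v => ?_, hzN⟩
  · rw [gIdele, gIdele, map_inv, mul_left_comm, inv_mul_cancel, mul_one]
  · rw [show ((a * gIdele η : (Af M)ˣ) : Af M) =
      (((a * gIdele η : (Af M)ˣ) : Af M) - 1) + 1 from (sub_add_cancel _ _).symm]
    exact Valued.v.map_add_le ((hzN v).trans (Red.valued_natCast_le_one N v)) (map_one _).le

theorem continuous_actInf (γ : GL (Fin 2) M) : Continuous (actInf γ) :=
  continuous_pi fun _ => (Hyp.continuous_act _).comp (continuous_apply _)

theorem actInf_update [DecidableEq (InfinitePlace M)] (γ : GL (Fin 2) M) (x : Xinf M)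
    (w : InfinitePlace M) (q : H3) :
    actInf γ (Function.update x w q) =
      Function.update (actInf γ x) w (act (Matrix.GeneralLinearGroup.map w.embedding γ) q) := by
  funext w'
  rcases eq_or_ne w' w with rfl | h
  · simp [actInf]
  · simp [actInf, Function.update_of_ne h]

theorem wProd_update [DecidableEq (InfinitePlace M)] (y : Xinf M) (w : InfinitePlace M) (q : H3)
    (ξ : M) :
    wProd (Function.update y w q) ξ = wTerm q (w.embedding ξ) *
      ∏ w' ∈ Finset.univ.erase w, wTerm (y w') (w'.embedding ξ) := by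
  rw [wProd, ← Finset.mul_prod_erase _ _ (Finset.mem_univ w), Function.update_self]
  congr 1
  exact Finset.prod_congr rfl fun w' hw' => by
    rw [Function.update_of_ne (Finset.ne_of_mem_erase hw')]

theorem continuous_wTerm_fst {ξ : ℂ} (hξ : ξ ≠ 0) : Continuous fun p : H3 => wTerm p ξ := by
  have ht : Continuous fun p : H3 => (p.2 : ℝ) := continuous_subtype_val.comp continuous_snd
  exact (Complex.continuous_ofReal.comp (ht.mul (continuousOn_bK.comp_continuous
    (ht.mul continuous_const) fun p => mul_pos p.2.2 (norm_pos_iff.2 hξ)))).mul (by fun_prop)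

/-- Heights inside a hyperbolic ball. -/
theorem snd_bounds {p q : H3} {R : ℝ} (h : coshDist p q ≤ R) :
    (q.2 : ℝ) ≤ 2 * R * p.2 ∧ (p.2 : ℝ) / (2 * R) ≤ q.2 := by
  have hp : (0 : ℝ) < p.2 := p.2.2
  have hq : (0 : ℝ) < q.2 := q.2.2
  have h0 : (1 : ℝ) ≤ R := (Hyp.one_le_coshDist p q).trans h
  have h' : (Complex.normSq (p.1 - q.1) + ((p.2 : ℝ) - q.2) ^ 2) / (2 * p.2 * q.2) ≤ R - 1 := by
    rw [coshDist] at h
    linarith
  rw [div_le_iff₀ (by positivity)] at h'
  have h2 : ((p.2 : ℝ)) ^ 2 + (q.2 : ℝ) ^ 2 ≤ 2 * R * p.2 * q.2 := by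
    nlinarith [Complex.normSq_nonneg (p.1 - q.1)]
  refine ⟨le_of_mul_le_mul_right ?_ hq, (div_le_iff₀ (by positivity)).2 (le_of_mul_le_mul_right ?_ hp)⟩
  · nlinarith [sq_nonneg (p.2 : ℝ)]
  · nlinarith [sq_nonneg (q.2 : ℝ)]

/-- A Whittaker term inside a ball against one at its lowest height. -/
theorem norm_wTerm_le_of_coshDist {p q : H3} {R : ℝ} (h : coshDist p q ≤ R) {p₀ : H3}
    (hp₀ : (p₀.2 : ℝ) = p.2 / (2 * R)) {ξ : ℂ} (hξ : ξ ≠ 0) :
    ‖wTerm q ξ‖ ≤ 4 * R ^ 2 * ‖wTerm p₀ ξ‖ := by
  obtain ⟨hu, hl⟩ := snd_bounds h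
  have hR : (0 : ℝ) < R := one_pos.trans_le ((Hyp.one_le_coshDist p q).trans h)
  have hp : (0 : ℝ) < p.2 := p.2.2
  have hn : 0 < ‖ξ‖ := norm_pos_iff.2 hξ
  rw [norm_wTerm, norm_wTerm, hp₀]
  calc (q.2 : ℝ) * bK ((q.2 : ℝ) * ‖ξ‖)
      ≤ 2 * R * p.2 * bK ((p.2 : ℝ) / (2 * R) * ‖ξ‖) :=
        mul_le_mul hu (bK_anti (by positivity) (mul_le_mul_of_nonneg_right hl hn.le))
          (bK_nonneg _) (by positivity)
    _ = _ := by field_simp; ring

variable [IsTotallyComplex M]

namespace Data

variable (D : Data M E) {W : (InfinitePlace M → ℝ) → ℝ} {R : D.Cl → D.primeGroup} {N : ℕ}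

/-- The adelic theta function. -/
def thetaForm (W : (InfinitePlace M → ℝ) → ℝ) (R : D.Cl → D.primeGroup) (hN : 0 < N) : Form M :=
  fun x g => D.thetaN W R (fId (Matrix.GeneralLinearGroup.det g))
    (actInf (exists_decomp g hN).choose⁻¹ x)

theorem continuous_theta (hW : IsTorusWeight W) (a : (FIM M)ˣ) :
    Continuous (D.theta W R a) := by
  classical
  haveI := Fintype.ofFinite D.Cl
  haveI := fun c : D.Cl => Fintype.ofFinite (D.Xi a ((R c : (FIE E)ˣ)))
  rw [show D.theta W R a = fun x => ∑ c : D.Cl, (D.chiCl c)⁻¹ *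
      ∑ q : D.Xi a (R c : (FIE E)ˣ), D.part W a _ q x from funext fun x => by
    rw [Data.theta, finsum_eq_sum_of_fintype]
    simp only [finsum_eq_sum_of_fintype]]
  refine continuous_finsetSum _ fun c _ => continuous_const.mul (continuous_finsetSum _ fun q _ => ?_)
  rw [funext (D.part_eq_ser W a (R c) q)]
  exact continuous_ser D.toQuad _ _ _ hW
    ((Quotient.out (s := D.genSetoid a (R c : (FIE E)ˣ)) q).2.ne_zero D) (B := 1)
    fun _ => norm_one.le

variable (hW : D.IsWeight W) (hR : D.IsReps R) (hlev : D.IsLev N) (hT : D.Transforms W R N)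

include hW hR hlev hT in
/-- The value on any decomposition, also after a scalar congruent to one. -/
theorem thetaForm_eq {g k : GF M} {γ : GL (Fin 2) M} {b z : (Af M)ˣ} (hk : InLevel N k)
    (hz1 : ∀ v : HeightOneSpectrum (𝓞 M), Valued.v ((z : Af M) v) ≤ 1)
    (hzN : ∀ v : HeightOneSpectrum (𝓞 M),
      Valued.v (((z : Af M) - 1 : Af M) v) ≤ Valued.v ((N : Af M) v))
    (h : g * scalarGF z = toFin γ * diagGF b * k) (x : Xinf M) :
    D.thetaForm W R hlev.1 x g = D.thetaN W R (fId b) (actInf γ⁻¹ x) := by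
  obtain ⟨k₀, hk₀, hg⟩ := (exists_decomp g hlev.1).choose_spec
  set γ₀ := (exists_decomp g hlev.1).choose
  set b₀ := Matrix.GeneralLinearGroup.det g
  have key : toFin (γ⁻¹ * γ₀) * diagGF b₀ * scalarGF z = diagGF b * (k * k₀⁻¹) := by
    calc toFin (γ⁻¹ * γ₀) * diagGF b₀ * scalarGF z
        = (toFin γ)⁻¹ * (toFin γ₀ * diagGF b₀ * k₀) * (k₀⁻¹ * scalarGF z) := by
          rw [map_mul, map_inv]; group
      _ = (toFin γ)⁻¹ * (g * scalarGF z) * k₀⁻¹ := by
          rw [← hg, ← Red.scalarGF_comm]; group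
      _ = _ := by rw [h]; group
  have := D.thetaN_of_toFin_eq hW hR hlev hT (Red.InLevel.mul hk (Red.InLevel.inv hk₀)) hz1 hzN key
    (actInf γ₀⁻¹ x)
  rw [← actInf_mul, mul_inv_cancel_right] at this
  exact this.symm

include hW hR hlev hT in
theorem thetaForm_eq_one {g k : GF M} {γ : GL (Fin 2) M} {b : (Af M)ˣ} (hk : InLevel N k)
    (h : g = toFin γ * diagGF b * k) (x : Xinf M) :
    D.thetaForm W R hlev.1 x g = D.thetaN W R (fId b) (actInf γ⁻¹ x) :=
  D.thetaForm_eq hW hR hlev hT (z := 1) hk (fun _ => (map_one _).le)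
    (fun v => by
      rw [Units.val_one, sub_self, show (0 : Af M) v = 0 from rfl, map_zero]
      exact zero_le)
    (by rw [Red.scalarGF_one, mul_one, h]) x

include hW hR hlev hT in
theorem thetaForm_diag (a : (Af M)ˣ) (x : Xinf M) :
    D.thetaForm W R hlev.1 x (diagGF a) = D.thetaN W R (fId a) x := by
  rw [D.thetaForm_eq_one hW hR hlev hT (Red.InLevel.one N) (γ := 1) (b := a)
    (by rw [map_one, one_mul, mul_one]), inv_one, actInf_one]

include hW hR hlev hT in
theorem automorphic_thetaForm : Automorphic N (D.thetaForm W R hlev.1) where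
  left_inv γ x g := by
    obtain ⟨k, hk, hg⟩ := (exists_decomp g hlev.1).choose_spec
    rw [D.thetaForm_eq_one hW hR hlev hT hk (γ := γ * (exists_decomp g hlev.1).choose)
      (by rw [map_mul, mul_assoc (toFin γ), mul_assoc (toFin γ), ← hg]),
      ← actInf_mul, _root_.mul_inv_rev, inv_mul_cancel_right]
    rfl
  right_inv k hk x g := by
    obtain ⟨k₀, hk₀, hg⟩ := (exists_decomp g hlev.1).choose_spec
    rw [D.thetaForm_eq_one hW hR hlev hT (Red.InLevel.mul hk₀ hk)
      (γ := (exists_decomp g hlev.1).choose) (by rw [← mul_assoc, ← hg])]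
    rfl
  central a x g := by
    obtain ⟨η, z, rfl, hz1, hzN⟩ := exists_scalar_split hlev.1 a
    set g' := g * scalarGF z with hg'
    obtain ⟨γ', k', hk', hd⟩ := exists_decomp g' hlev.1
    have h1 := D.thetaForm_eq hW hR hlev hT hk' hz1 hzN hd
    have h2 : ∀ x, D.thetaForm W R hlev.1 x g' = D.thetaForm W R hlev.1 x g := fun x =>
      (D.thetaForm_eq_one hW hR hlev hT hk' hd x).trans (h1 x).symm
    have e : g * scalarGF (gIdele η * z) = toFin (scalarF η) * g' := by
      rw [toFin_scalarF, hg', mul_comm (gIdele η), Red.scalarGF_mul, ← mul_assoc,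
        ← Red.scalarGF_comm]
    rw [e, ← h2]
    obtain ⟨k, hk, hgd⟩ := (exists_decomp g' hlev.1).choose_spec
    rw [D.thetaForm_eq_one hW hR hlev hT hk (γ := scalarF η * (exists_decomp g' hlev.1).choose)
      (by rw [map_mul, mul_assoc (toFin (scalarF η)), mul_assoc (toFin (scalarF η)), ← hgd]),
      _root_.mul_inv_rev, actInf_mul,
      show (scalarF η)⁻¹ = scalarF η⁻¹ from (map_inv _ η).symm, actInf_scalarF]
    rfl

include hW in
theorem continuous_thetaForm (hN : 0 < N) (g : GF M) :
    Continuous fun x => D.thetaForm W R hN x g :=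
  continuous_const.mul ((D.continuous_theta hW.toIsTorusWeight _).comp (continuous_actInf _))

include hW hR in
theorem exists_bound_thetaForm_at (hN : 0 < N) (g : GF M) {c : ℝ} (hc : 0 < c) :
    ∃ C : ℝ, ∀ x : Xinf M, (∀ w, c ≤ (x w).2) → ‖D.thetaForm W R hN x g‖ ≤ C := by
  obtain ⟨C, hC⟩ := D.exists_bound_theta hW hR (fId (Matrix.GeneralLinearGroup.det g))
    (exists_decomp g hN).choose⁻¹ hc
  refine ⟨|cN (fId (Matrix.GeneralLinearGroup.det g) : FIM M)| * C, fun x hx => ?_⟩
  rw [thetaForm, thetaN, norm_mul, Complex.norm_real, Real.norm_eq_abs]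
  exact mul_le_mul_of_nonneg_left (hC x hx) (abs_nonneg _)

include hW hR hlev hT in
theorem exists_bound_thetaForm : ∃ C : ℝ, ∀ x g, ‖D.thetaForm W R hlev.1 x g‖ ≤ C := by
  classical
  obtain ⟨T, ρ, c, hT', hc, hcov⟩ := Red.exists_cover (F := M) hlev.1
  have ha := D.automorphic_thetaForm hW hR hlev hT
  choose C hC using fun t : Cos M N =>
    D.exists_bound_thetaForm_at hW hR hlev.1 (Quotient.out t) hc
  refine ⟨∑ t ∈ hT'.toFinset, |C t|, fun x g => ?_⟩
  obtain ⟨γ, hγ⟩ := hcov (x, QuotientGroup.mk g)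
  obtain ⟨γ, rfl⟩ := QuotientGroup.mk_surjective γ
  rw [mk_smul, smul_pt_apply] at hγ
  obtain ⟨hγ1, hγ2⟩ := hγ
  set t : Cos M N := toFin γ • (QuotientGroup.mk g : Cos M N)
  obtain ⟨u, hu, hgu⟩ : ∃ u ∈ UZ M N, toFin γ * g = Quotient.out t * u :=
    ⟨(Quotient.out t)⁻¹ * (toFin γ * g), QuotientGroup.eq.1 (Quotient.out_eq t),
      (mul_inv_cancel_left _ _).symm⟩
  obtain ⟨k, hk, a, rfl⟩ := Red.mem_UZ.1 hu
  rw [← ha.left_inv γ x g, hgu, ← mul_assoc, ha.central, ha.right_inv k hk]
  refine (hC t _ fun w => (hγ2 w).2).trans ((le_abs_self _).trans ?_)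
  exact Finset.single_le_sum (fun t _ => abs_nonneg (C t)) (hT'.mem_toFinset.2 hγ1)

include hW hR in
theorem cusp_thetaForm (hN : 0 < N) : Cusp (D.thetaForm W R hN) := by
  intro g m hm hper x
  set a := fId (Matrix.GeneralLinearGroup.det g)
  set γ := (exists_decomp g hN).choose⁻¹
  set φ := D.thetaForm W R hN
  obtain ⟨m₀, hm₀, hbox⟩ := D.exists_box_theta hW hR a γ
  set f : (RS.Idx M → ℝ) → ℂ := fun y => φ (translate (boxVec m y) x) g
  have hz : RS.ZPeriodic f := by
    refine ⟨(D.continuous_thetaForm hW hN g).comp (continuous_pi fun w =>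
      (continuous_const.add ((continuous_apply w).comp (RS.continuous_boxVec m))).prodMk
        continuous_const), fun y v => ?_⟩
    show φ (translate (boxVec m (y + Theta31.rvec v)) x) g = φ (translate (boxVec m y) x) g
    rw [← hper (RS.intOf v) (translate (boxVec m y) x), RS.boxVec_add, RS.boxVec_rvec]
    congr 1
    funext w
    simp [translate, add_assoc]
  have key := RS.fc_dilate hz hm₀ 0
  simp only [smul_zero, RS.fc, neg_zero, Theta31.echar, Pi.zero_apply, Int.cast_zero, zero_mul,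
    Finset.sum_const_zero, mul_zero, Complex.exp_zero, one_mul, f] at key
  show ∫ y in RS.boxSet (RS.Idx M), φ (translate (boxVec m y) x) g = 0
  rw [← key]
  simp only [← RS.boxVec_smul]
  show ∫ y in RS.boxSet (RS.Idx M),
    (cN (a : FIM M) : ℂ) * D.theta W R a (actInf γ (translate (boxVec (m * m₀) y) x)) = 0
  rw [integral_const_mul, hbox _ (Nat.mul_pos hm hm₀) (dvd_mul_left _ _), mul_zero]

include hW hR in
/-- The mean value property of the theta function. -/
theorem mean_value_theta [DecidableEq (InfinitePlace M)] (a : (FIM M)ˣ) (y : Xinf M)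
    (w : InfinitePlace M) {H : ℝ → ℂ} (hc : Continuous H) (hs : HasCompactSupport H) :
    ∫ q, H (coshDist (y w) q) * D.theta W R a (Function.update y w q) ∂hypMeasure =
      (∫ r in Set.Ioi (0 : ℝ), H (Real.cosh r) * ((4 * π * r * Real.sinh r : ℝ) : ℂ)) *
        D.theta W R a y := by
  classical
  set p := y w with hp
  set K := ∫ r in Set.Ioi (0 : ℝ), H (Real.cosh r) * ((4 * π * r * Real.sinh r : ℝ) : ℂ)
  obtain ⟨B, hB⟩ := hs.isCompact.bddAbove
  set ρ := max B 1
  have hρ : (0 : ℝ) < ρ := one_pos.trans_le (le_max_right _ _)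
  have hH : ∀ r, ρ < r → H r = 0 := fun r hr => image_eq_zero_of_notMem_tsupport fun hmem =>
    absurd ((hB hmem).trans (le_max_left B 1)) (not_le.2 hr)
  obtain ⟨CH, hCH⟩ := hc.bounded_above_of_compact_support hs
  have hd : Continuous fun q : H3 => coshDist p q :=
    Hyp.continuous_coshDist.comp (continuous_const.prodMk continuous_id)
  have hHint : Integrable (fun q => H (coshDist p q)) hypMeasure := by
    refine ((Hyp.measurePreserving_act (Hyp.toPt p)).integrable_comp_emb
      (Hyp.measurableEmbedding_act _)).1 ?_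
    refine Hyp.integrable_of_rho_support ((hc.comp hd).comp (Hyp.continuous_act _)) (R := ρ)
      (C := CH) (fun q hq => hH _ ?_) fun q _ => hCH _
    conv_rhs => arg 1; rw [← Hyp.act_toPt_org p]
    rw [Hyp.coshDist_act]
    exact hq
  set p₀ : H3 := (0, ⟨(p.2 : ℝ) / (2 * ρ), Set.mem_Ioi.2 (div_pos p.2.2 (by positivity))⟩)
  set c : {ξ : M // ξ ≠ 0} → ℂ :=
    fun ξ => D.coefFrac (spanSingleton (𝓞 M)⁰ (ξ : M) * (a : FIM M))
  set f : {ξ : M // ξ ≠ 0} → H3 → ℂ :=
    fun ξ q => H (coshDist p q) * (c ξ * wProd (Function.update y w q) (ξ : M))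
  set T : {ξ : M // ξ ≠ 0} → ℝ :=
    fun ξ => 4 * ρ ^ 2 * ‖c ξ * wProd (Function.update y w p₀) (ξ : M)‖
  have hne : ∀ ξ : {ξ : M // ξ ≠ 0}, w.embedding (ξ : M) ≠ 0 := fun ξ =>
    (_root_.map_ne_zero _).2 ξ.2
  have hle : ∀ ξ q, ‖f ξ q‖ ≤ ‖H (coshDist p q)‖ * T ξ := by
    intro ξ q
    simp only [f, norm_mul]
    rcases le_or_gt (coshDist p q) ρ with h | h
    · refine mul_le_mul_of_nonneg_left ?_ (norm_nonneg _)
      simp only [T, norm_mul, wProd_update]
      calc _ ≤ ‖c ξ‖ * (4 * ρ ^ 2 * ‖wTerm p₀ (w.embedding (ξ : M))‖ *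
            ‖∏ w' ∈ Finset.univ.erase w, wTerm (y w') (w'.embedding (ξ : M))‖) :=
            mul_le_mul_of_nonneg_left (mul_le_mul_of_nonneg_right
              (norm_wTerm_le_of_coshDist h rfl (hne ξ)) (norm_nonneg _)) (norm_nonneg _)
        _ = _ := by ring
    · rw [hH _ h, norm_zero, zero_mul, zero_mul]
  have hfc : ∀ ξ, Continuous (f ξ) := fun ξ => by
    simp only [f, wProd_update]
    exact (hc.comp hd).mul (continuous_const.mul
      ((continuous_wTerm_fst (hne ξ)).mul continuous_const))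
  have hfi : ∀ ξ, Integrable (f ξ) hypMeasure := fun ξ =>
    (hHint.norm.mul_const (T ξ)).mono' (hfc ξ).aestronglyMeasurable
      (Filter.Eventually.of_forall (hle ξ))
  have hTs : Summable T := (D.theta_expansion hW R hR a _).1.mul_left _
  haveI : Countable {ξ : M // ξ ≠ 0} :=
    haveI : Countable M := (Module.finBasis ℚ M).equivFun.toEquiv.countable_iff.2 inferInstance
    inferInstance
  have hsum : Summable fun ξ => ∫ q, ‖f ξ q‖ ∂hypMeasure := by
    refine Summable.of_nonneg_of_le (fun ξ => integral_nonneg fun _ => norm_nonneg _) (fun ξ => ?_)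
      (hTs.mul_left (∫ q, ‖H (coshDist p q)‖ ∂hypMeasure))
    rw [← integral_mul_const]
    exact integral_mono (hfi ξ).norm (hHint.norm.mul_const _) (hle ξ)
  have hmain := MeasureTheory.hasSum_integral_of_summable_integral_norm hfi hsum
  have hpt : ∀ q, ∑' ξ, f ξ q = H (coshDist p q) * D.theta W R a (Function.update y w q) :=
    fun q => ((D.theta_expansion hW R hR a (Function.update y w q)).2.mul_left _).tsum_eq
  simp only [hpt] at hmain
  have hval : ∀ ξ, ∫ q, f ξ q ∂hypMeasure = K * (c ξ * wProd y (ξ : M)) := fun ξ => by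
    calc ∫ q, f ξ q ∂hypMeasure
        = ∫ q, (c ξ * ∏ w' ∈ Finset.univ.erase w, wTerm (y w') (w'.embedding (ξ : M))) *
          (H (coshDist p q) * wTerm q (w.embedding (ξ : M))) ∂hypMeasure := by
          refine integral_congr_ae (Filter.Eventually.of_forall fun q => ?_)
          simp only [f, wProd_update]
          ring
      _ = _ := by
          rw [integral_const_mul, mean_value H hc hs p (hne ξ)]
          conv_rhs => rw [← Function.update_eq_self w y, ← hp, wProd_update]
          ring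
  simp only [hval] at hmain
  exact hmain.unique ((D.theta_expansion hW R hR a y).2.mul_left K)

include hW hR in
theorem zeroEigen_thetaForm (hN : 0 < N) : ZeroEigen (D.thetaForm W R hN) := by
  classical
  intro w x g H hc hs
  set a := fId (Matrix.GeneralLinearGroup.det g)
  set γ := (exists_decomp g hN).choose⁻¹
  set gw := Matrix.GeneralLinearGroup.map w.embedding γ
  set F : H3 → ℂ := fun q => H (coshDist (actInf γ x w) q) *
    ((cN (a : FIM M) : ℂ) * D.theta W R a (Function.update (actInf γ x) w q))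
  have h : ∀ q, H (coshDist (x w) q) * D.thetaForm W R hN (Function.update x w q) g =
      F (act gw q) := fun q => by
    show _ * ((cN (a : FIM M) : ℂ) * D.theta W R a (actInf γ (Function.update x w q))) = _
    rw [actInf_update]
    simp only [F]
    rw [show actInf γ x w = act gw (x w) from rfl, Hyp.coshDist_act]
  simp only [h]
  rw [Hyp.integral_act gw F]
  simp only [F, mul_left_comm (H _)]
  rw [integral_const_mul, D.mean_value_theta hW hR a _ w hc hs]
  show _ = _ * ((cN (a : FIM M) : ℂ) * D.theta W R a (actInf γ x))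
  ring

include hW hR hlev in
/-- The transformation formula holds. -/
theorem transforms : D.Transforms W R N := fun a _ zu hz _ hdet _ hA hAz hA1 hB hC hD x =>
  D.thetaN_transform hW hR hlev a zu hz hdet hA hAz hA1 hB hC hD x

include hW hR hlev in
/-- The adelic cusp form of the theta function. -/
theorem exists_form : ∃ φ : Form M, CuspZero N φ ∧
    ∀ (a : (Af M)ˣ) x, φ x (diagGF a) = D.thetaN W R (fId a) x :=
  have hT := D.transforms hW hR hlev
  ⟨D.thetaForm W R hlev.1,
    { cont := fun g => D.continuous_thetaForm hW hlev.1 g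
      bdd := D.exists_bound_thetaForm hW hR hlev hT
      aut := D.automorphic_thetaForm hW hR hlev hT
      cusp := D.cusp_thetaForm hW hR hlev.1
      eigen := D.zeroEigen_thetaForm hW hR hlev.1 },
    D.thetaForm_diag hW hR hlev hT⟩

end Data

end FLTAgent.LT.ThetaM
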