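import Fermat.Agent.LT.ThetaM.Setting
import Fermat.Agent.TW.RayL.UnitWeight
import Mathlib.GroupTheory.FiniteAbelian.Basic
import Mathlib.RingTheory.IntegralClosure.IntegralRestrict

/-!
# The units of norm one of a quadratic extension of a totally complex field

Their logarithms form a full lattice in the space of all places of the base, which gives a weight
whose translates sum to one; and norms of units have finite index.
-/

set_option autoImplicit false
set_option linter.style.haveILetI false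

noncomputable section

namespace FLTAgent.LT.ThetaM

open NumberField NumberField.InfinitePlace NumberField.Units
  NumberField.Units.dirichletUnitTheorem

variable {M E : Type} [Field M] [NumberField M] [Field E] [NumberField E] [Algebra M E]

/-- An element congruent to one has a power congruent to one. -/
theorem exists_pow_mem_unitsMod {f : Ideal (𝓞 E)} (hf : f ≠ ⊥) :
    ∃ n : ℕ, n ≠ 0 ∧ ∀ u : (𝓞 E)ˣ, u ^ n ∈ unitsMod f := by
  haveI := Ideal.finiteQuotientOfFreeOfNeBot f hf
  refine ⟨Nat.card (𝓞 E ⧸ f)ˣ, Nat.card_pos.ne', fun u => ?_⟩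
  rw [unitsMod, MonoidHom.mem_ker, map_pow]
  exact pow_card_eq_one'

namespace Quad

variable (Q : Quad M E)

theorem iota_norm_one {u : E} (h : u * Q.conj u = 1) (w : InfinitePlace M) :
    ‖iota E w (Q.conj u)‖ = ‖iota E w u‖⁻¹ := by
  have h1 : ‖iota E w u‖ * ‖iota E w (Q.conj u)‖ = 1 := by
    rw [← norm_mul, ← map_mul, h, map_one, norm_one]
  exact eq_inv_of_mul_eq_one_right h1

/-- The two places above a place of the base. -/
def place₂ (x : InfinitePlace M × Bool) : InfinitePlace E :=
  InfinitePlace.mk (bif x.2 then (iota E x.1).comp (Q.conj : E →+* E) else iota E x.1)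

theorem place₂_apply (x : InfinitePlace M × Bool) (v : E) :
    Q.place₂ x v = ‖iota E x.1 (bif x.2 then Q.conj v else v)‖ := by
  rcases x with ⟨w, _ | _⟩ <;> rfl

include Q in
theorem exists_eq_place₂ (φ : E →+* ℂ) : ∃ x, InfinitePlace.mk φ = Q.place₂ x := by
  haveI := Q.finiteDimensional
  haveI := Q.isGalois
  set w := InfinitePlace.mk (φ.comp (algebraMap M E))
  obtain ⟨ψ, hψ, hmk⟩ : ∃ ψ : E →+* ℂ, ψ.comp (algebraMap M E) = w.embedding ∧
      InfinitePlace.mk ψ = InfinitePlace.mk φ := by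
    rcases mk_eq_iff.1 (mk_embedding w) with h | h
    · exact ⟨φ, h.symm, rfl⟩
    · refine ⟨ComplexEmbedding.conjugate φ, RingHom.ext fun x => ?_,
        mk_eq_iff.2 (Or.inr (RingHom.ext fun x => by simp))⟩
      have := congrArg (starRingEnd ℂ) (RingHom.congr_fun h x)
      simpa [ComplexEmbedding.conjugate_coe_eq] using this.symm
  have hres : (iota E w).comp (algebraMap M E) = ψ.comp (algebraMap M E) :=
    RingHom.ext fun m => (iota_algebraMap (E := E) w m).trans (RingHom.congr_fun hψ m).symm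
  obtain ⟨σ, hσ⟩ := NumberField.ComplexEmbedding.exists_comp_symm_eq_of_comp_eq (k := M) (iota E w) ψ hres
  rcases Q.eq_refl_or_conj σ.symm with h | h
  · exact ⟨(w, false), by rw [← hmk, ← hσ, h]; rfl⟩
  · exact ⟨(w, true), by rw [← hmk, ← hσ, h]; rfl⟩

theorem place₂_bijective [IsTotallyComplex M] : Function.Bijective Q.place₂ := by
  refine ⟨?_, fun P => ?_⟩
  · have hc : ∀ x, (Q.place₂ x).comap (algebraMap M E) = x.1 := by
      intro x
      refine InfinitePlace.ext _ _ fun m => ?_
      rw [comap_apply, place₂_apply, Q.conj_algebraMap, Bool.cond_self, iota_algebraMap,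
        norm_embedding_eq]
    rintro ⟨w, a⟩ ⟨w', b⟩ h
    obtain rfl : w = w' := (hc (w, a)).symm.trans (h ▸ hc (w', b))
    suffices ¬ InfinitePlace.mk (iota E w) =
        InfinitePlace.mk ((iota E w).comp (Q.conj : E →+* E)) by
      rcases a with _ | _ <;> rcases b with _ | _
      exacts [rfl, absurd h this, absurd h.symm this, rfl]
    intro he
    rcases mk_eq_iff.1 he with h1 | h1
    · refine Q.ne_refl (AlgEquiv.ext fun x => (iota E w).injective ?_)
      exact (RingHom.congr_fun h1 x).symm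
    · refine IsTotallyComplex.complexEmbedding_not_isReal w.embedding
        (ComplexEmbedding.isReal_iff.2 (RingHom.ext fun m => ?_))
      have h2 := RingHom.congr_fun h1 (algebraMap M E m)
      simpa [ComplexEmbedding.conjugate_coe_eq, iota_algebraMap, Q.conj_algebraMap] using h2
  · obtain ⟨x, hx⟩ := Q.exists_eq_place₂ P.embedding
    exact ⟨x, hx.symm.trans (mk_embedding P)⟩

include Q in
/-- A functional killing the logarithms of all units is constant on the places. -/
theorem eq_zero_of_forall_units [IsTotallyComplex M] (c : InfinitePlace M → ℝ)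
    (h : ∀ v : (𝓞 E)ˣ, ∑ w, c w * (Real.log ‖iota E w ((v : 𝓞 E) : E)‖ -
      Real.log ‖iota E w (Q.conj ((v : 𝓞 E) : E))‖) = 0) : c = 0 := by
  classical
  haveI : IsTotallyComplex E := isTotallyComplex_of_algebra M E
  let e := Equiv.ofBijective Q.place₂ Q.place₂_bijective
  let g : InfinitePlace E → ℝ := fun P => (bif (e.symm P).2 then -1 else 1) * c (e.symm P).1
  have hg : ∀ v : (𝓞 E)ˣ, ∑ P, g P * Real.log (P ((v : 𝓞 E) : E)) = 0 := fun v => by
    rw [← Equiv.sum_comp e, Fintype.sum_prod_type, ← h v]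
    refine Finset.sum_congr rfl fun w _ => ?_
    rw [Fintype.sum_bool]
    simp only [g, Equiv.symm_apply_apply]
    simp only [e, Equiv.ofBijective_apply, place₂_apply, cond_true, cond_false]
    ring
  let L : logSpace E →ₗ[ℝ] ℝ :=
    { toFun := fun x => ∑ P : {P : InfinitePlace E // P ≠ w₀}, (g P - g w₀) / 2 * x P
      map_add' := fun x y => by simp only [Pi.add_apply, mul_add, Finset.sum_add_distrib]
      map_smul' := fun r x => by
        simp only [Pi.smul_apply, smul_eq_mul, RingHom.id_apply, Finset.mul_sum]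
        exact Finset.sum_congr rfl fun P _ => by ring }
  have hL : L = 0 := by
    refine LinearMap.ext_on (unitLattice_span_eq_top E) ?_
    rintro x ⟨v, -, rfl⟩
    obtain ⟨v, rfl⟩ := Additive.ofMul.surjective v
    have h0 := sum_mult_mul_log v
    simp only [IsTotallyComplex.mult_eq, Nat.cast_ofNat, ← Finset.mul_sum,
      mul_eq_zero, two_ne_zero, false_or] at h0
    have hall : ∑ P, (g P - g w₀) * Real.log (P ((v : 𝓞 E) : E)) = 0 := by
      simp only [sub_mul, Finset.sum_sub_distrib, hg v, ← Finset.mul_sum, h0, mul_zero, sub_zero]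
    rw [Fintype.sum_eq_add_sum_subtype_ne _ w₀, sub_self, zero_mul, zero_add] at hall
    refine Eq.trans ?_ (Eq.trans hall (LinearMap.zero_apply _).symm)
    refine Finset.sum_congr rfl fun P _ => ?_
    show (g P - g w₀) / 2 * logEmbedding E (Additive.ofMul v) P = _
    rw [logEmbedding_component, IsTotallyComplex.mult_eq]
    push_cast
    ring
  have hconst : ∀ P, g P = g w₀ := fun P => by
    rcases eq_or_ne P w₀ with rfl | hP
    · rfl
    have h1 := LinearMap.congr_fun hL (Pi.single ⟨P, hP⟩ 1)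
    have h2 : L (Pi.single ⟨P, hP⟩ 1) = (g P - g w₀) / 2 := by
      show ∑ _, _ = _
      simp only [Pi.single_apply, mul_ite, mul_one, mul_zero, Finset.sum_ite_eq', Finset.mem_univ,
        if_true]
    rw [h2, LinearMap.zero_apply] at h1
    linarith
  funext w
  have h1 := (hconst (e (w, false))).trans (hconst (e (w, true))).symm
  simp only [g, Equiv.symm_apply_apply, cond_true, cond_false] at h1
  show c w = 0
  linarith

/-- The logarithms on the units of norm one. -/
def logHom (f : Ideal (𝓞 E)) : Additive (normOneUnits Q f) →+ (InfinitePlace M → ℝ) where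
  toFun u := logAbs M (((u.toMul : (𝓞 E)ˣ) : 𝓞 E) : E)
  map_zero' := funext fun w => by simp [logAbs]
  map_add' u v := funext fun w => by
    have hne : ∀ x : (𝓞 E)ˣ, ‖iota E w ((x : 𝓞 E) : E)‖ ≠ 0 := fun x => by
      rw [norm_ne_zero_iff, map_ne_zero]
      exact coe_ne_zero x
    simp [logAbs, Real.log_mul (hne _) (hne _)]

variable (f : Ideal (𝓞 E))

theorem logHom_apply (u : normOneUnits Q f) :
    Q.logHom f (Additive.ofMul u) = logAbs M (((u : (𝓞 E)ˣ) : 𝓞 E) : E) := rfl

theorem finite_bounded (R : ℝ) :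
    {u : Additive (normOneUnits Q f) | ∀ w, |Q.logHom f u w| ≤ R}.Finite := by
  have hfin := Embeddings.finite_of_norm_le E ℂ (Real.exp R)
  refine Set.Finite.of_finite_image (f := fun u => (((u.toMul : (𝓞 E)ˣ) : 𝓞 E) : E))
    (hfin.subset ?_) fun u _ v _ huv => ?_
  · rintro _ ⟨u, hu, rfl⟩
    refine ⟨RingOfIntegers.isIntegral_coe _, fun φ => ?_⟩
    set x := (((u.toMul : (𝓞 E)ˣ) : 𝓞 E) : E) with hx
    obtain ⟨⟨w, b⟩, hφ⟩ := Q.exists_eq_place₂ φ
    rw [← InfinitePlace.apply, hφ, place₂_apply]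
    have hpos : 0 < ‖iota E w x‖ := norm_pos_iff.2 ((map_ne_zero _).2 (coe_ne_zero _))
    have h1 : |Real.log ‖iota E w x‖| ≤ R := hu w
    rcases b with _ | _
    · show ‖iota E w x‖ ≤ _
      rw [← Real.exp_log hpos]
      exact Real.exp_le_exp.2 (abs_le.1 h1).2
    · show ‖iota E w (Q.conj x)‖ ≤ _
      rw [Q.iota_norm_one u.toMul.2.2, ← Real.exp_log hpos, ← Real.exp_neg]
      exact Real.exp_le_exp.2 (by linarith [(abs_le.1 h1).1])
  · exact Additive.toMul.injective (Subtype.ext (Units.ext (RingOfIntegers.coe_injective huv)))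

variable {f}

theorem span_range_logHom [IsTotallyComplex M] (hf : f ≠ ⊥) :
    Submodule.span ℝ (Set.range (Q.logHom f)) = ⊤ := by
  classical
  by_contra hne
  obtain ⟨l, hl0, hl⟩ := Submodule.exists_le_ker_of_lt_top _ (lt_top_iff_ne_top.2 hne)
  set c : InfinitePlace M → ℝ := fun w => l (Pi.single w 1)
  have hlc : ∀ s, l s = ∑ w, c w * s w := fun s => by
    conv_lhs => rw [pi_eq_sum_univ' s]
    rw [map_sum]
    exact Finset.sum_congr rfl fun w _ => by rw [map_smul, smul_eq_mul, mul_comm]
  obtain ⟨n, hn, hpow⟩ := exists_pow_mem_unitsMod hf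
  have hc : c = 0 := Q.eq_zero_of_forall_units c fun v => by
    set v' : (𝓞 E)ˣ := Units.map (Q.conjO : 𝓞 E →* 𝓞 E) v
    have hv' : ((v' : 𝓞 E) : E) = Q.conj ((v : 𝓞 E) : E) := rfl
    set u : (𝓞 E)ˣ := (v / v') ^ n with hu
    have hdiv : (((v / v' : (𝓞 E)ˣ) : 𝓞 E) : E) = ((v : 𝓞 E) : E) / ((v' : 𝓞 E) : E) := by
      rw [eq_div_iff (coe_ne_zero v'), ← map_mul, ← Units.val_mul, div_mul_cancel]
    have hcoe : ((u : 𝓞 E) : E) = (((v : 𝓞 E) : E) / Q.conj ((v : 𝓞 E) : E)) ^ n := by
      rw [hu, Units.val_pow_eq_pow_val, ← hv', ← hdiv]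
      simp only [RingOfIntegers.coe_eq_algebraMap, map_pow]
    have hmem : u ∈ normOneUnits Q f := by
      refine ⟨hpow _, ?_⟩
      rw [hcoe, map_pow, map_div₀, Q.conj_conj, ← mul_pow, div_mul_div_cancel₀, div_self, one_pow]
      · exact coe_ne_zero v
      · rw [← hv']; exact coe_ne_zero v'
    have h1 : l (Q.logHom f (Additive.ofMul ⟨u, hmem⟩)) = 0 :=
      hl (Submodule.subset_span ⟨_, rfl⟩)
    rw [hlc] at h1
    have h2 : (n : ℝ) * ∑ w, c w * (Real.log ‖iota E w ((v : 𝓞 E) : E)‖ -
        Real.log ‖iota E w (Q.conj ((v : 𝓞 E) : E))‖) = 0 := by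
      rw [Finset.mul_sum, ← h1]
      refine Finset.sum_congr rfl fun w _ => ?_
      rw [logHom_apply]
      simp only [logAbs]
      rw [hcoe, map_pow, map_div₀, norm_pow, norm_div, Real.log_pow, Real.log_div]
      · ring
      · rw [norm_ne_zero_iff, map_ne_zero]; exact coe_ne_zero v
      · rw [norm_ne_zero_iff, map_ne_zero, ← hv']; exact coe_ne_zero v'
    exact (mul_eq_zero.1 h2).resolve_left (Nat.cast_ne_zero.2 hn)
  exact hl0 (LinearMap.ext fun s => by simp [hlc, hc])

end Quad

/-- A weight on a finite dimensional space whose translates by a full lattice sum to one. -/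
theorem exists_latticeWeight {V : Type*} [NormedAddCommGroup V] [NormedSpace ℝ V]
    [FiniteDimensional ℝ V] (L : Submodule ℤ V) [DiscreteTopology L] [IsZLattice ℝ L] :
    ∃ W : V → ℝ, Continuous W ∧ HasCompactSupport W ∧ (∀ s, 0 ≤ W s) ∧
      ∀ s, ∃ T : Finset L, (∀ x ∉ T, W (s + (x : V)) = 0) ∧ ∑ x ∈ T, W (s + (x : V)) = 1 := by
  classical
  have := ZLattice.module_finite ℝ L
  let b₀ := Module.Free.chooseBasis ℤ L
  let b := b₀.ofZLatticeBasis ℝ L
  have hcoord : ∀ (x : L) i, b.equivFun (x : V) i = ((b₀.equivFun x i : ℤ) : ℝ) := fun x i => by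
    rw [Module.Basis.equivFun_apply, Module.Basis.equivFun_apply,
      Module.Basis.ofZLatticeBasis_repr_apply]
  let co : V →L[ℝ] (Module.Free.ChooseBasisIndex ℤ L → ℝ) :=
    LinearMap.toContinuousLinearMap b.equivFun.toLinearMap
  refine ⟨fun v => ∏ i, TW.RayL.tent (co v i), ?_, ?_, fun s =>
    Finset.prod_nonneg fun i _ => TW.RayL.tent_nonneg _, fun s => ?_⟩
  · exact continuous_finsetProd _ fun i _ =>
      (continuous_const.max (continuous_const.sub
        ((continuous_apply i).comp co.continuous).abs))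
  · let back : (Module.Free.ChooseBasisIndex ℤ L → ℝ) →L[ℝ] V :=
      LinearMap.toContinuousLinearMap b.equivFun.symm.toLinearMap
    refine HasCompactSupport.intro
      (((isCompact_univ_pi fun _ => isCompact_Icc (a := (-1 : ℝ)) (b := 1))).image back.continuous)
      fun v hv => ?_
    by_contra hne
    refine hv ⟨co v, fun i _ => abs_le.1 (le_of_not_ge fun h => hne ?_),
      b.equivFun.symm_apply_apply v⟩
    exact Finset.prod_eq_zero (Finset.mem_univ i) (TW.RayL.tent_eq_zero h)
  · let S := Fintype.piFinset fun i => TW.RayL.tentSupport (co s i)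
    have hadd : ∀ (x : L) i, co (s + (x : V)) i = co s i + (b₀.equivFun x i : ℤ) := fun x i => by
      rw [map_add, Pi.add_apply]
      exact congrArg _ (hcoord x i)
    refine ⟨S.image b₀.equivFun.symm, fun x hx => ?_, ?_⟩
    · have hx' : b₀.equivFun x ∉ S := fun h => hx (Finset.mem_image.2
        ⟨_, h, b₀.equivFun.symm_apply_apply x⟩)
      simp only [S, Fintype.mem_piFinset, not_forall] at hx'
      obtain ⟨i, hi⟩ := hx'
      refine Finset.prod_eq_zero (Finset.mem_univ i) ?_
      rw [hadd]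
      exact TW.RayL.tent_add_eq_zero_of_notMem hi
    · rw [Finset.sum_image b₀.equivFun.symm.injective.injOn]
      simp only [hadd, LinearEquiv.apply_symm_apply, S]
      exact (Finset.prod_univ_sum (fun i => TW.RayL.tentSupport (co s i))
        (fun i k => TW.RayL.tent (co s i + (k : ℤ)))).symm.trans
        (Finset.prod_eq_one fun i _ => TW.RayL.sum_tent_add _)

/-- Summing a weight over a group through a homomorphism with finite kernel. -/
theorem hasSum_comp_of_finite_ker {G H : Type*} [AddCommGroup G] [AddCommGroup H] (φ : G →+ H)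
    (hker : (φ.ker : Set G).Finite) (F : H → ℝ) (T : Finset φ.range)
    (h0 : ∀ x ∉ T, F (x : H) = 0) (h1 : ∑ x ∈ T, F (x : H) = 1) :
    HasSum (fun g => F (φ g) / Nat.card φ.ker) 1 := by
  classical
  haveI : Fintype φ.ker := hker.fintype
  choose sec hsec using fun x : φ.range => x.2
  let U : Finset G := (T ×ˢ (Finset.univ : Finset φ.ker)).image fun xk => sec xk.1 + (xk.2 : G)
  have hinj : Set.InjOn (fun xk : φ.range × φ.ker => sec xk.1 + (xk.2 : G)) Set.univ := by
    rintro ⟨x, k⟩ - ⟨y, m⟩ - h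
    have hx : x = y := Subtype.ext (by
      have h2 := congrArg φ h
      simpa [hsec, AddMonoidHom.mem_ker.1 k.2, AddMonoidHom.mem_ker.1 m.2] using h2)
    subst hx
    exact Prod.ext rfl (Subtype.ext (add_left_cancel h))
  have hU : ∀ g ∉ U, F (φ g) / Nat.card φ.ker = 0 := fun g hg => by
    rw [h0 ⟨φ g, g, rfl⟩ fun hT => hg (Finset.mem_image.2 ⟨(⟨φ g, g, rfl⟩,
      ⟨g - sec ⟨φ g, g, rfl⟩, by rw [AddMonoidHom.mem_ker, map_sub, hsec, sub_self]⟩),
      Finset.mem_product.2 ⟨hT, Finset.mem_univ _⟩, add_sub_cancel _ _⟩), zero_div]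
  convert hasSum_sum_of_ne_finset_zero (L := SummationFilter.unconditional G) hU using 1
  rw [Finset.sum_image (hinj.mono (Set.subset_univ _)), Finset.sum_product]
  simp only [map_add, hsec, AddMonoidHom.mem_ker.1 (Subtype.prop _), add_zero, Finset.sum_const,
    Finset.card_univ, nsmul_eq_mul, Nat.card_eq_fintype_card]
  rw [← Finset.mul_sum, ← Finset.sum_div, h1, mul_one_div, div_self]
  exact Nat.cast_ne_zero.2 Fintype.card_ne_zero

/-- A continuous weight of compact support on the logarithms whose translates by the units of norm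
one congruent to one sum to one. -/
theorem exists_unitWeight [IsTotallyComplex M] (Q : Quad M E) (f : Ideal (𝓞 E)) (hf : f ≠ ⊥) :
    ∃ W : (InfinitePlace M → ℝ) → ℝ, Continuous W ∧ HasCompactSupport W ∧ (∀ s, 0 ≤ W s) ∧
      ∀ s, HasSum (fun u : normOneUnits Q f =>
        W (s + logAbs M (((u : (𝓞 E)ˣ) : 𝓞 E) : E))) 1 := by
  classical
  set φ := Q.logHom f with hφ
  have hker : (φ.ker : Set (Additive (normOneUnits Q f))).Finite :=
    (Q.finite_bounded f 0).subset fun u hu w => by
      rw [← hφ, AddMonoidHom.mem_ker.1 hu, Pi.zero_apply, abs_zero]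
  set L : Submodule ℤ (InfinitePlace M → ℝ) := AddSubgroup.toIntSubmodule φ.range with hL
  have : DiscreteTopology L := by
    refine discreteTopology_of_isOpen_singleton_zero ?_
    refine isOpen_singleton_of_finite_mem_nhds 0 (s := Metric.closedBall 0 1)
      (Metric.closedBall_mem_nhds _ one_pos) (Set.Finite.of_finite_image ?_
        Subtype.val_injective.injOn)
    refine ((Q.finite_bounded f 1).image φ).subset ?_
    rintro _ ⟨x, hx, rfl⟩
    obtain ⟨u, hu⟩ := x.2
    refine ⟨u, fun w => ?_, hu⟩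
    have h1 : ‖(x : InfinitePlace M → ℝ)‖ ≤ 1 := by simpa using mem_closedBall_zero_iff.1 hx
    rw [← hφ, hu, ← Real.norm_eq_abs]
    exact (norm_le_pi_norm _ w).trans h1
  have : IsZLattice ℝ L := ⟨by
    rw [← Q.span_range_logHom hf]
    rfl⟩
  obtain ⟨W, hW, hWc, hW0, hWs⟩ := exists_latticeWeight L
  refine ⟨fun s => W s / Nat.card φ.ker, hW.div_const _,
    hWc.mono fun s hs h => hs (by simp only [h, zero_div]),
    fun s => div_nonneg (hW0 s) (Nat.cast_nonneg _), fun s => ?_⟩
  obtain ⟨T, hT0, hT1⟩ := hWs s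
  have key := hasSum_comp_of_finite_ker φ hker (fun x => W (s + x))
    (T.map ⟨fun x : L => (⟨x.1, x.2⟩ : φ.range), fun x y h => Subtype.ext (Subtype.ext_iff.1 h)⟩)
    (fun x hx => hT0 ⟨x.1, x.2⟩ fun h => hx (Finset.mem_map.2 ⟨_, h, rfl⟩))
    (by rw [Finset.sum_map]; exact hT1)
  exact (Additive.ofMul.hasSum_iff).2 key

/-- The norms of the units congruent to one have finite index. -/
theorem finite_unitNorm_quotient (Q : Quad M E) (f : Ideal (𝓞 E)) (hf : f ≠ ⊥) :
    ((unitsMod f).map (Units.map (Algebra.intNorm (𝓞 M) (𝓞 E)))).FiniteIndex := by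
  obtain ⟨n, hn, hpow⟩ := exists_pow_mem_unitsMod hf
  haveI : FiniteDimensional M E := Q.finiteDimensional
  haveI : Group.FG (𝓞 M)ˣ := Group.fg_iff_monoid_fg.2 inferInstance
  haveI := Subgroup.finiteIndex_range_powMonoidHom_of_fg (𝓞 M)ˣ (n := 2 * n) (by omega)
  refine Subgroup.finiteIndex_of_le (H := (powMonoidHom (α := (𝓞 M)ˣ) (2 * n)).range) ?_
  rintro _ ⟨x, rfl⟩
  refine ⟨(Units.map (algebraMap (𝓞 M) (𝓞 E) : 𝓞 M →* 𝓞 E) x) ^ n, hpow _, ?_⟩
  refine Units.ext (RingOfIntegers.coe_injective ?_)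
  show algebraMap (𝓞 M) M (Algebra.intNorm (𝓞 M) (𝓞 E) _) = algebraMap (𝓞 M) M _
  rw [Algebra.algebraMap_intNorm (L := E)]
  simp only [powMonoidHom_apply, Units.val_pow_eq_pow_val, Units.coe_map, MonoidHom.coe_coe,
    map_pow]
  rw [← IsScalarTower.algebraMap_apply (𝓞 M) (𝓞 E) E, IsScalarTower.algebraMap_apply (𝓞 M) M E,
    Algebra.norm_algebraMap, Q.deg, ← pow_mul]

end FLTAgent.LT.ThetaM
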