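import Fermat.Agent.LT.ThetaM.Formula
import Fermat.Agent.LT.Red.Approx

/-!
# Ideals of ideles and the recursion of the coefficients

`fId a` is the fractional ideal of the elements below an idele at every place.  Outside the modulus
the coefficients satisfy the recursion of `T_v`, from the two possible decompositions in `E`.
-/

set_option autoImplicit false
set_option linter.style.haveILetI false

noncomputable section

namespace FLTAgent.LT.ThetaM

open NumberField IsDedekindDomain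
open FractionalIdeal (spanSingleton coeIdeal_mul coeIdeal_ne_zero)
open scoped nonZeroDivisors

section ideals

variable {M : Type} [Field M] [NumberField M]

/-- The elements below an idele at every place. -/
def belowIdele (a : (Af M)ˣ) : Submodule (𝓞 M) M where
  carrier := {x | ∀ v : HeightOneSpectrum (𝓞 M), v.valuation M x ≤ Valued.v ((a : Af M) v)}
  zero_mem' v := by simp
  add_mem' hx hy v := ((v.valuation M).map_add _ _).trans (max_le (hx v) (hy v))
  smul_mem' c x hx v := by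
    rw [Algebra.smul_def, map_mul]
    exact le_trans (mul_le_of_le_one_left' (v.valuation_le_one c)) (hx v)

theorem isFractional_belowIdele (a : (Af M)ˣ) : IsFractional (𝓞 M)⁰ (belowIdele a) := by
  obtain ⟨n, hn, hle⟩ := Red.exists_natCast_mul_le_one (a : Af M)
  refine ⟨(n : 𝓞 M), mem_nonZeroDivisors_iff_ne_zero.2 (Nat.cast_ne_zero.2 hn.ne'),
    fun x hx => ?_⟩
  refine HeightOneSpectrum.mem_integers_of_valuation_le_one M _ fun v => ?_
  rw [Algebra.smul_def, map_mul, HeightOneSpectrum.valuation_of_algebraMap,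
    ← Red.valued_natCast (F := M)]
  refine (mul_le_mul' le_rfl (hx v)).trans ?_
  have h := hle v
  change Valued.v ((n : Af M) v * (a : Af M) v) ≤ 1 at h
  rwa [map_mul] at h

/-- The fractional ideal of an idele. -/
def belowI (a : (Af M)ˣ) : FIM M := ⟨belowIdele a, isFractional_belowIdele a⟩

theorem mem_belowI {a : (Af M)ˣ} {x : M} :
    x ∈ belowI a ↔ ∀ v : HeightOneSpectrum (𝓞 M), v.valuation M x ≤ Valued.v ((a : Af M) v) :=
  Iff.rfl

theorem exists_mem_belowI_eq (a : (Af M)ˣ) (v : HeightOneSpectrum (𝓞 M)) :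
    ∃ x ∈ belowI a, v.valuation M x = Valued.v ((a : Af M) v) := by
  obtain ⟨n, hn, hle⟩ := Red.exists_natCast_le a
  have hp : 0 < Ideal.absNorm v.asIdeal :=
    Nat.pos_of_ne_zero fun h => v.ne_bot (Ideal.absNorm_eq_zero_iff.1 h)
  obtain ⟨y, hy⟩ := Red.exists_sub_le (a : Af M) (Nat.mul_pos hn hp)
  have hy' : ∀ w : HeightOneSpectrum (𝓞 M), Valued.v ((a : Af M) w - (y : w.adicCompletion M)) ≤
      Valued.v ((a : Af M) w) * w.intValuation ((Ideal.absNorm v.asIdeal : ℕ) : 𝓞 M) := fun w =>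
    (hy w).trans (by
      rw [Red.valued_natCast, Nat.cast_mul, map_mul, ← Red.valued_natCast (F := M) n]
      exact mul_le_mul' (hle w) le_rfl)
  refine ⟨y, fun w => ?_, ?_⟩
  · rw [← HeightOneSpectrum.adicCompletion.valued_coe, show (y : w.adicCompletion M) =
      (a : Af M) w + -((a : Af M) w - (y : w.adicCompletion M)) by ring]
    refine Valued.v.map_add_le le_rfl ?_
    rw [Valuation.map_neg]
    exact (hy' w).trans (mul_le_of_le_one_right' (w.intValuation_le_one _))
  · rw [← HeightOneSpectrum.adicCompletion.valued_coe, show (y : v.adicCompletion M) =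
      (a : Af M) v + -((a : Af M) v - (y : v.adicCompletion M)) by ring]
    refine Valuation.map_add_eq_of_lt_left _ ?_
    rw [Valuation.map_neg]
    refine lt_of_le_of_lt (hy' v) (mul_lt_of_lt_one_right
      (zero_lt_iff.2 ((map_ne_zero _).2 (Red.unit_apply_ne_zero a v))) ?_)
    rw [v.intValuation_lt_one_iff_mem]
    exact Ideal.absNorm_mem _

theorem belowI_one : belowI (1 : (Af M)ˣ) = 1 := by
  ext x
  rw [mem_belowI, FractionalIdeal.mem_one_iff]
  constructor
  · intro h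
    refine HeightOneSpectrum.mem_integers_of_valuation_le_one M _ fun v => (h v).trans_eq ?_
    exact map_one _
  · rintro ⟨y, rfl⟩ v
    exact (v.valuation_le_one y).trans_eq (map_one _).symm

theorem belowI_mul_le (a b : (Af M)ˣ) : belowI a * belowI b ≤ belowI (a * b) :=
  FractionalIdeal.mul_le.2 fun x hx y hy v => by
    rw [map_mul]
    refine (mul_le_mul' (hx v) (hy v)).trans_eq ?_
    show _ = Valued.v ((a : Af M) v * (b : Af M) v)
    rw [map_mul]

theorem belowI_mul_inv (a : (Af M)ˣ) : belowI a * belowI a⁻¹ = 1 := by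
  have hle := belowI_mul_le a a⁻¹
  rw [mul_inv_cancel, belowI_one] at hle
  obtain ⟨I, hI⟩ := FractionalIdeal.le_one_iff_exists_coeIdeal.1 hle
  rw [← hI]
  suffices I = ⊤ by rw [this, FractionalIdeal.coeIdeal_top]
  by_contra hne
  obtain ⟨m, hm, hIm⟩ := Ideal.exists_le_maximal I hne
  have hm0 : m ≠ ⊥ := Ring.ne_bot_of_isMaximal_of_not_isField hm (RingOfIntegers.not_isField M)
  let v : HeightOneSpectrum (𝓞 M) := ⟨m, hm.isPrime, hm0⟩
  obtain ⟨x, hx, hxv⟩ := exists_mem_belowI_eq a v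
  obtain ⟨y, hy, hyv⟩ := exists_mem_belowI_eq a⁻¹ v
  have hxy : x * y ∈ (I : FIM M) := hI ▸ FractionalIdeal.mul_mem_mul hx hy
  obtain ⟨z, hz, hzxy⟩ := (FractionalIdeal.mem_coeIdeal _).1 hxy
  have h1 : v.valuation M (x * y) = 1 := by
    rw [map_mul, hxv, hyv, ← map_mul]
    show Valued.v (((a : Af M) * ((a⁻¹ : (Af M)ˣ) : Af M)) v) = 1
    rw [Units.mul_inv]
    exact map_one _
  rw [← hzxy, HeightOneSpectrum.valuation_of_algebraMap] at h1
  exact ((v.intValuation_lt_one_iff_mem z).2 (hIm hz)).ne h1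

theorem belowI_mul (a b : (Af M)ˣ) : belowI (a * b) = belowI a * belowI b := by
  refine le_antisymm ?_ (belowI_mul_le a b)
  calc belowI (a * b) = belowI (a * b) * (belowI a * belowI a⁻¹) := by rw [belowI_mul_inv, mul_one]
    _ = belowI a * (belowI (a * b) * belowI a⁻¹) := by ring
    _ ≤ belowI a * belowI b := by
      refine mul_le_mul' le_rfl ((belowI_mul_le _ _).trans_eq ?_)
      rw [show a * b * a⁻¹ = b by rw [mul_comm a b, mul_inv_cancel_right]]

/-- The fractional ideal of an idele, multiplicatively. -/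
def fId : (Af M)ˣ →* (FIM M)ˣ :=
  MonoidHom.toHomUnits ⟨⟨belowI, belowI_one⟩, belowI_mul⟩

theorem coe_fId (a : (Af M)ˣ) : (fId a : FIM M) = belowI a := rfl

theorem mem_fId {a : (Af M)ˣ} {x : M} :
    x ∈ (fId a : FIM M) ↔
      ∀ v : HeightOneSpectrum (𝓞 M), v.valuation M x ≤ Valued.v ((a : Af M) v) := Iff.rfl

theorem fId_unifIdele (v : HeightOneSpectrum (𝓞 M)) :
    (fId (unifIdele v) : FIM M) = (v.asIdeal : FIM M) := by
  classical
  have hself : Valued.v ((unifIdele v : Af M) v) = WithZero.exp (-1 : ℤ) := by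
    rw [show (unifIdele v : Af M) v = ((unif v : M) : v.adicCompletion M) from
      RestrictedProduct.mulSingle_eq_same
        (fun w : HeightOneSpectrum (𝓞 M) => w.adicCompletionIntegers M) _ _,
      HeightOneSpectrum.adicCompletion.valued_coe]
    exact (HeightOneSpectrum.valuation_exists_uniformizer M v).choose_spec
  have hne : ∀ w, w ≠ v → Valued.v ((unifIdele v : Af M) w) = 1 := fun w hw => by
    rw [show (unifIdele v : Af M) w = 1 from RestrictedProduct.mulSingle_eq_of_ne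
      (fun w : HeightOneSpectrum (𝓞 M) => w.adicCompletionIntegers M) _ hw, map_one]
  ext x
  rw [mem_fId, FractionalIdeal.mem_coeIdeal]
  constructor
  · intro h
    obtain ⟨y, hy⟩ := HeightOneSpectrum.mem_integers_of_valuation_le_one M x fun w => by
      refine (h w).trans ?_
      rcases eq_or_ne w v with rfl | hw
      · rw [hself, ← WithZero.exp_zero]; exact WithZero.exp_le_exp.2 (by norm_num)
      · rw [hne w hw]
    refine ⟨y, ?_, hy⟩
    have h1 := h v
    rw [← hy, HeightOneSpectrum.valuation_of_algebraMap, hself] at h1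
    simpa using (v.intValuation_le_pow_iff_mem y 1).1 h1
  · rintro ⟨y, hy, rfl⟩ w
    rw [HeightOneSpectrum.valuation_of_algebraMap]
    rcases eq_or_ne w v with rfl | hw
    · rw [hself]
      exact (w.intValuation_le_pow_iff_mem y 1).2 (by rwa [pow_one])
    · rw [hne w hw]; exact w.intValuation_le_one y

theorem fId_algebraMap (ξ : Mˣ) :
    (fId (Units.map (algebraMap M (Af M)).toMonoidHom ξ) : FIM M) = spanSingleton (𝓞 M)⁰ (ξ : M) := by
  have hv : ∀ v : HeightOneSpectrum (𝓞 M),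
      Valued.v (((Units.map (algebraMap M (Af M)).toMonoidHom ξ : (Af M)ˣ) : Af M) v) =
        v.valuation M (ξ : M) := fun v => Red.valued_algebraMap _ v
  ext x
  rw [mem_fId, FractionalIdeal.mem_spanSingleton]
  constructor
  · intro h
    obtain ⟨y, hy⟩ := HeightOneSpectrum.mem_integers_of_valuation_le_one M (x / ξ) fun w => by
      rw [map_div₀, div_le_one₀ (zero_lt_iff.2 ((map_ne_zero _).2 ξ.ne_zero)), ← hv w]
      exact h w
    exact ⟨y, by rw [Algebra.smul_def, hy, div_mul_cancel₀ _ ξ.ne_zero]⟩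
  · rintro ⟨y, rfl⟩ w
    rw [Algebra.smul_def, map_mul, hv]
    exact mul_le_of_le_one_left' (w.valuation_le_one y)

end ideals

/-! ### The coefficients -/

variable {M E : Type} [Field M] [NumberField M] [Field E] [NumberField E] [Algebra M E]

namespace Data

variable (D : Data M E)

/-- The extension of ideals. -/
local notation "ext" => Ideal.map (algebraMap (𝓞 M) (𝓞 E))

theorem conjId_mul (I J : Ideal (𝓞 E)) : D.conjId (I * J) = D.conjId I * D.conjId J :=
  Ideal.map_mul _ _ _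

theorem conjId_conjId (I : Ideal (𝓞 E)) : D.conjId (D.conjId I) = I := by
  rw [conjId, conjId, Ideal.map_map]
  convert Ideal.map_id I
  exact RingHom.ext D.conjO_conjO

theorem ext_ne_bot {m : Ideal (𝓞 M)} (hm : m ≠ ⊥) : ext m ≠ ⊥ :=
  (Ideal.map_eq_bot_iff_of_injective (FaithfulSMul.algebraMap_injective (𝓞 M) (𝓞 E))).not.2 hm

theorem sup_of_above {v : HeightOneSpectrum (𝓞 M)} (hv : ¬ D.nf ≤ v.asIdeal)
    (P : HeightOneSpectrum (𝓞 E)) (hP : P.asIdeal ∣ ext v.asIdeal) : P.asIdeal ⊔ D.f = ⊤ := by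
  have hle : v.asIdeal ≤ P.asIdeal.comap (algebraMap (𝓞 M) (𝓞 E)) :=
    Ideal.le_comap_of_map_le (Ideal.le_of_dvd hP)
  have he : P.asIdeal.comap (algebraMap (𝓞 M) (𝓞 E)) = v.asIdeal :=
    (v.isMaximal.eq_of_le (Ideal.comap_ne_top _ P.isPrime.ne_top) hle).symm
  refine P.isMaximal.out.2 _ (left_lt_sup.2 fun hf => hv ?_)
  rw [← he]
  exact Ideal.le_comap_of_map_le hf

theorem dvd_of_ext {v : HeightOneSpectrum (𝓞 M)} {P : HeightOneSpectrum (𝓞 E)}
    (hP : P.asIdeal ∣ ext v.asIdeal) {m : Ideal (𝓞 M)} (h : P.asIdeal ∣ ext m) :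
    v.asIdeal ∣ m := by
  refine Ideal.dvd_iff_le.2 ?_
  rw [v.isMaximal.eq_of_le (Ideal.comap_ne_top _ P.isPrime.ne_top)
    (Ideal.le_comap_of_map_le (Ideal.le_of_dvd hP))]
  exact Ideal.le_comap_of_map_le (Ideal.le_of_dvd h)

theorem mul_mem_normSet {Q c : Ideal (𝓞 E)} {n m : Ideal (𝓞 M)} (hQ : Q ⊔ D.f = ⊤)
    (hQn : Q * D.conjId Q = ext n) (hc : c ∈ D.normSet m) : Q * c ∈ D.normSet (n * m) :=
  ⟨D.sup_mul hQ hc.1, by rw [D.conjId_mul, mul_mul_mul_comm, hQn, hc.2, Ideal.map_mul]⟩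

theorem of_mul_mem_normSet {Q c : Ideal (𝓞 E)} {n m : Ideal (𝓞 M)} (hn : n ≠ ⊥)
    (hQn : Q * D.conjId Q = ext n) (hc : Q * c ∈ D.normSet (n * m)) : c ∈ D.normSet m := by
  refine ⟨eq_top_iff.2 (hc.1.ge.trans (sup_le_sup_right Ideal.mul_le_right _)), ?_⟩
  refine mul_left_cancel₀ (ext_ne_bot hn) ?_
  rw [← Ideal.map_mul, ← hc.2, D.conjId_mul, mul_mul_mul_comm, hQn]

theorem coef_eq {m : Ideal (𝓞 M)} (hm : m ≠ ⊥) {S : Finset (Ideal (𝓞 E))}
    (hS : ∀ b, b ∈ S ↔ b ∈ D.normSet m) : D.coef m = ∑ b ∈ S, D.chi b := by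
  classical
  rw [coef, dif_neg hm]
  exact Finset.sum_congr (Finset.ext fun b => by rw [Set.Finite.mem_toFinset, hS]) fun _ _ => rfl

theorem coef_top : D.coef ⊤ = 1 := by
  classical
  rw [D.coef_eq top_ne_bot (S := {⊤}) fun b => ?_, Finset.sum_singleton, D.chi_top]
  rw [Finset.mem_singleton]
  constructor
  · rintro rfl
    exact ⟨top_sup_eq _, by rw [conjId, Ideal.map_top, Ideal.map_top, Ideal.top_mul]⟩
  · intro hb
    refine eq_top_iff.2 ((?_ : (⊤ : Ideal (𝓞 E)) ≤ b * D.conjId b).trans Ideal.mul_le_left)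
    rw [hb.2, Ideal.map_top]

theorem sum_chi_image {Q : Ideal (𝓞 E)} (hQ : Q ⊔ D.f = ⊤) {m : Ideal (𝓞 M)} (hm : m ≠ ⊥)
    [DecidableEq (Ideal (𝓞 E))] :
    ∑ b ∈ (D.normSet_finite hm).toFinset.image (Q * ·), D.chi b = D.chi Q * D.coef m := by
  classical
  rw [D.coef_eq hm (fun b => Set.Finite.mem_toFinset (D.normSet_finite hm)), Finset.mul_sum,
    Finset.sum_image fun b _ c _ h => mul_left_cancel₀ (D.ne_bot_of_sup hQ) h]
  exact Finset.sum_congr rfl fun b hb =>
    D.chi_mul Q b hQ ((D.normSet_finite hm).mem_toFinset.1 hb).1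

/-- The recursion at a split place. -/
theorem coef_rec_split {v : HeightOneSpectrum (𝓞 M)} (hv : ¬ D.nf ≤ v.asIdeal)
    {P P' : HeightOneSpectrum (𝓞 E)} (hne : P ≠ P') (hmap : ext v.asIdeal = P.asIdeal * P'.asIdeal)
    (hσ : D.conjId P.asIdeal = P'.asIdeal) (hchi : D.chi P.asIdeal * D.chi P'.asIdeal = 1)
    {m : Ideal (𝓞 M)} (hm : m ≠ ⊥) :
    D.coef (v.asIdeal * m) = (D.chi P.asIdeal + D.chi P'.asIdeal) * D.coef m -
      (open Classical in if h : v.asIdeal ∣ m then D.coef h.choose else 0) := by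
  classical
  have hP : P.asIdeal ⊔ D.f = ⊤ := D.sup_of_above hv P (hmap ▸ dvd_mul_right _ _)
  have hP' : P'.asIdeal ⊔ D.f = ⊤ := D.sup_of_above hv P' (hmap ▸ dvd_mul_left _ _)
  have hσ' : D.conjId P'.asIdeal = P.asIdeal := by rw [← hσ, D.conjId_conjId]
  have hn : P.asIdeal * D.conjId P.asIdeal = ext v.asIdeal := by rw [hσ, hmap]
  have hn' : P'.asIdeal * D.conjId P'.asIdeal = ext v.asIdeal := by rw [hσ', hmap, mul_comm]
  have hvm : v.asIdeal * m ≠ ⊥ := mul_ne_zero v.ne_bot hm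
  have hPP : P.asIdeal ≠ P'.asIdeal := fun h => hne (HeightOneSpectrum.ext h)
  have hpP : Prime P.asIdeal := Ideal.prime_of_isPrime P.ne_bot P.isPrime
  have hpP' : Prime P'.asIdeal := Ideal.prime_of_isPrime P'.ne_bot P'.isPrime
  set S := (D.normSet_finite hm).toFinset.image (P.asIdeal * ·)
  set T := (D.normSet_finite hm).toFinset.image (P'.asIdeal * ·)
  have hU : ∀ b, b ∈ S ∪ T ↔ b ∈ D.normSet (v.asIdeal * m) := fun b => by
    simp only [S, T, Finset.mem_union, Finset.mem_image, Set.Finite.mem_toFinset]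
    constructor
    · rintro (⟨c, hc, rfl⟩ | ⟨c, hc, rfl⟩)
      exacts [D.mul_mem_normSet hP hn hc, D.mul_mem_normSet hP' hn' hc]
    · intro hb
      have hd : P.asIdeal ∣ b * D.conjId b := by
        rw [hb.2, Ideal.map_mul, hmap]; exact (dvd_mul_right _ _).mul_right _
      rcases hpP.dvd_mul.1 hd with ⟨c, rfl⟩ | hc
      · exact Or.inl ⟨c, D.of_mul_mem_normSet v.ne_bot hn hb, rfl⟩
      · obtain ⟨c', hc'⟩ := hc
        have e : b = P'.asIdeal * D.conjId c' := by
          rw [← D.conjId_conjId b, hc', D.conjId_mul, hσ]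
        subst e
        exact Or.inr ⟨_, D.of_mul_mem_normSet v.ne_bot hn' hb, rfl⟩
  have hI : ∑ b ∈ S ∩ T, D.chi b =
      if h : v.asIdeal ∣ m then D.coef h.choose else 0 := by
    have hmem : ∀ b, b ∈ S ∩ T ↔
        ∃ e, b = P.asIdeal * P'.asIdeal * e ∧ P'.asIdeal * e ∈ D.normSet m := fun b => by
      simp only [S, T, Finset.mem_inter, Finset.mem_image, Set.Finite.mem_toFinset]
      constructor
      · rintro ⟨⟨c, hc, rfl⟩, c', hc', he⟩
        have : P'.asIdeal ∣ P.asIdeal * c := ⟨c', he.symm⟩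
        rcases hpP'.dvd_mul.1 this with h | ⟨e, rfl⟩
        · exact absurd (P.isMaximal.eq_of_le P'.isPrime.ne_top (Ideal.le_of_dvd h)) hPP
        · exact ⟨e, by rw [mul_assoc], hc⟩
      · rintro ⟨e, rfl, he⟩
        refine ⟨⟨_, he, by rw [mul_assoc]⟩, P.asIdeal * e, ?_, by rw [mul_assoc, mul_left_comm]⟩
        refine D.of_mul_mem_normSet v.ne_bot hn' ?_
        rw [mul_left_comm]
        exact D.mul_mem_normSet hP hn he
    split_ifs with h
    · have hm' : h.choose ≠ ⊥ := fun h0 => hm (by rw [h.choose_spec, h0, Ideal.mul_bot])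
      set m' := h.choose
      have hE : S ∩ T = (D.normSet_finite hm').toFinset.image (P.asIdeal * P'.asIdeal * ·) := by
        ext b
        rw [hmem]
        simp only [Finset.mem_image, Set.Finite.mem_toFinset]
        constructor
        · rintro ⟨e, rfl, he⟩
          rw [h.choose_spec] at he
          exact ⟨e, D.of_mul_mem_normSet v.ne_bot hn' he, rfl⟩
        · rintro ⟨e, he, rfl⟩
          refine ⟨e, rfl, ?_⟩
          rw [h.choose_spec]
          exact D.mul_mem_normSet hP' hn' he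
      rw [hE, D.sum_chi_image (D.sup_mul hP hP') hm', D.chi_mul _ _ hP hP', hchi, one_mul]
    · refine Finset.sum_eq_zero fun b hb => absurd ?_ h
      obtain ⟨e, -, he⟩ := (hmem b).1 hb
      refine dvd_of_ext (P := P') (hmap ▸ dvd_mul_left _ _) ?_
      rw [← he.2]
      exact (dvd_mul_right _ _).mul_right _
  rw [D.coef_eq hvm hU, ← hI, eq_sub_iff_add_eq, Finset.sum_union_inter,
    D.sum_chi_image hP hm, D.sum_chi_image hP' hm, add_mul]

/-- The recursion at an inert place. -/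
theorem coef_rec_inert {v : HeightOneSpectrum (𝓞 M)} (hv : ¬ D.nf ≤ v.asIdeal)
    {P : HeightOneSpectrum (𝓞 E)} (hmap : ext v.asIdeal = P.asIdeal)
    (hchi : D.chi P.asIdeal = -1) {m : Ideal (𝓞 M)} (hm : m ≠ ⊥) :
    D.coef (v.asIdeal * m) =
      -(open Classical in if h : v.asIdeal ∣ m then D.coef h.choose else 0) := by
  classical
  have hPd : P.asIdeal ∣ ext v.asIdeal := hmap ▸ dvd_rfl
  have hP : P.asIdeal ⊔ D.f = ⊤ := D.sup_of_above hv P hPd
  have hpP : Prime P.asIdeal := Ideal.prime_of_isPrime P.ne_bot P.isPrime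
  have hσ : D.conjId P.asIdeal = P.asIdeal := by
    rw [← hmap, conjId, Ideal.map_map]
    congr 1
    exact RingHom.ext fun x => D.conjO_algebraMap x
  have hn : P.asIdeal * D.conjId P.asIdeal = ext (v.asIdeal * v.asIdeal) := by
    rw [hσ, Ideal.map_mul, hmap]
  have hvm : v.asIdeal * m ≠ ⊥ := mul_ne_zero v.ne_bot hm
  have hb : ∀ b, b ∈ D.normSet (v.asIdeal * m) → ∃ c, b = P.asIdeal * c ∧ v.asIdeal ∣ m := by
    intro b hb
    have hd : P.asIdeal ∣ b * D.conjId b := by
      rw [hb.2, Ideal.map_mul, hmap]; exact dvd_mul_right _ _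
    have : P.asIdeal ∣ b := (hpP.dvd_mul.1 hd).elim id fun ⟨c, hc⟩ =>
      ⟨D.conjId c, by rw [← D.conjId_conjId b, hc, D.conjId_mul, hσ]⟩
    obtain ⟨c, rfl⟩ := this
    refine ⟨c, rfl, dvd_of_ext hPd ⟨c * D.conjId c, mul_left_cancel₀ P.ne_bot ?_⟩⟩
    conv_lhs => rw [← hmap, ← Ideal.map_mul, ← hb.2, D.conjId_mul, hσ]
    ring
  split_ifs with h
  · have hm' : h.choose ≠ ⊥ := fun h0 => hm (by rw [h.choose_spec, h0, Ideal.mul_bot])
    set m' := h.choose
    have e : v.asIdeal * m = v.asIdeal * v.asIdeal * m' := by rw [mul_assoc, ← h.choose_spec]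
    rw [D.coef_eq hvm (S := (D.normSet_finite hm').toFinset.image (P.asIdeal * ·)) fun b => ?_,
      D.sum_chi_image hP hm', hchi, neg_one_mul]
    simp only [Finset.mem_image, Set.Finite.mem_toFinset]
    constructor
    · rintro ⟨c, hc, rfl⟩
      rw [e]
      exact D.mul_mem_normSet hP hn hc
    · intro hb'
      obtain ⟨c, rfl, -⟩ := hb b hb'
      rw [e] at hb'
      exact ⟨c, D.of_mul_mem_normSet (mul_ne_zero v.ne_bot v.ne_bot) hn hb', rfl⟩
  · rw [D.coef_eq hvm (S := ∅) fun b => ⟨fun hb' => absurd hb' (Finset.notMem_empty b),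
      fun hb' => absurd (hb b hb').choose_spec.2 h⟩, Finset.sum_empty, neg_zero]

open Classical in
/-- The Hecke recursion of the coefficients. -/
theorem coef_rec {v : HeightOneSpectrum (𝓞 M)} (hv : ¬ D.nf ≤ v.asIdeal) {m : Ideal (𝓞 M)}
    (hm : m ≠ ⊥) :
    D.coef (v.asIdeal * m) + (if h : v.asIdeal ∣ m then D.coef h.choose else 0) =
      D.coef v.asIdeal * D.coef m := by
  have hv1 : ¬ v.asIdeal ∣ (⊤ : Ideal (𝓞 M)) := fun h =>
    v.isPrime.ne_top (top_le_iff.1 (Ideal.le_of_dvd h))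
  rcases D.places v hv with ⟨P, P', hne, hmap, hσ, hchi⟩ | ⟨P, hmap, hchi⟩
  · have h1 := D.coef_rec_split hv hne hmap hσ hchi (m := ⊤) top_ne_bot
    rw [dif_neg hv1, D.coef_top, mul_one, sub_zero, Ideal.mul_top] at h1
    rw [D.coef_rec_split hv hne hmap hσ hchi hm, h1, sub_add_cancel]
  · have h1 := D.coef_rec_inert hv hmap hchi (m := ⊤) top_ne_bot
    rw [dif_neg hv1, neg_zero, Ideal.mul_top] at h1
    rw [D.coef_rec_inert hv hmap hchi hm, h1, zero_mul, neg_add_cancel]

theorem coefFrac_eq_zero {a : FIM M} (h : ¬ a ≤ 1) : D.coefFrac a = 0 := by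
  classical
  rw [coefFrac, dif_neg]
  rintro ⟨m, rfl⟩
  exact h FractionalIdeal.coeIdeal_le_one

open Classical in
/-- The recursion on fractional ideals. -/
theorem coefFrac_rec {v : HeightOneSpectrum (𝓞 M)} (hv : ¬ D.nf ≤ v.asIdeal) (a : FIM M) :
    (if a ≤ 1 then D.coefFrac (a * (v.asIdeal : FIM M)) else 0) +
        D.coefFrac (a * (v.asIdeal : FIM M)⁻¹) = D.coef v.asIdeal * D.coefFrac a := by
  have hv0 : (v.asIdeal : FIM M) ≠ 0 := coeIdeal_ne_zero.2 v.ne_bot
  by_cases ha : a ≤ 1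
  · obtain ⟨m, rfl⟩ := FractionalIdeal.le_one_iff_exists_coeIdeal.1 ha
    rw [if_pos ha, mul_comm _ (v.asIdeal : FIM M), ← coeIdeal_mul, D.coefFrac_coe, D.coefFrac_coe]
    by_cases hm : m = ⊥
    · subst hm
      rw [Ideal.mul_bot, FractionalIdeal.coeIdeal_bot, zero_mul, ← FractionalIdeal.coeIdeal_bot,
        D.coefFrac_coe, show D.coef ⊥ = 0 from dif_pos rfl]
      simp
    rw [← D.coef_rec hv hm]
    congr 1
    split_ifs with h
    · conv_lhs => rw [h.choose_spec, coeIdeal_mul, mul_comm (v.asIdeal : FIM M), mul_assoc,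
        mul_inv_cancel₀ hv0, mul_one, D.coefFrac_coe]
    · rw [coefFrac, dif_neg]
      rintro ⟨m', hm'⟩
      refine h ⟨m', FractionalIdeal.coeIdeal_inj (K := M).1 ?_⟩
      rw [coeIdeal_mul, hm', mul_left_comm, mul_inv_cancel₀ hv0, mul_one]
  · rw [if_neg ha, zero_add, D.coefFrac_eq_zero ha, mul_zero]
    refine D.coefFrac_eq_zero fun hle => ha ?_
    calc a = a * (v.asIdeal : FIM M)⁻¹ * (v.asIdeal : FIM M) := by
          rw [mul_assoc, inv_mul_cancel₀ hv0, mul_one]
      _ ≤ 1 * 1 := mul_le_mul' hle FractionalIdeal.coeIdeal_le_one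
      _ = 1 := one_mul 1

end Data

end FLTAgent.LT.ThetaM
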