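import Fermat.Agent.LT.ThetaM.Strong
import Fermat.Agent.LT.ThetaM.FId
import Fermat.Agent.LT.TF.Aleph.Word
import Fermat.Agent.LT.RS.Coef

/-!
# `T_v` on the diagonal representatives

An eigen equation of `T_v` for a function with a level may be checked at `diag(a, 1)`; there `T_v`
is a sum over global translations `β u ≡ a u` plus the value at `diag(a / π, 1)`, and the additive
character sums over these translations detect the annihilator of the lattice of `a`.
-/

set_option autoImplicit false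
set_option linter.unusedSectionVars false
set_option linter.style.haveILetI false

noncomputable section

namespace FLTAgent.LT.ThetaM

open NumberField IsDedekindDomain

open FractionalIdeal (spanSingleton)
open scoped nonZeroDivisors

section general

variable {F : Type*} [Field F] [NumberField F] {N : ℕ} {φ : Form F}

local notation "HS" => HeightOneSpectrum (𝓞 F)

theorem lowerDiag_eq_scalar (a : (Af F)ˣ) : lowerDiag a = diagGF a⁻¹ * scalarGF a := by
  refine Units.ext ?_
  ext i j
  fin_cases i <;> fin_cases j <;>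
    simp [lowerDiag, upperGF, scalarGF, Matrix.mul_apply, Fin.sum_univ_two]

theorem rightInv_of_automorphic (ha : Automorphic N φ) (x : Xinf F) : Aleph.RightInv N (φ x) := by
  intro g u hu
  obtain ⟨k, hk, c, rfl⟩ := Red.mem_UZ.1 hu
  rw [← mul_assoc, ha.central, ha.right_inv k hk]

theorem hecke_toFin_mul (ha : Automorphic N φ) (v : HS) (γ : GL (Fin 2) F) (x : Xinf F) (g : GF F) :
    hecke v φ (actInf γ x) (toFin γ * g) = hecke v φ x g := by
  simp only [hecke, mul_assoc, ha.left_inv]

theorem hecke_mul_level (ha : Automorphic N φ) {v : HS} (hv : (N : 𝓞 F) ∉ v.asIdeal) {k : GF F}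
    (hk : InLevel N k) (x : Xinf F) (g : GF F) : hecke v φ x (g * k) = hecke v φ x g := by
  rw [Aleph.hecke_eq_hOp, Aleph.hecke_eq_hOp]
  refine (rightInv_of_automorphic ha x).hOp hv g k (Red.mem_UZ.2 ⟨k, hk, 1, ?_⟩)
  rw [Red.scalarGF_one, mul_one]

/-- An eigen equation may be checked at the diagonal representatives. -/
theorem hecke_eq_of_diag (ha : Automorphic N φ) (hN : 0 < N) {v : HS}
    (hv : (N : 𝓞 F) ∉ v.asIdeal) {c : ℂ}
    (h : ∀ x a, hecke v φ x (diagGF a) = c * φ x (diagGF a)) (x : Xinf F) (g : GF F) :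
    hecke v φ x g = c * φ x g := by
  obtain ⟨γ, k, hk, hg⟩ := exists_decomp g hN
  obtain ⟨y, rfl⟩ : ∃ y, actInf γ y = x :=
    ⟨actInf γ⁻¹ x, by rw [← actInf_mul, mul_inv_cancel, actInf_one]⟩
  rw [hg, hecke_mul_level ha hv hk, ha.right_inv k hk, hecke_toFin_mul ha, ha.left_inv]
  exact h _ _

/-- The adele `r` at `v`, zero elsewhere. -/
def intAdele (v : HS) (r : 𝓞 F) : Af F := adeleSingle v ((r : F) : v.adicCompletion F)

theorem intAdele_self (v : HS) (r : 𝓞 F) :
    intAdele v r v = ((r : F) : v.adicCompletion F) := Aleph.adeleSingle_apply_self v _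

theorem intAdele_ne {v w : HS} (h : w ≠ v) (r : 𝓞 F) : intAdele v r w = 0 :=
  Aleph.adeleSingle_apply_ne v _ h

theorem intAdele_add (v : HS) (r r' : 𝓞 F) :
    intAdele v (r + r') = intAdele v r + intAdele v r' := by
  refine Red.af_ext fun w => ?_
  show _ = intAdele v r w + intAdele v r' w
  rcases eq_or_ne w v with rfl | h
  · rw [intAdele_self, intAdele_self, intAdele_self]
    exact map_add ((algebraMap F (w.adicCompletion F)).comp (algebraMap (𝓞 F) F)) r r'
  · rw [intAdele_ne h, intAdele_ne h, intAdele_ne h, add_zero]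

/-- The adele `u` at `v`, zero elsewhere. -/
def resAdele (v : HS) (u : 𝓞 F ⧸ v.asIdeal) : Af F := intAdele v (Quotient.out u)

/-- Global representatives of `a u`. -/
def IsTransl (N : ℕ) (a : (Af F)ˣ) (v : HS) (β : (𝓞 F ⧸ v.asIdeal) → F) : Prop :=
  ∀ u w, Valued.v (((a : Af F) * resAdele v u - algebraMap F (Af F) (β u)) w) ≤
    Valued.v ((((a * unifIdele v : (Af F)ˣ) : Af F) * (N : Af F)) w)

theorem exists_isTransl (hN : 0 < N) (a : (Af F)ˣ) (v : HS) : ∃ β, IsTransl N a v β := by
  obtain ⟨m, hm, hle⟩ := Red.exists_natCast_le (a * unifIdele v)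
  choose β hβ using fun u => Red.exists_sub_le ((a : Af F) * resAdele v u) (Nat.mul_pos hm hN)
  refine ⟨β, fun u w => (hβ u w).trans ?_⟩
  rw [Nat.cast_mul, RS.af_mul_apply, RS.af_mul_apply, map_mul, map_mul]
  exact mul_le_mul' (hle w) le_rfl

/-- `T_v` at a diagonal representative. -/
theorem hecke_diag (ha : Automorphic N φ) (v : HS) (a : (Af F)ˣ) {β : (𝓞 F ⧸ v.asIdeal) → F}
    (hβ : IsTransl N a v β) (x : Xinf F) :
    hecke v φ x (diagGF a) =
      (∑ᶠ u, φ (translate (-RS.embF (β u)) x) (diagGF (a * unifIdele v))) +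
        φ x (diagGF (a * (unifIdele v)⁻¹)) := by
  unfold hecke
  congr 1
  · refine finsum_congr fun u => ?_
    change φ x (diagGF a * upperGF (unifIdele v) (resAdele v u)) = _
    rw [Red.upperGF_mul, add_zero,
      show upperGF (a * unifIdele v) ((a : Af F) * resAdele v u) =
        upperGF 1 ((a : Af F) * resAdele v u) * diagGF (a * unifIdele v) by
        rw [Red.upperGF_mul, one_mul, mul_zero, zero_add]]
    refine RS.apply_upperGF_mul ha ?_ x
    set A := a * unifIdele v
    set b := (a : Af F) * resAdele v u - algebraMap F (Af F) (β u)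
    have e : (diagGF A)⁻¹ * upperGF 1 b * diagGF A = upperGF 1 (((A⁻¹ : (Af F)ˣ) : Af F) * b) := by
      rw [mul_assoc, inv_mul_eq_iff_eq_mul]
      simp [Red.upperGF_mul, ← mul_assoc]
    rw [e]
    refine inLevel_upperU fun w => ?_
    rw [RS.af_mul_apply, map_mul, Red.valued_inv]
    have h := hβ u w
    rw [RS.af_mul_apply, map_mul] at h
    rwa [inv_mul_le_iff₀ (zero_lt_iff.2 ((map_ne_zero _).2 (Red.unit_apply_ne_zero A w)))]
  · rw [lowerDiag_eq_scalar, ← mul_assoc, ha.central, Red.upperGF_mul, mul_zero, add_zero]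

end general

section sums

variable {M : Type} [Field M] [NumberField M]

local notation "HS" => HeightOneSpectrum (𝓞 M)

/-- The elements of the lattice of `a`. -/
def InIdele (a : (Af M)ˣ) (β : M) : Prop :=
  ∀ w : HS, Valued.v ((algebraMap M (Af M) β) w) ≤ Valued.v ((a : Af M) w)

/-- `psi (ξ ·)` is trivial on the lattice of `a`. -/
def Ann (a : (Af M)ˣ) (ξ : M) : Prop := ∀ β, InIdele a β → psi (ξ * β) = 1

theorem InIdele.sub {a : (Af M)ˣ} {b c : M} (hb : InIdele a b) (hc : InIdele a c) :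
    InIdele a (b - c) := fun w => by
  rw [map_sub]
  exact (Valued.v.map_sub _ _).trans (max_le (hb w) (hc w))

theorem valued_resAdele_le (v w : HS) (u : 𝓞 M ⧸ v.asIdeal) :
    Valued.v (resAdele v u w) ≤ 1 := by
  rcases eq_or_ne w v with rfl | h
  · rw [resAdele, intAdele_self, HeightOneSpectrum.adicCompletion.valued_coe]
    exact w.valuation_le_one _
  · rw [resAdele, intAdele_ne h, map_zero]
    exact zero_le_one

theorem valued_unif_le (v w : HS) : Valued.v ((unifIdele v : Af M) w) ≤ 1 := by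
  rcases eq_or_ne w v with rfl | h
  · rw [Aleph.unifIdele_apply_self, Aleph.valued_piV]
    exact (WithZero.exp_le_exp.2 (by norm_num)).trans_eq WithZero.exp_zero
  · rw [Aleph.unifIdele_apply_ne v h, map_one]

variable {N : ℕ} {a : (Af M)ˣ} {v : HeightOneSpectrum (𝓞 M)}
  {β : (𝓞 M ⧸ v.asIdeal) → M}

theorem IsTransl.sub_le (hβ : IsTransl N a v β) (u : 𝓞 M ⧸ v.asIdeal) (w : HS) :
    Valued.v (((a : Af M) * resAdele v u - algebraMap M (Af M) (β u)) w) ≤
      Valued.v (((a * unifIdele v : (Af M)ˣ) : Af M) w) := by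
  refine (hβ u w).trans ?_
  rw [RS.af_mul_apply, map_mul]
  exact mul_le_of_le_one_right' (Red.valued_natCast_le_one _ w)

theorem IsTransl.inIdele (hβ : IsTransl N a v β) (u : 𝓞 M ⧸ v.asIdeal) : InIdele a (β u) := by
  intro w
  have h1 := hβ.sub_le u w
  rw [Units.val_mul, RS.af_mul_apply, map_mul] at h1
  have h3 : Valued.v ((a : Af M) w) * Valued.v (resAdele v u w) ≤ Valued.v ((a : Af M) w) :=
    mul_le_of_le_one_right' (valued_resAdele_le v w u)
  change Valued.v ((a : Af M) w * resAdele v u w - _) ≤ _ at h1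
  rw [show (algebraMap M (Af M) (β u)) w = (a : Af M) w * resAdele v u w -
    ((a : Af M) w * resAdele v u w - (algebraMap M (Af M) (β u)) w) by ring]
  refine (Valued.v.map_sub _ _).trans (max_le ?_ (h1.trans ?_))
  · rw [map_mul]; exact h3
  · exact mul_le_of_le_one_right' (valued_unif_le v w)

/-- The residue sum of the additive character. -/
theorem sum_psi_transl (hβ : IsTransl N a v β) {ξ : M} (hξ : Ann (a * unifIdele v) ξ)
    [Decidable (Ann a ξ)] :
    ∑ᶠ u, psi (ξ * β u) = if Ann a ξ then (Nat.card (𝓞 M ⧸ v.asIdeal) : ℂ) else 0 := by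
  classical
  haveI : Finite (𝓞 M ⧸ v.asIdeal) := Ideal.finiteQuotientOfFreeOfNeBot _ v.ne_bot
  haveI := Fintype.ofFinite (𝓞 M ⧸ v.asIdeal)
  -- elements congruent at `v` to `a u` and small elsewhere
  have key : ∀ (b : M) (u : 𝓞 M ⧸ v.asIdeal) (r : 𝓞 M), Ideal.Quotient.mk v.asIdeal r = u →
      (∀ w, Valued.v (((a : Af M) * intAdele v r -
          algebraMap M (Af M) b) w) ≤ Valued.v (((a * unifIdele v : (Af M)ˣ) : Af M) w)) →
      psi (ξ * b) = psi (ξ * β u) := by
    intro b u r hr hb
    have : InIdele (a * unifIdele v) (b - β u) := fun w => by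
      have h1 := hb w
      have h2 := hβ.sub_le u w
      have h3 : Valued.v (((a : Af M) * intAdele v r -
          (a : Af M) * resAdele v u) w) ≤ Valued.v (((a * unifIdele v : (Af M)ˣ) : Af M) w) := by
        change Valued.v ((a : Af M) w * intAdele v r w - (a : Af M) w * resAdele v u w) ≤ _
        rw [← mul_sub, Units.val_mul, RS.af_mul_apply, map_mul, map_mul]
        refine mul_le_mul' le_rfl ?_
        rcases eq_or_ne w v with rfl | h
        · rw [resAdele, intAdele_self, intAdele_self,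
            ← Red.coe_sub_completion, HeightOneSpectrum.adicCompletion.valued_coe,
            ← map_sub, HeightOneSpectrum.valuation_of_algebraMap, Aleph.unifIdele_apply_self, Aleph.valued_piV]
          refine (w.intValuation_le_pow_iff_mem _ 1).2 ?_
          rw [pow_one]
          exact Ideal.Quotient.eq.1 (hr.trans (Ideal.Quotient.mk_out u).symm)
        · rw [resAdele, intAdele_ne h, intAdele_ne h]
          simp
      have e : algebraMap M (Af M) (b - β u) =
          (((a : Af M) * intAdele v r - (a : Af M) * resAdele v u) +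
              ((a : Af M) * resAdele v u - algebraMap M (Af M) (β u))) -
            ((a : Af M) * intAdele v r - algebraMap M (Af M) b) := by
        rw [map_sub]; ring
      rw [e]
      exact (Valued.v.map_sub _ _).trans (max_le (Valued.v.map_add_le h3 h2) h1)
    have h := hξ _ this
    have hs : psi (ξ * b) = psi (ξ * (b - β u)) * psi (ξ * β u) := by
      rw [← psi_add]; ring_nf
    rw [hs, h, one_mul]
  have hadd : ∀ u u' : 𝓞 M ⧸ v.asIdeal,
      psi (ξ * β (u + u')) = psi (ξ * β u) * psi (ξ * β u') := by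
    intro u u'
    rw [← psi_add, ← mul_add]
    refine (key _ _ (Quotient.out u + Quotient.out u') ?_ fun w => ?_).symm
    · rw [map_add]
      exact congrArg₂ (· + ·) (Ideal.Quotient.mk_out u) (Ideal.Quotient.mk_out u')
    · have e : (a : Af M) * intAdele v (Quotient.out u + Quotient.out u') -
            algebraMap M (Af M) (β u + β u') =
          ((a : Af M) * resAdele v u - algebraMap M (Af M) (β u)) +
            ((a : Af M) * resAdele v u' - algebraMap M (Af M) (β u')) := by
        rw [intAdele_add, map_add, resAdele, resAdele]; ring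
      rw [e]
      exact Valued.v.map_add_le (hβ.sub_le u w) (hβ.sub_le u' w)
  have h0 : psi (ξ * β 0) = 1 := by
    have h := hadd 0 0
    rw [add_zero] at h
    have hne : psi (ξ * β 0) ≠ 0 := fun hz => by simpa [hz] using norm_psi (ξ * β 0)
    exact (mul_eq_right₀ hne).1 h.symm
  let χ : AddChar (𝓞 M ⧸ v.asIdeal) ℂ :=
    { toFun := fun u => psi (ξ * β u), map_zero_eq_one' := h0, map_add_eq_mul' := hadd }
  rw [finsum_eq_sum_of_fintype, Nat.card_eq_fintype_card]
  by_cases hA : Ann a ξ
  · simp [if_pos hA, fun u => hA _ (hβ.inIdele u)]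
  · rw [if_neg hA]
    refine AddChar.sum_eq_zero_of_ne_one (ψ := χ) fun hχ => hA fun b hb => ?_
    obtain ⟨r, hr⟩ : ∃ r : 𝓞 M, Valued.v (((a⁻¹ : (Af M)ˣ) : Af M) v *
        (algebraMap M (Af M) b) v - ((r : M) : v.adicCompletion M)) ≤ WithZero.exp (-1 : ℤ) := by
      refine Red.exists_int_near v ?_ WithZero.exp_ne_zero
      rw [map_mul, Red.valued_inv,
        inv_mul_le_iff₀ (zero_lt_iff.2 ((map_ne_zero _).2 (Red.unit_apply_ne_zero a v))), mul_one]
      exact hb v
    rw [key b _ r rfl fun w => ?_]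
    · exact DFunLike.congr_fun hχ _
    · change Valued.v ((a : Af M) w * intAdele v r w - (algebraMap M (Af M) b) w) ≤ _
      rw [Units.val_mul, RS.af_mul_apply, map_mul]
      rcases eq_or_ne w v with rfl | h
      · rw [intAdele_self, Aleph.unifIdele_apply_self, Aleph.valued_piV]
        have hai : (a : Af M) w * ((a⁻¹ : (Af M)ˣ) : Af M) w = 1 := by
          rw [← RS.af_mul_apply, Units.mul_inv]; rfl
        rw [show (a : Af M) w * ((r : M) : w.adicCompletion M) - (algebraMap M (Af M) b) w =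
            -((a : Af M) w * (((a⁻¹ : (Af M)ˣ) : Af M) w * (algebraMap M (Af M) b) w -
              ((r : M) : w.adicCompletion M))) by
            rw [mul_sub, ← mul_assoc, hai, one_mul]; ring, Valuation.map_neg, map_mul]
        exact mul_le_mul' le_rfl hr
      · rw [intAdele_ne h, mul_zero, zero_sub, Valuation.map_neg,
          Aleph.unifIdele_apply_ne v h, map_one, mul_one]
        exact hb w

end sums

section final

variable {M E : Type} [Field M] [NumberField M] [Field E] [NumberField E] [Algebra M E]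

theorem wTerm_translate (p : H3) (b ξ : ℂ) :
    wTerm (p.1 + b, p.2) ξ =
      wTerm p ξ * Complex.exp (((4 * Real.pi * (b * ξ).re : ℝ) : ℂ) * Complex.I) := by
  simp only [wTerm]
  rw [mul_assoc (((p.2 : ℝ) * bK ((p.2 : ℝ) * ‖ξ‖) : ℝ) : ℂ), ← Complex.exp_add, ← add_mul,
    ← Complex.ofReal_add, add_mul p.1, Complex.add_re, mul_add]

variable [IsTotallyComplex M]

theorem wProd_translate (x : Xinf M) (β ξ : M) :
    wProd (translate (RS.embF β) x) ξ = wProd x ξ * psi (β * ξ) := by
  have e : psi (β * ξ) = ∏ w : InfinitePlace M,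
      Complex.exp (((4 * Real.pi * (w.embedding β * w.embedding ξ).re : ℝ) : ℂ) * Complex.I) := by
    rw [psi, eQ, RS.trace_eq_sum_places, ← Complex.exp_sum, ← Finset.sum_mul,
      ← Complex.ofReal_sum, Finset.mul_sum]
    congr 3
    exact Finset.sum_congr rfl fun w _ => by rw [map_mul]; ring
  rw [e, wProd, wProd, ← Finset.prod_mul_distrib]
  exact Finset.prod_congr rfl fun w _ => wTerm_translate _ _ _

theorem neg_embF (β : M) : -RS.embF β = RS.embF (-β) := by
  funext w
  simp [RS.embF]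

theorem inIdele_iff {a : (Af M)ˣ} {b : M} : InIdele a b ↔ b ∈ (fId a : FIM M) := by
  rw [mem_fId, InIdele]
  exact forall_congr' fun w => by rw [Red.valued_algebraMap]

/-- An integral product is killed by `psi`. -/
theorem ann_of_le {a : (Af M)ˣ} {ξ : M}
    (h : spanSingleton (𝓞 M)⁰ ξ * (fId a : FIM M) ≤ 1) : Ann a ξ := fun b hb => by
  obtain ⟨y, hy⟩ := (FractionalIdeal.mem_one_iff _).1
    (h (FractionalIdeal.mul_mem_mul (FractionalIdeal.mem_spanSingleton_self _ ξ) (inIdele_iff.1 hb)))
  refine psi_integral ?_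
  rw [← hy]
  exact y.isIntegral_coe

theorem ann_neg {a : (Af M)ˣ} {ξ : M} : Ann a (-ξ) ↔ Ann a ξ := by
  have : ∀ {η : M}, Ann a η → Ann a (-η) := fun {η} h b hb => by
    rw [neg_mul, ← mul_neg]
    exact h _ fun w => by
      rw [map_neg]
      exact (Valued.v.map_neg _).trans_le (hb w)
  exact ⟨fun h => by simpa using this h, this⟩

/-- At a place outside the level, an annihilator of the lattice gives an integral product. -/
theorem le_of_ann (D : Data M E) {N : ℕ} (hlev : D.IsLev N) {v : HeightOneSpectrum (𝓞 M)}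
    (hv : (N : 𝓞 M) ∉ v.asIdeal) {a : (Af M)ˣ} {ξ : M}
    (hV : spanSingleton (𝓞 M)⁰ ξ * (fId a : FIM M) * (v.asIdeal : FIM M) ≤ 1) (hA : Ann a ξ) :
    spanSingleton (𝓞 M)⁰ ξ * (fId a : FIM M) ≤ 1 := by
  haveI := D.toQuad.finiteDimensional
  refine FractionalIdeal.spanSingleton_mul_le_iff.2 fun z hz => ?_
  set x := ξ * z
  -- the traces on the ideal of `x`
  have htr : ∀ c : 𝓞 M, ∃ n : ℤ, Algebra.trace ℚ M (x * (c : M)) = n := fun c => by
    refine exists_int_of_eQ ?_
    have hb : InIdele a (z * (c : M)) := inIdele_iff.2 (by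
      rw [mul_comm]
      exact Submodule.smul_mem _ c hz)
    rw [← hA _ hb, psi, mul_assoc]
  -- `N x` is integral
  have hN : IsIntegral ℤ ((N : M) * x) := by
    have h := hlev.2.2 (algebraMap M E x) fun y _ => by
      obtain ⟨n, hn⟩ := htr (Algebra.intTrace (𝓞 M) (𝓞 E) y)
      refine ⟨n, ?_⟩
      rw [← hn, ← Algebra.trace_trace (S := M), ← Algebra.smul_def, map_smul, smul_eq_mul]
      congr 2
      exact (Algebra.algebraMap_intTrace (A := 𝓞 M) (K := M) (L := E) y).symm
    have h2 := h.add h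
    rw [← two_mul, ← mul_assoc, mul_div_cancel₀ _ two_ne_zero, ← map_natCast (algebraMap M E) N,
      ← map_mul] at h2
    exact (isIntegral_algebraMap_iff (algebraMap M E).injective).1 h2
  obtain ⟨y, hy⟩ : ∃ y : 𝓞 M, (y : M) = (N : M) * x := ⟨⟨_, hN⟩, rfl⟩
  rw [FractionalIdeal.mem_one_iff]
  refine HeightOneSpectrum.mem_integers_of_valuation_le_one M x fun w => ?_
  rcases eq_or_ne w v with rfl | hw
  · have h1 : w.valuation M ((N : M) * x) ≤ 1 := by rw [← hy]; exact w.valuation_le_one y
    rwa [map_mul, ← map_natCast (algebraMap (𝓞 M) M) N, HeightOneSpectrum.valuation_of_algebraMap,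
      (HeightOneSpectrum.intValuation_eq_one_iff).2 hv, one_mul] at h1
  · obtain ⟨t, htv, htw⟩ : ∃ t ∈ v.asIdeal, t ∉ w.asIdeal :=
      SetLike.not_le_iff_exists.1 fun hle => hw (HeightOneSpectrum.ext
        (v.isMaximal.eq_of_le w.isPrime.ne_top hle).symm)
    obtain ⟨e, he⟩ := (FractionalIdeal.mem_one_iff _).1 (hV (FractionalIdeal.mul_mem_mul
      (FractionalIdeal.mul_mem_mul (FractionalIdeal.mem_spanSingleton_self _ ξ) hz)
      ((FractionalIdeal.mem_coeIdeal _).2 ⟨t, htv, rfl⟩)))
    have h1 : w.valuation M (x * (t : M)) ≤ 1 := by rw [← he]; exact w.valuation_le_one e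
    rwa [map_mul, HeightOneSpectrum.valuation_of_algebraMap,
      (HeightOneSpectrum.intValuation_eq_one_iff).2 htw, mul_one] at h1

/-- `T_v` on a function with the theta expansion on the diagonal. -/
theorem hecke_eq (D : Data M E) {N : ℕ} (hlev : D.IsLev N) {φ : Form M} (ha : Automorphic N φ)
    (hexp : ∀ (a : (Af M)ˣ) (x : Xinf M), HasSum (fun ξ : {ξ : M // ξ ≠ 0} =>
      (cN (fId a : FIM M) : ℂ) * D.coefFrac (spanSingleton (𝓞 M)⁰ (ξ : M) * (fId a : FIM M)) *
        wProd x ξ) (φ x (diagGF a)))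
    (v : HeightOneSpectrum (𝓞 M)) (hv : (N : 𝓞 M) ∉ v.asIdeal) :
    ∀ x g, hecke v φ x g =
      (Real.sqrt (Nat.card (𝓞 M ⧸ v.asIdeal)) : ℂ) * D.coef v.asIdeal * φ x g := by
  classical
  refine fun x g => hecke_eq_of_diag ha hlev.1 hv (fun x a => ?_) x g
  obtain ⟨β, hβ⟩ := exists_isTransl hlev.1 a v
  haveI : Finite (𝓞 M ⧸ v.asIdeal) := Ideal.finiteQuotientOfFreeOfNeBot _ v.ne_bot
  haveI := Fintype.ofFinite (𝓞 M ⧸ v.asIdeal)
  have hnf : ¬ D.nf ≤ v.asIdeal := fun h => hv (h hlev.2.1)
  set A : FIM M := (fId a : FIM M)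
  set V : FIM M := (v.asIdeal : FIM M)
  set Q : ℕ := Nat.card (𝓞 M ⧸ v.asIdeal)
  set q : ℝ := Real.sqrt Q
  have hQ : 0 < Q := Nat.card_pos
  have hq : (q : ℂ) ≠ 0 := Complex.ofReal_ne_zero.2 (Real.sqrt_ne_zero'.2 (Nat.cast_pos.2 hQ))
  have hqq : (q : ℂ) * q = (Q : ℂ) := by
    rw [← Complex.ofReal_mul, Real.mul_self_sqrt (Nat.cast_nonneg _), Complex.ofReal_natCast]
  have hV : ((FractionalIdeal.absNorm V : ℚ) : ℝ) = (Q : ℝ) := by
    rw [FractionalIdeal.coeIdeal_absNorm, Rat.cast_natCast]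
    rfl
  have hA1 : (fId (a * unifIdele v) : FIM M) = A * V := by
    rw [map_mul, Units.val_mul, fId_unifIdele]
  have hA2 : (fId (a * (unifIdele v)⁻¹) : FIM M) = A * V⁻¹ := by
    rw [map_mul, map_inv, Units.val_mul, Units.val_inv_eq_inv_val, fId_unifIdele]
  have hc1 : (cN (A * V) : ℂ) = cN A / q := by
    rw [cN, cN, map_mul, Rat.cast_mul, hV, Real.sqrt_mul' _ (Nat.cast_nonneg _), mul_inv,
      Complex.ofReal_mul, Complex.ofReal_inv q, div_eq_mul_inv]
  have hc2 : (cN (A * V⁻¹) : ℂ) = cN A * q := by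
    rw [cN, cN, map_mul, map_inv₀, Rat.cast_mul, Rat.cast_inv, hV,
      Real.sqrt_mul' _ (inv_nonneg.2 (Nat.cast_nonneg _)), Real.sqrt_inv, mul_inv, inv_inv,
      Complex.ofReal_mul]
  have e1 := (hexp (a * (unifIdele v)⁻¹) x)
  have e2 := hasSum_sum fun u (_ : u ∈ (Finset.univ : Finset (𝓞 M ⧸ v.asIdeal))) =>
    hexp (a * unifIdele v) (translate (-RS.embF (β u)) x)
  rw [hecke_diag ha v a hβ, finsum_eq_sum_of_fintype]
  refine ((e2.add e1).congr_fun fun ξ => ?_).unique
    ((hexp a x).mul_left ((q : ℂ) * D.coef v.asIdeal))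
  simp only [hA1, hA2, hc1, hc2, neg_embF, wProd_translate, neg_mul]
  rw [← Finset.mul_sum, ← Finset.mul_sum]
  set Y := spanSingleton (𝓞 M)⁰ (ξ : M) * A with hY
  rw [← mul_assoc _ A V, ← mul_assoc _ A V⁻¹, ← hY]
  have key : (cN A : ℂ) / q * D.coefFrac (Y * V) * (∑ u, psi (-(β u * (ξ : M)))) =
      (cN A : ℂ) * q * (if Y ≤ 1 then D.coefFrac (Y * V) else 0) := by
    by_cases h1 : Y * V ≤ 1
    · have hann : Ann (a * unifIdele v) (ξ : M) := ann_of_le (by
        rw [hA1, ← mul_assoc, ← hY]; exact h1)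
      have hs := sum_psi_transl hβ (ann_neg.2 hann)
      rw [finsum_eq_sum_of_fintype] at hs
      rw [show (∑ u, psi (-(β u * (ξ : M)))) = ∑ u, psi (-(ξ : M) * β u) from
        Finset.sum_congr rfl fun u _ => by rw [mul_comm (β u), neg_mul], hs]
      have hiff : Ann a (-(ξ : M)) ↔ Y ≤ 1 :=
        ⟨fun h => le_of_ann D hlev hv h1 (ann_neg.1 h), fun h => ann_neg.2 (ann_of_le h)⟩
      by_cases h2 : Y ≤ 1
      · rw [if_pos (hiff.2 h2), if_pos h2]
        change _ * (Q : ℂ) = _
        rw [← hqq]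
        field_simp
      · rw [if_neg (fun h => h2 (hiff.1 h)), if_neg h2]
        simp
    · rw [D.coefFrac_eq_zero h1]
      split_ifs <;> simp
  linear_combination (-(wProd x (ξ : M))) * key -
    (q : ℂ) * (cN A : ℂ) * wProd x (ξ : M) * D.coefFrac_rec hnf Y

end final

end FLTAgent.LT.ThetaM
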