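import Fermat.Agent.LT.ThetaM.Setting
import Fermat.Agent.LT.Red.Integral

/-!
Strong approximation for `SL₂`: a finite adelic matrix is a global matrix, times the diagonal
matrix of its determinant, times an element of any given level.
-/

set_option autoImplicit false
set_option linter.style.haveILetI false

noncomputable section

namespace FLTAgent.LT.ThetaM

open NumberField IsDedekindDomain Matrix
open FLTAgent.LT.Red

variable {F : Type*} [Field F] [NumberField F]

local notation "HS" => HeightOneSpectrum (𝓞 F)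
local notation "M2" => Matrix (Fin 2) (Fin 2) (Af F)

/-- The lower unipotent matrix. -/
def lowerU (x : Af F) : GF F where
  val := !![1, 0; x, 1]
  inv := !![1, 0; -x, 1]
  val_inv := by ext i j; fin_cases i <;> fin_cases j <;> simp [Matrix.mul_apply, Fin.sum_univ_two]
  inv_val := by ext i j; fin_cases i <;> fin_cases j <;> simp [Matrix.mul_apply, Fin.sum_univ_two]

/-- A global lower unipotent matrix. -/
def lowerUF (x : F) : GL (Fin 2) F :=
  Matrix.GeneralLinearGroup.mkOfDetNeZero !![1, 0; x, 1] (by simp [det_fin_two])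

theorem toFin_lowerUF (x : F) : toFin (lowerUF x) = lowerU (algebraMap F (Af F) x) := by
  refine Units.ext ?_
  ext i j
  fin_cases i <;> fin_cases j <;> simp [toFin, lowerUF, lowerU]

theorem lowerU_add (x y : Af F) : lowerU (x + y) = lowerU x * lowerU y := by
  refine Units.ext ?_
  ext i j
  fin_cases i <;> fin_cases j <;> simp [lowerU, Matrix.mul_apply, Fin.sum_univ_two]

theorem upperGF_one_add (x y : Af F) : upperGF 1 (x + y) = upperGF 1 x * upperGF 1 y := by
  rw [upperGF_mul, one_mul, Units.val_one, one_mul, add_comm]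

theorem inLevel_lowerU {N : ℕ} {x : Af F}
    (hx : ∀ v : HS, Valued.v (x v) ≤ Valued.v ((N : Af F) v)) : InLevel N (lowerU x) := by
  intro v i j
  have h0 : Valued.v ((0 : Af F) v) ≤ Valued.v ((N : Af F) v) := by
    rw [show (0 : Af F) v = 0 from rfl, map_zero]; exact zero_le
  have hn : Valued.v ((-x) v) ≤ Valued.v ((N : Af F) v) := by
    show Valued.v (-(x v)) ≤ _
    rw [Valuation.map_neg]; exact hx v
  fin_cases i <;> fin_cases j <;>
    simp only [lowerU, Fin.mk_one, Fin.zero_eta, Matrix.sub_apply] <;>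
    first
      | exact ⟨by simpa using h0, by simpa using h0⟩
      | exact ⟨by simpa using hx v, by simpa using hn⟩

theorem inLevel_upperU {N : ℕ} {x : Af F}
    (hx : ∀ v : HS, Valued.v (x v) ≤ Valued.v ((N : Af F) v)) : InLevel N (upperGF 1 x) :=
  inLevel_upperGF (fun v => by
    refine ⟨map_one _, ?_, ?_⟩ <;> simp [show (0 : Af F) v = 0 from rfl]) hx

/-- Approximable by global matrices at every level. -/
def Approxable (h : GF F) : Prop :=
  ∀ N : ℕ, 0 < N → ∃ γ : GL (Fin 2) F, InLevel N ((toFin γ)⁻¹ * h)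

theorem approxable_one : Approxable (1 : GF F) := fun N _ =>
  ⟨1, by rw [map_one, inv_one, one_mul]; exact Red.InLevel.one N⟩

theorem Approxable.step {h : GF F} (hh : Approxable h) {E : Af F → GF F} {Ef : F → GL (Fin 2) F}
    (hadd : ∀ x y, E (x + y) = E x * E y) (hEf : ∀ b, toFin (Ef b) = E (algebraMap F (Af F) b))
    (hlev : ∀ (N : ℕ) (x : Af F), (∀ v : HS, Valued.v (x v) ≤ Valued.v ((N : Af F) v)) →
      InLevel N (E x)) (x : Af F) : Approxable (E x * h) := by
  intro N hN
  obtain ⟨m, hm, hden⟩ := exists_den (Set.finite_singleton h)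
  obtain ⟨β, hβ⟩ := exists_sub_le x (Nat.mul_pos hN (pow_pos hm 2))
  obtain ⟨γ, hγ⟩ := hh N hN
  refine ⟨Ef β * γ, ?_⟩
  have h1 : (toFin (Ef β * γ))⁻¹ * (E x * h) =
      (toFin γ)⁻¹ * h * (h⁻¹ * E (x - algebraMap F (Af F) β) * h) := by
    rw [map_mul, _root_.mul_inv_rev, hEf]
    conv_lhs => rw [← add_sub_cancel (algebraMap F (Af F) β) x, hadd]
    group
  rw [h1]
  exact Red.InLevel.mul hγ (inLevel_conj_den hm (hden h rfl) (hlev _ _ hβ))

theorem Approxable.upper {h : GF F} (hh : Approxable h) (x : Af F) :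
    Approxable (upperGF 1 x * h) :=
  hh.step (Ef := fun b => upperF 1 b) upperGF_one_add
    (fun b => by rw [toFin_upperF, map_one]) (fun _ _ => inLevel_upperU) x

theorem Approxable.lower {h : GF F} (hh : Approxable h) (x : Af F) :
    Approxable (lowerU x * h) :=
  hh.step (Ef := lowerUF) lowerU_add toFin_lowerUF (fun _ _ => inLevel_lowerU) x

theorem approxable_of_det_one (h : GF F) (hdet : (h : M2).det = 1) : Approxable h := by
  classical
  set a := (h : M2) 0 0
  set b := (h : M2) 0 1
  set c := (h : M2) 1 0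
  set d := (h : M2) 1 1
  let e : ∀ v : HS, v.adicCompletion F := fun v => if Valued.v (a v) ≤ Valued.v (c v) then 0 else 1
  set t : Af F := mkInt e fun v => by
    simp only [e]; split_ifs <;> simp
  have hc' : ∀ v : HS, Valued.v ((c + t * a) v) = max (Valued.v (a v)) (Valued.v (c v)) := by
    intro v
    show Valued.v (c v + e v * a v) = _
    simp only [e]
    split_ifs with hle
    · rw [zero_mul, add_zero, max_eq_right hle]
    · rw [one_mul, max_eq_left (le_of_not_ge hle),
        Valuation.map_add_eq_of_lt_right _ (lt_of_not_ge hle)]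
  have hone : ∀ v : HS, 1 ≤ Valued.v ((c + t * a) v) * max (Valued.v (d v)) (Valued.v (b v)) := by
    intro v
    have h1 : a v * d v - b v * c v = 1 := by
      rw [det_fin_two] at hdet
      exact congrFun (congrArg (fun z : Af F => (fun w : HS => z w)) hdet) v
    rw [hc', ← map_one (Valued.v (R := v.adicCompletion F)), ← h1]
    refine (Valued.v.map_sub _ _).trans (max_le ?_ ?_)
    · rw [map_mul]; exact mul_le_mul' (le_max_left _ _) (le_max_left _ _)
    · rw [map_mul, mul_comm]; exact mul_le_mul' (le_max_right _ _) (le_max_right _ _)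
  have hne : ∀ v : HS, (c + t * a) v ≠ 0 := fun v h0 => by
    have := hone v
    rw [h0, map_zero, zero_mul] at this
    exact not_lt.2 this zero_lt_one
  let ci : Af F := ⟨fun v => ((c + t * a) v)⁻¹, by
    filter_upwards [d.2, b.2] with v hd hb
    show Valued.v (((c + t * a) v)⁻¹) ≤ 1
    rw [map_inv₀]
    refine le_trans ?_ (max_le hd hb : max (Valued.v (d v)) (Valued.v (b v)) ≤ 1)
    exact (inv_le_iff_one_le_mul₀ (zero_lt_iff.2 (by simp [hne v]))).2 (by
      rw [mul_comm]; exact hone v)⟩
  have hci : (c + t * a) * ci = 1 := af_ext fun v => mul_inv_cancel₀ (hne v)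
  set C := c + t * a
  set D := d + t * b
  have hdet' : a * D - b * C = 1 := by
    rw [det_fin_two] at hdet
    rw [← hdet]
    ring
  have hh : h = lowerU (-t) * (upperGF 1 ((a - 1) * ci) * (lowerU C *
      (upperGF 1 ((D - 1) * ci) * 1))) := by
    refine Units.ext ?_
    have e1 : (a - 1) * ci * C = a - 1 := by rw [mul_assoc, mul_comm ci, hci, mul_one]
    have e2 : C * ((D - 1) * ci) = D - 1 := by rw [mul_left_comm, hci, mul_one]
    have e3 : (D - 1) * ci + (a - 1) * ci * D = b := by
      calc (D - 1) * ci + (a - 1) * ci * D = (a * D - 1) * ci := by ring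
        _ = b * (C * ci) := by rw [← hdet']; ring
        _ = b := by rw [hci, mul_one]
    have hU : ((upperGF 1 ((a - 1) * ci) * (lowerU C * (upperGF 1 ((D - 1) * ci) * 1)) : GF F) : M2) =
        !![a, b; C, D] := by
      refine Matrix.ext fun i j => ?_
      fin_cases i <;> fin_cases j <;>
        simp [upperGF, lowerU, Matrix.mul_apply, Fin.sum_univ_two]
      · rw [e1]; ring
      · rw [e2]
        linear_combination e3
      · rw [e2]; ring
    rw [Units.val_mul, hU]
    refine Matrix.ext fun i j => ?_
    fin_cases i <;> fin_cases j <;>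
      simp [lowerU, Matrix.mul_apply, Fin.sum_univ_two, a, b, c, d, C, D]
  rw [hh]
  exact (((approxable_one.upper _).lower _).upper _).lower _

/-- Strong approximation for `SL₂`. -/
theorem exists_decomp (g : GF F) {n : ℕ} (hn : 0 < n) :
    ∃ γ : GL (Fin 2) F, ∃ k, InLevel n k ∧
      g = toFin γ * diagGF (Matrix.GeneralLinearGroup.det g) * k := by
  set D : GF F := diagGF (Matrix.GeneralLinearGroup.det g)
  obtain ⟨m, hm, hden⟩ := exists_den (Set.finite_singleton D)
  have hdet : ((g * D⁻¹ : GF F) : M2).det = 1 := by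
    rw [← GeneralLinearGroup.val_det_apply, map_mul, map_inv]
    rw [show Matrix.GeneralLinearGroup.det D = Matrix.GeneralLinearGroup.det g from Units.ext (by
      simp [D, upperGF, det_fin_two])]
    simp
  obtain ⟨γ, hγ⟩ := approxable_of_det_one _ hdet _ (Nat.mul_pos hn (pow_pos hm 2))
  refine ⟨γ, D⁻¹ * ((toFin γ)⁻¹ * (g * D⁻¹)) * D, inLevel_conj_den hm (hden D rfl) hγ, ?_⟩
  group

end FLTAgent.LT.ThetaM
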