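import Fermat.Agent.LT.Defs

/-!
# The data of the dihedral theta function

A quadratic extension `E/M` with its involution, a character `chi` of the ideals of `E` prime to a
modulus coming from `M`, and the coefficients `s(𝔪) = Σ chi 𝔟` over the ideals `𝔟` of norm `𝔪`.
-/

set_option autoImplicit false
set_option linter.style.haveILetI false

noncomputable section

namespace FLTAgent.LT.ThetaM

open NumberField IsDedekindDomain
open scoped nonZeroDivisors

/-- A quadratic extension with its involution. -/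
structure Quad (M E : Type) [Field M] [NumberField M] [Field E] [NumberField E] [Algebra M E] where
  conj : E ≃ₐ[M] E
  deg : Module.finrank M E = 2
  ne_refl : conj ≠ AlgEquiv.refl

variable {M E : Type} [Field M] [NumberField M] [Field E] [NumberField E] [Algebra M E]

namespace Quad

variable (Q : Quad M E)

include Q in
theorem finiteDimensional : FiniteDimensional M E :=
  FiniteDimensional.of_finrank_eq_succ Q.deg

include Q in
theorem isGalois : IsGalois M E :=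
  haveI : FiniteDimensional M E := FiniteDimensional.of_finrank_eq_succ Q.deg
  haveI : Algebra.IsQuadraticExtension M E := ⟨Q.deg⟩
  inferInstance

theorem eq_refl_or_conj (τ : E ≃ₐ[M] E) : τ = AlgEquiv.refl ∨ τ = Q.conj := by
  haveI := Q.finiteDimensional
  haveI := Q.isGalois
  have hc : Nat.card (E ≃ₐ[M] E) = 2 := (IsGalois.card_aut_eq_finrank M E).trans Q.deg
  obtain ⟨x, y, -, hxy⟩ := Nat.card_eq_two_iff.1 hc
  have h : ∀ z : E ≃ₐ[M] E, z = x ∨ z = y := fun z => by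
    have : z ∈ ({x, y} : Set _) := hxy ▸ Set.mem_univ z
    simpa using this
  rcases h τ with rfl | rfl <;> rcases h Q.conj with hc' | hc' <;>
    rcases h AlgEquiv.refl with hr | hr <;>
    first | exact Or.inl hr.symm | exact Or.inr hc'.symm | exact absurd (hc'.trans hr.symm) Q.ne_refl

theorem conj_conj (v : E) : Q.conj (Q.conj v) = v := by
  rcases Q.eq_refl_or_conj (Q.conj.trans Q.conj) with h | h
  · exact DFunLike.congr_fun h v
  · exact (DFunLike.congr_fun h v).trans (by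
      have h' : Q.conj = AlgEquiv.refl := AlgEquiv.ext fun x =>
        Q.conj.injective ((DFunLike.congr_fun h x).trans rfl)
      exact absurd h' Q.ne_refl)

theorem conj_algebraMap (m : M) : Q.conj (algebraMap M E m) = algebraMap M E m := Q.conj.commutes m

theorem univ_eq [DecidableEq (E ≃ₐ[M] E)] [Fintype (E ≃ₐ[M] E)] :
    (Finset.univ : Finset (E ≃ₐ[M] E)) = {AlgEquiv.refl, Q.conj} := by
  refine Finset.ext fun τ => ?_
  simpa using Q.eq_refl_or_conj τ

theorem algebraMap_norm (v : E) : algebraMap M E (Algebra.norm M v) = v * Q.conj v := by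
  classical
  haveI := Q.finiteDimensional
  haveI := Q.isGalois
  rw [Algebra.norm_eq_prod_automorphisms, Q.univ_eq, Finset.prod_pair Q.ne_refl.symm]
  rfl

theorem algebraMap_trace (v : E) : algebraMap M E (Algebra.trace M E v) = v + Q.conj v := by
  classical
  haveI := Q.finiteDimensional
  haveI := Q.isGalois
  rw [trace_eq_sum_automorphisms, Q.univ_eq, Finset.sum_pair Q.ne_refl.symm]
  rfl

/-- The involution on the integers. -/
def conjO : 𝓞 E ≃+* 𝓞 E := RingOfIntegers.mapRingEquiv Q.conj.toRingEquiv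

theorem coe_conjO (x : 𝓞 E) : ((Q.conjO x : 𝓞 E) : E) = Q.conj x := rfl

theorem conjO_le_comap :
    (𝓞 E)⁰ ≤ Submonoid.comap (Q.conjO : 𝓞 E →+* 𝓞 E) (𝓞 E)⁰ := fun x hx => by
  rw [Submonoid.mem_comap, mem_nonZeroDivisors_iff_ne_zero]
  exact (map_ne_zero_iff _ Q.conjO.injective).2 (nonZeroDivisors.ne_zero hx)

/-- The involution on fractional ideals. -/
def conjI : FractionalIdeal (𝓞 E)⁰ E →+* FractionalIdeal (𝓞 E)⁰ E :=
  FractionalIdeal.extendedHom' E Q.conjO_le_comap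

end Quad

variable (M E) in
/-- Extension of fractional ideals of `M` to `E`. -/
abbrev extI : FractionalIdeal (𝓞 M)⁰ M →+* FractionalIdeal (𝓞 E)⁰ E :=
  FractionalIdeal.extendedHom E (𝓞 E)

variable (E) in
/-- A chosen embedding of `E` over every place of `M`. -/
def iota (w : InfinitePlace M) : E →+* ℂ :=
  letI : Algebra M ℂ := w.embedding.toAlgebra
  haveI : Algebra.IsAlgebraic M E := Algebra.IsAlgebraic.tower_top (K := ℚ) M
  (IsAlgClosed.lift : E →ₐ[M] ℂ).toRingHom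

theorem iota_algebraMap (w : InfinitePlace M) (m : M) :
    iota E w (algebraMap M E m) = w.embedding m := by
  letI : Algebra M ℂ := w.embedding.toAlgebra
  haveI : Algebra.IsAlgebraic M E := Algebra.IsAlgebraic.tower_top (K := ℚ) M
  exact (IsAlgClosed.lift : E →ₐ[M] ℂ).commutes m

variable (M) in
/-- Logarithms of the absolute values under the chosen embeddings. -/
def logAbs (u : E) : InfinitePlace M → ℝ := fun w => Real.log ‖iota E w u‖

variable (M) in
/-- The units `≡ 1` modulo `f`. -/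
def unitsMod (f : Ideal (𝓞 E)) : Subgroup (𝓞 E)ˣ :=
  (Units.map (Ideal.Quotient.mk f).toMonoidHom).ker

omit [NumberField E] in
theorem mem_unitsMod {f : Ideal (𝓞 E)} {u : (𝓞 E)ˣ} :
    u ∈ unitsMod f ↔ (u : 𝓞 E) - 1 ∈ f := by
  rw [unitsMod, MonoidHom.mem_ker, Units.ext_iff, Units.val_one, ← Ideal.Quotient.eq, map_one]
  rfl

/-- The units `≡ 1` modulo `f` of norm `1`. -/
def normOneUnits (Q : Quad M E) (f : Ideal (𝓞 E)) : Subgroup (𝓞 E)ˣ where
  carrier := {u | u ∈ unitsMod f ∧ ((u : 𝓞 E) : E) * Q.conj ((u : 𝓞 E) : E) = 1}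
  one_mem' := ⟨one_mem _, by simp⟩
  mul_mem' := by
    rintro a b ⟨ha, ha'⟩ ⟨hb, hb'⟩
    refine ⟨mul_mem ha hb, ?_⟩
    push_cast
    rw [map_mul, mul_mul_mul_comm, ha', hb', one_mul]
  inv_mem' := by
    rintro a ⟨ha, ha'⟩
    refine ⟨inv_mem ha, ?_⟩
    have h : ((a : 𝓞 E) : E) * ((((a⁻¹ : (𝓞 E)ˣ)) : 𝓞 E) : E) = 1 := by
      rw [← map_mul, ← Units.val_mul, mul_inv_cancel, Units.val_one, map_one]
    calc ((((a⁻¹ : (𝓞 E)ˣ)) : 𝓞 E) : E) * Q.conj ((((a⁻¹ : (𝓞 E)ˣ)) : 𝓞 E) : E)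
        = ((a : 𝓞 E) : E) * Q.conj ((a : 𝓞 E) : E) *
          (((((a⁻¹ : (𝓞 E)ˣ)) : 𝓞 E) : E) * Q.conj ((((a⁻¹ : (𝓞 E)ˣ)) : 𝓞 E) : E)) := by
          rw [ha', one_mul]
      _ = 1 := by rw [mul_mul_mul_comm, h, ← map_mul Q.conj, h, map_one, one_mul]

/-- The character and its modulus. -/
structure Data (M E : Type) [Field M] [NumberField M] [Field E] [NumberField E] [Algebra M E]
    extends Quad M E where
  nf : Ideal (𝓞 M)
  nf_ne_bot : nf ≠ ⊥
  nf_ne_top : nf ≠ ⊤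
  chi : Ideal (𝓞 E) → ℂ
  chi_top : chi ⊤ = 1
  chi_mul : ∀ I J, I ⊔ nf.map (algebraMap (𝓞 M) (𝓞 E)) = ⊤ →
    J ⊔ nf.map (algebraMap (𝓞 M) (𝓞 E)) = ⊤ → chi (I * J) = chi I * chi J
  chi_one : ∀ α : 𝓞 E, α ≠ 0 → α - 1 ∈ nf.map (algebraMap (𝓞 M) (𝓞 E)) →
    chi (Ideal.span {α}) = 1
  places : ∀ v : HeightOneSpectrum (𝓞 M), ¬ nf ≤ v.asIdeal →
    (∃ P P' : HeightOneSpectrum (𝓞 E), P ≠ P' ∧
        v.asIdeal.map (algebraMap (𝓞 M) (𝓞 E)) = P.asIdeal * P'.asIdeal ∧
        P.asIdeal.map (RingOfIntegers.mapRingEquiv conj.toRingEquiv : 𝓞 E →+* 𝓞 E) = P'.asIdeal ∧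
        chi P.asIdeal * chi P'.asIdeal = 1) ∨
      ∃ P : HeightOneSpectrum (𝓞 E),
        v.asIdeal.map (algebraMap (𝓞 M) (𝓞 E)) = P.asIdeal ∧ chi P.asIdeal = -1
  separated : ∀ S : Set (HeightOneSpectrum (𝓞 E)), S.Finite → ∃ P, P ∉ S ∧ chi P.asIdeal ^ 2 ≠ 1

namespace Data

variable (D : Data M E)

/-- The modulus in `E`. -/
def f : Ideal (𝓞 E) := D.nf.map (algebraMap (𝓞 M) (𝓞 E))

/-- The involution on ideals. -/
def conjId (I : Ideal (𝓞 E)) : Ideal (𝓞 E) := I.map (D.conjO : 𝓞 E →+* 𝓞 E)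

/-- The ideals prime to the modulus with the given norm. -/
def normSet (m : Ideal (𝓞 M)) : Set (Ideal (𝓞 E)) :=
  {b | b ⊔ D.f = ⊤ ∧ b * D.conjId b = m.map (algebraMap (𝓞 M) (𝓞 E))}

theorem normSet_finite {m : Ideal (𝓞 M)} (hm : m ≠ ⊥) : (D.normSet m).Finite := by
  have h0 : m.map (algebraMap (𝓞 M) (𝓞 E)) ≠ ⊥ :=
    (Ideal.map_eq_bot_iff_of_injective (FaithfulSMul.algebraMap_injective (𝓞 M) (𝓞 E))).not.2 hm
  refine (Ideal.finite_setOfPred_absNorm_le (S := 𝓞 E)
    (Ideal.absNorm (m.map (algebraMap (𝓞 M) (𝓞 E))))).subset fun b hb => ?_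
  show Ideal.absNorm b ≤ _
  rw [← hb.2, map_mul]
  refine Nat.le_mul_of_pos_right _ (Nat.pos_of_ne_zero fun h => h0 ?_)
  rw [← hb.2, Ideal.absNorm_eq_zero_iff.1 h, Ideal.mul_bot]

open Classical in
/-- The coefficient of an ideal. -/
def coef (m : Ideal (𝓞 M)) : ℂ :=
  if hm : m = ⊥ then 0 else ∑ b ∈ (D.normSet_finite hm).toFinset, D.chi b

open Classical in
/-- The coefficient of a fractional ideal: zero unless it is integral. -/
def coefFrac (a : FractionalIdeal (𝓞 M)⁰ M) : ℂ :=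
  if h : ∃ m : Ideal (𝓞 M), (m : FractionalIdeal (𝓞 M)⁰ M) = a then D.coef h.choose else 0

theorem coefFrac_coe (m : Ideal (𝓞 M)) : D.coefFrac (m : FractionalIdeal (𝓞 M)⁰ M) = D.coef m := by
  classical
  have h : ∃ m' : Ideal (𝓞 M),
      (m' : FractionalIdeal (𝓞 M)⁰ M) = (m : FractionalIdeal (𝓞 M)⁰ M) := ⟨m, rfl⟩
  rw [coefFrac, dif_pos h, FractionalIdeal.coeIdeal_inj.1 h.choose_spec]

end Data

/-- The diagonal matrix `(a 0; 0 1)`. -/
abbrev diagGF {F : Type*} [Field F] [NumberField F] (a : (Af F)ˣ) : GF F := upperGF a 0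

end FLTAgent.LT.ThetaM
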