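import Fermat.Agent.LT.ThetaM.Kernel
import Fermat.Agent.LT.ThetaM.Setting
import Fermat.Agent.LT.RS.Lattice
import Fermat.Agent.EisIndex.Theta.Poisson
import Fermat.Agent.LT.RS.Gauss

/-!
# Theta series of the norm form on lattices of `E` and their Poisson formula

`term ξ₀ x s v` is the product over the places of `M` of the kernel at
`(eˢ ι v, e⁻ˢ ξ₀ ι (conj v))`; translations multiply it by `psi (β q v)`, diagonal matrices scale
`v`, and Poisson summation relates a coset sum at `x` to the sum over the dual lattice at `w x`.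
-/

set_option autoImplicit false
set_option linter.style.haveILetI false
set_option linter.unusedSectionVars false

noncomputable section

namespace FLTAgent.LT.ThetaM

open NumberField IsDedekindDomain MeasureTheory Complex Module
open scoped Real nonZeroDivisors ComplexConjugate

/-- `exp (2πi r)` for rational `r`. -/
def eQ (r : ℚ) : ℂ := cexp (((2 * π * (r : ℝ) : ℝ) : ℂ) * I)

theorem eQ_add (r r' : ℚ) : eQ (r + r') = eQ r * eQ r' := by
  rw [eQ, eQ, eQ, ← Complex.exp_add]; push_cast; ring_nf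

theorem eQ_zero : eQ 0 = 1 := by simp [eQ]

theorem eQ_int (n : ℤ) : eQ n = 1 := by
  rw [eQ, show (((2 * π * (((n : ℚ)) : ℝ) : ℝ) : ℂ) * I) = n * (2 * π * I) by push_cast; ring]
  exact Complex.exp_int_mul_two_pi_mul_I n

theorem norm_eQ (r : ℚ) : ‖eQ r‖ = 1 := Complex.norm_exp_ofReal_mul_I _

/-- Rationals with trivial character are integers. -/
theorem exists_int_of_eQ {r : ℚ} (h : eQ r = 1) : ∃ n : ℤ, r = n := by
  obtain ⟨n, hn⟩ := Complex.exp_eq_one_iff.1 h
  refine ⟨n, ?_⟩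
  have h1 := congrArg Complex.im hn
  simp only [Complex.mul_im, Complex.ofReal_re, Complex.ofReal_im, Complex.I_re, Complex.I_im,
    Complex.intCast_re, Complex.intCast_im, Complex.mul_re, mul_one, mul_zero, zero_mul,
    add_zero, sub_zero] at h1
  norm_num at h1
  have h2 : (r : ℝ) = n := by
    refine mul_left_cancel₀ (b := (r : ℝ)) (mul_ne_zero two_ne_zero Real.pi_ne_zero) ?_
    linarith
  exact_mod_cast h2

variable {M : Type} [Field M] [NumberField M]

/-- The additive character of `M`. -/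
def psi (m : M) : ℂ := eQ (Algebra.trace ℚ M m)

theorem psi_add (m m' : M) : psi (m + m') = psi m * psi m' := by rw [psi, map_add, eQ_add]; rfl

theorem psi_zero : psi (0 : M) = 1 := by rw [psi, map_zero, eQ_zero]

theorem norm_psi (m : M) : ‖psi m‖ = 1 := norm_eQ _

theorem psi_integral {m : M} (h : IsIntegral ℤ m) : psi m = 1 := by
  obtain ⟨n, hn⟩ := IsIntegrallyClosed.isIntegral_iff.1
    (Algebra.isIntegral_trace (R := ℤ) (F := M) (L := ℚ) h)
  rw [psi, ← hn]
  exact eQ_int n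

/-- The space of pairs of complex numbers at the places. -/
abbrev Ysp (M : Type) [Field M] [NumberField M] := InfinitePlace M → ℂ × ℂ

/-- The pairing. -/
def pairY (y a : Ysp M) : ℝ := ∑ w, 2 * ((y w).1 * (a w).1 + (y w).2 * (a w).2).re

/-- The square norm. -/
def nY (y : Ysp M) : ℝ := ∑ w, (‖(y w).1‖ ^ 2 + ‖(y w).2‖ ^ 2)

theorem nY_nonneg (y : Ysp M) : 0 ≤ nY y := Finset.sum_nonneg fun _ _ => by positivity

/-- The product of the kernels. -/
def kerS (x : Xinf M) (s : InfinitePlace M → ℝ) (y : Ysp M) : ℂ :=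
  ∏ w, sTerm (x w) ((Real.exp (s w) : ℂ) * (y w).1, (Real.exp (-s w) : ℂ) * (y w).2)

theorem norm_kerS (x : Xinf M) (s : InfinitePlace M → ℝ) (y : Ysp M) :
    ‖kerS x s y‖ = ∏ w, ((x w).2 : ℝ) * Real.exp (-(2 * π * (x w).2 *
      (Real.exp (2 * s w) * ‖(y w).1‖ ^ 2 + Real.exp (-(2 * s w)) * ‖(y w).2‖ ^ 2))) := by
  rw [kerS, norm_prod]
  refine Finset.prod_congr rfl fun w _ => ?_
  rw [norm_sTerm]
  simp only [norm_mul, Complex.norm_real, Real.norm_eq_abs, Real.abs_exp, mul_pow, ← Real.exp_nat_mul]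
  push_cast
  rw [mul_neg]

/-- Gaussian decay, uniformly for bounded `s` and `t` bounded below. -/
theorem norm_kerS_le {x : Xinf M} {s : InfinitePlace M → ℝ} {c R : ℝ} (hc : 0 ≤ c)
    (hx : ∀ w, c ≤ (x w).2) (hs : ∀ w, |s w| ≤ R) (y : Ysp M) :
    ‖kerS x s y‖ ≤ (∏ w, ((x w).2 : ℝ)) * Real.exp (-(2 * π * c * Real.exp (-(2 * R)) * nY y)) := by
  rw [norm_kerS, Finset.prod_mul_distrib, nY, Finset.mul_sum, ← Real.exp_sum]
  refine mul_le_mul_of_nonneg_left ?_ (Finset.prod_nonneg fun w _ => (x w).2.2.le)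
  rw [Real.exp_le_exp, ← Finset.sum_neg_distrib]
  refine Finset.sum_le_sum fun w _ => neg_le_neg ?_
  have hR := abs_le.1 (hs w)
  have h1 : Real.exp (-(2 * R)) ≤ Real.exp (2 * s w) := Real.exp_le_exp.2 (by linarith)
  have h2 : Real.exp (-(2 * R)) ≤ Real.exp (-(2 * s w)) := Real.exp_le_exp.2 (by linarith)
  have hpos : (0 : ℝ) ≤ (x w).2 := (x w).2.2.le
  rw [mul_assoc]
  refine mul_le_mul (mul_le_mul_of_nonneg_left (hx w) (by positivity)) ?_ (by positivity)
    (by positivity)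
  rw [mul_add]
  gcongr

theorem continuous_kerS (x : Xinf M) (s : InfinitePlace M → ℝ) : Continuous (kerS x s) :=
  continuous_finsetProd _ fun w _ => (continuous_sTerm_right (x w)).comp (by fun_prop)

/-- Inversion at all places. -/
def invX (x : Xinf M) : Xinf M := fun w => act wC (x w)

theorem invX_invX (x : Xinf M) : invX (invX x) = x := by
  funext w
  show act wC (act wC (x w)) = x w
  rw [← Hyp.act_mul]
  refine Prod.ext ?_ (Subtype.ext ?_)
  · rw [Hyp.coe_act_fst]
    simp [wC, den, Matrix.mul_apply, Fin.sum_univ_two]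
  · rw [Hyp.coe_act_snd]
    simp [wC, den, Matrix.mul_apply, Fin.sum_univ_two, Matrix.det_fin_two_of]

theorem fourier_sTerm_scale (p : H3) {c : ℝ} (hc : 0 < c) (a b : ℂ) :
    ∫ y : ℂ × ℂ, sTerm p ((c : ℂ) * y.1, ((c⁻¹ : ℝ) : ℂ) * y.2) *
        cexp (((-(4 * π * (y.1 * a + y.2 * b).re) : ℝ) : ℂ) * Complex.I) =
      4⁻¹ * sTerm (act wC p) ((c : ℂ) * b, ((c⁻¹ : ℝ) : ℂ) * a) := by
  have hc' : (c : ℂ) ≠ 0 := ofReal_ne_zero.2 hc.ne'
  rw [← sTerm_swap _ ((c : ℂ) * b, _), Prod.swap_prod_mk, ← fourier_sTerm]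
  have hmp : MeasurePreserving (fun y : ℂ × ℂ => (c • y.1, c⁻¹ • y.2)) volume volume := by
    refine ⟨by fun_prop, ?_⟩
    rw [show (fun y : ℂ × ℂ => (c • y.1, c⁻¹ • y.2)) =
      Prod.map (fun z : ℂ => c • z) (fun z : ℂ => c⁻¹ • z) from rfl, Measure.volume_eq_prod,
      ← Measure.map_prod_map _ _ (by fun_prop) (by fun_prop), Measure.map_addHaar_smul _ hc.ne',
      Measure.map_addHaar_smul _ (inv_ne_zero hc.ne'), Measure.prod_smul_left,
      Measure.prod_smul_right, smul_smul, ← ENNReal.ofReal_mul (abs_nonneg _), ← abs_mul,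
      ← mul_inv, ← mul_pow, mul_inv_cancel₀ hc.ne', one_pow, inv_one, abs_one, ENNReal.ofReal_one,
      one_smul]
  rw [← hmp.integral_comp ?_ (fun y => sTerm p y *
    cexp (((-(4 * π * (y.1 * (((c⁻¹ : ℝ) : ℂ) * a) + y.2 * ((c : ℂ) * b)).re) : ℝ) : ℂ) * Complex.I))]
  · refine integral_congr_ae (Filter.Eventually.of_forall fun y => ?_)
    simp only [Complex.real_smul]
    rw [show (c : ℂ) * y.1 * (((c⁻¹ : ℝ) : ℂ) * a) + ((c⁻¹ : ℝ) : ℂ) * y.2 * ((c : ℂ) * b) =
      y.1 * a + y.2 * b by push_cast; field_simp]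
  · exact ((Homeomorph.smulOfNeZero c hc.ne').prodCongr
      (Homeomorph.smulOfNeZero c⁻¹ (inv_ne_zero hc.ne'))).measurableEmbedding

theorem fourier_kerS (x : Xinf M) (s : InfinitePlace M → ℝ) (a : Ysp M) :
    ∫ y : Ysp M, kerS x s y * cexp (((-(2 * π * pairY y a) : ℝ) : ℂ) * Complex.I) =
      (4⁻¹ : ℂ) ^ Fintype.card (InfinitePlace M) * kerS (invX x) s (fun w => (a w).swap) := by
  have e : ∀ y : Ysp M, kerS x s y * cexp (((-(2 * π * pairY y a) : ℝ) : ℂ) * Complex.I) =
      ∏ w, sTerm (x w) ((Real.exp (s w) : ℂ) * (y w).1, (Real.exp (-s w) : ℂ) * (y w).2) *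
        cexp (((-(4 * π * ((y w).1 * (a w).1 + (y w).2 * (a w).2).re) : ℝ) : ℂ) * Complex.I) := by
    intro y
    rw [Finset.prod_mul_distrib, ← Complex.exp_sum, kerS, ← Finset.sum_mul]
    congr 3
    rw [pairY, Finset.mul_sum, ← Finset.sum_neg_distrib, Complex.ofReal_sum]
    exact Finset.sum_congr rfl fun w _ => by push_cast; ring
  simp only [e]
  rw [integral_fintype_prod_volume_eq_prod (fun w (y : ℂ × ℂ) =>
    sTerm (x w) ((Real.exp (s w) : ℂ) * y.1, (Real.exp (-s w) : ℂ) * y.2) *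
      cexp (((-(4 * π * (y.1 * (a w).1 + y.2 * (a w).2).re) : ℝ) : ℂ) * Complex.I))]
  rw [kerS, show (4⁻¹ : ℂ) ^ Fintype.card (InfinitePlace M) = ∏ _w : InfinitePlace M, (4⁻¹ : ℂ) by
    simp, ← Finset.prod_mul_distrib]
  refine Finset.prod_congr rfl fun w _ => ?_
  rw [Real.exp_neg]
  exact fourier_sTerm_scale (x w) (Real.exp_pos _) (a w).1 (a w).2

variable {E : Type} [Field E] [NumberField E] [Algebra M E]
variable (Q : Quad M E) (ξ₀ : M)

/-- The norm to `M`. -/
def nM (v : E) : M := Algebra.norm M v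

/-- The quadratic form. -/
def qF (v : E) : M := ξ₀ * nM v

/-- The bilinear form. -/
def bil : LinearMap.BilinForm ℚ E :=
  (Algebra.traceForm ℚ E).compl₁₂ (LinearMap.mulLeft ℚ (algebraMap M E ξ₀))
    ((Q.conj.toAlgHom.toLinearMap).restrictScalars ℚ)

/-- The embedding of `E` in the pairs. -/
def embY : E →+ Ysp M where
  toFun v w := (iota E w v, w.embedding ξ₀ * iota E w (Q.conj v))
  map_zero' := by funext w; simp [Prod.ext_iff]
  map_add' v u := by funext w; simp [mul_add]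

/-- A term of a theta series. -/
def term (x : Xinf M) (s : InfinitePlace M → ℝ) (v : E) : ℂ := kerS x s (embY Q ξ₀ v)

theorem bil_apply (v u : E) :
    bil Q ξ₀ v u = Algebra.trace ℚ E (algebraMap M E ξ₀ * v * Q.conj u) := rfl

theorem bil_comm (v u : E) : bil Q ξ₀ v u = bil Q ξ₀ u v := by
  rw [bil_apply, bil_apply, ← Algebra.trace_eq_of_algEquiv (Q.conj.restrictScalars ℚ)
    (algebraMap M E ξ₀ * v * Q.conj u)]
  simp only [AlgEquiv.restrictScalars_apply, map_mul, Q.conj_algebraMap, Q.conj_conj]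
  ring_nf

theorem bil_eq_trace (v u : E) :
    bil Q ξ₀ v u = Algebra.trace ℚ M (ξ₀ * Algebra.trace M E (v * Q.conj u)) := by
  haveI := Q.finiteDimensional
  rw [bil_apply, ← Algebra.trace_trace (S := M), mul_assoc, ← Algebra.smul_def, map_smul,
    smul_eq_mul]

include Q in
theorem qF_add (v u : E) :
    qF ξ₀ (v + u) = qF ξ₀ v + qF ξ₀ u + ξ₀ * Algebra.trace M E (v * Q.conj u) := by
  refine FaithfulSMul.algebraMap_injective M E ?_
  simp only [qF, nM, map_add, map_mul, Q.algebraMap_norm, Q.algebraMap_trace, Q.conj_conj]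
  ring

include Q in
theorem nM_smul (m : M) (v : E) : nM (M := M) (algebraMap M E m * v) = m ^ 2 * nM (M := M) v := by
  refine FaithfulSMul.algebraMap_injective M E ?_
  simp only [nM, map_mul, map_pow, Q.algebraMap_norm, Q.conj_algebraMap]
  ring

include Q in
theorem nM_eq_zero {v : E} : nM (M := M) v = 0 ↔ v = 0 := by
  haveI := Q.finiteDimensional
  exact Algebra.norm_eq_zero_iff

include Q in
/-- The product of the two components is the quadratic form. -/
theorem embY_mul (v : E) (w : InfinitePlace M) :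
    (embY Q ξ₀ v w).1 * (embY Q ξ₀ v w).2 = w.embedding (qF ξ₀ v) := by
  show iota E w v * (w.embedding ξ₀ * iota E w (Q.conj v)) = _
  rw [qF, map_mul, ← iota_algebraMap (E := E) w (nM v), nM, Q.algebraMap_norm, map_mul]
  ring

variable [IsTotallyComplex M]

theorem pairY_embY (v u : E) :
    pairY (embY Q ξ₀ v) (fun w => (embY Q ξ₀ u w).swap) = ((bil Q ξ₀ v u : ℚ) : ℝ) := by
  rw [bil_eq_trace, RS.trace_eq_sum_places, pairY]
  refine Finset.sum_congr rfl fun w _ => ?_
  congr 2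
  show iota E w v * (w.embedding ξ₀ * iota E w (Q.conj u)) +
    w.embedding ξ₀ * iota E w (Q.conj v) * iota E w u = _
  rw [map_mul, ← iota_algebraMap (E := E) w (Algebra.trace M E _), Q.algebraMap_trace, map_mul,
    Q.conj_conj, map_add, map_mul, map_mul]
  ring

/-- Translations multiply the terms by the character. -/
theorem term_translate (x : Xinf M) (s : InfinitePlace M → ℝ) (β : M) (v : E) :
    term Q ξ₀ (translate (RS.embF β) x) s v = term Q ξ₀ x s v * psi (β * qF ξ₀ v) := by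
  have e : psi (β * qF ξ₀ v) = ∏ w : InfinitePlace M,
      cexp (((4 * π * (w.embedding β * w.embedding (qF ξ₀ v)).re : ℝ) : ℂ) * Complex.I) := by
    rw [psi, eQ, RS.trace_eq_sum_places, ← Complex.exp_sum, ← Finset.sum_mul,
      ← Complex.ofReal_sum, Finset.mul_sum]
    congr 3
    exact Finset.sum_congr rfl fun w _ => by rw [map_mul]; ring
  rw [term, term, e, kerS, kerS, ← Finset.prod_mul_distrib]
  refine Finset.prod_congr rfl fun w _ => ?_
  rw [← embY_mul Q ξ₀ v w]
  show sTerm ((x w).1 + w.embedding β, (x w).2) _ = _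
  rw [sTerm_translate, mul_mul_mul_comm ((Real.exp (s w) : ℂ)), ← Complex.ofReal_mul,
    ← Real.exp_add, add_neg_cancel, Real.exp_zero, Complex.ofReal_one, one_mul]

/-- Scaling by a diagonal matrix. -/
def scaleX (a : M) (x : Xinf M) : Xinf M := fun w =>
  open Classical in
  if ha : a = 0 then x w else
    ((w.embedding a) ^ 2 * (x w).1, ⟨‖w.embedding a‖ ^ 2 * (x w).2,
      mul_pos (pow_pos (norm_pos_iff.2 ((map_ne_zero _).2 ha)) 2) (x w).2.2⟩)

theorem term_scale (x : Xinf M) (s : InfinitePlace M → ℝ) {a : M} (ha : a ≠ 0) (v : E) :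
    term Q ξ₀ (scaleX a x) s v = ((|(Algebra.norm ℚ a : ℚ)| : ℝ) : ℂ) *
      term Q ξ₀ x s (algebraMap M E a * v) := by
  have hN : ((|(Algebra.norm ℚ a : ℚ)| : ℝ) : ℂ) =
      ∏ w : InfinitePlace M, ((‖w.embedding a‖ ^ 2 : ℝ) : ℂ) := by
    rw [← Complex.ofReal_prod, ← Rat.cast_abs, ← InfinitePlace.prod_eq_abs_norm]
    congr 1
    exact Finset.prod_congr rfl fun w _ => by
      rw [IsTotallyComplex.mult_eq, InfinitePlace.norm_embedding_eq]
  rw [term, term, kerS, kerS, hN, ← Finset.prod_mul_distrib]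
  refine Finset.prod_congr rfl fun w _ => ?_
  simp only [scaleX, dif_neg ha]
  rw [sTerm_scale _ ((map_ne_zero _).2 ha)]
  congr 2
  show (_, _) = (_ * iota E w (algebraMap M E a * v),
    _ * (w.embedding ξ₀ * iota E w (Q.conj (algebraMap M E a * v))))
  rw [map_mul Q.conj, Q.conj_algebraMap, map_mul, map_mul, iota_algebraMap]
  refine Prod.ext ?_ ?_ <;> simp only [embY, AddMonoidHom.coe_mk, ZeroHom.coe_mk] <;> ring

/-! ### Lattices -/

variable (L : (FractionalIdeal (𝓞 E)⁰ E)ˣ)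

/-- The elements of a fractional ideal. -/
abbrev Latt : Type := {v : E // v ∈ (L : FractionalIdeal (𝓞 E)⁰ E)}

/-- The dual lattice. -/
def dualSet : Set E :=
  {u | ∀ v ∈ (L : FractionalIdeal (𝓞 E)⁰ E), ∃ n : ℤ, bil Q ξ₀ v u = n}

/-- Coordinates in the space of pairs. -/
def coordMap : (Free.ChooseBasisIndex ℤ (L : FractionalIdeal (𝓞 E)⁰ E) → ℝ) →ₗ[ℝ] Ysp M :=
  Fintype.linearCombination ℝ fun i => embY Q ξ₀ (basisOfFractionalIdeal E L i)

theorem embY_rat_smul (r : ℚ) (v : E) : embY Q ξ₀ (r • v) = (r : ℝ) • embY Q ξ₀ v := by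
  rw [map_rat_smul (embY Q ξ₀) r v]
  exact (Rat.cast_smul_eq_qsmul ℝ r _).symm

theorem coordMap_cast (c : Free.ChooseBasisIndex ℤ (L : FractionalIdeal (𝓞 E)⁰ E) → ℚ) :
    coordMap Q ξ₀ L (fun i => (c i : ℝ)) =
      embY Q ξ₀ (∑ i, c i • basisOfFractionalIdeal E L i) := by
  rw [coordMap, Fintype.linearCombination_apply, map_sum]
  exact Finset.sum_congr rfl fun i _ => (embY_rat_smul Q ξ₀ _ _).symm

theorem bil_nondegenerate (hξ : ξ₀ ≠ 0) : (bil Q ξ₀).Nondegenerate := by
  have h : ∀ v, (∀ u, bil Q ξ₀ v u = 0) → v = 0 := fun v h => by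
    have h1 : algebraMap M E ξ₀ * v = 0 := (traceForm_nondegenerate ℚ E).1 _ fun u => by
      have := h (Q.conj u)
      rwa [bil_apply, Q.conj_conj, ← Algebra.traceForm_apply (R := ℚ)] at this
    exact (mul_eq_zero.1 h1).resolve_left ((map_ne_zero _).2 hξ)
  exact ⟨h, fun u hu => h u fun v => by rw [bil_comm]; exact hu v⟩

theorem pairY_linearCombination {ι : Type*} [Fintype ι] (v : ι → Ysp M) (y : ι → ℝ) (a : Ysp M) :
    pairY (Fintype.linearCombination ℝ v y) a = ∑ i, y i * pairY (v i) a := by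
  simp only [Fintype.linearCombination_apply, pairY, Finset.sum_apply, Prod.fst_sum,
    Prod.snd_sum, Finset.sum_mul, ← Finset.sum_add_distrib, Complex.re_sum, Finset.mul_sum]
  rw [Finset.sum_comm]
  refine Finset.sum_congr rfl fun i _ => Finset.sum_congr rfl fun w _ => ?_
  simp [Pi.smul_apply, Prod.smul_fst, Prod.smul_snd, Complex.real_smul, Complex.mul_re,
    Complex.mul_im]
  ring

theorem coordMap_injective (hξ : ξ₀ ≠ 0) : Function.Injective (coordMap Q ξ₀ L) := by
  classical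
  rw [← LinearMap.ker_eq_bot, LinearMap.ker_eq_bot']
  intro x hx
  funext j
  set a : Ysp M := fun w => (embY Q ξ₀ ((bil Q ξ₀).dualBasis (bil_nondegenerate Q ξ₀ hξ)
    (basisOfFractionalIdeal E L) j) w).swap
  have hlin : ∀ y : Free.ChooseBasisIndex ℤ (L : FractionalIdeal (𝓞 E)⁰ E) → ℝ,
      pairY (coordMap Q ξ₀ L y) a =
        ∑ i, y i * pairY (embY Q ξ₀ (basisOfFractionalIdeal E L i)) a := fun y =>
    pairY_linearCombination _ y a
  have h0 := hlin x
  rw [hx] at h0
  simp only [a, pairY_embY, bil_comm Q ξ₀ (basisOfFractionalIdeal E L _),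
    LinearMap.BilinForm.apply_dualBasis_left] at h0
  simpa [pairY, apply_ite (Rat.cast (K := ℝ))] using h0.symm

include Q in
theorem finrank_coord :
    finrank ℝ (Free.ChooseBasisIndex ℤ (L : FractionalIdeal (𝓞 E)⁰ E) → ℝ) = finrank ℝ (Ysp M) := by
  haveI := Q.finiteDimensional
  rw [finrank_fintype_fun_eq_card, ← finrank_eq_card_basis (basisOfFractionalIdeal E L),
    ← finrank_mul_finrank ℚ M E, Q.deg, IsTotallyComplex.finrank, finrank_pi_fintype,
    Finset.sum_congr rfl fun _ _ => show finrank ℝ (ℂ × ℂ) = 4 by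
      simp [Module.finrank_prod, Complex.finrank_real_complex]]
  simp only [Finset.sum_const, Finset.card_univ, smul_eq_mul, InfinitePlace.nrComplexPlaces]
  classical
  rw [Fintype.card_congr (Equiv.subtypeUnivEquiv (p := fun w : InfinitePlace M => w.IsComplex)
    fun w => IsTotallyComplex.isComplex w)]
  ring

theorem exists_lower_of_injective {ι : Type*} [Fintype ι] (A : (ι → ℝ) →ₗ[ℝ] Ysp M)
    (hA : Function.Injective A) : ∃ ε > 0, ∀ y, ε * ∑ i, y i ^ 2 ≤ nY (A y) := by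
  obtain ⟨K, hK, hanti⟩ := LinearMap.exists_antilipschitzWith _ (LinearMap.ker_eq_bot.2 hA)
  refine ⟨1 / ((Fintype.card ι + 1) * (K : ℝ) ^ 2), by positivity, fun y => ?_⟩
  have h : ‖y‖ ≤ K * ‖A y‖ := by simpa using hanti.le_mul_dist y 0
  have h1 : ∑ i, y i ^ 2 ≤ (Fintype.card ι + 1) * ‖y‖ ^ 2 := by
    refine (Finset.sum_le_sum fun i _ => (?_ : y i ^ 2 ≤ ‖y‖ ^ 2)).trans ?_
    · rw [← sq_abs, ← Real.norm_eq_abs]
      exact pow_le_pow_left₀ (norm_nonneg _) (norm_le_pi_norm y i) 2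
    · simp [add_mul]
  have h2 : ‖A y‖ ≤ Real.sqrt (nY (A y)) := by
    refine (pi_norm_le_iff_of_nonneg (Real.sqrt_nonneg _)).2 fun w => ?_
    have hw : ‖(A y w).1‖ ^ 2 + ‖(A y w).2‖ ^ 2 ≤ nY (A y) :=
      Finset.single_le_sum (f := fun v => ‖(A y v).1‖ ^ 2 + ‖(A y v).2‖ ^ 2)
        (fun _ _ => by positivity) (Finset.mem_univ w)
    rw [Prod.norm_def]
    exact max_le (Real.le_sqrt_of_sq_le (by nlinarith [sq_nonneg ‖(A y w).2‖]))
      (Real.le_sqrt_of_sq_le (by nlinarith [sq_nonneg ‖(A y w).1‖]))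
  have h3 := pow_le_pow_left₀ (norm_nonneg _) h2 2
  rw [Real.sq_sqrt (nY_nonneg _)] at h3
  rw [one_div_mul_eq_div, div_le_iff₀ (by positivity)]
  have h4 := pow_le_pow_left₀ (norm_nonneg y) h 2
  rw [mul_pow] at h4
  have hc : (0 : ℝ) ≤ (Fintype.card ι : ℝ) + 1 := by positivity
  nlinarith [mul_le_mul_of_nonneg_left h4 hc,
    mul_le_mul_of_nonneg_left h3 (mul_nonneg hc (sq_nonneg (K : ℝ)))]

theorem exists_coord_lower (hξ : ξ₀ ≠ 0) :
    ∃ ε > 0, ∀ y, ε * ∑ i, y i ^ 2 ≤ nY (coordMap Q ξ₀ L y) :=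
  exists_lower_of_injective _ (coordMap_injective Q ξ₀ L hξ)

theorem summable_sq_exp {ι : Type*} [Fintype ι] {ε : ℝ} (hε : 0 < ε) :
    Summable fun v : ι → ℤ => Real.exp (-(ε * ∑ i, (v i : ℝ) ^ 2)) := by
  rw [← (Equiv.arrowCongr (Fintype.equivFin ι).symm (Equiv.refl ℤ)).summable_iff]
  refine ((RS.summable_gauss_of_le (F := fun v : Fin (Fintype.card ι) → ℤ =>
    ε * ∑ i, (v i : ℝ) ^ 2) (C := 0) hε 0 fun v => by simp)).congr fun v => ?_
  simp only [Function.comp_apply, Equiv.arrowCongr_apply, Equiv.symm_symm, Equiv.coe_refl,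
    id_eq]
  rw [Equiv.sum_comp (Fintype.equivFin ι) (fun i => (v i : ℝ) ^ 2)]

/-- Lattice points are the integral combinations of the basis. -/
def lattEquivInt : (Free.ChooseBasisIndex ℤ (L : FractionalIdeal (𝓞 E)⁰ E) → ℤ) ≃ Latt L :=
  Equiv.ofBijective (fun v => ⟨∑ i, v i • basisOfFractionalIdeal E L i,
    (mem_span_basisOfFractionalIdeal E).1 (Submodule.sum_mem _ fun i _ =>
      Submodule.smul_mem _ _ (Submodule.subset_span ⟨i, rfl⟩))⟩) <| by
    constructor
    · intro v u h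
      have h' := congrArg Subtype.val h
      simp only [← Int.cast_smul_eq_zsmul ℚ] at h'
      funext i
      have := congrArg (fun z => (basisOfFractionalIdeal E L).repr z i) h'
      simpa [Finsupp.single_apply] using this
    · rintro ⟨z, hz⟩
      obtain ⟨v, hv⟩ := (Submodule.mem_span_range_iff_exists_fun ℤ).1
        ((mem_span_basisOfFractionalIdeal E).2 hz)
      exact ⟨v, Subtype.ext hv⟩

theorem coe_lattEquivInt (v : Free.ChooseBasisIndex ℤ (L : FractionalIdeal (𝓞 E)⁰ E) → ℤ) :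
    (lattEquivInt L v : E) = ∑ i, v i • basisOfFractionalIdeal E L i := rfl

theorem coordMap_add_int (r : E) (v : Free.ChooseBasisIndex ℤ (L : FractionalIdeal (𝓞 E)⁰ E) → ℤ) :
    coordMap Q ξ₀ L ((fun i => (((basisOfFractionalIdeal E L).repr r i : ℚ) : ℝ)) +
        Theta31.rvec v) = embY Q ξ₀ (r + lattEquivInt L v) := by
  have h : ((fun i => (((basisOfFractionalIdeal E L).repr r i : ℚ) : ℝ)) + Theta31.rvec v) =
      fun i => ((((basisOfFractionalIdeal E L).repr r i + v i : ℚ)) : ℝ) := by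
    funext i
    simp [Theta31.rvec]
  rw [h, coordMap_cast]
  congr 1
  simp only [add_smul, Finset.sum_add_distrib, Basis.sum_repr, coe_lattEquivInt,
    Int.cast_smul_eq_zsmul]

/-- Gaussian sums over cosets converge. -/
theorem summable_gaussY (hξ : ξ₀ ≠ 0) (r : E) {c : ℝ} (hc : 0 < c) :
    Summable fun v : Latt L => Real.exp (-(c * nY (embY Q ξ₀ (r + v)))) := by
  classical
  obtain ⟨ε, hε, hlow⟩ := exists_coord_lower Q ξ₀ L hξ
  rw [← (lattEquivInt L).summable_iff]
  set ρ := fun i => (((basisOfFractionalIdeal E L).repr r i : ℚ) : ℝ)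
  refine Summable.of_nonneg_of_le (fun _ => (Real.exp_pos _).le) (fun v => ?_)
    ((summable_sq_exp (half_pos (mul_pos hc hε))).mul_left (Real.exp (c * ε * ∑ i, ρ i ^ 2)))
  rw [Function.comp_apply, ← coordMap_add_int, ← Real.exp_add, Real.exp_le_exp]
  have h := mul_le_mul_of_nonneg_left (hlow (ρ + Theta31.rvec v)) hc.le
  have h2 : ∑ i, (v i : ℝ) ^ 2 ≤ 2 * (∑ i, (ρ + Theta31.rvec v) i ^ 2) + 2 * ∑ i, ρ i ^ 2 := by
    rw [Finset.mul_sum, Finset.mul_sum, ← Finset.sum_add_distrib]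
    refine Finset.sum_le_sum fun i _ => ?_
    simp only [Pi.add_apply, Theta31.rvec]
    nlinarith [sq_nonneg (2 * ρ i + (v i : ℝ))]
  nlinarith [mul_le_mul_of_nonneg_left h2 (mul_pos hc hε).le]

theorem summable_norm_term (hξ : ξ₀ ≠ 0) (r : E) (x : Xinf M) (s : InfinitePlace M → ℝ) :
    Summable fun v : Latt L => ‖term Q ξ₀ x s (r + v)‖ := by
  obtain ⟨w₀, -, hw₀⟩ := Finset.exists_min_image Finset.univ (fun w => ((x w).2 : ℝ))
    Finset.univ_nonempty
  have hc : (0 : ℝ) < (x w₀).2 := (x w₀).2.2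
  refine Summable.of_nonneg_of_le (fun _ => norm_nonneg _) (fun v => norm_kerS_le (c := (x w₀).2)
    (R := ‖s‖) hc.le (fun w => hw₀ w (Finset.mem_univ w))
    (fun w => (Real.norm_eq_abs _).symm.le.trans (norm_le_pi_norm s w)) _) ?_
  exact (summable_gaussY Q ξ₀ L hξ r (by positivity)).mul_left _

/-- Poisson summation. -/
theorem exists_poisson (hξ : ξ₀ ≠ 0) :
    ∃ κ : ℂ, ∀ (x : Xinf M) (s : InfinitePlace M → ℝ) (r : E),
      HasSum (fun u : dualSet Q ξ₀ L => κ * (eQ (bil Q ξ₀ r u) * term Q ξ₀ (invX x) s (u : E)))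
        (∑' v : Latt L, term Q ξ₀ x s (r + v)) := by
  classical
  set ι := Free.ChooseBasisIndex ℤ (L : FractionalIdeal (𝓞 E)⁰ E)
  set b := basisOfFractionalIdeal E L with hb
  set db := (bil Q ξ₀).dualBasis (bil_nondegenerate Q ξ₀ hξ) b with hdb
  set A : (ι → ℝ) ≃L[ℝ] Ysp M := (LinearEquiv.ofInjectiveOfFinrankEq (coordMap Q ξ₀ L)
    (coordMap_injective Q ξ₀ L hξ) (finrank_coord Q L)).toContinuousLinearEquiv with hA
  have hAc : ∀ y, A y = coordMap Q ξ₀ L y := fun _ => rfl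
  haveI : Measure.IsAddHaarMeasure (volume : Measure (ℂ × ℂ)) :=
    Measure.prod.instIsAddHaarMeasure (volume : Measure ℂ) (volume : Measure ℂ)
  haveI : Measure.IsAddHaarMeasure (volume : Measure (Ysp M)) :=
    Measure.pi.isAddHaarMeasure fun _ : InfinitePlace M => (volume : Measure (ℂ × ℂ))
  haveI : Measure.IsAddHaarMeasure (Measure.map A (volume : Measure (ι → ℝ))) :=
    A.isAddHaarMeasure_map _
  set c := Measure.addHaarScalarFactor (Measure.map A (volume : Measure (ι → ℝ)))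
    (volume : Measure (Ysp M))
  have hmap : Measure.map A (volume : Measure (ι → ℝ)) = c • (volume : Measure (Ysp M)) :=
    Measure.isAddLeftInvariant_eq_smul _ _
  -- the dual lattice
  have hdual : ∀ k : ι → ℤ, ∀ i, bil Q ξ₀ (b i) (∑ j, k j • db j) = k i := fun k i => by
    rw [bil_comm, LinearMap.map_sum₂]
    simp only [map_zsmul, LinearMap.smul_apply, hdb, LinearMap.BilinForm.apply_dualBasis_left]
    simp [Finset.sum_ite_eq]
  have hbil : ∀ (k : ι → ℤ) (v : E),
      bil Q ξ₀ v (∑ j, k j • db j) = ∑ i, b.repr v i * k i := fun k v => by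
    conv_lhs => rw [← b.sum_repr v]
    rw [LinearMap.map_sum₂]
    exact Finset.sum_congr rfl fun i _ => by rw [LinearMap.map_smul₂, hdual, smul_eq_mul]
  have hmem : ∀ k : ι → ℤ, ∑ j, k j • db j ∈ dualSet Q ξ₀ L := fun k v hv => by
    obtain ⟨c', hc'⟩ := (lattEquivInt L).surjective ⟨v, hv⟩
    refine ⟨∑ i, c' i * k i, ?_⟩
    rw [show v = ∑ i, c' i • b i from (congrArg Subtype.val hc').symm, LinearMap.map_sum₂]
    push_cast
    exact Finset.sum_congr rfl fun i _ => by
      rw [map_zsmul, LinearMap.smul_apply, hdual, zsmul_eq_mul]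
  have hbij : Function.Bijective fun k : ι → ℤ =>
      (⟨∑ j, k j • db j, hmem k⟩ : dualSet Q ξ₀ L) := by
    constructor
    · intro k k' h
      funext i
      have := congrArg (fun u : dualSet Q ξ₀ L => bil Q ξ₀ (b i) (u : E)) h
      simp only [] at this
      rw [hdual, hdual] at this
      exact_mod_cast this
    · rintro ⟨u, hu⟩
      have hb' : ∀ i, ∃ n : ℤ, bil Q ξ₀ (b i) u = n := fun i =>
        hu _ ((mem_span_basisOfFractionalIdeal E).1 (Submodule.subset_span ⟨i, rfl⟩))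
      choose k hk using hb'
      refine ⟨k, Subtype.ext ?_⟩
      refine sub_eq_zero.1 ((bil_nondegenerate Q ξ₀ hξ).2 _ fun v => ?_)
      rw [map_sub, hbil]
      conv_lhs => arg 2; rw [← b.sum_repr v]
      rw [LinearMap.map_sum₂, ← Finset.sum_sub_distrib]
      exact Finset.sum_eq_zero fun i _ => by rw [LinearMap.map_smul₂, hk, smul_eq_mul, sub_self]
  refine ⟨(c : ℝ) * (4⁻¹ : ℂ) ^ Fintype.card (InfinitePlace M), fun x s r => ?_⟩
  set F : (ι → ℝ) → ℂ := fun y => kerS x s (A y) with hF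
  have hFc : Continuous F := (continuous_kerS x s).comp A.continuous
  obtain ⟨w₀, -, hw₀⟩ := Finset.exists_min_image Finset.univ (fun w => ((x w).2 : ℝ))
    Finset.univ_nonempty
  obtain ⟨ε, hε, hlow⟩ := exists_coord_lower Q ξ₀ L hξ
  set T := ∏ w, ((x w).2 : ℝ)
  set e := 2 * π * ((x w₀).2 : ℝ) * Real.exp (-(2 * ‖s‖)) * ε
  have he : 0 < e := mul_pos (mul_pos (mul_pos Real.two_pi_pos (x w₀).2.2) (Real.exp_pos _)) hε
  have hT : 0 ≤ T := Finset.prod_nonneg fun w _ => (x w).2.2.le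
  have hbound : ∀ y, ‖F y‖ ≤ T * Real.exp (-(e * ∑ i, y i ^ 2)) := fun y => by
    refine (norm_kerS_le (c := (x w₀).2) (R := ‖s‖) (x w₀).2.2.le
      (fun w => hw₀ w (Finset.mem_univ w))
      (fun w => (Real.norm_eq_abs _).symm.le.trans (norm_le_pi_norm s w)) _).trans ?_
    refine mul_le_mul_of_nonneg_left (Real.exp_le_exp.2 (neg_le_neg ?_)) hT
    show e * _ ≤ 2 * π * ((x w₀).2 : ℝ) * Real.exp (-(2 * ‖s‖)) * nY (A y)
    rw [mul_assoc (2 * π * ((x w₀).2 : ℝ) * Real.exp (-(2 * ‖s‖))), hAc]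
    exact mul_le_mul_of_nonneg_left (hlow y)
      (mul_nonneg (mul_nonneg Real.two_pi_pos.le (x w₀).2.2.le) (Real.exp_pos _).le)
  have hint : Integrable F := by
    refine ((Integrable.fintype_prod (μ := fun _ : ι => (volume : Measure ℝ))
      (f := fun (_ : ι) (u : ℝ) => Real.exp (-e * u ^ 2))
      fun _ => integrable_exp_neg_mul_sq he).const_mul T).mono' hFc.aestronglyMeasurable
      (Filter.Eventually.of_forall fun y => (hbound y).trans (le_of_eq ?_))
    rw [← Real.exp_sum, Finset.mul_sum, ← Finset.sum_neg_distrib]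
    simp [neg_mul]
  have hdom : ∀ R : ℝ, ∃ u : (ι → ℤ) → ℝ, Summable u ∧
      ∀ y : ι → ℝ, (∀ i, |y i| ≤ R) → ∀ v, ‖F (y + Theta31.rvec v)‖ ≤ u v := by
    intro R
    refine ⟨fun v => T * Real.exp (e * Fintype.card ι * R ^ 2) *
      Real.exp (-(e / 2 * ∑ i, (v i : ℝ) ^ 2)), (summable_sq_exp (half_pos he)).mul_left _,
      fun y hy v => (hbound _).trans ?_⟩
    show _ ≤ T * _ * _
    rw [mul_assoc T, ← Real.exp_add]
    refine mul_le_mul_of_nonneg_left (Real.exp_le_exp.2 ?_) hT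
    have h2 : ∑ i, (v i : ℝ) ^ 2 ≤
        2 * (∑ i, (y + Theta31.rvec v) i ^ 2) + 2 * ((Fintype.card ι : ℝ) * R ^ 2) := by
      rw [show (Fintype.card ι : ℝ) * R ^ 2 = ∑ _i : ι, R ^ 2 by simp, Finset.mul_sum,
        Finset.mul_sum, ← Finset.sum_add_distrib]
      refine Finset.sum_le_sum fun i _ => ?_
      simp only [Pi.add_apply, Theta31.rvec]
      nlinarith [sq_nonneg (2 * y i + (v i : ℝ)), sq_abs (y i), pow_le_pow_left₀ (abs_nonneg _) (hy i) 2]
    nlinarith [mul_le_mul_of_nonneg_left h2 he.le]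
  have hfour : ∀ k : ι → ℤ, Theta31.fourierInt F k =
      ((c : ℝ) * (4⁻¹ : ℂ) ^ Fintype.card (InfinitePlace M)) *
        term Q ξ₀ (invX x) s (∑ j, k j • db j) := by
    intro k
    set a : Ysp M := fun w => (embY Q ξ₀ (∑ j, k j • db j) w).swap with had
    have hpair : ∀ y, pairY (A y) a = ∑ i, (k i : ℝ) * y i := fun y => by
      rw [hAc, coordMap, pairY_linearCombination]
      refine Finset.sum_congr rfl fun i _ => ?_
      rw [had, pairY_embY, hdual, mul_comm]
      push_cast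
      rfl
    have hG : ∀ y, Theta31.echar (-k) y * F y =
        kerS x s (A y) * cexp (((-(2 * π * pairY (A y) a) : ℝ) : ℂ) * Complex.I) := fun y => by
      rw [hpair, Theta31.echar, mul_comm]
      congr 2
      push_cast
      simp only [Pi.neg_apply, Int.cast_neg, neg_mul, Finset.sum_neg_distrib]
      ring
    rw [Theta31.fourierInt]
    simp only [hG]
    rw [show (∫ y, kerS x s (A y) * cexp (((-(2 * π * pairY (A y) a) : ℝ) : ℂ) * Complex.I)) =
      ∫ z, kerS x s z * cexp (((-(2 * π * pairY z a) : ℝ) : ℂ) * Complex.I)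
        ∂(Measure.map A volume) from
      (A.toHomeomorph.measurableEmbedding.integral_map (μ := volume)
        (fun z => kerS x s z * cexp (((-(2 * π * pairY z a) : ℝ) : ℂ) * Complex.I))).symm]
    rw [hmap, integral_smul_nnreal_measure, fourier_kerS, NNReal.smul_def, Complex.real_smul,
      mul_assoc]
    rfl
  have hsum : Summable (Theta31.fourierInt F) := by
    refine Summable.of_norm ?_
    simp only [hfour, norm_mul]
    refine Summable.mul_left _ ?_
    set φ : (ι → ℝ) →ₗ[ℝ] Ysp M := Fintype.linearCombination ℝ fun j => embY Q ξ₀ (db j)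
    have hφ : Function.Injective φ := by
      rw [← LinearMap.ker_eq_bot, LinearMap.ker_eq_bot']
      intro z hz
      funext i
      have h0 : pairY (φ z) (fun w => (embY Q ξ₀ (b i) w).swap) = z i := by
        rw [pairY_linearCombination]
        simp only [pairY_embY, hdb, LinearMap.BilinForm.apply_dualBasis_left]
        simp [apply_ite (Rat.cast (K := ℝ))]
      rw [hz] at h0
      simpa [pairY] using h0.symm
    obtain ⟨ε', hε', hlow'⟩ := exists_lower_of_injective φ hφ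
    set x' := invX x
    obtain ⟨w₁, -, hw₁⟩ := Finset.exists_min_image Finset.univ (fun w => ((x' w).2 : ℝ))
      Finset.univ_nonempty
    set e₁ := 2 * π * ((x' w₁).2 : ℝ) * Real.exp (-(2 * ‖s‖))
    have he₁ : 0 < e₁ := mul_pos (mul_pos Real.two_pi_pos (x' w₁).2.2) (Real.exp_pos _)
    refine Summable.of_nonneg_of_le (fun _ => norm_nonneg _) (fun k => ?_)
      ((summable_sq_exp (mul_pos he₁ hε')).mul_left (∏ w, ((x' w).2 : ℝ)))
    refine (norm_kerS_le (c := (x' w₁).2) (R := ‖s‖) (x' w₁).2.2.le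
      (fun w => hw₁ w (Finset.mem_univ w))
      (fun w => (Real.norm_eq_abs _).symm.le.trans (norm_le_pi_norm s w)) _).trans ?_
    refine mul_le_mul_of_nonneg_left (Real.exp_le_exp.2 (neg_le_neg ?_))
      (Finset.prod_nonneg fun w _ => (x' w).2.2.le)
    have hemb : embY Q ξ₀ (∑ j, k j • db j) = φ (fun j => (k j : ℝ)) := by
      rw [map_sum]
      simp only [φ, Fintype.linearCombination_apply, map_zsmul, Int.cast_smul_eq_zsmul]
    rw [hemb, mul_assoc e₁]
    exact mul_le_mul_of_nonneg_left (hlow' _) he₁.le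
  have hmain := Theta31.hasSum_poisson hFc hint hdom hsum
    (fun i => ((b.repr r i : ℚ) : ℝ))
  have hlhs : Theta31.periodize F (fun i => ((b.repr r i : ℚ) : ℝ)) =
      ∑' v : Latt L, term Q ξ₀ x s (r + v) := by
    rw [Theta31.periodize, ← (lattEquivInt L).tsum_eq]
    refine tsum_congr fun v => ?_
    show kerS x s (A _) = _
    rw [hAc, coordMap_add_int]
    rfl
  rw [hlhs] at hmain
  rw [← (Equiv.ofBijective _ hbij).hasSum_iff]
  refine hmain.congr_fun fun k => ?_
  simp only [Function.comp_apply, Equiv.ofBijective_apply]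
  rw [hfour, mul_comm (eQ _), ← mul_assoc]
  congr 1
  rw [hbil, Theta31.echar, eQ]
  congr 1
  push_cast
  rw [Finset.mul_sum, Finset.mul_sum, Finset.sum_mul]
  exact Finset.sum_congr rfl fun i _ => by ring

end FLTAgent.LT.ThetaM
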