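import Fermat.Agent.LT.ThetaM.Setting
import Fermat.Agent.LT.ThetaM.Theta

/-!
# Ray classes of `E` modulo `f` and the parameters of the theta function

`Cl` is the group of fractional ideals prime to `f` modulo the principal ones generated by
`α / m`, `α ≡ m ≡ 1 (mod f)`; `chiCl` is the character on it.  `Xi` is the finite set of generators
`ξ₀` of `(𝔞 N 𝔯)⁻¹` modulo norms of units `≡ 1`, and `vset 𝔯` the coset of such elements in `𝔯`.
-/

set_option autoImplicit false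
set_option linter.style.haveILetI false
set_option linter.unusedSectionVars false

noncomputable section

namespace FLTAgent.LT.ThetaM

open NumberField IsDedekindDomain FractionalIdeal
open scoped nonZeroDivisors

variable {M E : Type} [Field M] [NumberField M] [Field E] [NumberField E] [Algebra M E]

/-- Fractional ideals of `E`. -/
abbrev FIE (E : Type) [Field E] [NumberField E] := FractionalIdeal (𝓞 E)⁰ E

namespace Quad

variable (Q : Quad M E)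

theorem conjI_coe (b : Ideal (𝓞 E)) :
    Q.conjI (b : FIE E) = ((b.map (Q.conjO : 𝓞 E →+* 𝓞 E) : Ideal (𝓞 E)) : FIE E) :=
  extended_coeIdeal_eq_map E Q.conjO_le_comap b

theorem conjI_spanSingleton (x : E) :
    Q.conjI (spanSingleton (𝓞 E)⁰ x) = spanSingleton (𝓞 E)⁰ (Q.conj x) := by
  refine (extended_spanSingleton E Q.conjO_le_comap x).trans (congrArg _ ?_)
  exact DFunLike.congr_fun (IsLocalization.ringHom_ext (𝓞 E)⁰
    (j := IsLocalization.map E (Q.conjO : 𝓞 E →+* 𝓞 E) Q.conjO_le_comap)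
    (k := (Q.conj : E →+* E)) (RingHom.ext fun y => by
      simp only [RingHom.comp_apply, IsLocalization.map_eq]
      exact Q.coe_conjO y)) x

theorem conjO_conjO (x : 𝓞 E) : Q.conjO (Q.conjO x) = x :=
  RingOfIntegers.ext (Q.conj_conj (x : E))

theorem conjO_algebraMap (m : 𝓞 M) :
    Q.conjO (algebraMap (𝓞 M) (𝓞 E) m) = algebraMap (𝓞 M) (𝓞 E) m :=
  RingOfIntegers.ext (Q.conj_algebraMap (m : M))

end Quad

theorem extI_spanSingleton (x : M) :
    extI M E (spanSingleton (𝓞 M)⁰ x) = spanSingleton (𝓞 E)⁰ (algebraMap M E x) := by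
  refine (extendedHom_spanSingleton E (𝓞 E) x).trans (congrArg _ ?_)
  exact (DFunLike.congr_fun (IsLocalization.algebraMap_eq_map_map_submonoid (𝓞 M)⁰ (𝓞 E) M E) x).symm

namespace Data

variable (D : Data M E)

theorem f_ne_bot : D.f ≠ ⊥ :=
  (Ideal.map_eq_bot_iff_of_injective (FaithfulSMul.algebraMap_injective (𝓞 M) (𝓞 E))).not.2
    D.nf_ne_bot

theorem f_ne_top : D.f ≠ ⊤ :=
  (Ideal.map_eq_top_iff _ (FaithfulSMul.algebraMap_injective (𝓞 M) (𝓞 E))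
    (Algebra.IsIntegral.isIntegral (R := 𝓞 M))).not.2 D.nf_ne_top

theorem conjId_f : D.conjId D.f = D.f := by
  rw [conjId, f, Ideal.map_map]
  congr 1
  exact RingHom.ext fun m => D.conjO_algebraMap m

theorem conjId_sup {b : Ideal (𝓞 E)} (h : b ⊔ D.f = ⊤) : D.conjId b ⊔ D.f = ⊤ := by
  conv_lhs => rw [← D.conjId_f]
  rw [conjId, conjId, ← Ideal.map_sup, h, Ideal.map_top]

theorem ne_bot_of_sup {b : Ideal (𝓞 E)} (h : b ⊔ D.f = ⊤) : b ≠ ⊥ := fun hb =>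
  D.f_ne_top (by rwa [hb, bot_sup_eq] at h)

theorem sup_mul {b c : Ideal (𝓞 E)} (hb : b ⊔ D.f = ⊤) (hc : c ⊔ D.f = ⊤) :
    b * c ⊔ D.f = ⊤ := by
  rw [← Ideal.isCoprime_iff_sup_eq] at hb hc ⊢
  exact hb.mul_left hc

theorem sup_pow {b : Ideal (𝓞 E)} (hb : b ⊔ D.f = ⊤) (n : ℕ) : b ^ n ⊔ D.f = ⊤ := by
  rw [← Ideal.isCoprime_iff_sup_eq] at hb ⊢
  exact hb.pow_left

theorem ne_zero_of_sub_one_mem {α : 𝓞 E} (h : α - 1 ∈ D.f) : α ≠ 0 := fun h0 =>
  D.f_ne_top ((Ideal.eq_top_iff_one _).2 (by simpa [h0] using D.f.neg_mem h))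

theorem sup_span_of_sub_one_mem {α : 𝓞 E} (h : α - 1 ∈ D.f) :
    Ideal.span {α} ⊔ D.f = ⊤ := by
  refine (Ideal.eq_top_iff_one _).2 (Submodule.mem_sup.2
    ⟨α, Ideal.mem_span_singleton_self α, -(α - 1), D.f.neg_mem h, by ring⟩)

theorem mul_sub_one_mem {α β : 𝓞 E} (hα : α - 1 ∈ D.f) (hβ : β - 1 ∈ D.f) : α * β - 1 ∈ D.f := by
  rw [show α * β - 1 = (α - 1) * β + (β - 1) by ring]
  exact D.f.add_mem (D.f.mul_mem_right _ hα) hβ

/-- `v = α / m` with `α ≡ m ≡ 1`. -/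
def One (v : E) : Prop :=
  ∃ α m : 𝓞 E, α - 1 ∈ D.f ∧ m - 1 ∈ D.f ∧ v * (m : E) = (α : E)

theorem One.ne_zero {v : E} (h : D.One v) : v ≠ 0 := by
  obtain ⟨α, m, hα, hm, he⟩ := h
  intro h0
  rw [h0, zero_mul] at he
  exact D.ne_zero_of_sub_one_mem hα (RingOfIntegers.coe_eq_zero_iff.1 he.symm)

theorem one_one : D.One 1 := ⟨1, 1, by simp, by simp, by simp⟩

theorem One.mul {v w : E} (hv : D.One v) (hw : D.One w) : D.One (v * w) := by
  obtain ⟨α, m, hα, hm, he⟩ := hv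
  obtain ⟨β, n, hβ, hn, he'⟩ := hw
  refine ⟨α * β, m * n, D.mul_sub_one_mem hα hβ, D.mul_sub_one_mem hm hn, ?_⟩
  push_cast
  rw [mul_mul_mul_comm, he, he']

theorem One.inv {v : E} (hv : D.One v) : D.One v⁻¹ := by
  have h0 := hv.ne_zero
  obtain ⟨α, m, hα, hm, he⟩ := hv
  refine ⟨m, α, hm, hα, ?_⟩
  rw [← he, ← mul_assoc, inv_mul_cancel₀ h0, one_mul]

theorem one_unit {u : (𝓞 E)ˣ} (hu : u ∈ unitsMod D.f) : D.One ((u : 𝓞 E) : E) :=
  ⟨u, 1, mem_unitsMod.1 hu, by simp, by simp⟩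

theorem one_int {α : 𝓞 E} (hα : α - 1 ∈ D.f) : D.One (α : E) := ⟨α, 1, hα, by simp, by simp⟩

/-- An integer that is `One` is `≡ 1`. -/
theorem sub_one_mem_of_one {α : 𝓞 E} (h : D.One (α : E)) : α - 1 ∈ D.f := by
  obtain ⟨β, m, hβ, hm, he⟩ := h
  rw [← map_mul] at he
  have := RingOfIntegers.coe_injective he
  rw [show α - 1 = (β - 1) - α * (m - 1) by rw [← this]; ring]
  exact D.f.sub_mem hβ (D.f.mul_mem_left _ hm)

/-- The unit of an ideal prime to `f`. -/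
def unitI (b : Ideal (𝓞 E)) (hb : b ⊔ D.f = ⊤) : (FIE E)ˣ :=
  Units.mk0 (b : FIE E) (coeIdeal_ne_zero.2 (D.ne_bot_of_sup hb))

/-- The group generated by the ideals prime to `f`. -/
def primeGroup : Subgroup (FIE E)ˣ :=
  Subgroup.closure {u | ∃ b : Ideal (𝓞 E), b ⊔ D.f = ⊤ ∧ (u : FIE E) = (b : FIE E)}

theorem unitI_mem (b : Ideal (𝓞 E)) (hb : b ⊔ D.f = ⊤) : D.unitI b hb ∈ D.primeGroup :=
  Subgroup.subset_closure ⟨b, hb, rfl⟩

theorem exists_frac {u : (FIE E)ˣ} (hu : u ∈ D.primeGroup) :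
    ∃ I J : Ideal (𝓞 E), I ⊔ D.f = ⊤ ∧ J ⊔ D.f = ⊤ ∧ (u : FIE E) * (J : FIE E) = (I : FIE E) := by
  induction hu using Subgroup.closure_induction with
  | mem x hx =>
    obtain ⟨b, hb, hxb⟩ := hx
    exact ⟨b, ⊤, hb, top_sup_eq _, by rw [coeIdeal_top, mul_one, hxb]⟩
  | one => exact ⟨⊤, ⊤, top_sup_eq _, top_sup_eq _, by simp⟩
  | mul x y _ _ hx hy =>
    obtain ⟨I, J, hI, hJ, he⟩ := hx
    obtain ⟨I', J', hI', hJ', he'⟩ := hy
    refine ⟨I * I', J * J', D.sup_mul hI hI', D.sup_mul hJ hJ', ?_⟩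
    rw [Units.val_mul, coeIdeal_mul, coeIdeal_mul, mul_mul_mul_comm, he, he']
  | inv x _ hx =>
    obtain ⟨I, J, hI, hJ, he⟩ := hx
    refine ⟨J, I, hJ, hI, ?_⟩
    rw [← he, ← mul_assoc, Units.inv_mul, one_mul]

/-- The ray of principal ideals. -/
def rayGroup : Subgroup (FIE E)ˣ where
  carrier := {u | ∃ v, D.One v ∧ (u : FIE E) = spanSingleton (𝓞 E)⁰ v}
  one_mem' := ⟨1, D.one_one, by rw [spanSingleton_one, Units.val_one]⟩
  mul_mem' := by
    rintro x y ⟨v, hv, hx⟩ ⟨w, hw, hy⟩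
    exact ⟨v * w, hv.mul D hw, by rw [Units.val_mul, hx, hy, spanSingleton_mul_spanSingleton]⟩
  inv_mem' := by
    rintro x ⟨v, hv, hx⟩
    exact ⟨v⁻¹, hv.inv D, by rw [Units.val_inv_eq_inv_val, hx, spanSingleton_inv]⟩

theorem rayGroup_le : D.rayGroup ≤ D.primeGroup := by
  rintro u ⟨v, ⟨α, m, hα, hm, he⟩, hu⟩
  have h : u * D.unitI _ (D.sup_span_of_sub_one_mem hm) =
      D.unitI _ (D.sup_span_of_sub_one_mem hα) := by
    refine Units.ext ?_
    rw [Units.val_mul, hu]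
    simp only [unitI, Units.val_mk0, coeIdeal_span_singleton, spanSingleton_mul_spanSingleton]
    rw [he]
  rw [eq_mul_inv_of_mul_eq h]
  exact mul_mem (D.unitI_mem _ _) (inv_mem (D.unitI_mem _ _))

/-- The ray classes. -/
abbrev Cl : Type := D.primeGroup ⧸ D.rayGroup.subgroupOf D.primeGroup

/-- The class of an ideal prime to `f`. -/
def cls (b : Ideal (𝓞 E)) (hb : b ⊔ D.f = ⊤) : D.Cl :=
  QuotientGroup.mk ⟨D.unitI b hb, D.unitI_mem b hb⟩

theorem mk_eq_mk_iff {u w : D.primeGroup} :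
    (QuotientGroup.mk u : D.Cl) = QuotientGroup.mk w ↔
      ∃ v, D.One v ∧ ((u : (FIE E)ˣ) : FIE E) * spanSingleton (𝓞 E)⁰ v = ((w : (FIE E)ˣ) : FIE E) := by
  rw [QuotientGroup.eq, Subgroup.mem_subgroupOf]
  constructor
  · rintro ⟨v, hv, he⟩
    refine ⟨v, hv, ?_⟩
    rw [← he, Subgroup.coe_mul, Subgroup.coe_inv, Units.val_mul, ← mul_assoc, Units.mul_inv, one_mul]
  · rintro ⟨v, hv, he⟩
    refine ⟨v, hv, ?_⟩
    rw [Subgroup.coe_mul, Subgroup.coe_inv, Units.val_mul, ← he, ← mul_assoc, Units.inv_mul, one_mul]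

theorem cls_mul {b c : Ideal (𝓞 E)} (hb : b ⊔ D.f = ⊤) (hc : c ⊔ D.f = ⊤) :
    D.cls (b * c) (D.sup_mul hb hc) = D.cls b hb * D.cls c hc := by
  rw [cls, cls, cls, ← QuotientGroup.mk_mul]
  congr 1
  exact Subtype.ext (Units.ext (coeIdeal_mul b c))

/-- Every class contains an integral ideal times the inverse of one. -/
theorem exists_cls_mul_inv (c : D.Cl) : ∃ I J : Ideal (𝓞 E), ∃ (hI : I ⊔ D.f = ⊤)
    (hJ : J ⊔ D.f = ⊤), c = D.cls I hI * (D.cls J hJ)⁻¹ := by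
  obtain ⟨⟨u, hu⟩, rfl⟩ := QuotientGroup.mk_surjective c
  obtain ⟨I, J, hI, hJ, he⟩ := D.exists_frac hu
  refine ⟨I, J, hI, hJ, ?_⟩
  rw [eq_mul_inv_iff_mul_eq, cls, cls, ← QuotientGroup.mk_mul]
  exact congrArg _ (Subtype.ext (Units.ext he))

open Classical in
/-- A representative prime to `f` of an ideal class, if there is one. -/
def clRep (c : ClassGroup (𝓞 E)) : Ideal (𝓞 E) :=
  if h : ∃ b : Ideal (𝓞 E), ∃ hb : b ⊔ D.f = ⊤,
      ClassGroup.mk0 ⟨b, mem_nonZeroDivisors_iff_ne_zero.2 (D.ne_bot_of_sup hb)⟩ = c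
  then h.choose else ⊤

theorem clRep_spec {b : Ideal (𝓞 E)} (hb : b ⊔ D.f = ⊤) :
    ∃ g : 𝓞 E, g ≠ 0 ∧ Ideal.span {g} ⊔ D.f = ⊤ ∧
      b * D.clRep (ClassGroup.mk0 ⟨b, mem_nonZeroDivisors_iff_ne_zero.2 (D.ne_bot_of_sup hb)⟩) ^
        (Fintype.card (ClassGroup (𝓞 E)) - 1) = Ideal.span {g} := by
  classical
  set c := ClassGroup.mk0 ⟨b, mem_nonZeroDivisors_iff_ne_zero.2 (D.ne_bot_of_sup hb)⟩ with hc
  have hex : ∃ b' : Ideal (𝓞 E), ∃ hb' : b' ⊔ D.f = ⊤,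
      ClassGroup.mk0 ⟨b', mem_nonZeroDivisors_iff_ne_zero.2 (D.ne_bot_of_sup hb')⟩ = c :=
    ⟨b, hb, rfl⟩
  obtain ⟨h1, h2⟩ := hex.choose_spec
  rw [clRep, dif_pos hex]
  set r := hex.choose
  set h := Fintype.card (ClassGroup (𝓞 E))
  have hp : b * r ^ (h - 1) ⊔ D.f = ⊤ := D.sup_mul hb (D.sup_pow h1 _)
  have hpr : (b * r ^ (h - 1)).IsPrincipal := by
    rw [← ClassGroup.mk0_eq_one_iff (mem_nonZeroDivisors_iff_ne_zero.2 (D.ne_bot_of_sup hp))]
    rw [show (⟨b * r ^ (h - 1), mem_nonZeroDivisors_iff_ne_zero.2 (D.ne_bot_of_sup hp)⟩ :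
        (Ideal (𝓞 E))⁰) = ⟨b, mem_nonZeroDivisors_iff_ne_zero.2 (D.ne_bot_of_sup hb)⟩ *
          ⟨r, mem_nonZeroDivisors_iff_ne_zero.2 (D.ne_bot_of_sup h1)⟩ ^ (h - 1) from rfl,
      map_mul, map_pow, h2, ← hc, mul_comm, ← pow_succ, Nat.sub_add_cancel Fintype.card_pos,
      pow_card_eq_one]
  obtain ⟨g, hg⟩ := hpr
  rw [Ideal.submodule_span_eq] at hg
  refine ⟨g, fun h0 => D.ne_bot_of_sup hp (by rw [hg, h0, Ideal.span_singleton_eq_bot]), ?_, hg⟩
  rw [← hg]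
  exact hp

/-- The integral ideals fall into finitely many classes. -/
theorem finite_range_cls :
    (Set.range fun b : {b : Ideal (𝓞 E) // b ⊔ D.f = ⊤} => D.cls b.1 b.2).Finite := by
  classical
  haveI : Finite (𝓞 E ⧸ D.f) := Ideal.finiteQuotientOfFreeOfNeBot _ D.f_ne_bot
  choose g hg0 hgf hg using fun b : {b : Ideal (𝓞 E) // b ⊔ D.f = ⊤} => D.clRep_spec b.2
  let key : {b : Ideal (𝓞 E) // b ⊔ D.f = ⊤} → ClassGroup (𝓞 E) × (𝓞 E ⧸ D.f) := fun b =>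
    (ClassGroup.mk0 ⟨b.1, mem_nonZeroDivisors_iff_ne_zero.2 (D.ne_bot_of_sup b.2)⟩,
      Ideal.Quotient.mk D.f (g b))
  have hfac : ∀ b b', key b = key b' → D.cls b.1 b.2 = D.cls b'.1 b'.2 := by
    intro b b' he
    simp only [key, Prod.mk.injEq] at he
    obtain ⟨hc, hres⟩ := he
    obtain ⟨x, hx, y, hy, hxy⟩ :=
      Submodule.mem_sup.1 ((Ideal.eq_top_iff_one _).1 (hgf b))
    obtain ⟨w, rfl⟩ := Ideal.mem_span_singleton'.1 hx
    have hα : w * g b - 1 ∈ D.f := by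
      rw [show w * g b - 1 = -y by rw [← hxy]; ring]; exact D.f.neg_mem hy
    have hm : w * g b' - 1 ∈ D.f := by
      rw [show w * g b' - 1 = (w * g b - 1) - w * (g b - g b') by ring]
      exact D.f.sub_mem hα (D.f.mul_mem_left _ (Ideal.Quotient.eq.1 hres))
    refine (D.mk_eq_mk_iff).2 ⟨((g b' : E)) / (g b : E),
      ⟨w * g b', w * g b, hm, hα, ?_⟩, ?_⟩
    · push_cast
      field_simp [RingOfIntegers.coe_ne_zero_iff.2 (hg0 b)]
    · show (b.1 : FIE E) * _ = (b'.1 : FIE E)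
      have e := hg b
      have e' := hg b'
      rw [← hc] at e'
      set R := D.clRep (ClassGroup.mk0
        ⟨b.1, mem_nonZeroDivisors_iff_ne_zero.2 (D.ne_bot_of_sup b.2)⟩) ^
          (Fintype.card (ClassGroup (𝓞 E)) - 1)
      have hR : (R : FIE E) ≠ 0 := coeIdeal_ne_zero.2 fun h0 => hg0 b
        (Ideal.span_singleton_eq_bot.1 (by rw [← e, h0, Ideal.mul_bot]))
      refine mul_right_cancel₀ hR ?_
      rw [mul_right_comm, ← coeIdeal_mul, ← coeIdeal_mul, e, e', coeIdeal_span_singleton,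
        coeIdeal_span_singleton, spanSingleton_mul_spanSingleton]
      congr 1
      field_simp [RingOfIntegers.coe_ne_zero_iff.2 (hg0 b)]
  obtain ⟨R, hR, hrep⟩ : ∃ R : Set {b : Ideal (𝓞 E) // b ⊔ D.f = ⊤},
      R.Finite ∧ ∀ b, ∃ r ∈ R, key r = key b :=
    ⟨Set.range fun k : Set.range key => k.2.choose, Set.finite_range _,
      fun b => ⟨_, ⟨⟨key b, b, rfl⟩, rfl⟩,
        (⟨key b, b, rfl⟩ : Set.range key).2.choose_spec⟩⟩
  refine (hR.image fun b => D.cls b.1 b.2).subset ?_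
  rintro _ ⟨b, rfl⟩
  obtain ⟨r, hr, he⟩ := hrep b
  exact ⟨r, hr, hfac r b he⟩

instance finite_cl : Finite D.Cl := by
  refine Set.finite_univ_iff.1 ((((D.finite_range_cls).prod D.finite_range_cls).image
    fun p : D.Cl × D.Cl => p.1 * p.2⁻¹).subset fun c _ => ?_)
  obtain ⟨I, J, hI, hJ, rfl⟩ := D.exists_cls_mul_inv c
  exact ⟨(_, _), ⟨⟨⟨I, hI⟩, rfl⟩, ⟨⟨J, hJ⟩, rfl⟩⟩, rfl⟩

/-- The key to well-definedness of the character. -/
theorem chi_eq_of_cls {I J : Ideal (𝓞 E)} {hI : I ⊔ D.f = ⊤} {hJ : J ⊔ D.f = ⊤}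
    (h : D.cls I hI = D.cls J hJ) : D.chi I = D.chi J := by
  obtain ⟨v, ⟨α, m, hα, hm, he⟩, hv⟩ := (D.mk_eq_mk_iff).1 h
  have hID : Ideal.span {α} * I = Ideal.span {m} * J := by
    refine coeIdeal_inj (K := E).1 ?_
    rw [coeIdeal_mul, coeIdeal_mul, coeIdeal_span_singleton, coeIdeal_span_singleton]
    change (I : FIE E) * spanSingleton (𝓞 E)⁰ v = (J : FIE E) at hv
    show spanSingleton (𝓞 E)⁰ (α : E) * _ = spanSingleton (𝓞 E)⁰ (m : E) * _
    rw [← he, ← spanSingleton_mul_spanSingleton, ← hv]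
    ring
  have := congrArg D.chi hID
  rwa [D.chi_mul _ _ (D.sup_span_of_sub_one_mem hα) hI,
    D.chi_mul _ _ (D.sup_span_of_sub_one_mem hm) hJ, D.chi_one α (D.ne_zero_of_sub_one_mem hα) hα,
    D.chi_one m (D.ne_zero_of_sub_one_mem hm) hm, one_mul, one_mul] at this

theorem chi_pow {b : Ideal (𝓞 E)} (hb : b ⊔ D.f = ⊤) (n : ℕ) :
    D.chi (b ^ n) = D.chi b ^ n := by
  induction n with
  | zero => rw [pow_zero, pow_zero, Ideal.one_eq_top, D.chi_top]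
  | succ n ih => rw [pow_succ, pow_succ, D.chi_mul _ _ (D.sup_pow hb n) hb, ih]

theorem cls_pow {b : Ideal (𝓞 E)} (hb : b ⊔ D.f = ⊤) (n : ℕ) :
    D.cls (b ^ n) (D.sup_pow hb n) = D.cls b hb ^ n := by
  rw [cls, cls, ← QuotientGroup.mk_pow]
  congr 1
  exact Subtype.ext (Units.ext (by simp [unitI, coeIdeal_pow]))

theorem chi_pow_card {b : Ideal (𝓞 E)} (hb : b ⊔ D.f = ⊤) :
    D.chi b ^ Nat.card D.Cl = 1 := by
  rw [← D.chi_pow hb]
  refine (D.chi_eq_of_cls (hI := D.sup_pow hb _) (hJ := top_sup_eq _) ?_).trans D.chi_top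
  rw [D.cls_pow hb, pow_card_eq_one']
  exact congrArg QuotientGroup.mk (Subtype.ext (Units.ext (by simp [unitI])))

theorem norm_chi {b : Ideal (𝓞 E)} (hb : b ⊔ D.f = ⊤) : ‖D.chi b‖ = 1 :=
  Complex.norm_eq_one_of_pow_eq_one (D.chi_pow_card hb) Nat.card_pos.ne'

theorem chi_ne_zero {b : Ideal (𝓞 E)} (hb : b ⊔ D.f = ⊤) : D.chi b ≠ 0 := fun h => by
  have := D.norm_chi hb; simp [h] at this

/-- The character on the classes. -/
def chiCl (c : D.Cl) : ℂ :=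
  D.chi (D.exists_cls_mul_inv c).choose / D.chi (D.exists_cls_mul_inv c).choose_spec.choose

theorem chiCl_spec {I J : Ideal (𝓞 E)} (hI : I ⊔ D.f = ⊤) (hJ : J ⊔ D.f = ⊤) (c : D.Cl)
    (h : c = D.cls I hI * (D.cls J hJ)⁻¹) : D.chiCl c = D.chi I / D.chi J := by
  obtain ⟨hI', hJ', he⟩ := (D.exists_cls_mul_inv c).choose_spec.choose_spec
  set I' := (D.exists_cls_mul_inv c).choose
  set J' := (D.exists_cls_mul_inv c).choose_spec.choose
  show D.chi I' / D.chi J' = _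
  rw [div_eq_div_iff (D.chi_ne_zero hJ') (D.chi_ne_zero hJ), ← D.chi_mul _ _ hI' hJ,
    ← D.chi_mul _ _ hI hJ']
  refine D.chi_eq_of_cls (hI := D.sup_mul hI' hJ) (hJ := D.sup_mul hI hJ') ?_
  rw [D.cls_mul hI' hJ, D.cls_mul hI hJ']
  rw [he, ← div_eq_mul_inv, ← div_eq_mul_inv, div_eq_div_iff_mul_eq_mul] at h
  exact h

theorem chiCl_cls {b : Ideal (𝓞 E)} (hb : b ⊔ D.f = ⊤) : D.chiCl (D.cls b hb) = D.chi b := by
  have h1 : D.cls ⊤ (top_sup_eq _) = 1 :=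
    congrArg QuotientGroup.mk (Subtype.ext (Units.ext (by simp [unitI])))
  rw [D.chiCl_spec hb (top_sup_eq _) _ (by rw [h1, _root_.inv_one]; exact (_root_.mul_one (D.cls b hb)).symm), D.chi_top, _root_.div_one]

theorem chiCl_mul (c c' : D.Cl) : D.chiCl (c * c') = D.chiCl c * D.chiCl c' := by
  obtain ⟨I, J, hI, hJ, rfl⟩ := D.exists_cls_mul_inv c
  obtain ⟨I', J', hI', hJ', rfl⟩ := D.exists_cls_mul_inv c'
  rw [D.chiCl_spec hI hJ _ rfl, D.chiCl_spec hI' hJ' _ rfl,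
    D.chiCl_spec (D.sup_mul hI hI') (D.sup_mul hJ hJ') _
      (by rw [D.cls_mul hI hI', D.cls_mul hJ hJ']
          refine (mul_mul_mul_comm (D.cls I hI) _ _ _).trans ?_
          exact congrArg (fun x : D.Cl => D.cls I hI * D.cls I' hI' * x)
            (_root_.mul_inv (D.cls J hJ) (D.cls J' hJ')).symm),
    D.chi_mul _ _ hI hI', D.chi_mul _ _ hJ hJ', div_mul_div_comm]

theorem chiCl_one : D.chiCl 1 = 1 := by
  have h1 : D.cls ⊤ (top_sup_eq _) = 1 :=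
    congrArg QuotientGroup.mk (Subtype.ext (Units.ext (by simp [unitI])))
  rw [← h1, D.chiCl_cls, D.chi_top]

theorem chiCl_inv (c : D.Cl) : D.chiCl c⁻¹ = (D.chiCl c)⁻¹ := by
  refine eq_inv_of_mul_eq_one_left ?_
  rw [← D.chiCl_mul, inv_mul_cancel, D.chiCl_one]

theorem norm_chiCl (c : D.Cl) : ‖D.chiCl c‖ = 1 := by
  obtain ⟨I, J, hI, hJ, rfl⟩ := D.exists_cls_mul_inv c
  rw [D.chiCl_spec hI hJ _ rfl, norm_div, D.norm_chi hI, D.norm_chi hJ, _root_.div_one]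

/-- A choice of representatives of the classes. -/
def IsReps (R : D.Cl → D.primeGroup) : Prop := ∀ c, QuotientGroup.mk (R c) = c

/-- The modulus times a fractional ideal. -/
def lat (r : (FIE E)ˣ) : (FIE E)ˣ := Units.mk0 (D.f : FIE E) (coeIdeal_ne_zero.2 D.f_ne_bot) * r

/-- The elements of `r` that are `≡ 1`. -/
def vset (r : (FIE E)ˣ) : Set E := {v | v ∈ (r : FIE E) ∧ D.One v}

/-- `vset r` is a coset of `f r`. -/
theorem exists_beta {r : (FIE E)ˣ} (hr : r ∈ D.primeGroup) :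
    ∃ β, β ∈ D.vset r ∧ ∀ v, v ∈ D.vset r ↔ v - β ∈ (D.lat r : FIE E) := by
  obtain ⟨I, J, hI, hJ, he⟩ := D.exists_frac hr
  have h1f : ∀ {b : Ideal (𝓞 E)}, b ⊔ D.f = ⊤ → ∃ γ ∈ b, γ - 1 ∈ D.f := fun {b} hb => by
    obtain ⟨x, hx, y, hy, hxy⟩ := Submodule.mem_sup.1 ((Ideal.eq_top_iff_one _).1 hb)
    exact ⟨x, hx, by rw [show x - 1 = -y by rw [← hxy]; ring]; exact D.f.neg_mem hy⟩
  have hcoe : ∀ {b : Ideal (𝓞 E)} {y : 𝓞 E}, y ∈ b → (y : E) ∈ (b : FIE E) := fun {b y} hy =>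
    (mem_coeIdeal _).2 ⟨y, hy, rfl⟩
  obtain ⟨γ, hγI, hγ⟩ := h1f hI
  obtain ⟨j, hjJ, hj⟩ := h1f hJ
  have hlat : (D.lat r : FIE E) = (D.f : FIE E) * r := rfl
  have hIr : (I : FIE E) ≤ (r : FIE E) := by
    rw [← he]
    calc (r : FIE E) * J ≤ (r : FIE E) * 1 := mul_le_mul' le_rfl coeIdeal_le_one
      _ = r := mul_one _
  have hlr : (D.lat r : FIE E) ≤ (r : FIE E) := by
    rw [hlat, mul_comm]
    calc (r : FIE E) * D.f ≤ (r : FIE E) * 1 := mul_le_mul' le_rfl coeIdeal_le_one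
      _ = r := mul_one _
  have hγr : (γ : E) ∈ (r : FIE E) := hIr (hcoe hγI)
  refine ⟨(γ : E), ⟨hγr, D.one_int hγ⟩, fun v => ?_⟩
  constructor
  · rintro ⟨hv, α, m, hα, hm, hm'⟩
    have hvr : v - (γ : E) ∈ (r : FIE E) := Submodule.sub_mem _ hv hγr
    have hyI : ∀ y ∈ J, ∃ e ∈ I, (e : E) = (y : E) * (v - (γ : E)) := fun y hy => by
      have h : (v - (γ : E)) * (y : E) ∈ (I : FIE E) :=
        he ▸ FractionalIdeal.mul_mem_mul hvr (hcoe hy)
      obtain ⟨e, heI, he'⟩ := (mem_coeIdeal _).1 h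
      exact ⟨e, heI, he'.trans (mul_comm _ _)⟩
    obtain ⟨d, hdI, hd'⟩ := hyI j hjJ
    have hdf : d ∈ D.f := by
      have e : m * d = j * (α - m * γ) := by
        refine RingOfIntegers.coe_injective ?_
        push_cast
        linear_combination (m : E) * (hd' : (d : E) = _) + (j : E) * hm'
      rw [show d = m * d - (m - 1) * d by ring, e]
      refine D.f.sub_mem (D.f.mul_mem_left _ ?_) (D.f.mul_mem_right _ hm)
      rw [show α - m * γ = (α - 1) - (m * γ - 1) by ring]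
      exact D.f.sub_mem hα (D.mul_sub_one_mem hm hγ)
    have hall : ∀ x ∈ (J : FIE E), (v - (γ : E)) * x ∈ ((D.f * I : Ideal (𝓞 E)) : FIE E) := by
      intro x hx
      obtain ⟨y, hyJ, rfl⟩ := (mem_coeIdeal _).1 hx
      obtain ⟨e, heI, he'⟩ := hyI y hyJ
      have hef : e ∈ D.f := by
        have h : j * e = y * d := by
          refine RingOfIntegers.coe_injective ?_
          push_cast
          linear_combination (j : E) * (he' : (e : E) = _) - (y : E) * (hd' : (d : E) = _)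
        rw [show e = j * e - (j - 1) * e by ring, h]
        exact D.f.sub_mem (D.f.mul_mem_left _ hdf) (D.f.mul_mem_right _ hj)
      rw [show (v - (γ : E)) * algebraMap (𝓞 E) E y = (e : E) from
        (mul_comm _ _).trans he'.symm]
      refine hcoe ?_
      rw [← Ideal.inf_eq_mul_of_isCoprime
        (Ideal.isCoprime_iff_sup_eq.2 ((sup_comm _ _).trans hI))]
      exact ⟨hef, heI⟩
    have hJ0 : (J : FIE E) ≠ 0 := coeIdeal_ne_zero.2 (D.ne_bot_of_sup hJ)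
    have hle : spanSingleton (𝓞 E)⁰ (v - (γ : E)) * (J : FIE E) ≤
        ((D.f * I : Ideal (𝓞 E)) : FIE E) := spanSingleton_mul_le_iff.2 hall
    rw [← spanSingleton_le_iff_mem, ← mul_le_mul_iff_left₀ (zero_lt_iff.2 hJ0), hlat, mul_assoc,
      he, ← coeIdeal_mul]
    exact hle
  · intro hl
    refine ⟨?_, ?_⟩
    · have h := Submodule.add_mem _ (hlr hl) hγr
      rwa [sub_add_cancel] at h
    · have h : (v - (γ : E)) * (j : E) ∈ ((D.f * I : Ideal (𝓞 E)) : FIE E) := by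
        rw [coeIdeal_mul, ← he, ← mul_assoc, ← hlat]
        exact FractionalIdeal.mul_mem_mul hl (hcoe hjJ)
      obtain ⟨k, hk, hk'⟩ := (mem_coeIdeal _).1 h
      refine ⟨j * γ + k, j, ?_, hj, ?_⟩
      · rw [show j * γ + k - 1 = (j * γ - 1) + k by ring]
        exact D.f.add_mem (D.mul_sub_one_mem hj hγ) (Ideal.mul_le.2 (fun x hx y _ => D.f.mul_mem_right y hx) hk)
      · push_cast
        linear_combination -(hk' : (k : E) = _)

/-- The generators of `(a N r)⁻¹`. -/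
def IsGen (a : (FractionalIdeal (𝓞 M)⁰ M)ˣ) (r : (FIE E)ˣ) (ξ : M) : Prop :=
  spanSingleton (𝓞 E)⁰ (algebraMap M E ξ) * extI M E (a : FractionalIdeal (𝓞 M)⁰ M) *
    ((r : FIE E) * D.conjI (r : FIE E)) = 1

theorem IsGen.ne_zero {a : (FractionalIdeal (𝓞 M)⁰ M)ˣ} {r : (FIE E)ˣ} {ξ : M}
    (h : D.IsGen a r ξ) : ξ ≠ 0 := fun h0 => by
  rw [IsGen, h0, map_zero, spanSingleton_zero, zero_mul, zero_mul] at h
  exact zero_ne_one h

/-- The norm of units, as units. -/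
def unitNorm : (𝓞 E)ˣ →* (𝓞 M)ˣ := Units.map (Algebra.intNorm (𝓞 M) (𝓞 E))

theorem coe_unitNorm (u : (𝓞 E)ˣ) :
    (((unitNorm (M := M) u : (𝓞 M)ˣ) : 𝓞 M) : M) = nM (M := M) ((u : 𝓞 E) : E) :=
  Algebra.algebraMap_intNorm (A := 𝓞 M) (K := M) (L := E) (u : 𝓞 E)

instance finite_unitQuot :
    Finite ((𝓞 M)ˣ ⧸ (unitsMod (E := E) D.f).map (unitNorm (M := M))) := by
  classical
  haveI : Group.FG (𝓞 M)ˣ := Group.fg_iff_monoid_fg.2 inferInstance
  refine CommGroup.finite_of_fg_isMulTorsion _ fun x => ?_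
  obtain ⟨ε, rfl⟩ := QuotientGroup.mk_surjective x
  haveI : Finite (𝓞 E ⧸ D.f) := Ideal.finiteQuotientOfFreeOfNeBot _ D.f_ne_bot
  set k := Nat.card (𝓞 E ⧸ D.f)ˣ
  have hk : 0 < k := Nat.card_pos
  refine isOfFinOrder_iff_pow_eq_one.2 ⟨2 * k, by omega, ?_⟩
  rw [← QuotientGroup.mk_pow, QuotientGroup.eq_one_iff]
  refine ⟨Units.map (algebraMap (𝓞 M) (𝓞 E)).toMonoidHom ε ^ k, ?_, ?_⟩
  · show _ ∈ unitsMod D.f
    rw [unitsMod, MonoidHom.mem_ker, map_pow, pow_card_eq_one']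
  · refine Units.ext (RingOfIntegers.ext ?_)
    rw [coe_unitNorm, nM, Units.val_pow_eq_pow_val, Units.val_pow_eq_pow_val]
    push_cast
    rw [map_pow]
    show Algebra.norm M (algebraMap M E (((ε : 𝓞 M) : M))) ^ k = _
    rw [Algebra.norm_algebraMap, D.deg, ← pow_mul]

/-- Two generators are equivalent if their quotient is the norm of a unit `≡ 1`. -/
def genSetoid (a : (FractionalIdeal (𝓞 M)⁰ M)ˣ) (r : (FIE E)ˣ) :
    Setoid {ξ : M // D.IsGen a r ξ} where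
  r x y := ∃ u : (𝓞 E)ˣ, u ∈ unitsMod D.f ∧ (y : M) = x * nM (M := M) ((u : 𝓞 E) : E)
  iseqv :=
    { refl := fun x => ⟨1, one_mem _, by simp [nM]⟩
      symm := by
        rintro x y ⟨u, hu, he⟩
        refine ⟨u⁻¹, inv_mem hu, ?_⟩
        rw [he, mul_assoc, ← coe_unitNorm, ← coe_unitNorm, map_inv, ← map_mul, ← Units.val_mul,
          mul_inv_cancel, Units.val_one, map_one, mul_one]
      trans := by
        rintro x y z ⟨u, hu, he⟩ ⟨u', hu', he'⟩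
        refine ⟨u * u', mul_mem hu hu', ?_⟩
        rw [he', he, mul_assoc, ← coe_unitNorm, ← coe_unitNorm, ← coe_unitNorm, map_mul,
          Units.val_mul]
        push_cast
        rfl }

/-- The finite parameter set. -/
def Xi (a : (FractionalIdeal (𝓞 M)⁰ M)ˣ) (r : (FIE E)ˣ) : Type := Quotient (D.genSetoid a r)

theorem IsGen.exists_unit {a : (FractionalIdeal (𝓞 M)⁰ M)ˣ} {r : (FIE E)ˣ} {ξ η : M}
    (hξ : D.IsGen a r ξ) (hη : D.IsGen a r η) : ∃ ε : (𝓞 M)ˣ, η = ξ * ((ε : 𝓞 M) : M) := by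
  have h : extI M E (spanSingleton (𝓞 M)⁰ ξ) = extI M E (spanSingleton (𝓞 M)⁰ η) := by
    rw [extI_spanSingleton, extI_spanSingleton]
    have hne : extI M E (a : FractionalIdeal (𝓞 M)⁰ M) *
        ((r : FIE E) * D.conjI (r : FIE E)) ≠ 0 := fun h0 => by
      rw [IsGen, mul_assoc, h0, mul_zero] at hξ; exact zero_ne_one hξ
    rw [IsGen, mul_assoc] at hξ hη
    exact mul_right_cancel₀ hne (hξ.trans hη.symm)
  have h' := FractionalIdeal.extendedHom_injective (𝓞 M) M E (𝓞 E) h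
  obtain ⟨z, hz⟩ := (mem_spanSingleton _).1 (h'.ge (mem_spanSingleton_self _ η))
  obtain ⟨z', hz'⟩ := (mem_spanSingleton _).1 (h'.le (mem_spanSingleton_self _ ξ))
  rw [Algebra.smul_def] at hz hz'
  have hzz : z' * z = 1 := by
    refine RingOfIntegers.coe_injective ?_
    rw [map_mul, map_one]
    refine mul_right_cancel₀ hξ.ne_zero ?_
    rw [mul_assoc, hz, hz', one_mul]
  exact ⟨⟨z, z', by rw [mul_comm, hzz], hzz⟩, by rw [← hz, mul_comm]⟩

instance finite_Xi (a : (FractionalIdeal (𝓞 M)⁰ M)ˣ) (r : (FIE E)ˣ) : Finite (D.Xi a r) := by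
  classical
  rcases isEmpty_or_nonempty {ξ : M // D.IsGen a r ξ} with h | ⟨⟨ξ₁⟩⟩
  · exact @Finite.of_subsingleton _ ⟨fun x => by
      induction x using Quotient.inductionOn with | h y => exact (h.false y).elim⟩
  choose ε hε using fun x : {ξ : M // D.IsGen a r ξ} => ξ₁.2.exists_unit D x.2
  refine Finite.of_injective (β := (𝓞 M)ˣ ⧸ (unitsMod (E := E) D.f).map (unitNorm (M := M)))
    (fun q => QuotientGroup.mk (ε (Quotient.out (s := D.genSetoid a r) q))) fun q q' h => ?_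
  obtain ⟨u, hu, hu'⟩ := QuotientGroup.eq.1 h
  refine Quotient.out_equiv_out.1 ⟨u, hu, ?_⟩
  rw [hε, hε (Quotient.out q), mul_assoc, ← coe_unitNorm, ← map_mul, ← Units.val_mul, hu',
    mul_inv_cancel_left]

end Data

end FLTAgent.LT.ThetaM
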