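import Fermat.Agent.LT.ThetaM.MainAux
import Fermat.Agent.LT.TF.Trace.Coef

/-!
# The Fourier coefficients of a theta expansion

A form whose values at `diag(a, 1)` are the theta expansion has the coefficient
`cN 𝔞 · coef (ξ 𝔞)` times the Whittaker value, by orthogonality over the box of periods; and
coefficients with arbitrarily large exponents at finitely many places off the modulus do not vanish.
-/

set_option autoImplicit false
set_option linter.style.haveILetI false
set_option linter.unusedSectionVars false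

noncomputable section

namespace FLTAgent.LT.ThetaM

open NumberField IsDedekindDomain MeasureTheory
open FractionalIdeal (spanSingleton)
open scoped nonZeroDivisors

/-- Orthogonality over the unit box. -/
theorem integral_echar_neg_mul {d : Type*} [Fintype d] [DecidableEq d] (k l : d → ℤ) :
    ∫ y in RS.boxSet d, Theta31.echar (-k) y * Theta31.echar l y = if l = k then 1 else 0 := by
  split_ifs with h
  · subst h
    simp only [RS.echar_neg_mul]
    simp [measureReal_def, RS.volume_boxSet]
  · obtain ⟨i, hi⟩ := Function.ne_iff.1 (sub_ne_zero.2 h)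
    rw [Pi.zero_apply] at hi
    have e : ∀ y, Theta31.echar (-k) y * Theta31.echar l y = Theta31.echar (l - k) y := fun y => by
      simp only [Theta31.echar, ← Complex.exp_add, ← mul_add, ← Finset.sum_add_distrib]
      congr 2
      exact Finset.sum_congr rfl fun j _ => by simp [sub_eq_add_neg]; ring
    simp only [e]
    exact integral_echar_eq_zero (sub_ne_zero.2 h)

variable {M : Type} [Field M] [NumberField M] [IsTotallyComplex M]

/-- The value of the product of the Whittaker terms at height `t`. -/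
def modeVal (ξ : M) (t : RS.Tinf M) : ℂ :=
  ((∏ w : InfinitePlace M, ((t w : ℝ) * bK ((t w : ℝ) * ‖w.embedding ξ‖)) : ℝ) : ℂ)

theorem modeVal_ne_zero {ξ : M} (hξ : ξ ≠ 0) (t : RS.Tinf M) : modeVal ξ t ≠ 0 :=
  Complex.ofReal_ne_zero.2 (Finset.prod_ne_zero_iff.2 fun w _ =>
    (mul_pos (t w).2 (bK_pos (mul_pos (t w).2 (norm_pos_iff.2
      ((map_ne_zero _).2 hξ))))).ne')

theorem wProd_ptX (ξ : M) (z : InfinitePlace M → ℂ) (t : RS.Tinf M) :
    wProd (RS.ptX z t) ξ = modeVal ξ t * RS.trChar ξ z := by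
  rw [wProd, modeVal, Complex.ofReal_prod, RS.trChar, RS.trPair, Finset.mul_sum,
    Complex.ofReal_sum, Finset.sum_mul, Complex.exp_sum, ← Finset.prod_mul_distrib]
  refine Finset.prod_congr rfl fun w _ => ?_
  simp only [wTerm, RS.ptX]
  congr 3
  rw [mul_comm (z w)]
  push_cast
  ring

theorem exists_isDual (ξ : M) : ∃ n : ℕ, 0 < n ∧ RS.IsDual n ξ := by
  classical
  refine ⟨∏ i, (Algebra.trace ℚ M (ξ * (RingOfIntegers.basis M i : M))).den,
    Finset.prod_pos fun i _ => Rat.den_pos _, fun i => ?_⟩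
  set q := Algebra.trace ℚ M (ξ * (RingOfIntegers.basis M i : M)) with hq
  refine ⟨q.num * ∏ j ∈ Finset.univ.erase i,
    ((Algebra.trace ℚ M (ξ * (RingOfIntegers.basis M j : M))).den : ℤ), ?_⟩
  rw [RS.freq, ← Finset.mul_prod_erase _ _ (Finset.mem_univ i), ← hq]
  push_cast
  rw [mul_comm (q.den : ℚ), mul_assoc, mul_comm (q.den : ℚ) q, Rat.mul_den_eq_num]
  ring

/-- A period on which a given frequency and all the frequencies of the expansion are dual. -/
theorem exists_period_dual {φ : Form M} {N : ℕ} (hN : 0 < N) (ha : Automorphic N φ)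
    (a : (Af M)ˣ) (ξ : M) :
    ∃ m, RS.HasPeriod φ (diagGF a) m ∧ RS.IsDual m ξ ∧
      ∀ η : M, spanSingleton (𝓞 M)⁰ η * (fId a : FIM M) ≤ 1 → RS.IsDual m η := by
  obtain ⟨m₀, h₀⟩ := RS.exists_hasPeriod hN ha (diagGF a)
  obtain ⟨n, hn, hξ⟩ := exists_isDual ξ
  obtain ⟨c, hc, hle⟩ := Red.exists_natCast_le a
  refine ⟨m₀ * (n * c), h₀.mul (Nat.mul_pos hn hc), ?_, fun η hη i => ?_⟩
  · rw [show m₀ * (n * c) = n * (m₀ * c) by ring]
    exact RS.isDual_mul hξ _
  · have hmem : (c : M) ∈ (fId a : FIM M) := mem_fId.2 fun v => by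
      rw [← Red.valued_algebraMap, map_natCast]
      exact hle v
    obtain ⟨y, hy⟩ := (FractionalIdeal.mem_one_iff _).1
      (hη (FractionalIdeal.mul_mem_mul (FractionalIdeal.mem_spanSingleton_self _ η) hmem))
    obtain ⟨k, hk⟩ := IsIntegrallyClosed.isIntegral_iff.1
      (Algebra.isIntegral_trace (R := ℤ) (F := M) (L := ℚ)
        (((RingOfIntegers.isIntegral_coe y)).mul
          (RingOfIntegers.isIntegral_coe (RingOfIntegers.basis M i))))
    refine ⟨(m₀ * n : ℕ) * k, ?_⟩
    rw [RS.freq, Int.cast_mul, Int.cast_natCast, ← show algebraMap ℤ ℚ k = (k : ℚ) from rfl, hk,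
      show algebraMap (𝓞 M) M y = η * (c : M) from hy, mul_comm η (c : M), mul_assoc (c : M),
      ← nsmul_eq_mul c, map_nsmul, nsmul_eq_mul]
    push_cast
    ring

variable {E : Type} [Field E] [NumberField E] [Algebra M E]

/-- **The coefficients of a theta expansion.** -/
theorem wh_of_exp (D : Data M E) {N : ℕ} (hN : 0 < N) {φ : Form M} (hφ : CuspZero N φ)
    (hexp : HasExpansion D φ)
    (a : (Af M)ˣ) {ξ : M} (hξ : ξ ≠ 0) (t : RS.Tinf M) :
    RS.wh φ (diagGF a) ξ t =
      (cN (fId a : FIM M) : ℂ) * D.coefFrac (spanSingleton (𝓞 M)⁰ ξ * (fId a : FIM M)) *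
        modeVal ξ t := by
  classical
  haveI : Countable M := (Module.finBasis ℚ M).equivFun.toEquiv.injective.countable
  obtain ⟨m, hm, hξd, hdual⟩ := exists_period_dual hN hφ.aut a ξ
  conv_lhs => rw [← RS.xiOf_kvec hm.pos hξd]
  rw [← RS.fc_periodFun_eq_wh (hφ.cont _) hm]
  set b : {η : M // η ≠ 0} → ℂ := fun η =>
    (cN (fId a : FIM M) : ℂ) * D.coefFrac (spanSingleton (𝓞 M)⁰ (η : M) * (fId a : FIM M)) *
      modeVal (η : M) t with hb
  -- the terms in box coordinates
  have hterm : ∀ (η : {η : M // η ≠ 0}) (y : RS.Idx M → ℝ),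
      (cN (fId a : FIM M) : ℂ) * D.coefFrac (spanSingleton (𝓞 M)⁰ (η : M) * (fId a : FIM M)) *
        wProd (RS.ptX (boxVec m y) t) (η : M) =
      b η * Theta31.echar (RS.kvec m (η : M)) y := fun η y => by
    by_cases h : spanSingleton (𝓞 M)⁰ (η : M) * (fId a : FIM M) ≤ 1
    · rw [wProd_ptX, RS.echar_kvec (hdual _ h), hb]
      ring
    · simp only [hb, D.coefFrac_eq_zero h, mul_zero, zero_mul]
  have hper : ∀ y, RS.periodFun φ (diagGF a) m t y =
      ∑' η, b η * Theta31.echar (RS.kvec m (η : M)) y := fun y => by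
    have h := hexp a (RS.ptX (boxVec m y) t)
    simp only [hterm] at h
    exact h.tsum_eq.symm
  have hsum : Summable fun η => ‖b η‖ := by
    have h := hexp a (RS.ptX (boxVec m 0) t)
    simp only [hterm] at h
    refine (h.summable.norm).congr fun η => ?_
    rw [norm_mul, RS.norm_echar', mul_one]
  have hfin : (volume : Measure (RS.Idx M → ℝ)) (RS.boxSet (RS.Idx M)) < ⊤ := by
    rw [RS.volume_boxSet]; exact ENNReal.one_lt_top
  set k := RS.kvec m ξ
  have hint : ∀ η, IntegrableOn (fun y => Theta31.echar (-k) y *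
      (b η * Theta31.echar (RS.kvec m (η : M)) y)) (RS.boxSet (RS.Idx M)) := fun η =>
    IntegrableOn.of_bound hfin
      ((RS.continuous_echar _).mul (continuous_const.mul (RS.continuous_echar _))).aestronglyMeasurable
      ‖b η‖ (Filter.Eventually.of_forall fun y => by
        rw [norm_mul, norm_mul, RS.norm_echar', RS.norm_echar', one_mul, mul_one])
  rw [RS.fc]
  simp only [hper, ← tsum_mul_left]
  rw [← integral_tsum_of_summable_integral_norm hint]
  · have hval : ∀ η : {η : M // η ≠ 0}, ∫ y in RS.boxSet (RS.Idx M),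
        Theta31.echar (-k) y * (b η * Theta31.echar (RS.kvec m (η : M)) y) =
        if η = ⟨ξ, hξ⟩ then b η else 0 := fun η => by
      simp only [mul_left_comm _ (b η), integral_const_mul, integral_echar_neg_mul]
      by_cases hd : RS.IsDual m (η : M)
      · have hiff : RS.kvec m (η : M) = k ↔ η = ⟨ξ, hξ⟩ := by
          refine ⟨fun h => Subtype.ext ?_, fun h => by rw [h]⟩
          rw [← RS.xiOf_kvec hm.pos hd, h, RS.xiOf_kvec hm.pos hξd]
        simp only [hiff]
        split_ifs <;> simp
      · have hb0 : b η = 0 := by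
          simp only [hb]
          rw [D.coefFrac_eq_zero fun h => hd (hdual _ h), mul_zero, zero_mul]
        simp [hb0]
    simp only [hval]
    rw [tsum_ite_eq]
  · refine hsum.congr fun η => ?_
    simp only [norm_mul, RS.norm_echar', one_mul, mul_one, setIntegral_const, measureReal_def,
      RS.volume_boxSet, ENNReal.toReal_one, one_smul]

/-- The coefficient at frequency one and equal heights. -/
theorem cf_of_exp (D : Data M E) {N : ℕ} (hN : 0 < N) {φ : Form M} (hφ : CuspZero N φ)
    (hexp : HasExpansion D φ)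
    (s : Set.Ioi (0 : ℝ)) (a : (Af M)ˣ) :
    TraceTheta.cf s φ a =
      modeVal (1 : M) (fun _ => s) * cN (fId a : FIM M) * D.coefFrac (fId a : FIM M) := by
  rw [TraceTheta.cf, wh_of_exp D hN hφ hexp a one_ne_zero, FractionalIdeal.spanSingleton_one,
    one_mul]
  ring

theorem cN_fId_ne_zero (a : (Af M)ˣ) : cN (fId a : FIM M) ≠ 0 := by
  have h : 0 < (FractionalIdeal.absNorm (fId a : FIM M) : ℚ) :=
    (FractionalIdeal.absNorm_nonneg _).lt_of_ne'
      (FractionalIdeal.absNorm_eq_zero_iff.not.2 (Units.ne_zero _))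
  exact inv_ne_zero (Real.sqrt_ne_zero'.2 (by exact_mod_cast h))

/-- A nonzero coefficient. -/
theorem cf_ne_zero_of_coef_ne_zero (D : Data M E) {N : ℕ} (hN : 0 < N) {φ : Form M}
    (hφ : CuspZero N φ)
    (hexp : HasExpansion D φ)
    (s : Set.Ioi (0 : ℝ)) {a : (Af M)ˣ} {m : Ideal (𝓞 M)} (ha : (fId a : FIM M) = m)
    (hm : D.coef m ≠ 0) : TraceTheta.cf s φ a ≠ 0 := by
  rw [cf_of_exp D hN hφ hexp, ha, D.coefFrac_coe]
  exact mul_ne_zero (mul_ne_zero (modeVal_ne_zero one_ne_zero _)
    (Complex.ofReal_ne_zero.2 (ha ▸ cN_fId_ne_zero a))) hm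

/-- The ideal only depends on the absolute values. -/
theorem fId_eq_of_valued {a b : (Af M)ˣ}
    (h : ∀ v, Valued.v ((a : Af M) v) = Valued.v ((b : Af M) v)) :
    (fId a : FIM M) = (fId b : FIM M) :=
  SetLike.ext fun x => by simp only [mem_fId, h]

namespace Data

variable (D : Data M E)

/-- Powers of a place off the modulus: no two consecutive coefficients vanish. -/
theorem exists_coef_pow_ne_zero {v : HeightOneSpectrum (𝓞 M)} (hv : ¬ D.nf ≤ v.asIdeal)
    {m : Ideal (𝓞 M)} (hm : m ≠ ⊥) (hc : D.coef m ≠ 0) (j : ℕ) :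
    ∃ k ≥ j, D.coef (m * v.asIdeal ^ k) ≠ 0 := by
  classical
  by_contra h
  push Not at h
  have h0 : ∀ k, m * v.asIdeal ^ k ≠ ⊥ := fun k => mul_ne_zero hm (pow_ne_zero _ v.ne_bot)
  have down : ∀ i, D.coef (m * v.asIdeal ^ (i + 1)) = 0 → D.coef (m * v.asIdeal ^ (i + 2)) = 0 →
      D.coef (m * v.asIdeal ^ i) = 0 := by
    intro i h1 h2
    have hr := D.coef_rec hv (h0 (i + 1))
    have hd : v.asIdeal ∣ m * v.asIdeal ^ (i + 1) := (dvd_pow_self _ (by omega)).mul_left m
    rw [dif_pos hd, h1, mul_zero,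
      show v.asIdeal * (m * v.asIdeal ^ (i + 1)) = m * v.asIdeal ^ (i + 2) by ring, h2, zero_add]
      at hr
    have he : hd.choose = m * v.asIdeal ^ i := by
      refine mul_left_cancel₀ v.ne_bot ?_
      rw [← hd.choose_spec]
      ring
    rwa [he] at hr
  have all : ∀ d i, j ≤ i + d → D.coef (m * v.asIdeal ^ i) = 0 := by
    intro d
    induction d with
    | zero => exact fun i hi => h i (by omega)
    | succ d ih => exact fun i hi => down i (ih _ (by omega)) (ih _ (by omega))
  exact hc (by simpa using all j 0 (by omega))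

/-- **The tail.** Nonzero coefficients with arbitrarily large exponents on a finite set of places
off the modulus and exponent zero elsewhere. -/
theorem exists_coef_prod_ne_zero (S : Finset (HeightOneSpectrum (𝓞 M)))
    (hS : ∀ v ∈ S, ¬ D.nf ≤ v.asIdeal) (j : ℕ) :
    ∃ k : HeightOneSpectrum (𝓞 M) → ℕ, (∀ v ∈ S, j ≤ k v) ∧
      D.coef (∏ v ∈ S, v.asIdeal ^ k v) ≠ 0 := by
  classical
  induction S using Finset.induction_on with
  | empty =>
    refine ⟨fun _ => 0, fun v hv => absurd hv (Finset.notMem_empty v), ?_⟩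
    rw [Finset.prod_empty, Ideal.one_eq_top, D.coef_top]
    exact one_ne_zero
  | insert v S hvS ih =>
    obtain ⟨k, hk, hne⟩ := ih fun w hw => hS w (Finset.mem_insert_of_mem hw)
    set m := ∏ w ∈ S, w.asIdeal ^ k w
    have hm : m ≠ ⊥ := Finset.prod_ne_zero_iff.2 fun w _ => pow_ne_zero _ w.ne_bot
    obtain ⟨n, hn, hcn⟩ := D.exists_coef_pow_ne_zero (hS v (Finset.mem_insert_self v S)) hm hne j
    refine ⟨Function.update k v n, fun w hw => ?_, ?_⟩
    · rcases eq_or_ne w v with rfl | hwv
      · rwa [Function.update_self]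
      · rw [Function.update_of_ne hwv]
        exact hk w ((Finset.mem_insert.1 hw).resolve_left hwv)
    · rw [Finset.prod_insert hvS, Function.update_self, mul_comm,
        Finset.prod_congr rfl fun w hw =>
          show w.asIdeal ^ Function.update k v n w = w.asIdeal ^ k w by
            rw [Function.update_of_ne (ne_of_mem_of_not_mem hw hvS)]]
      exact hcn

end Data

/-- **The tail of a theta expansion.** An idele with arbitrarily large exponents at finitely many
places off the modulus, a unit elsewhere, at which the coefficient does not vanish. -/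
theorem exists_cf_tail_ne_zero (D : Data M E) {N : ℕ} (hN : 0 < N) {φ : Form M}
    (hφ : CuspZero N φ)
    (hexp : HasExpansion D φ)
    (s : Set.Ioi (0 : ℝ)) (S : Finset (HeightOneSpectrum (𝓞 M)))
    (hS : ∀ v ∈ S, ¬ D.nf ≤ v.asIdeal) (j : ℕ) :
    ∃ k : HeightOneSpectrum (𝓞 M) → ℕ, (∀ v ∈ S, j ≤ k v) ∧
      ∀ a : (Af M)ˣ, (∀ v, Valued.v ((a : Af M) v) =
          Valued.v (((∏ w ∈ S, unifIdele w ^ k w : (Af M)ˣ) : Af M) v)) →
        TraceTheta.cf s φ a ≠ 0 := by
  obtain ⟨k, hk, hne⟩ := D.exists_coef_prod_ne_zero S hS j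
  refine ⟨k, hk, fun a ha => cf_ne_zero_of_coef_ne_zero D hN hφ hexp s ?_ hne⟩
  rw [fId_eq_of_valued ha, map_prod, Units.coe_prod,
    ← FractionalIdeal.coeIdealHom_apply, map_prod]
  exact Finset.prod_congr rfl fun w _ => by
    rw [map_pow, map_pow, Units.val_pow_eq_pow_val, fId_unifIdele,
      FractionalIdeal.coeIdealHom_apply]

end FLTAgent.LT.ThetaM
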