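import Fermat.Agent.LT.ThetaM.Expansion

/-!
# Ideal estimates for the transformation of the theta function

Traces and norms of elements of extended ideals, the periodicity of `psi (t qF v)`, the character
on ideals from the base, and the consequences of admissibility of a level.
-/

set_option autoImplicit false
set_option linter.style.haveILetI false
set_option linter.unusedSectionVars false

noncomputable section

namespace FLTAgent.LT.ThetaM

open NumberField IsDedekindDomain FractionalIdeal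
open scoped nonZeroDivisors

variable {M E : Type} [Field M] [NumberField M] [Field E] [NumberField E] [Algebra M E]

theorem mem_one_of_isIntegral {K : Type} [Field K] [NumberField K] {x : K} (h : IsIntegral ℤ x) :
    x ∈ (1 : FractionalIdeal (𝓞 K)⁰ K) :=
  (mem_one_iff _).2 ⟨⟨x, h⟩, rfl⟩

theorem isIntegral_of_mem_one {K : Type} [Field K] [NumberField K] {x : K}
    (h : x ∈ (1 : FractionalIdeal (𝓞 K)⁰ K)) : IsIntegral ℤ x := by
  obtain ⟨y, rfl⟩ := (mem_one_iff _).1 h
  exact RingOfIntegers.isIntegral_coe y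

variable (E) in
theorem extI_coe (m : Ideal (𝓞 M)) :
    extI M E (m : FIM M) = ((m.map (algebraMap (𝓞 M) (𝓞 E)) : Ideal (𝓞 E)) : FIE E) :=
  extendedHom_coeIdeal_eq_map E (𝓞 E) m

theorem algebraMap_mem_extI {I : FIM M} {z : M} (hz : z ∈ I) :
    algebraMap M E z ∈ extI M E I := by
  show algebraMap M E z ∈ ((extI M E I : FIE E) : Submodule (𝓞 E) E)
  rw [coe_extendedHom_eq_span]
  exact Submodule.subset_span ⟨z, hz, rfl⟩

theorem trace_mem_of_mem_extI {I : FIM M} {x : E} (hx : x ∈ extI M E I) :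
    Algebra.trace M E x ∈ I := by
  haveI : FiniteDimensional M E := Module.Finite.of_restrictScalars_finite ℚ M E
  have hx' : x ∈ ((extI M E I : FIE E) : Submodule (𝓞 E) E) := hx
  rw [coe_extendedHom_eq_span] at hx'
  suffices h : ∀ o : 𝓞 E, Algebra.trace M E ((o : E) * x) ∈ I by simpa using h 1
  refine Submodule.span_induction ?_ ?_ ?_ ?_ hx'
  · rintro _ ⟨z, hz, rfl⟩ o
    rw [mul_comm, ← Algebra.smul_def, map_smul, smul_eq_mul, mul_comm]
    have := Submodule.smul_mem (I : Submodule (𝓞 M) M)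
      (⟨Algebra.trace M E (o : E), Algebra.isIntegral_trace (RingOfIntegers.isIntegral_coe o)⟩ :
        𝓞 M) hz
    rwa [Algebra.smul_def] at this
  · intro o
    rw [mul_zero, map_zero]
    exact zero_mem _
  · intro y z _ _ hy hz o
    rw [mul_add, map_add]
    exact Submodule.add_mem _ (hy o) (hz o)
  · intro p y _ hy o
    rw [Algebra.smul_def, ← mul_assoc, ← map_mul]
    exact hy (o * p)

variable (E) in
theorem le_of_extI_le {x y : FIM M} (h : extI M E x ≤ extI M E y) : x ≤ y := by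
  refine sup_eq_right.1 ?_
  have h' := sup_eq_right.2 h
  rw [sup_eq_add] at h' ⊢
  rw [← map_add] at h'
  exact FractionalIdeal.extendedHom_injective (𝓞 M) M E (𝓞 E) h'

namespace Quad

variable (Q : Quad M E)

theorem conjI_mono {x y : FIE E} (h : x ≤ y) : Q.conjI x ≤ Q.conjI y := by
  refine sup_eq_right.1 ?_
  have h' := sup_eq_right.2 h
  rw [sup_eq_add] at h' ⊢
  rw [← map_add, h']

theorem conjI_extI (I : FIM M) : Q.conjI (extI M E I) = extI M E I := by
  obtain ⟨x, J, -, rfl⟩ := exists_eq_spanSingleton_mul I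
  simp only [map_mul, extI_spanSingleton, extI_coe, Q.conjI_spanSingleton, Q.conj_algebraMap,
    Q.conjI_coe, Ideal.map_map]
  congr 3
  exact RingHom.ext fun m => Q.conjO_algebraMap m

end Quad

namespace Data

variable (D : Data M E)

/-- An element of `r` against a conjugate of an element of `J r`. -/
theorem spanSingleton_mul_conj_le {a : (FIM M)ˣ} {r : (FIE E)ˣ} {ξ : M} (hgen : D.IsGen a r ξ)
    {J : FIM M} {v u : E} (hv : v ∈ (r : FIE E)) (hu : u ∈ extI M E J * (r : FIE E)) :
    spanSingleton (𝓞 E)⁰ (algebraMap M E ξ * (v * D.conj u)) * extI M E (a : FIM M) ≤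
      extI M E J := by
  have h2 : spanSingleton (𝓞 E)⁰ (D.conj u) ≤ extI M E J * D.conjI (r : FIE E) := by
    rw [← D.conjI_spanSingleton]
    refine (D.conjI_mono (spanSingleton_le_iff_mem.2 hu)).trans_eq ?_
    rw [map_mul, D.conjI_extI]
  rw [← spanSingleton_mul_spanSingleton, ← spanSingleton_mul_spanSingleton]
  calc _ ≤ spanSingleton (𝓞 E)⁰ (algebraMap M E ξ) *
        ((r : FIE E) * (extI M E J * D.conjI (r : FIE E))) * extI M E (a : FIM M) :=
        mul_le_mul' (mul_le_mul' le_rfl (mul_le_mul' (spanSingleton_le_iff_mem.2 hv) h2)) le_rfl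
    _ = extI M E J * (spanSingleton (𝓞 E)⁰ (algebraMap M E ξ) * extI M E (a : FIM M) *
        ((r : FIE E) * D.conjI (r : FIE E))) := by ring
    _ = _ := by rw [hgen, mul_one]

/-- The increments of the quadratic form along `J r`. -/
theorem qF_sub_le {a : (FIM M)ˣ} {r : (FIE E)ˣ} {ξ : M} (hgen : D.IsGen a r ξ) {J : Ideal (𝓞 M)}
    {v m : E} (hv : v ∈ (r : FIE E)) (hm : m ∈ extI M E (J : FIM M) * (r : FIE E)) :
    spanSingleton (𝓞 M)⁰ (qF ξ (v + m) - qF ξ v) * (a : FIM M) ≤ (J : FIM M) := by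
  haveI := D.finiteDimensional
  rw [show qF ξ (v + m) - qF ξ v = qF ξ m + ξ * Algebra.trace M E (v * D.conj m) by
    rw [qF_add D.toQuad]; ring, spanSingleton_mul_le_iff]
  intro z hz
  rw [add_mul]
  refine Submodule.add_mem _ ?_ ?_
  · have hmr : m ∈ (r : FIE E) := by
      have : extI M E (J : FIM M) * (r : FIE E) ≤ (r : FIE E) := by
        rw [extI_coe]
        exact (mul_le_mul' coeIdeal_le_one le_rfl).trans (one_mul _).le
      exact this hm
    have h1 := D.spanSingleton_mul_conj_le hgen hmr hm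
    rw [← D.algebraMap_norm, ← map_mul, ← extI_spanSingleton, ← map_mul] at h1
    exact spanSingleton_mul_le_iff.1 (le_of_extI_le E h1) z hz
  · have h1 := spanSingleton_mul_le_iff.1 (D.spanSingleton_mul_conj_le hgen hv hm)
      (algebraMap M E z) (algebraMap_mem_extI hz)
    have h2 := trace_mem_of_mem_extI h1
    rwa [show algebraMap M E ξ * (v * D.conj m) * algebraMap M E z =
      (ξ * z) • (v * D.conj m) by rw [Algebra.smul_def, map_mul]; ring, map_smul, smul_eq_mul,
      show ξ * z * Algebra.trace M E (v * D.conj m) =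
        ξ * Algebra.trace M E (v * D.conj m) * z by ring] at h2

/-- Periodicity of the character along `J r`. -/
theorem psi_qF_periodic {a : (FIM M)ˣ} {r : (FIE E)ˣ} {ξ : M} (hgen : D.IsGen a r ξ)
    {J : Ideal (𝓞 M)} {t : M} (ht : spanSingleton (𝓞 M)⁰ t * (J : FIM M) ≤ (a : FIM M))
    {v m : E} (hv : v ∈ (r : FIE E)) (hm : m ∈ extI M E (J : FIM M) * (r : FIE E)) :
    psi (t * qF ξ (v + m)) = psi (t * qF ξ v) := by
  have h : spanSingleton (𝓞 M)⁰ (t * (qF ξ (v + m) - qF ξ v)) * (a : FIM M) ≤ 1 * (a : FIM M) := by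
    rw [one_mul, ← spanSingleton_mul_spanSingleton, mul_assoc]
    exact (mul_le_mul' le_rfl (D.qF_sub_le hgen hv hm)).trans ht
  rw [mul_le_mul_iff_left₀ (zero_lt_iff.2 a.ne_zero), spanSingleton_le_iff_mem] at h
  rw [show t * qF ξ (v + m) = t * qF ξ v + t * (qF ξ (v + m) - qF ξ v) by ring, psi_add,
    psi_integral (isIntegral_of_mem_one h), mul_one]

/-! ### The character on ideals from the base -/

theorem sup_map_eq_top {m : Ideal (𝓞 M)} (hm : m ⊔ D.nf = ⊤) :
    m.map (algebraMap (𝓞 M) (𝓞 E)) ⊔ D.f = ⊤ := by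
  rw [f, ← Ideal.map_sup, hm, Ideal.map_top]

theorem chi_map_sq {m : Ideal (𝓞 M)} (hm : m ⊔ D.nf = ⊤) :
    D.chi (m.map (algebraMap (𝓞 M) (𝓞 E))) ^ 2 = 1 := by
  induction m using UniqueFactorizationMonoid.induction_on_prime with
  | h₁ => exact absurd (by simpa [Ideal.zero_eq_bot] using hm) D.nf_ne_top
  | h₂ u hu => rw [Ideal.isUnit_iff.1 hu, Ideal.map_top, D.chi_top, one_pow]
  | h₃ a p ha hp ih =>
    have hc := Ideal.isCoprime_iff_sup_eq.2 hm
    have hp' : p ⊔ D.nf = ⊤ := Ideal.isCoprime_iff_sup_eq.1 hc.of_mul_left_left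
    have ha' : a ⊔ D.nf = ⊤ := Ideal.isCoprime_iff_sup_eq.1 hc.of_mul_left_right
    rw [Ideal.map_mul, D.chi_mul _ _ (D.sup_map_eq_top hp') (D.sup_map_eq_top ha'), mul_pow,
      ih ha', mul_one]
    have hpp := Ideal.isPrime_of_prime hp
    let v : HeightOneSpectrum (𝓞 M) := ⟨p, hpp, hp.ne_zero⟩
    have hv : ¬ D.nf ≤ v.asIdeal := fun h => hpp.ne_top (by rwa [sup_eq_left.2 h] at hp')
    have hvf := D.sup_map_eq_top hp'
    rcases D.places v hv with ⟨P, P', -, hP, -, hchi⟩ | ⟨P, hP, hchi⟩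
    · change p.map (algebraMap (𝓞 M) (𝓞 E)) = _ at hP
      rw [hP] at hvf ⊢
      have hc' := Ideal.isCoprime_iff_sup_eq.2 hvf
      rw [D.chi_mul _ _ (Ideal.isCoprime_iff_sup_eq.1 hc'.of_mul_left_left)
        (Ideal.isCoprime_iff_sup_eq.1 hc'.of_mul_left_right), hchi, one_pow]
    · change p.map (algebraMap (𝓞 M) (𝓞 E)) = _ at hP
      rw [hP, hchi, neg_one_sq]

/-! ### Levels -/

theorem IsLev.isIntegral_mul {N : ℕ} (hN : D.IsLev N) {x : M}
    (h : ∀ o : 𝓞 M, ∃ n : ℤ, Algebra.trace ℚ M (x * (o : M)) = n) :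
    IsIntegral ℤ ((N : M) * x) := by
  haveI := D.finiteDimensional
  have h2 := hN.2.2 (algebraMap M E x) fun y _ => by
    obtain ⟨n, hn⟩ := h ⟨Algebra.trace M E (y : E),
      Algebra.isIntegral_trace (RingOfIntegers.isIntegral_coe y)⟩
    refine ⟨n, ?_⟩
    rw [← Algebra.trace_trace (S := M), ← Algebra.smul_def, map_smul, smul_eq_mul]
    exact hn
  refine (isIntegral_algebraMap_iff (FaithfulSMul.algebraMap_injective M E)).1 ?_
  rw [show algebraMap M E ((N : M) * x) =
    (2 : ℕ) * ((N : E) / 2 * algebraMap M E x) by rw [map_mul, map_natCast]; push_cast; ring]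
  exact ((map_natCast (algebraMap ℤ E) 2) ▸ isIntegral_algebraMap).mul h2

end Data

end FLTAgent.LT.ThetaM
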