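import Fermat.Agent.LT.ThetaM.Formula

/-!
# The Fourier expansion of the theta function

Summing a series over the units of norm one turns the torus weight into the integral over the whole
torus, so `theta W R 𝔞` is the sum of `coefFrac (ξ 𝔞) · wProd x ξ`, whatever the representatives.
-/

set_option autoImplicit false
set_option linter.style.haveILetI false
set_option linter.unusedSectionVars false

noncomputable section

namespace FLTAgent.LT.ThetaM

open NumberField IsDedekindDomain MeasureTheory Complex FractionalIdeal Filter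
open scoped Real nonZeroDivisors

variable {M E : Type} [Field M] [NumberField M] [Field E] [NumberField E] [Algebra M E]

/-! ### The torus -/

section Torus

variable (Q : Quad M E) (ξ₀ : M)

/-- Units of norm one move the torus variable. -/
theorem term_unit (x : Xinf M) (s : InfinitePlace M → ℝ) {u : E} (hu : u * Q.conj u = 1) (v : E) :
    term Q ξ₀ x s (u * v) = term Q ξ₀ x (s + logAbs M u) v := by
  rw [term, term, kerS, kerS]
  refine Finset.prod_congr rfl fun w _ => ?_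
  have hu0 : iota E w u ≠ 0 := (_root_.map_ne_zero _).2 (left_ne_zero_of_mul_eq_one hu)
  have hn : 0 < ‖iota E w u‖ := norm_pos_iff.2 hu0
  have hn' : ((‖iota E w u‖ : ℝ) : ℂ) ≠ 0 := ofReal_ne_zero.2 hn.ne'
  have hc : iota E w (Q.conj u) = (iota E w u)⁻¹ :=
    eq_inv_of_mul_eq_one_right (by rw [← map_mul, hu, map_one])
  set ω : ℂ := iota E w u / ((‖iota E w u‖ : ℝ) : ℂ) with hω
  have hω1 : ‖ω‖ = 1 := by
    rw [hω, norm_div, Complex.norm_real, Real.norm_eq_abs, abs_of_pos hn, div_self hn.ne']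
  rw [← sTerm_rotate (x w) ω hω1
    ((Real.exp ((s + logAbs M u) w) : ℂ) * (embY Q ξ₀ v w).1,
      (Real.exp (-(s + logAbs M u) w) : ℂ) * (embY Q ξ₀ v w).2)]
  congr 1
  have e1 : ((Real.exp ((s + logAbs M u) w) : ℝ) : ℂ) =
      (Real.exp (s w) : ℂ) * ((‖iota E w u‖ : ℝ) : ℂ) := by
    rw [Pi.add_apply, logAbs, Real.exp_add, Real.exp_log hn, Complex.ofReal_mul]
  have e2 : ((Real.exp (-(s + logAbs M u) w) : ℝ) : ℂ) =
      (Real.exp (-s w) : ℂ) * ((‖iota E w u‖ : ℝ) : ℂ)⁻¹ := by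
    rw [Real.exp_neg, Real.exp_neg, Complex.ofReal_inv, Complex.ofReal_inv, e1, mul_inv]
  refine Prod.ext ?_ ?_
  · show (Real.exp (s w) : ℂ) * iota E w (u * v) =
      ω * (((Real.exp ((s + logAbs M u) w) : ℝ) : ℂ) * iota E w v)
    rw [e1, hω, map_mul]
    field_simp
  · show (Real.exp (-s w) : ℂ) * (w.embedding ξ₀ * iota E w (Q.conj (u * v))) =
      ω⁻¹ * (((Real.exp (-(s + logAbs M u) w) : ℝ) : ℂ) * (w.embedding ξ₀ * iota E w (Q.conj v)))
    rw [e2, hω, map_mul, map_mul, hc]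
    field_simp

/-- A term over the whole torus. -/
theorem integral_term (x : Xinf M) {v : E} (hv : qF ξ₀ v ≠ 0) :
    Integrable (fun s => term Q ξ₀ x s v) ∧
      ∫ s, term Q ξ₀ x s v = wProd x (qF ξ₀ v) := by
  have h : ∀ w : InfinitePlace M, (embY Q ξ₀ v w).1 ≠ 0 ∧ (embY Q ξ₀ v w).2 ≠ 0 := fun w => by
    refine mul_ne_zero_iff.1 ?_
    rw [embY_mul]
    exact (_root_.map_ne_zero _).2 hv
  have key := fun w => integral_sTerm_scale (x w) (embY Q ξ₀ v w) (h w).1 (h w).2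
  refine ⟨Integrable.fintype_prod (μ := fun _ : InfinitePlace M => (volume : Measure ℝ))
    (f := fun w (s : ℝ) =>
      sTerm (x w) ((Real.exp s : ℂ) * (embY Q ξ₀ v w).1, (Real.exp (-s) : ℂ) * (embY Q ξ₀ v w).2))
    fun w => (key w).1, ?_⟩
  show ∫ s : InfinitePlace M → ℝ, ∏ w, _ = _
  rw [integral_fintype_prod_volume_eq_prod (fun w (s : ℝ) =>
    sTerm (x w) ((Real.exp s : ℂ) * (embY Q ξ₀ v w).1, (Real.exp (-s) : ℂ) * (embY Q ξ₀ v w).2))]
  refine Finset.prod_congr rfl fun w _ => ?_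
  rw [(key w).2, embY_mul]

end Torus

namespace Data

variable (D : Data M E)

/-- The units of norm one congruent to one. -/
abbrev U1 : Type := normOneUnits D.toQuad D.f

instance countable_U1 : Countable D.U1 :=
  haveI : Countable (𝓞 E) := Module.Free.chooseBasis ℤ (𝓞 E) |>.repr.toEquiv.countable_iff.2 inferInstance
  Function.Injective.countable (f := fun u : D.U1 => ((u : (𝓞 E)ˣ) : 𝓞 E))
    fun u v h => Subtype.ext (Units.ext h)

theorem nM_unit (u : D.U1) : nM (M := M) (((u : (𝓞 E)ˣ) : 𝓞 E) : E) = 1 := by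
  refine FaithfulSMul.algebraMap_injective M E ?_
  rw [nM, D.algebraMap_norm, u.2.2, map_one]

theorem logAbs_inv (u : D.U1) :
    logAbs M ((((u⁻¹ : D.U1) : (𝓞 E)ˣ) : 𝓞 E) : E) = -logAbs M (((u : (𝓞 E)ˣ) : 𝓞 E) : E) := by
  funext w
  have h : iota E w ((((u⁻¹ : D.U1) : (𝓞 E)ˣ) : 𝓞 E) : E) *
      iota E w (((u : (𝓞 E)ˣ) : 𝓞 E) : E) = 1 := by
    rw [← map_mul, ← map_mul, ← Units.val_mul, Subgroup.coe_inv, inv_mul_cancel, Units.val_one,
      map_one, map_one]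
  show Real.log ‖_‖ = -Real.log ‖_‖
  rw [eq_inv_of_mul_eq_one_left h, norm_inv, Real.log_inv]

theorem IsWeight.le_one {W : (InfinitePlace M → ℝ) → ℝ} (hW : D.IsWeight W)
    (s : InfinitePlace M → ℝ) : W s ≤ 1 := by
  have h := le_hasSum (hW.total s) (1 : D.U1) fun u _ => hW.nonneg _
  have h0 : logAbs M ((((1 : D.U1) : (𝓞 E)ˣ) : 𝓞 E) : E) = 0 := funext fun w => by simp [logAbs]
  simpa only [h0, add_zero] using h

variable {W : (InfinitePlace M → ℝ) → ℝ} (hW : D.IsWeight W)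
include hW

/-- A weighted term summed over the units is the Whittaker product. -/
theorem hasSum_termW_unit (x : Xinf M) (ξ₀ : M) {v : E} (hv : qF ξ₀ v ≠ 0) :
    HasSum (fun u : D.U1 => termW D.toQuad W ξ₀ x ((((u : (𝓞 E)ˣ) : 𝓞 E) : E) * v))
      (wProd x (qF ξ₀ v)) := by
  obtain ⟨hint, hval⟩ := integral_term D.toQuad ξ₀ x hv
  set T := fun s => term D.toQuad ξ₀ x s v
  set ℓ := fun u : D.U1 => logAbs M (((u : (𝓞 E)ˣ) : 𝓞 E) : E)
  have e : ∀ u : D.U1, termW D.toQuad W ξ₀ x ((((u : (𝓞 E)ˣ) : 𝓞 E) : E) * v) =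
      ∫ s, (W (s - ℓ u) : ℂ) * T s := fun u => by
    rw [termW, ← integral_add_right_eq_self (μ := volume) (fun s => (W (s - ℓ u) : ℂ) * T s) (ℓ u)]
    refine integral_congr_ae (Eventually.of_forall fun s => ?_)
    simp only [T, ℓ, add_sub_cancel_right, term_unit D.toQuad ξ₀ x s u.2.2]
  simp only [e]
  have htot : ∀ s, HasSum (fun u : D.U1 => W (s - ℓ u)) 1 := fun s => by
    rw [← (Equiv.inv D.U1).hasSum_iff]
    refine (hW.total s).congr_fun fun u => ?_
    simp only [Function.comp_apply, Equiv.inv_apply, ℓ, D.logAbs_inv, sub_neg_eq_add]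
  have hi : ∀ u, Integrable fun s => (W (s - ℓ u) : ℂ) * T s := fun u =>
    hint.bdd_mul (c := 1) ((Complex.continuous_ofReal.comp
      (hW.cont.comp (continuous_id.sub continuous_const))).aestronglyMeasurable)
      (Eventually.of_forall fun s => by
        rw [Complex.norm_real, Real.norm_eq_abs, abs_of_nonneg (hW.nonneg _)]
        exact hW.le_one D _)
  have hsum : Summable fun u => ∫ s, ‖(W (s - ℓ u) : ℂ) * T s‖ := by
    refine summable_of_sum_le (c := ∫ s, ‖T s‖) (fun u => integral_nonneg fun _ => norm_nonneg _)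
      fun S => ?_
    rw [← integral_finsetSum _ fun u _ => (hi u).norm]
    refine integral_mono (integrable_finsetSum _ fun u _ => (hi u).norm) hint.norm fun s => ?_
    simp only [norm_mul, Complex.norm_real, Real.norm_eq_abs, abs_of_nonneg (hW.nonneg _),
      ← Finset.sum_mul]
    exact mul_le_of_le_one_left (norm_nonneg _)
      (sum_le_hasSum _ (fun u _ => hW.nonneg _) (htot s))
  have hmain := MeasureTheory.hasSum_integral_of_summable_integral_norm hi hsum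
  have hEq : ∫ s, ∑' u, (W (s - ℓ u) : ℂ) * T s = wProd x (qF ξ₀ v) := by
    rw [← hval]
    refine integral_congr_ae (Eventually.of_forall fun s => ?_)
    show ∑' u, (W (s - ℓ u) : ℂ) * T s = T s
    rw [tsum_mul_right, ((Complex.hasSum_ofReal).2 (htot s)).tsum_eq, Complex.ofReal_one, one_mul]
  rwa [hEq] at hmain

omit hW

/-! ### The parameters -/

/-- An element of a coset gives an ideal. -/
theorem exists_ideal_of_mem {a : (FIM M)ˣ} {r : D.primeGroup} {ξ : M}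
    (hξ : D.IsGen a (r : (FIE E)ˣ) ξ) {v : E} (hv : v ∈ D.vset (r : (FIE E)ˣ)) :
    ∃ b : Ideal (𝓞 E), ∃ hb : b ⊔ D.f = ⊤,
      (b : FIE E) * ((r : (FIE E)ˣ) : FIE E) = spanSingleton (𝓞 E)⁰ v ∧
      (b : FIE E) * D.conjI (b : FIE E) =
        extI M E (spanSingleton (𝓞 M)⁰ (qF ξ v) * (a : FIM M)) ∧
      (QuotientGroup.mk r : D.Cl) = (D.cls b hb)⁻¹ := by
  set r' : FIE E := ((r : (FIE E)ˣ) : FIE E) with hr'
  have hle : spanSingleton (𝓞 E)⁰ v * (((r : (FIE E)ˣ)⁻¹ : (FIE E)ˣ) : FIE E) ≤ 1 := by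
    calc _ ≤ r' * (((r : (FIE E)ˣ)⁻¹ : (FIE E)ˣ) : FIE E) :=
          mul_le_mul' (spanSingleton_le_iff_mem.2 hv.1) le_rfl
      _ = 1 := Units.mul_inv _
  obtain ⟨b, hb'⟩ := le_one_iff_exists_coeIdeal.1 hle
  have hbr : (b : FIE E) * r' = spanSingleton (𝓞 E)⁰ v := by
    rw [hb', mul_assoc, Units.inv_mul, mul_one]
  have hb : b ⊔ D.f = ⊤ := by
    obtain ⟨I, J, hI, hJ, he⟩ := D.exists_frac r.2
    obtain ⟨α, m, hα, hm, he'⟩ := hv.2
    have h : b * (I * Ideal.span {m}) = J * Ideal.span {α} := by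
      refine coeIdeal_inj (K := E).1 ?_
      simp only [coeIdeal_mul, coeIdeal_span_singleton]
      rw [← he, show algebraMap (𝓞 E) E α = v * (m : E) from he'.symm,
        ← spanSingleton_mul_spanSingleton, ← hbr]
      ring
    have h2 := D.sup_mul hJ (D.sup_span_of_sub_one_mem hα)
    rw [← h, ← Ideal.isCoprime_iff_sup_eq] at h2
    exact Ideal.isCoprime_iff_sup_eq.1 h2.of_mul_left_left
  refine ⟨b, hb, hbr, ?_, ?_⟩
  · have hc : D.conjI (b : FIE E) * D.conjI r' = spanSingleton (𝓞 E)⁰ (D.conj v) := by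
      rw [← map_mul, hbr, D.conjI_spanSingleton]
    calc (b : FIE E) * D.conjI (b : FIE E)
        = ((b : FIE E) * D.conjI (b : FIE E)) *
          (spanSingleton (𝓞 E)⁰ (algebraMap M E ξ) * extI M E (a : FIM M) *
            (r' * D.conjI r')) := by rw [hξ, mul_one]
      _ = ((b : FIE E) * r') * (D.conjI (b : FIE E) * D.conjI r') *
          (spanSingleton (𝓞 E)⁰ (algebraMap M E ξ) * extI M E (a : FIM M)) := by ring
      _ = _ := by
        rw [hbr, hc, spanSingleton_mul_spanSingleton, map_mul, extI_spanSingleton, qF, map_mul,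
          nM, D.algebraMap_norm, ← spanSingleton_mul_spanSingleton (x := algebraMap M E ξ)]
        ring
  · refine eq_inv_of_mul_eq_one_left ?_
    rw [cls, ← QuotientGroup.mk_mul]
    refine (D.mk_eq_mk_iff).2 ⟨v⁻¹, hv.2.inv D, ?_⟩
    show r' * (b : FIE E) * spanSingleton (𝓞 E)⁰ v⁻¹ = 1
    rw [mul_comm r', hbr, spanSingleton_mul_spanSingleton, mul_inv_cancel₀ (hv.2.ne_zero D),
      spanSingleton_one]

/-- The pairs of a frequency and an ideal of that norm. -/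
abbrev Pr (a : (FIM M)ˣ) : Type :=
  Σ ξ : {ξ : M // ξ ≠ 0}, {b : Ideal (𝓞 E) // b ⊔ D.f = ⊤ ∧
    (b : FIE E) * D.conjI (b : FIE E) = extI M E (spanSingleton (𝓞 M)⁰ (ξ : M) * (a : FIM M))}

variable (R : D.Cl → D.primeGroup)

/-- The index of all the series. -/
abbrev Idx (a : (FIM M)ˣ) : Type :=
  Σ c : D.Cl, Σ _q : D.Xi a ((R c : (FIE E)ˣ)), D.vset ((R c : (FIE E)ˣ))

variable {R}

/-- The generator of an index. -/
abbrev Idx.gen {a : (FIM M)ˣ} (i : D.Idx R a) : M :=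
  (Quotient.out (s := D.genSetoid a (R i.1 : (FIE E)ˣ)) i.2.1).1

theorem Idx.qF_ne_zero {a : (FIM M)ˣ} (i : D.Idx R a) : qF (i.gen D) (i.2.2 : E) ≠ 0 :=
  mul_ne_zero ((Quotient.out (s := D.genSetoid a (R i.1 : (FIE E)ˣ)) i.2.1).2.ne_zero D)
    fun h => i.2.2.2.2.ne_zero D ((nM_eq_zero D.toQuad).1 h)

/-- The pair of an index. -/
def Idx.pr {a : (FIM M)ˣ} (i : D.Idx R a) : D.Pr a :=
  ⟨⟨qF (i.gen D) (i.2.2 : E), i.qF_ne_zero D⟩,
    ⟨(D.exists_ideal_of_mem (r := R i.1)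
        (Quotient.out (s := D.genSetoid a (R i.1 : (FIE E)ˣ)) i.2.1).2 i.2.2.2).choose,
      (D.exists_ideal_of_mem (r := R i.1)
        (Quotient.out (s := D.genSetoid a (R i.1 : (FIE E)ˣ)) i.2.1).2 i.2.2.2).choose_spec.choose,
      (D.exists_ideal_of_mem (r := R i.1)
        (Quotient.out (s := D.genSetoid a (R i.1 : (FIE E)ˣ)) i.2.1).2
          i.2.2.2).choose_spec.choose_spec.2.1⟩⟩

theorem Idx.pr_spec {a : (FIM M)ˣ} (i : D.Idx R a) :
    ((i.pr D).2.1 : FIE E) * ((R i.1 : (FIE E)ˣ) : FIE E) = spanSingleton (𝓞 E)⁰ (i.2.2 : E) ∧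
      (QuotientGroup.mk (R i.1) : D.Cl) = (D.cls (i.pr D).2.1 (i.pr D).2.2.1)⁻¹ := by
  have h := (D.exists_ideal_of_mem (r := R i.1)
    (Quotient.out (s := D.genSetoid a (R i.1 : (FIE E)ˣ)) i.2.1).2
      i.2.2.2).choose_spec.choose_spec
  exact ⟨h.1, h.2.2⟩

theorem Pr.ext' {a : (FIM M)ˣ} {p p' : D.Pr a} (h : (p.1 : M) = p'.1)
    (h' : p.2.1 = p'.2.1) : p = p' := by
  obtain ⟨⟨ξ, hξ⟩, ⟨b, hb⟩⟩ := p
  obtain ⟨⟨η, hη⟩, ⟨c, hc⟩⟩ := p'
  subst h
  subst h'
  rfl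

theorem spanSingleton_unit (u : (𝓞 E)ˣ) : spanSingleton (𝓞 E)⁰ ((u : 𝓞 E) : E) = 1 := by
  rw [← spanSingleton_one, spanSingleton_eq_spanSingleton]
  refine ⟨u⁻¹, ?_⟩
  rw [Units.smul_def, Algebra.smul_def, ← map_mul, Units.inv_mul, map_one]

theorem unit_mul_mem {r : (FIE E)ˣ} {u : (𝓞 E)ˣ} (hu : u ∈ unitsMod D.f) {v : E}
    (hv : v ∈ D.vset r) : ((u : 𝓞 E) : E) * v ∈ D.vset r := by
  refine ⟨?_, (D.one_unit hu).mul D hv.2⟩
  have := Submodule.smul_mem ((r : FIE E) : Submodule (𝓞 E) E) (u : 𝓞 E) hv.1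
  rwa [Algebra.smul_def] at this

/-- The action of the units on the indices. -/
def Idx.shift {a : (FIM M)ˣ} (i : D.Idx R a) (u : D.U1) : D.Idx R a :=
  ⟨i.1, i.2.1, (((u : (𝓞 E)ˣ) : 𝓞 E) : E) * (i.2.2 : E), D.unit_mul_mem u.2.1 i.2.2.2⟩

theorem Idx.pr_shift {a : (FIM M)ˣ} (i : D.Idx R a) (u : D.U1) : (i.shift D u).pr D = i.pr D := by
  refine Pr.ext' D ?_ ?_
  · show qF (i.gen D) ((((u : (𝓞 E)ˣ) : 𝓞 E) : E) * (i.2.2 : E)) = qF (i.gen D) (i.2.2 : E)
    rw [qF, qF, nM, map_mul]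
    show _ * (nM (M := M) _ * _) = _
    rw [D.nM_unit, one_mul]
    rfl
  · refine coeIdeal_inj (K := E).1 (mul_right_cancel₀ (R i.1 : (FIE E)ˣ).ne_zero
      (((i.shift D u).pr_spec D).1.trans ?_))
    rw [(i.pr_spec D).1]
    show spanSingleton (𝓞 E)⁰ ((((u : (𝓞 E)ˣ) : 𝓞 E) : E) * (i.2.2 : E)) = _
    rw [← spanSingleton_mul_spanSingleton, spanSingleton_unit, one_mul]

theorem pr_surjective (hR : D.IsReps R) (a : (FIM M)ˣ) :
    Function.Surjective (Idx.pr D (R := R) (a := a)) := by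
  rintro ⟨⟨ξ, hξ⟩, ⟨b, hb, he⟩⟩
  set c := (D.cls b hb)⁻¹
  set r' : FIE E := ((R c : (FIE E)ˣ) : FIE E) with hr'
  have h1 : (QuotientGroup.mk (R c * ⟨D.unitI b hb, D.unitI_mem b hb⟩) : D.Cl) =
      QuotientGroup.mk (1 : D.primeGroup) := by
    rw [QuotientGroup.mk_mul, hR c]
    exact inv_mul_cancel (D.cls b hb)
  obtain ⟨w, hw, hwe⟩ := (D.mk_eq_mk_iff).1 h1
  change r' * (b : FIE E) * spanSingleton (𝓞 E)⁰ w = 1 at hwe
  have hw0 := hw.ne_zero D
  have hbr : (b : FIE E) * r' = spanSingleton (𝓞 E)⁰ w⁻¹ := by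
    calc (b : FIE E) * r'
        = r' * (b : FIE E) * spanSingleton (𝓞 E)⁰ w * spanSingleton (𝓞 E)⁰ w⁻¹ := by
          rw [mul_assoc (r' * _), spanSingleton_mul_spanSingleton, mul_inv_cancel₀ hw0,
            spanSingleton_one, mul_one, mul_comm]
      _ = _ := by rw [hwe, one_mul]
  set v₀ := w⁻¹
  have hv₀ : D.One v₀ := hw.inv D
  have hn0 : nM (M := M) v₀ ≠ 0 := fun h => hv₀.ne_zero D ((nM_eq_zero D.toQuad).1 h)
  have hgen : D.IsGen a ((R c : (FIE E)ˣ)) (ξ / nM v₀) := by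
    have hc : D.conjI (b : FIE E) * D.conjI r' = spanSingleton (𝓞 E)⁰ (D.conj v₀) := by
      rw [← map_mul, hbr, D.conjI_spanSingleton]
    rw [IsGen, div_eq_mul_inv, map_mul, ← spanSingleton_mul_spanSingleton,
      mul_right_comm (spanSingleton (𝓞 E)⁰ (algebraMap M E ξ)),
      ← extI_spanSingleton (E := E) ξ, ← map_mul, ← he]
    calc (b : FIE E) * D.conjI (b : FIE E) * spanSingleton (𝓞 E)⁰ (algebraMap M E (nM v₀)⁻¹) *
          (r' * D.conjI r')
        = ((b : FIE E) * r') * (D.conjI (b : FIE E) * D.conjI r') *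
          spanSingleton (𝓞 E)⁰ (algebraMap M E (nM v₀)⁻¹) := by ring
      _ = 1 := by
        rw [hbr, hc, spanSingleton_mul_spanSingleton, spanSingleton_mul_spanSingleton,
          ← D.algebraMap_norm, ← map_mul, show Algebra.norm M v₀ = nM v₀ from rfl,
          mul_inv_cancel₀ hn0, map_one, spanSingleton_one]
  set q : D.Xi a ((R c : (FIE E)ˣ)) := Quotient.mk (D.genSetoid a _) ⟨_, hgen⟩
  obtain ⟨u, hu, hue⟩ := Quotient.mk_out (s := D.genSetoid a (R c : (FIE E)ˣ)) ⟨_, hgen⟩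
  have hv₀r : v₀ ∈ D.vset ((R c : (FIE E)ˣ)) := by
    refine ⟨spanSingleton_le_iff_mem.1 ?_, hv₀⟩
    rw [← hbr]
    calc (b : FIE E) * r' ≤ 1 * r' := mul_le_mul' coeIdeal_le_one le_rfl
      _ = _ := one_mul _
  refine ⟨⟨c, q, _, D.unit_mul_mem hu hv₀r⟩, Pr.ext' D ?_ ?_⟩
  · show qF _ (((u : 𝓞 E) : E) * v₀) = ξ
    change ξ / nM v₀ = _ at hue
    rw [qF, nM, map_mul, ← mul_assoc]
    show (Quotient.out (s := D.genSetoid a _) q).1 * nM (M := M) _ * nM v₀ = ξ
    rw [← hue, div_mul_cancel₀ _ hn0]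
  · refine coeIdeal_inj (K := E).1 (mul_right_cancel₀ (R c : (FIE E)ˣ).ne_zero ?_)
    refine (Idx.pr_spec D (a := a) (R := R) ⟨c, q, _, D.unit_mul_mem hu hv₀r⟩).1.trans ?_
    show spanSingleton (𝓞 E)⁰ (((u : 𝓞 E) : E) * v₀) = (b : FIE E) * r'
    rw [← spanSingleton_mul_spanSingleton, spanSingleton_unit, one_mul, hbr]

theorem exists_shift_of_pr_eq (hR : D.IsReps R) {a : (FIM M)ˣ} {i j : D.Idx R a}
    (h : i.pr D = j.pr D) : ∃ u : D.U1, i.shift D u = j := by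
  have hc : i.1 = j.1 := by
    have h1 := (i.pr_spec D).2
    have h2 := (j.pr_spec D).2
    rw [hR] at h1 h2
    rw [h1, h2]
    exact congrArg (fun p : D.Pr a => (D.cls p.2.1 p.2.2.1)⁻¹) h
  have hv := (i.pr_spec D).1
  have hv' := (j.pr_spec D).1
  have hξ : qF (i.gen D) (i.2.2 : E) = qF (j.gen D) (j.2.2 : E) :=
    congrArg (fun p : D.Pr a => (p.1 : M)) h
  rw [h] at hv
  obtain ⟨c, q, v, hvm⟩ := i
  obtain ⟨c', q', v', hvm'⟩ := j
  dsimp only at hc hv hv' hξ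
  subst hc
  obtain ⟨ε, hε⟩ := spanSingleton_eq_spanSingleton.1 (hv.symm.trans hv')
  rw [Units.smul_def, Algebra.smul_def] at hε
  have hεv : ((ε : 𝓞 E) : E) = v' * v⁻¹ := by
    rw [← hε, mul_inv_cancel_right₀ (hvm.2.ne_zero D)]
  have hεf : ε ∈ unitsMod D.f := mem_unitsMod.2
    (D.sub_one_mem_of_one (hεv ▸ hvm'.2.mul D (hvm.2.inv D)))
  have hn0 : nM (M := M) v ≠ 0 := fun h => hvm.2.ne_zero D ((nM_eq_zero D.toQuad).1 h)
  have hout : (Quotient.out (s := D.genSetoid a (R c : (FIE E)ˣ)) q).1 =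
      (Quotient.out (s := D.genSetoid a (R c : (FIE E)ˣ)) q').1 *
        nM (M := M) ((ε : 𝓞 E) : E) := by
    refine mul_right_cancel₀ hn0 ?_
    rw [mul_assoc, nM, nM, ← map_mul, show ((ε : 𝓞 E) : E) * v = v' from hε]
    exact hξ
  obtain rfl : q' = q := Quotient.out_equiv_out.1 ⟨ε, hεf, hout⟩
  have h1 : nM (M := M) ((ε : 𝓞 E) : E) = 1 := mul_left_cancel₀
    ((Quotient.out (s := D.genSetoid a (R c : (FIE E)ˣ)) q').2.ne_zero D)
    (hout.symm.trans (mul_one _).symm)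
  refine ⟨⟨ε, hεf, ?_⟩, ?_⟩
  · rw [← D.algebraMap_norm]
    show algebraMap M E (nM _) = 1
    rw [h1, map_one]
  · simp only [Idx.shift]
    congr

/-- The ideals of a given norm are finite in number. -/
instance finite_prFibre (a : (FIM M)ˣ) (ξ : {ξ : M // ξ ≠ 0}) :
    Finite {b : Ideal (𝓞 E) // b ⊔ D.f = ⊤ ∧
      (b : FIE E) * D.conjI (b : FIE E) = extI M E (spanSingleton (𝓞 M)⁰ (ξ : M) * (a : FIM M))} := by
  classical
  rcases isEmpty_or_nonempty {b : Ideal (𝓞 E) // b ⊔ D.f = ⊤ ∧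
      (b : FIE E) * D.conjI (b : FIE E) = extI M E (spanSingleton (𝓞 M)⁰ (ξ : M) * (a : FIM M))}
    with h | ⟨⟨b₀, hb₀, he₀⟩⟩
  · infer_instance
  have h1 : spanSingleton (𝓞 M)⁰ (ξ : M) * (a : FIM M) ≤ 1 := by
    refine le_one_of_extendedHom_le_one E (𝓞 E) ?_
    rw [← he₀, D.conjI_coe, ← coeIdeal_mul]
    exact coeIdeal_le_one
  obtain ⟨m, hm⟩ := le_one_iff_exists_coeIdeal.1 h1
  have hm0 : m ≠ ⊥ := fun h0 => by
    rw [h0, coeIdeal_bot] at hm
    exact mul_ne_zero (spanSingleton_ne_zero_iff.2 ξ.2) a.ne_zero hm.symm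
  refine Set.finite_coe_iff.2 ((D.normSet_finite hm0).subset fun b hb => ⟨hb.1, ?_⟩)
  refine coeIdeal_inj (K := E).1 ?_
  rw [coeIdeal_mul, conjId, ← D.conjI_coe, hb.2, ← hm, extendedHom_coeIdeal_eq_map]

/-- The sum over a fibre is the coefficient. -/
theorem tsum_prFibre (a : (FIM M)ˣ) (ξ : {ξ : M // ξ ≠ 0}) :
    ∑' b : {b : Ideal (𝓞 E) // b ⊔ D.f = ⊤ ∧
        (b : FIE E) * D.conjI (b : FIE E) = extI M E (spanSingleton (𝓞 M)⁰ (ξ : M) * (a : FIM M))},
      D.chi b.1 = D.coefFrac (spanSingleton (𝓞 M)⁰ (ξ : M) * (a : FIM M)) := by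
  classical
  by_cases hex : ∃ m : Ideal (𝓞 M), (m : FIM M) = spanSingleton (𝓞 M)⁰ (ξ : M) * (a : FIM M)
  · obtain ⟨m, hm⟩ := hex
    have hm0 : m ≠ ⊥ := fun h0 => by
      rw [h0, coeIdeal_bot] at hm
      exact mul_ne_zero (spanSingleton_ne_zero_iff.2 ξ.2) a.ne_zero hm.symm
    haveI := Fintype.ofFinite {b : Ideal (𝓞 E) // b ⊔ D.f = ⊤ ∧
      (b : FIE E) * D.conjI (b : FIE E) = extI M E (spanSingleton (𝓞 M)⁰ (ξ : M) * (a : FIM M))}
    rw [tsum_fintype, show D.coefFrac (spanSingleton (𝓞 M)⁰ (ξ : M) * (a : FIM M)) = D.coef m by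
      rw [← hm, D.coefFrac_coe], coef, dif_neg hm0]
    refine (Finset.sum_subtype _ (fun b => ?_) D.chi).symm
    rw [Set.Finite.mem_toFinset]
    show _ ∧ _ ↔ _
    refine and_congr_right fun _ => ?_
    rw [← coeIdeal_inj (K := E), coeIdeal_mul, conjId, ← D.conjI_coe, ← hm,
      extendedHom_coeIdeal_eq_map]
  · rw [coefFrac, dif_neg hex]
    haveI : IsEmpty {b : Ideal (𝓞 E) // b ⊔ D.f = ⊤ ∧
        (b : FIE E) * D.conjI (b : FIE E) =
          extI M E (spanSingleton (𝓞 M)⁰ (ξ : M) * (a : FIM M))} := ⟨fun b => hex <| by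
      refine le_one_iff_exists_coeIdeal.1 (le_one_of_extendedHom_le_one E (𝓞 E) ?_)
      rw [← b.2.2, D.conjI_coe, ← coeIdeal_mul]
      exact coeIdeal_le_one⟩
    exact tsum_empty

/-! ### The expansion -/

variable (R)

/-- A coset as a translated lattice. -/
def vsetEquiv (r : D.primeGroup) :
    Latt (D.lat (r : (FIE E)ˣ)) ≃ D.vset (r : (FIE E)ˣ) where
  toFun v := ⟨(D.exists_beta r.2).choose + v.1,
    ((D.exists_beta r.2).choose_spec.2 _).2 (by rw [add_sub_cancel_left]; exact v.2)⟩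
  invFun v := ⟨v.1 - (D.exists_beta r.2).choose, ((D.exists_beta r.2).choose_spec.2 _).1 v.2⟩
  left_inv v := Subtype.ext (add_sub_cancel_left _ _)
  right_inv v := Subtype.ext (add_sub_cancel _ _)

/-- A part is a series over a lattice. -/
theorem part_eq_ser (W : (InfinitePlace M → ℝ) → ℝ) (a : (FIM M)ˣ) (r : D.primeGroup)
    (q : D.Xi a (r : (FIE E)ˣ)) (x : Xinf M) :
    D.part W a (r : (FIE E)ˣ) q x =
      ser D.toQuad W (Quotient.out (s := D.genSetoid a (r : (FIE E)ˣ)) q).1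
        (D.lat (r : (FIE E)ˣ)) (D.exists_beta r.2).choose (fun _ => 1) x := by
  rw [part, ser, ← (D.vsetEquiv r).tsum_eq]
  exact tsum_congr fun v => (one_mul _).symm

variable [IsTotallyComplex M]

theorem summable_norm_part {W : (InfinitePlace M → ℝ) → ℝ} (hW : IsTorusWeight W) (a : (FIM M)ˣ)
    (r : D.primeGroup) (q : D.Xi a (r : (FIE E)ˣ)) (x : Xinf M) :
    Summable fun v : D.vset (r : (FIE E)ˣ) =>
      ‖termW D.toQuad W (Quotient.out (s := D.genSetoid a (r : (FIE E)ˣ)) q).1 x (v : E)‖ :=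
  (D.vsetEquiv r).summable_iff.1 (summable_norm_termW D.toQuad _ _ _ hW
    ((Quotient.out (s := D.genSetoid a (r : (FIE E)ˣ)) q).2.ne_zero D) x)

include hW in
/-- The expansion of the theta function, with absolute convergence. -/
theorem theta_expansion (hR : D.IsReps R) (a : (FIM M)ˣ) (x : Xinf M) :
    (Summable fun ξ : {ξ : M // ξ ≠ 0} =>
        ‖D.coefFrac (spanSingleton (𝓞 M)⁰ (ξ : M) * (a : FIM M)) * wProd x (ξ : M)‖) ∧
      HasSum (fun ξ : {ξ : M // ξ ≠ 0} =>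
        D.coefFrac (spanSingleton (𝓞 M)⁰ (ξ : M) * (a : FIM M)) * wProd x (ξ : M))
        (D.theta W R a x) := by
  classical
  haveI := Fintype.ofFinite D.Cl
  haveI := fun c : D.Cl => Fintype.ofFinite (D.Xi a ((R c : (FIE E)ˣ)))
  set F : D.Idx R a → ℂ := fun i =>
    (D.chiCl i.1)⁻¹ * termW D.toQuad W (i.gen D) x (i.2.2 : E)
  have hFn : Summable fun i => ‖F i‖ := by
    refine (summable_sigma_of_nonneg fun _ => norm_nonneg _).2 ⟨fun c => ?_, Summable.of_finite⟩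
    refine (summable_sigma_of_nonneg fun _ => norm_nonneg _).2 ⟨fun q => ?_, Summable.of_finite⟩
    simp only [F, norm_mul, norm_inv, D.norm_chiCl, inv_one, one_mul]
    exact D.summable_norm_part hW.toIsTorusWeight a (R c) q x
  have hFs := hFn.of_norm
  have hθ : HasSum F (D.theta W R a x) := by
    refine hFs.hasSum_iff.2 ?_
    rw [theta, finsum_eq_sum_of_fintype, hFs.tsum_sigma, tsum_fintype]
    refine Finset.sum_congr rfl fun c _ => ?_
    rw [finsum_eq_sum_of_fintype, (hFs.sigma_factor c).tsum_sigma, tsum_fintype, Finset.mul_sum]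
    refine Finset.sum_congr rfl fun q _ => ?_
    rw [part, ← tsum_mul_left]
  -- fibres
  choose g hg using D.pr_surjective hR a
  have hbij : Function.Bijective fun pu : D.Pr a × D.U1 => (g pu.1).shift D pu.2 := by
    constructor
    · rintro ⟨p, u⟩ ⟨p', u'⟩ h
      dsimp only at h
      obtain rfl : p = p' := by
        have h1 := congrArg (Idx.pr D) h
        rwa [Idx.pr_shift, Idx.pr_shift, hg, hg] at h1
      have h2 : (((u : (𝓞 E)ˣ) : 𝓞 E) : E) * ((g p).2.2 : E) =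
          (((u' : (𝓞 E)ˣ) : 𝓞 E) : E) * ((g p).2.2 : E) :=
        congrArg (fun i : D.Idx R a => (i.2.2 : E)) h
      exact Prod.ext rfl (Subtype.ext (Units.ext (RingOfIntegers.coe_injective
        (mul_right_cancel₀ ((g p).2.2.2.2.ne_zero D) h2))))
    · intro i
      obtain ⟨u, hu⟩ := D.exists_shift_of_pr_eq hR (i := g (i.pr D)) (j := i) (hg _)
      exact ⟨⟨_, u⟩, hu⟩
  set e := Equiv.ofBijective _ hbij
  have hpu := e.hasSum_iff.2 hθ
  have hfib : ∀ p : D.Pr a, HasSum (fun u : D.U1 => (F ∘ e) (p, u))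
      (D.chi p.2.1 * wProd x (p.1 : M)) := fun p => by
    have h1 := ((g p).pr_spec D).2
    rw [hR, congrArg (fun q : D.Pr a => q) (hg p)] at h1
    have h2 : qF ((g p).gen D) ((g p).2.2 : E) = (p.1 : M) :=
      congrArg (fun q : D.Pr a => (q.1 : M)) (hg p)
    have h3 := (D.hasSum_termW_unit hW x _ ((g p).qF_ne_zero D)).mul_left (D.chiCl (g p).1)⁻¹
    rw [h2] at h3
    have hχ : (D.chiCl (g p).1)⁻¹ = D.chi p.2.1 := by
      rw [h1, D.chiCl_inv, inv_inv, D.chiCl_cls]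
    rw [hχ] at h3
    refine h3.congr_fun fun u => ?_
    show (D.chiCl (g p).1)⁻¹ * _ = _
    rw [hχ]
    rfl
  have hP := hpu.prod_fiberwise hfib
  have hPn : Summable fun p : D.Pr a => ‖D.chi p.2.1 * wProd x (p.1 : M)‖ := by
    have hn : Summable fun pu => ‖F (e pu)‖ := e.summable_iff.2 hFn
    refine Summable.of_nonneg_of_le (fun _ => norm_nonneg _) (fun p => ?_)
      (hn.hasSum.prod_fiberwise fun p => (hn.prod_factor p).hasSum).summable
    rw [← (hfib p).tsum_eq]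
    exact norm_tsum_le_tsum_norm (hn.prod_factor p)
  have hsig := hP.sigma fun ξ => Summable.of_finite.hasSum
  have hval : ∀ ξ : {ξ : M // ξ ≠ 0}, ∑' b : {b : Ideal (𝓞 E) // b ⊔ D.f = ⊤ ∧
      (b : FIE E) * D.conjI (b : FIE E) = extI M E (spanSingleton (𝓞 M)⁰ (ξ : M) * (a : FIM M))},
        D.chi b.1 * wProd x (ξ : M) =
      D.coefFrac (spanSingleton (𝓞 M)⁰ (ξ : M) * (a : FIM M)) * wProd x (ξ : M) := fun ξ => by
    rw [tsum_mul_right, D.tsum_prFibre]
  refine ⟨Summable.of_nonneg_of_le (fun _ => norm_nonneg _) (fun ξ => ?_)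
    ((summable_sigma_of_nonneg fun _ => norm_nonneg _).1 hPn).2,
    hsig.congr_fun fun ξ => (hval ξ).symm⟩
  rw [← hval ξ]
  exact norm_tsum_le_tsum_norm Summable.of_finite

include hW in
/-- The theta function does not depend on the representatives. -/
theorem theta_eq_of_reps {R R' : D.Cl → D.primeGroup} (hR : D.IsReps R) (hR' : D.IsReps R')
    (a : (FIM M)ˣ) : D.theta W R a = D.theta W R' a :=
  funext fun x => (D.theta_expansion hW R hR a x).2.unique (D.theta_expansion hW R' hR' a x).2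

end Data

end FLTAgent.LT.ThetaM
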