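import Fermat.Agent.LT.ThetaM.Expansion
import Fermat.Agent.LT.ThetaM.FId
import Fermat.Agent.LT.ThetaM.Bessel
import Fermat.Agent.LT.ThetaM.Strong
import Fermat.Agent.LT.TF.Action
import Fermat.Agent.LT.RS.Coef
import Fermat.Agent.LT.Red.Cover

/-!
# The transformation of the theta function between decompositions of an adelic matrix

If `g = γ · diag(b) · k` and `g z = γ' · diag(c) · k'` with `z` integral and `≡ 1 mod N`, the two
values of `thetaN` agree: `γ'⁻¹ γ` is a unit diagonal matrix times a matrix to which the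
transformation formula applies.
-/

set_option autoImplicit false
set_option linter.style.haveILetI false
set_option linter.unusedSectionVars false

noncomputable section

namespace FLTAgent.LT.ThetaM

open NumberField IsDedekindDomain Matrix
open FractionalIdeal (spanSingleton)
open scoped nonZeroDivisors

variable {M E : Type} [Field M] [NumberField M] [Field E] [NumberField E] [Algebra M E]

/-- The idele of a global element. -/
abbrev gIdele (η : Mˣ) : (Af M)ˣ := Units.map (algebraMap M (Af M)).toMonoidHom η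

theorem valued_gIdele (η : Mˣ) (v : HeightOneSpectrum (𝓞 M)) :
    Valued.v ((gIdele η : Af M) v) = v.valuation M (η : M) := Red.valued_algebraMap _ v

theorem fId_congr {a b : (Af M)ˣ}
    (h : ∀ v : HeightOneSpectrum (𝓞 M), Valued.v ((a : Af M) v) = Valued.v ((b : Af M) v)) :
    fId a = fId b := by
  refine Units.ext ?_
  ext x
  simp only [mem_fId, h]

theorem coe_fId_gIdele_mul (η : Mˣ) (b : (Af M)ˣ) :
    (fId (gIdele η * b) : FIM M) = spanSingleton (𝓞 M)⁰ (η : M) * (fId b : FIM M) := by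
  rw [map_mul, Units.val_mul, fId_algebraMap]

theorem spanSingleton_le_fId {x : M} {a : (Af M)ˣ}
    (h : ∀ v : HeightOneSpectrum (𝓞 M), v.valuation M x ≤ Valued.v ((a : Af M) v)) :
    spanSingleton (𝓞 M)⁰ x ≤ (fId a : FIM M) :=
  FractionalIdeal.spanSingleton_le_iff_mem.2 (mem_fId.2 h)

theorem valued_mul_le {a b : Af M} {v : HeightOneSpectrum (𝓞 M)}
    {r : WithZero (Multiplicative ℤ)} (ha : Valued.v (a v) ≤ r) (hb : Valued.v (b v) ≤ 1) :
    Valued.v ((a * b) v) ≤ r := by
  rw [RS.af_mul_apply, map_mul]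
  exact (mul_le_mul' ha hb).trans_eq (mul_one _)

/-- A scalar matrix of `GL₂(M)`. -/
abbrev scalarF (ξ : Mˣ) : GL (Fin 2) M := Matrix.GeneralLinearGroup.scalar (Fin 2) ξ

theorem toFin_scalarF (ξ : Mˣ) : toFin (scalarF ξ) = scalarGF (gIdele ξ) := by
  refine Units.ext ?_
  ext i j
  fin_cases i <;> fin_cases j <;> simp [toFin, scalarF, scalarGF, gIdele]

theorem actInf_scalarF (ξ : Mˣ) (x : Xinf M) : actInf (scalarF ξ) x = x := by
  funext w
  show act (Matrix.GeneralLinearGroup.map w.embedding (scalarF ξ)) (x w) = x w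
  rw [show Matrix.GeneralLinearGroup.map w.embedding (scalarF ξ) =
    Matrix.GeneralLinearGroup.scalar (Fin 2) (Units.map w.embedding.toMonoidHom ξ) from by
    refine Units.ext ?_
    ext i j
    fin_cases i <;> fin_cases j <;> simp [scalarF]]
  exact act_scalar _ _

/-- The weight of a diagonal change of variable. -/
theorem wProd_actInf_diag (η : Mˣ) (x : Xinf M) (ξ : M) :
    wProd (actInf (Red.upperF η 0) x) ξ =
      ((∏ w : InfinitePlace M, ‖w.embedding (η : M)‖ : ℝ) : ℂ) * wProd x ((η : M) * ξ) := by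
  rw [wProd, wProd, Complex.ofReal_prod, ← Finset.prod_mul_distrib]
  refine Finset.prod_congr rfl fun w _ => ?_
  have hne : w.embedding (η : M) ≠ 0 := (_root_.map_ne_zero _).2 η.ne_zero
  have e : Matrix.GeneralLinearGroup.map w.embedding (Red.upperF η 0) =
      affC (w.embedding (η : M)) 0 hne := by
    refine Units.ext ?_
    ext i j
    fin_cases i <;> fin_cases j <;> simp [Red.upperF, affC]
  show wTerm (act (Matrix.GeneralLinearGroup.map w.embedding (Red.upperF η 0)) (x w))
    (w.embedding ξ) = _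
  rw [e, wTerm_aff, zero_mul, map_mul]
  simp

variable [IsTotallyComplex M]

theorem sq_prod_norm (η : M) :
    (∏ w : InfinitePlace M, ‖w.embedding η‖) ^ 2 = |((Algebra.norm ℚ η : ℚ) : ℝ)| := by
  rw [← Rat.cast_abs, ← InfinitePlace.prod_eq_abs_norm, ← Finset.prod_pow]
  refine Finset.prod_congr rfl fun w _ => ?_
  rw [IsTotallyComplex.mult_eq, InfinitePlace.norm_embedding_eq]

theorem cN_spanSingleton_mul (η : M) (a : FIM M) :
    cN (spanSingleton (𝓞 M)⁰ η * a) = (∏ w : InfinitePlace M, ‖w.embedding η‖)⁻¹ * cN a := by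
  rw [cN, cN, map_mul, FractionalIdeal.absNorm_span_singleton, Rat.cast_mul, Rat.cast_abs,
    Real.sqrt_mul (abs_nonneg _), ← sq_prod_norm,
    Real.sqrt_sq (Finset.prod_nonneg fun _ _ => norm_nonneg _), mul_inv]

namespace Data

variable (D : Data M E) {W : (InfinitePlace M → ℝ) → ℝ} (hW : D.IsWeight W)
  {R : D.Cl → D.primeGroup} (hR : D.IsReps R)

include hW hR in
/-- The diagonal global matrices leave the normalised theta function invariant. -/
theorem thetaN_gIdele_mul (η : Mˣ) (b : (Af M)ˣ) (x : Xinf M) :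
    D.thetaN W R (fId (gIdele η * b)) (actInf (Red.upperF η 0) x) = D.thetaN W R (fId b) x := by
  set P : ℝ := ∏ w : InfinitePlace M, ‖w.embedding (η : M)‖
  have hP : 0 < P := Finset.prod_pos fun w _ => norm_pos_iff.2 ((_root_.map_ne_zero _).2 η.ne_zero)
  have h1 := (D.theta_expansion hW R hR (fId b) x).2
  have h2 := (D.theta_expansion hW R hR (fId (gIdele η * b)) (actInf (Red.upperF η 0) x)).2
  set e : {ξ : M // ξ ≠ 0} ≃ {ξ : M // ξ ≠ 0} :=
    (Equiv.mulLeft₀ (η : M) η.ne_zero).subtypeEquiv fun ξ => by simp [η.ne_zero]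
  have h3 := (e.hasSum_iff.2 h1).mul_left (P : ℂ)
  have h4 := h2.unique (h3.congr_fun fun ξ => ?_)
  · rw [Data.thetaN, Data.thetaN, h4, coe_fId_gIdele_mul, cN_spanSingleton_mul,
      Complex.ofReal_mul, Complex.ofReal_inv]
    have : (P : ℂ) ≠ 0 := Complex.ofReal_ne_zero.2 hP.ne'
    show ((P : ℂ))⁻¹ * _ * ((P : ℂ) * _) = _
    field_simp
  · simp only [Function.comp_apply, coe_fId_gIdele_mul, wProd_actInf_diag]
    show _ = (P : ℂ) * (D.coefFrac (spanSingleton (𝓞 M)⁰ ((η : M) * (ξ : M)) * _) *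
      wProd x ((η : M) * (ξ : M)))
    rw [mul_comm (η : M), ← FractionalIdeal.spanSingleton_mul_spanSingleton, mul_assoc]
    ring

omit [IsTotallyComplex M] in
/-- The transformation formula, as an input. -/
def Transforms (W : (InfinitePlace M → ℝ) → ℝ) (R : D.Cl → D.primeGroup) (N : ℕ) : Prop :=
  ∀ (a : (FIM M)ˣ) {z : Ideal (𝓞 M)} (zu : (FIM M)ˣ), (zu : FIM M) = z →
    ∀ {δ : GL (Fin 2) M}, (δ : Matrix (Fin 2) (Fin 2) M).det = 1 →
    ∀ {A : 𝓞 M}, δ 0 0 = (A : M) → A ∈ z → A - 1 ∈ D.nf →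
      spanSingleton (𝓞 M)⁰ (δ 0 1) ≤ spanSingleton (𝓞 M)⁰ (N : M) * z * a →
      spanSingleton (𝓞 M)⁰ (δ 1 0) * z * a ≤ spanSingleton (𝓞 M)⁰ (N : M) →
      spanSingleton (𝓞 M)⁰ (δ 1 1) * z ≤ 1 →
      ∀ x, D.thetaN W R (a * zu * zu) (actInf δ x) = D.thetaN W R a x

variable {N : ℕ} (hlev : D.IsLev N)

omit [IsTotallyComplex M] in
include hlev in
theorem mem_nf_of_valuation_le {A : 𝓞 M} (h : ∀ v : HeightOneSpectrum (𝓞 M),
    v.valuation M (A : M) ≤ Valued.v ((N : Af M) v)) : A ∈ D.nf := by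
  obtain ⟨r, hr⟩ := HeightOneSpectrum.mem_integers_of_valuation_le_one M ((A : M) / (N : M))
    fun v => by
      rw [map_div₀, div_le_one₀ (zero_lt_iff.2 ((map_ne_zero _).2
        (Nat.cast_ne_zero.2 hlev.1.ne')))]
      refine (h v).trans_eq ?_
      rw [← Red.valued_algebraMap, map_natCast]
  have e : A = r * (N : 𝓞 M) := RingOfIntegers.coe_injective (by
    rw [map_mul, map_natCast, hr, div_mul_cancel₀ _ (Nat.cast_ne_zero.2 hlev.1.ne')])
  rw [e]
  exact D.nf.mul_mem_left _ hlev.2.1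

include hW hR hlev in
set_option maxHeartbeats 1600000 in
/-- The formula for a matrix carrying one diagonal matrix to another up to the level. -/
theorem thetaN_of_toFin_eq (hT : D.Transforms W R N) {b c z : (Af M)ˣ} {k : GF M}
    (hk : InLevel N k) {δ : GL (Fin 2) M}
    (hz1 : ∀ v : HeightOneSpectrum (𝓞 M), Valued.v ((z : Af M) v) ≤ 1)
    (hzN : ∀ v : HeightOneSpectrum (𝓞 M),
      Valued.v ((((z : Af M) - 1 : Af M)) v) ≤ Valued.v ((N : Af M) v))
    (h : toFin δ * diagGF b * scalarGF z = diagGF c * k) (y : Xinf M) :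
    D.thetaN W R (fId c) (actInf δ y) = D.thetaN W R (fId b) y := by
  classical
  set n : Af M := (N : Af M)
  set η : Mˣ := Matrix.GeneralLinearGroup.det δ
  set Kd : Af M := (k : Matrix (Fin 2) (Fin 2) (Af M)).det
  have hent : ∀ i j : Fin 2, ((toFin δ * diagGF b * scalarGF z : GF M) :
      Matrix (Fin 2) (Fin 2) (Af M)) i j = ((diagGF c * k : GF M) : Matrix _ _ (Af M)) i j :=
    fun i j => by rw [h]
  have e00 := hent 0 0
  have e01 := hent 0 1
  have e10 := hent 1 0
  have e11 := hent 1 1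
  simp [toFin, upperGF, scalarGF, Matrix.mul_apply, Fin.sum_univ_two] at e00 e01 e10 e11
  -- determinants
  have edet : algebraMap M (Af M) (η : M) * ((b : Af M) * ((z : Af M) * (z : Af M))) =
      (c : Af M) * Kd := by
    have h' := congrArg (fun g : GF M => (g : Matrix (Fin 2) (Fin 2) (Af M)).det) h
    simp only [Units.val_mul, Matrix.det_mul] at h'
    rw [show (c : Af M) * Kd = ((diagGF c : GF M) : Matrix (Fin 2) (Fin 2) (Af M)).det * Kd by
      simp [upperGF, Matrix.det_fin_two], ← h']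
    rw [show ((toFin δ : GF M) : Matrix (Fin 2) (Fin 2) (Af M)).det = algebraMap M (Af M) (η : M)
      from ((algebraMap M (Af M)).map_det (δ : Matrix (Fin 2) (Fin 2) M)).symm]
    simp [upperGF, scalarGF, Matrix.det_fin_two, mul_assoc]
    ring
  set δ' : GL (Fin 2) M := δ * Red.upperF η⁻¹ 0
  have hδ : δ = δ' * Red.upperF η 0 := by
    rw [mul_assoc, Red.upperF_mul, inv_mul_cancel, mul_zero, add_zero]
    rw [show Red.upperF (1 : Mˣ) (0 : M) = 1 from Units.ext (by
      ext i j
      fin_cases i <;> fin_cases j <;> simp [Red.upperF]), mul_one]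
  have hδ' : δ' 0 0 = δ 0 0 * (η : M)⁻¹ ∧ δ' 0 1 = δ 0 1 ∧ δ' 1 0 = δ 1 0 * (η : M)⁻¹ ∧
      δ' 1 1 = δ 1 1 := by
    refine ⟨?_, ?_, ?_, ?_⟩ <;>
      simp [δ', Red.upperF, Matrix.mul_apply, Fin.sum_univ_two]
  have hdet : (δ' : Matrix (Fin 2) (Fin 2) M).det = 1 := by
    rw [← Matrix.GeneralLinearGroup.val_det_apply, map_mul,
      show Matrix.GeneralLinearGroup.det (Red.upperF η⁻¹ (0 : M)) = η⁻¹ from Units.ext (by
        simp [Red.upperF, Matrix.det_fin_two]), mul_inv_cancel, Units.val_one]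
  -- the level
  have hkv := fun v i j => (hk v i j).1
  have hn1 := fun v => Red.valued_natCast_le_one (F := M) N v
  have hk1 := Red.intg_entry (Red.inLevel_one_of_inLevel hk)
  have hK1 : ∀ v, Valued.v (Kd v) = 1 := by
    intro v
    have hi : Red.Intg (Matrix.det ((k⁻¹ : GF M) : Matrix (Fin 2) (Fin 2) (Af M))) :=
      Red.intg_det_fin_two (Red.intg_entry (Red.InLevel.inv (Red.inLevel_one_of_inLevel hk)))
    refine le_antisymm (Red.intg_det_fin_two hk1 v) ?_
    have hm : Valued.v (Kd v) *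
        Valued.v (Matrix.det ((k⁻¹ : GF M) : Matrix (Fin 2) (Fin 2) (Af M)) v) = 1 := by
      rw [← map_mul, ← RS.af_mul_apply, ← Matrix.det_mul, ← Units.val_mul, mul_inv_cancel,
        Units.val_one, Matrix.det_one]
      exact map_one _
    exact hm ▸ mul_le_of_le_one_right' (hi v)
  have hKN : ∀ v, Valued.v ((Kd - 1 : Af M) v) ≤ Valued.v (n v) := by
    intro v
    have e : Kd - 1 = ((k : Matrix (Fin 2) (Fin 2) (Af M)) - 1) 0 0 * (k : Matrix (Fin 2) (Fin 2) (Af M)) 1 1 +
        (((k : Matrix (Fin 2) (Fin 2) (Af M)) - 1) 1 1 -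
          ((k : Matrix (Fin 2) (Fin 2) (Af M)) - 1) 0 1 * (k : Matrix (Fin 2) (Fin 2) (Af M)) 1 0) := by
      simp [Kd, Matrix.det_fin_two]
      ring
    rw [e]
    exact Valued.v.map_add_le (valued_mul_le (hkv v 0 0) (hk1 1 1 v))
      ((Valued.v.map_sub _ _).trans (max_le (hkv v 1 1) (valued_mul_le (hkv v 0 1) (hk1 1 0 v))))
  have hoff : ∀ v, Valued.v ((k : Matrix (Fin 2) (Fin 2) (Af M)) 0 1 v) ≤ Valued.v (n v) ∧
      Valued.v ((k : Matrix (Fin 2) (Fin 2) (Af M)) 1 0 v) ≤ Valued.v (n v) := fun v =>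
    ⟨by simpa using hkv v 0 1, by simpa using hkv v 1 0⟩
  -- valuations of the entries
  have hB : ∀ v, Valued.v ((b : Af M) v) ≠ 0 := fun v =>
    (map_ne_zero _).2 (Red.unit_apply_ne_zero b v)
  have hZ : ∀ v, Valued.v ((z : Af M) v) ≠ 0 := fun v =>
    (map_ne_zero _).2 (Red.unit_apply_ne_zero z v)
  have hH : ∀ v : HeightOneSpectrum (𝓞 M), v.valuation M (η : M) ≠ 0 := fun v =>
    (map_ne_zero _).2 η.ne_zero
  have hC : ∀ v : HeightOneSpectrum (𝓞 M), Valued.v ((c : Af M) v) =
      v.valuation M (η : M) * (Valued.v ((b : Af M) v) *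
        (Valued.v ((z : Af M) v) * Valued.v ((z : Af M) v))) := fun v => by
    have h' := congrArg (fun a : Af M => Valued.v (a v)) edet
    simp only [RS.af_mul_apply, map_mul, Red.valued_algebraMap, hK1, mul_one] at h'
    exact h'.symm
  have v00 : ∀ v, v.valuation M (δ 0 0) * (Valued.v ((b : Af M) v) * Valued.v ((z : Af M) v)) =
      Valued.v ((c : Af M) v) * Valued.v ((k : Matrix (Fin 2) (Fin 2) (Af M)) 0 0 v) := fun v => by
    have h' := congrArg (fun a : Af M => Valued.v (a v)) e00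
    simpa only [RS.af_mul_apply, map_mul, Red.valued_algebraMap, mul_assoc] using h'
  have v01 : ∀ v, v.valuation M (δ 0 1) * Valued.v ((z : Af M) v) =
      Valued.v ((c : Af M) v) * Valued.v ((k : Matrix (Fin 2) (Fin 2) (Af M)) 0 1 v) := fun v => by
    have h' := congrArg (fun a : Af M => Valued.v (a v)) e01
    simpa only [RS.af_mul_apply, map_mul, Red.valued_algebraMap, mul_assoc] using h'
  have v10 : ∀ v, v.valuation M (δ 1 0) * (Valued.v ((b : Af M) v) * Valued.v ((z : Af M) v)) =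
      Valued.v ((k : Matrix (Fin 2) (Fin 2) (Af M)) 1 0 v) := fun v => by
    have h' := congrArg (fun a : Af M => Valued.v (a v)) e10
    simpa only [RS.af_mul_apply, map_mul, Red.valued_algebraMap, mul_assoc] using h'
  have v11 : ∀ v, v.valuation M (δ 1 1) * Valued.v ((z : Af M) v) =
      Valued.v ((k : Matrix (Fin 2) (Fin 2) (Af M)) 1 1 v) := fun v => by
    have h' := congrArg (fun a : Af M => Valued.v (a v)) e11
    simpa only [RS.af_mul_apply, map_mul, Red.valued_algebraMap, mul_assoc] using h'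
  -- the entry congruent to one
  have ek : algebraMap M (Af M) (δ 0 0 * (η : M)⁻¹) * Kd =
      (z : Af M) * (k : Matrix (Fin 2) (Fin 2) (Af M)) 0 0 := by
    have hu : IsUnit (algebraMap M (Af M) (η : M) * (b : Af M) * (z : Af M)) :=
      ((η.isUnit.map _).mul b.isUnit).mul z.isUnit
    refine hu.mul_left_injective ?_
    show _ * _ = _ * _
    calc _ = algebraMap M (Af M) (δ 0 0) * ((b : Af M) * (z : Af M)) * Kd *
          algebraMap M (Af M) ((η : M)⁻¹ * η) := by rw [map_mul, map_mul]; ring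
      _ = (c : Af M) * (k : Matrix (Fin 2) (Fin 2) (Af M)) 0 0 * Kd := by
          rw [inv_mul_cancel₀ η.ne_zero, map_one, mul_one, ← e00]; ring
      _ = (k : Matrix (Fin 2) (Fin 2) (Af M)) 0 0 *
          (algebraMap M (Af M) (η : M) * ((b : Af M) * ((z : Af M) * (z : Af M)))) := by
          rw [edet]; ring
      _ = _ := by ring
  have hA0 : ∀ v, v.valuation M (δ 0 0 * (η : M)⁻¹) ≤ Valued.v ((z : Af M) v) := fun v => by
    have h' := congrArg (fun a : Af M => Valued.v (a v)) ek
    simp only [RS.af_mul_apply, map_mul (Valued.v), hK1, mul_one, Red.valued_algebraMap] at h'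
    rw [h']
    exact (mul_le_mul' le_rfl (hk1 0 0 v)).trans_eq (mul_one _)
  obtain ⟨A, hA⟩ := HeightOneSpectrum.mem_integers_of_valuation_le_one M (δ 0 0 * (η : M)⁻¹)
    fun v => (hA0 v).trans (hz1 v)
  have hAN : A - 1 ∈ D.nf := by
    refine mem_nf_of_valuation_le D hlev fun v => ?_
    have e : algebraMap M (Af M) ((A - 1 : 𝓞 M) : M) * Kd =
        (z : Af M) * (((k : Matrix (Fin 2) (Fin 2) (Af M)) - 1) 0 0) + (((z : Af M) - 1) - (Kd - 1)) := by
      show algebraMap M (Af M) (algebraMap (𝓞 M) M (A - 1)) * Kd = _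
      rw [map_sub, map_one, map_sub, map_one, sub_mul, one_mul]
      rw [hA, ek, Matrix.sub_apply, Matrix.one_apply_eq]
      ring
    have h' := congrArg (fun a : Af M => Valued.v (a v)) e
    simp only [RS.af_mul_apply, map_mul, hK1, mul_one, Red.valued_algebraMap] at h'
    rw [h']
    refine Valued.v.map_add_le ?_ ((Valued.v.map_sub _ _).trans (max_le (hzN v) (hKN v)))
    rw [mul_comm]
    exact valued_mul_le (hkv v 0 0) (hz1 v)
  -- the ideal of `z`
  obtain ⟨J, hJ⟩ : ∃ J : Ideal (𝓞 M), (J : FIM M) = (fId z : FIM M) :=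
    FractionalIdeal.le_one_iff_exists_coeIdeal.1 fun x hx => by
      refine (FractionalIdeal.mem_one_iff _).2 ?_
      exact HeightOneSpectrum.mem_integers_of_valuation_le_one M x
        fun v => (mem_fId.1 hx v).trans (hz1 v)
  have hNn : ∀ v, Valued.v (n v) = v.valuation M (N : M) := fun v => by
    rw [← Red.valued_algebraMap, map_natCast]
  set Nu : Mˣ := Units.mk0 (N : M) (Nat.cast_ne_zero.2 hlev.1.ne')
  set a := gIdele η * b
  have hNu : spanSingleton (𝓞 M)⁰ (N : M) = (fId (gIdele Nu) : FIM M) := (fId_algebraMap Nu).symm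
  have hcA : fId c = fId a * fId z * fId z := by
    rw [← map_mul, ← map_mul]
    refine fId_congr fun v => ?_
    rw [hC, Units.val_mul, Units.val_mul, Units.val_mul]
    simp only [RS.af_mul_apply, map_mul, valued_gIdele]
    rw [mul_assoc, mul_assoc]
  have key := hT (fId a) (fId z) hJ.symm hdet (A := A) (hδ'.1.trans hA.symm) ?_ hAN ?_ ?_ ?_
    (actInf (Red.upperF η 0) y)
  · rw [hδ, actInf_mul, hcA, key, D.thetaN_gIdele_mul hW hR]
  · have hm : ((A : 𝓞 M) : M) ∈ (J : FIM M) := by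
      rw [hJ, mem_fId]
      intro v
      show v.valuation M (algebraMap (𝓞 M) M A) ≤ _
      rw [hA]
      exact hA0 v
    obtain ⟨A', hA', hAA⟩ := (FractionalIdeal.mem_coeIdeal _).1 hm
    rwa [← RingOfIntegers.coe_injective hAA]
  · rw [hδ'.2.1, hJ, hNu, ← Units.val_mul, ← map_mul, ← Units.val_mul, ← map_mul]
    refine spanSingleton_le_fId fun v => ?_
    simp only [Units.val_mul, RS.af_mul_apply, map_mul, valued_gIdele, a]
    refine le_of_mul_le_mul_right ?_ (zero_lt_iff.2 (hZ v))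
    rw [v01, hC]
    show _ ≤ v.valuation M (N : M) * _ * _ * _
    rw [← hNn]
    calc _ ≤ v.valuation M (η : M) * (Valued.v ((b : Af M) v) *
          (Valued.v ((z : Af M) v) * Valued.v ((z : Af M) v))) * Valued.v (n v) :=
        mul_le_mul' le_rfl (hoff v).1
      _ = _ := by ac_rfl
  · rw [hδ'.2.2.1, hJ, hNu, mul_assoc, ← Units.val_mul, ← map_mul]
    have hle : spanSingleton (𝓞 M)⁰ (δ 1 0 * (η : M)⁻¹) ≤
        (fId (gIdele Nu * (z * a)⁻¹) : FIM M) := spanSingleton_le_fId fun v => by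
      simp only [Units.val_mul, RS.af_mul_apply, map_mul, valued_gIdele, Red.valued_inv, a,
        map_inv₀, mul_inv]
      refine le_of_mul_le_mul_right ?_ (zero_lt_iff.2 (mul_ne_zero (hB v) (hZ v)))
      rw [mul_right_comm, v10]
      show _ ≤ v.valuation M (N : M) * _ * _
      rw [← hNn]
      calc _ ≤ Valued.v (n v) * (v.valuation M (η : M))⁻¹ :=
            mul_le_mul' (hoff v).2 le_rfl
        _ = _ := by field_simp [hB v, hZ v]
    refine (mul_le_mul' hle le_rfl).trans_eq ?_
    rw [← Units.val_mul, ← map_mul, inv_mul_cancel_right]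
  · rw [hδ'.2.2.2, hJ]
    have hle : spanSingleton (𝓞 M)⁰ (δ 1 1) ≤ (fId z⁻¹ : FIM M) :=
      spanSingleton_le_fId fun v => by
        rw [Red.valued_inv]
        refine le_of_mul_le_mul_right ?_ (zero_lt_iff.2 (hZ v))
        rw [v11, inv_mul_cancel₀ (hZ v)]
        exact hk1 1 1 v
    refine (mul_le_mul' hle le_rfl).trans_eq ?_
    rw [← Units.val_mul, ← map_mul, inv_mul_cancel, map_one, Units.val_one]

end Data

end FLTAgent.LT.ThetaM
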