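import Fermat.Agent.LT.ThetaM.Theta

/-!
# Theta series averaged over the torus

`termW W x v` is the average of a term against a continuous compactly supported weight, `ser` the
series over a coset with bounded coefficients: continuity, the bound on `t ≥ c` without the zero
vector, and the mean over a box of translations.
-/

set_option autoImplicit false
set_option linter.style.haveILetI false
set_option linter.unusedSectionVars false

noncomputable section

namespace FLTAgent.LT.ThetaM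

open NumberField IsDedekindDomain MeasureTheory Complex Module Filter
open scoped Real nonZeroDivisors Topology

variable {M E : Type} [Field M] [NumberField M] [Field E] [NumberField E] [Algebra M E]

instance countable_latt (L : (FractionalIdeal (𝓞 E)⁰ E)ˣ) : Countable (Latt L) :=
  (lattEquivInt L).symm.injective.countable

/-- A weight on the torus. -/
structure IsTorusWeight (W : (InfinitePlace M → ℝ) → ℝ) : Prop where
  cont : Continuous W
  supp : HasCompactSupport W
  nonneg : ∀ s, 0 ≤ W s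

theorem IsTorusWeight.integrable {W : (InfinitePlace M → ℝ) → ℝ} (hW : IsTorusWeight W) :
    Integrable W := hW.cont.integrable_of_hasCompactSupport hW.supp

theorem IsTorusWeight.exists_radius {W : (InfinitePlace M → ℝ) → ℝ} (hW : IsTorusWeight W) :
    ∃ R : ℝ, ∀ s, W s ≠ 0 → ∀ w, |s w| ≤ R := by
  obtain ⟨R, hR⟩ := hW.supp.isCompact.isBounded.subset_closedBall 0
  refine ⟨R, fun s hs w => ?_⟩
  have h := hR (subset_tsupport W hs)
  rw [mem_closedBall_zero_iff] at h
  exact ((Real.norm_eq_abs _).symm.le.trans (norm_le_pi_norm s w)).trans h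

variable (Q : Quad M E) (W : (InfinitePlace M → ℝ) → ℝ) (ξ₀ : M)

/-- A term averaged over the torus. -/
def termW (x : Xinf M) (v : E) : ℂ := ∫ s, (W s : ℂ) * term Q ξ₀ x s v

variable (L : (FractionalIdeal (𝓞 E)⁰ E)ˣ) (β : E)

/-- A series over a coset. -/
def ser (coef : Latt L → ℂ) (x : Xinf M) : ℂ := ∑' v : Latt L, coef v * termW Q W ξ₀ x (β + v)

theorem continuous_term_s (x : Xinf M) (v : E) : Continuous fun s => term Q ξ₀ x s v := by
  unfold term kerS
  exact continuous_finsetProd _ fun w _ => (continuous_sTerm_right (x w)).comp (by fun_prop)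

theorem continuous_term_x (s : InfinitePlace M → ℝ) (v : E) :
    Continuous fun x => term Q ξ₀ x s v := by
  unfold term kerS
  refine continuous_finsetProd _ fun w _ => ?_
  exact continuous_sTerm.comp (f := fun x : Xinf M => (x w, _)) (by fun_prop)

variable {W} (hW : IsTorusWeight W)
include hW

theorem integrable_termW_integrand (x : Xinf M) (v : E) :
    Integrable fun s => (W s : ℂ) * term Q ξ₀ x s v := by
  refine Continuous.integrable_of_hasCompactSupport
    ((Complex.continuous_ofReal.comp hW.cont).mul (continuous_term_s Q ξ₀ x v)) ?_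
  exact (hW.supp.comp_left Complex.ofReal_zero).mul_right

/-- The uniform bound. -/
theorem exists_termW_bound {c : ℝ} (hc : 0 < c) :
    ∃ C e : ℝ, 0 < e ∧ 0 ≤ C ∧ ∀ x : Xinf M, (∀ w, c ≤ (x w).2) → ∀ v : E,
      ‖termW Q W ξ₀ x v‖ ≤
        (∏ w, ((x w).2 : ℝ)) * (C * Real.exp (-(e * nY (embY Q ξ₀ v)))) := by
  obtain ⟨R, hR⟩ := hW.exists_radius
  refine ⟨∫ s, W s, 2 * π * c * Real.exp (-(2 * R)),
    mul_pos (mul_pos Real.two_pi_pos hc) (Real.exp_pos _), integral_nonneg hW.nonneg,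
    fun x hx v => ?_⟩
  set B := (∏ w, ((x w).2 : ℝ)) *
    Real.exp (-(2 * π * c * Real.exp (-(2 * R)) * nY (embY Q ξ₀ v)))
  calc ‖termW Q W ξ₀ x v‖ ≤ ∫ s, B * W s := by
        refine norm_integral_le_of_norm_le (hW.integrable.const_mul B)
          (Eventually.of_forall fun s => ?_)
        rw [norm_mul, Complex.norm_real, Real.norm_eq_abs, abs_of_nonneg (hW.nonneg s),
          mul_comm B]
        rcases eq_or_ne (W s) 0 with h | h
        · rw [h, zero_mul, zero_mul]
        · exact mul_le_mul_of_nonneg_left (norm_kerS_le hc.le hx (hR s h) _) (hW.nonneg s)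
    _ = _ := by rw [integral_const_mul]; simp only [B]; ring

variable [IsTotallyComplex M]

theorem summable_norm_termW (hξ : ξ₀ ≠ 0) (x : Xinf M) :
    Summable fun v : Latt L => ‖termW Q W ξ₀ x (β + v)‖ := by
  obtain ⟨w₀, -, hw₀⟩ := Finset.exists_min_image Finset.univ (fun w => ((x w).2 : ℝ))
    Finset.univ_nonempty
  obtain ⟨C, e, he, -, hb⟩ := exists_termW_bound Q ξ₀ hW (x w₀).2.2
  exact Summable.of_nonneg_of_le (fun _ => norm_nonneg _)
    (fun v => hb x (fun w => hw₀ w (Finset.mem_univ w)) _)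
    (((summable_gaussY Q ξ₀ L hξ β he).mul_left C).mul_left _)

theorem summable_ser (hξ : ξ₀ ≠ 0) {coef : Latt L → ℂ} {B : ℝ} (hB : ∀ v, ‖coef v‖ ≤ B)
    (x : Xinf M) : Summable fun v : Latt L => coef v * termW Q W ξ₀ x (β + v) :=
  Summable.of_norm_bounded ((summable_norm_termW Q ξ₀ L β hW hξ x).mul_left B) fun v => by
    rw [norm_mul]; exact mul_le_mul_of_nonneg_right (hB v) (norm_nonneg _)

/-- A series as an integral over the torus. -/
theorem ser_eq_integral (hξ : ξ₀ ≠ 0) {coef : Latt L → ℂ} {B : ℝ} (hB : ∀ v, ‖coef v‖ ≤ B)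
    (x : Xinf M) : ser Q W ξ₀ L β coef x =
      ∫ s, (W s : ℂ) * ∑' v : Latt L, coef v * term Q ξ₀ x s (β + v) := by
  obtain ⟨R, hR⟩ := hW.exists_radius
  obtain ⟨w₀, -, hw₀⟩ := Finset.exists_min_image Finset.univ (fun w => ((x w).2 : ℝ))
    Finset.univ_nonempty
  have hc : (0 : ℝ) < (x w₀).2 := (x w₀).2.2
  set g := fun v : Latt L => (∏ w, ((x w).2 : ℝ)) *
    Real.exp (-(2 * π * (x w₀).2 * Real.exp (-(2 * R)) * nY (embY Q ξ₀ (β + v))))
  have hg : Summable g := (summable_gaussY Q ξ₀ L hξ β (mul_pos (mul_pos Real.two_pi_pos hc) (Real.exp_pos _))).mul_left _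
  have hint : ∀ v : Latt L, Integrable fun s => coef v * ((W s : ℂ) * term Q ξ₀ x s (β + v)) :=
    fun v => (integrable_termW_integrand Q ξ₀ hW x _).const_mul _
  have hbd : ∀ (v : Latt L) s,
      ‖coef v * ((W s : ℂ) * term Q ξ₀ x s (β + v))‖ ≤ (|B| * g v) * W s := fun v s => by
    rw [norm_mul, norm_mul, Complex.norm_real, Real.norm_eq_abs, abs_of_nonneg (hW.nonneg s),
      mul_assoc]
    refine mul_le_mul ((hB v).trans (le_abs_self B)) ?_ (mul_nonneg (hW.nonneg s) (norm_nonneg _)) (abs_nonneg B)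
    rw [mul_comm (g v)]
    rcases eq_or_ne (W s) 0 with h | h
    · rw [h, zero_mul, zero_mul]
    · exact mul_le_mul_of_nonneg_left
        (norm_kerS_le hc.le (fun w => hw₀ w (Finset.mem_univ w)) (hR s h) _) (hW.nonneg s)
  have hsum : Summable fun v : Latt L =>
      ∫ s, ‖coef v * ((W s : ℂ) * term Q ξ₀ x s (β + v))‖ := by
    refine Summable.of_nonneg_of_le (fun _ => integral_nonneg fun _ => norm_nonneg _) (fun v => ?_)
      ((hg.mul_left |B|).mul_right (∫ s, W s))
    rw [← integral_const_mul]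
    exact integral_mono (hint v).norm (hW.integrable.const_mul _) (hbd v)
  rw [ser, show (fun s => (W s : ℂ) * ∑' v : Latt L, coef v * term Q ξ₀ x s (β + v)) =
      fun s => ∑' v : Latt L, coef v * ((W s : ℂ) * term Q ξ₀ x s (β + v)) by
    funext s; rw [← tsum_mul_left]; exact tsum_congr fun v => by ring,
    ← integral_tsum_of_summable_integral_norm hint hsum]
  exact tsum_congr fun v => (integral_const_mul (coef v) _).symm

theorem continuous_termW (v : E) : Continuous fun x => termW Q W ξ₀ x v := by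
  refine continuous_iff_continuousAt.2 fun x₀ => ?_
  obtain ⟨R, hR⟩ := hW.exists_radius
  set T := ∏ w, (((x₀ w).2 : ℝ) + 1)
  refine continuousAt_of_dominated (bound := fun s => T * W s)
    (Eventually.of_forall fun x => (integrable_termW_integrand Q ξ₀ hW x v).aestronglyMeasurable)
    ?_ (hW.integrable.const_mul T)
    (Eventually.of_forall fun s => (continuous_const.mul (continuous_term_x Q ξ₀ s v)).continuousAt)
  have hnh : ∀ᶠ x in 𝓝 x₀, ∀ w, ((x w).2 : ℝ) ≤ (x₀ w).2 + 1 := by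
    refine eventually_all.2 fun w => ?_
    exact (((continuous_subtype_val.comp continuous_snd).comp (continuous_apply w)).continuousAt
      (x := x₀)).eventually (eventually_le_nhds (lt_add_one _))
  filter_upwards [hnh] with x hx
  refine Eventually.of_forall fun s => ?_
  rw [norm_mul, Complex.norm_real, Real.norm_eq_abs, abs_of_nonneg (hW.nonneg s), mul_comm T]
  refine mul_le_mul_of_nonneg_left ?_ (hW.nonneg s)
  refine (norm_kerS_le (c := 0) (R := ‖s‖) le_rfl (fun w => (x w).2.2.le)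
    (fun w => (Real.norm_eq_abs _).symm.le.trans (norm_le_pi_norm s w)) _).trans ?_
  simp only [mul_zero, zero_mul, neg_zero, Real.exp_zero, mul_one]
  exact Finset.prod_le_prod (fun w _ => (x w).2.2.le) fun w _ => hx w

theorem continuous_ser (hξ : ξ₀ ≠ 0) {coef : Latt L → ℂ} {B : ℝ} (hB : ∀ v, ‖coef v‖ ≤ B) :
    Continuous (ser Q W ξ₀ L β coef) := by
  refine continuous_iff_continuousAt.2 fun x₀ => ?_
  obtain ⟨w₀, -, hw₀⟩ := Finset.exists_min_image Finset.univ (fun w => ((x₀ w).2 : ℝ))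
    Finset.univ_nonempty
  set c := ((x₀ w₀).2 : ℝ) / 2
  have hc : 0 < c := half_pos (x₀ w₀).2.2
  set U := {x : Xinf M | ∀ w, c < ((x w).2 : ℝ) ∧ ((x w).2 : ℝ) < (x₀ w).2 + 1}
  have hU : IsOpen U := by
    rw [show U = ⋂ w, (fun x : Xinf M => ((x w).2 : ℝ)) ⁻¹' Set.Ioo c ((x₀ w).2 + 1) by
      ext x; simp [U]]
    exact isOpen_iInter_of_finite fun w => isOpen_Ioo.preimage
      ((continuous_subtype_val.comp continuous_snd).comp (continuous_apply w))
  have hx₀ : x₀ ∈ U := fun w =>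
    ⟨lt_of_lt_of_le (half_lt_self (x₀ w₀).2.2) (hw₀ w (Finset.mem_univ w)), lt_add_one _⟩
  obtain ⟨C, e, he, hC, hb⟩ := exists_termW_bound Q ξ₀ hW hc
  refine (continuousOn_tsum (fun v => (continuous_const.mul
    (continuous_termW Q ξ₀ hW _)).continuousOn)
    (((summable_gaussY Q ξ₀ L hξ β he).mul_left C).mul_left
      (|B| * ∏ w, (((x₀ w).2 : ℝ) + 1))) fun v x hx => ?_).continuousAt (hU.mem_nhds hx₀)
  rw [Pi.mul_apply, norm_mul, mul_assoc]
  refine mul_le_mul ((hB v).trans (le_abs_self B)) ((hb x (fun w => (hx w).1.le) _).trans ?_)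
    (norm_nonneg _) (abs_nonneg B)
  refine mul_le_mul_of_nonneg_right ?_ (mul_nonneg hC (Real.exp_pos _).le)
  exact Finset.prod_le_prod (fun w _ => (x w).2.2.le) fun w _ => (hx w).2.le

omit hW in
include Q in
/-- A common denominator of the values of the quadratic form on a coset. -/
theorem exists_qF_den : ∃ D : ℕ, 0 < D ∧ ∀ v : Latt L,
    IsIntegral ℤ ((D : M) * qF ξ₀ (β + (v : E))) := by
  haveI := Q.finiteDimensional
  obtain ⟨d₁, hd₁, h₁⟩ : ∃ d : ℕ, 0 < d ∧ ∀ v : Latt L, IsIntegral ℤ ((d : E) * (β + (v : E))) := by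
    classical
    obtain ⟨a, ha, hint⟩ := (L : FractionalIdeal (𝓞 E)⁰ E).isFractional
    obtain ⟨y, z, hz, hyz⟩ := IsFractionRing.div_surjective (A := 𝓞 E) β
    refine ⟨Ideal.absNorm (Ideal.span {a * z}), Nat.pos_of_ne_zero fun h => ?_, fun v => ?_⟩
    · rw [Ideal.absNorm_eq_zero_iff, Ideal.span_singleton_eq_bot] at h
      exact mul_ne_zero (nonZeroDivisors.ne_zero ha) (nonZeroDivisors.ne_zero hz) h
    · obtain ⟨k, hk⟩ := Ideal.mem_span_singleton'.1 (Ideal.absNorm_mem (Ideal.span {a * z}))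
      obtain ⟨l, hl⟩ := hint _ v.2
      rw [Algebra.smul_def] at hl
      have hz' : (z : E) ≠ 0 := RingOfIntegers.coe_ne_zero_iff.2 (nonZeroDivisors.ne_zero hz)
      have e : ((Ideal.absNorm (Ideal.span {a * z}) : ℕ) : E) * (β + (v : E)) =
          ((k * (a * y + z * l) : 𝓞 E) : E) := by
        rw [show ((Ideal.absNorm (Ideal.span {a * z}) : ℕ) : E) = ((k * (a * z) : 𝓞 E) : E) by
          rw [hk]; exact (map_natCast _ _).symm, ← hyz]
        simp only [map_mul, map_add]
        rw [hl]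
        field_simp
      rw [e]
      exact RingOfIntegers.isIntegral_coe _
  obtain ⟨d₂, hd₂, h₂⟩ : ∃ d : ℕ, 0 < d ∧ IsIntegral ℤ ((d : M) * ξ₀) := by
    obtain ⟨y, z, hz, hyz⟩ := IsFractionRing.div_surjective (A := 𝓞 M) ξ₀
    refine ⟨Ideal.absNorm (Ideal.span {z}), Nat.pos_of_ne_zero fun h => ?_, ?_⟩
    · rw [Ideal.absNorm_eq_zero_iff, Ideal.span_singleton_eq_bot] at h
      exact nonZeroDivisors.ne_zero hz h
    · obtain ⟨k, hk⟩ := Ideal.mem_span_singleton'.1 (Ideal.absNorm_mem (Ideal.span {z}))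
      have hz' : (z : M) ≠ 0 := RingOfIntegers.coe_ne_zero_iff.2 (nonZeroDivisors.ne_zero hz)
      rw [show ((Ideal.absNorm (Ideal.span {z}) : ℕ) : M) * ξ₀ = ((k * y : 𝓞 M) : M) by
        rw [show ((Ideal.absNorm (Ideal.span {z}) : ℕ) : M) = ((k * z : 𝓞 M) : M) by
          rw [hk]; exact (map_natCast _ _).symm, ← hyz]
        simp only [map_mul]
        field_simp]
      exact RingOfIntegers.isIntegral_coe _
  refine ⟨d₂ * d₁ ^ 2, Nat.mul_pos hd₂ (pow_pos hd₁ 2), fun v => ?_⟩
  rw [show ((d₂ * d₁ ^ 2 : ℕ) : M) * qF ξ₀ (β + (v : E)) =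
      (d₂ : M) * ξ₀ * nM (M := M) (algebraMap M E (d₁ : M) * (β + (v : E))) by
    rw [nM_smul Q, qF]; simp only [Nat.cast_mul, Nat.cast_pow]; ring]
  refine h₂.mul (Algebra.isIntegral_norm M ?_)
  rw [map_natCast]
  exact h₁ v

omit hW in
include Q in
/-- Nonzero vectors of a coset have norms bounded below. -/
theorem exists_qF_lower (hξ : ξ₀ ≠ 0) :
    ∃ δ : ℝ, 0 < δ ∧ ∀ v : Latt L, β + (v : E) ≠ 0 →
      δ ≤ ∏ w : InfinitePlace M, ‖w.embedding (qF ξ₀ (β + (v : E)))‖ := by
  haveI := Q.finiteDimensional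
  obtain ⟨D, hD0, hDint⟩ := exists_qF_den Q ξ₀ L β
  have hD : (1 : ℝ) ≤ ((D : ℕ) : ℝ) ^ finrank ℚ M :=
    one_le_pow₀ (by exact_mod_cast Nat.succ_le_of_lt hD0)
  refine ⟨((((D : ℕ) : ℝ)) ^ finrank ℚ M)⁻¹, inv_pos.2 (lt_of_lt_of_le one_pos hD), fun v hv => ?_⟩
  set u := β + (v : E)
  have hint : IsIntegral ℤ ((D : M) * qF ξ₀ u) := hDint v
  have hne : (D : M) * qF ξ₀ u ≠ 0 := mul_ne_zero
    (Nat.cast_ne_zero.2 hD0.ne')
    (mul_ne_zero hξ fun h => hv ((nM_eq_zero Q).1 h))
  obtain ⟨m, hm⟩ := IsIntegrallyClosed.isIntegral_iff.1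
    (Algebra.isIntegral_norm ℚ (R := ℤ) hint)
  have h1 : (1 : ℝ) ≤ |((Algebra.norm ℚ ((D : M) * qF ξ₀ u) : ℚ) : ℝ)| := by
    rw [← hm]
    have hm0 : m ≠ 0 := fun h => by
      rw [h, map_zero] at hm
      exact hne (Algebra.norm_eq_zero_iff.1 hm.symm)
    rw [algebraMap_int_eq, eq_intCast, Rat.cast_intCast]
    exact_mod_cast Int.one_le_abs hm0
  rw [← Rat.cast_abs, ← InfinitePlace.prod_eq_abs_norm] at h1
  set P := ∏ w : InfinitePlace M, ‖w.embedding (qF ξ₀ u)‖
  have hP : ∏ w : InfinitePlace M, w ((D : M) * qF ξ₀ u) ^ InfinitePlace.mult w =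
      ((D : ℕ) : ℝ) ^ finrank ℚ M * P ^ 2 := by
    rw [← Finset.prod_pow, ← InfinitePlace.sum_mult_eq (K := M), ← Finset.prod_pow_eq_pow_sum,
      ← Finset.prod_mul_distrib]
    refine Finset.prod_congr rfl fun w _ => ?_
    rw [IsTotallyComplex.mult_eq, ← InfinitePlace.norm_embedding_eq, map_mul, norm_mul,
      map_natCast, Complex.norm_natCast, mul_pow]
  rw [hP] at h1
  rcases le_total 1 P with h | h
  · exact le_trans (inv_le_one_of_one_le₀ hD) h
  · have hP0 : 0 ≤ P := Finset.prod_nonneg fun _ _ => norm_nonneg _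
    rw [inv_le_iff_one_le_mul₀ (lt_of_lt_of_le one_pos hD)]
    nlinarith [mul_le_mul_of_nonneg_left h (mul_nonneg (zero_le_one.trans hD) hP0)]

omit hW in
/-- The decay of one place, uniformly in `t ≥ c`. -/
theorem place_bound {t c s a b : ℝ} (hc : 0 < c) (ht : c ≤ t) (ha : 0 < a) (hb : 0 < b) :
    t * Real.exp (-(2 * π * t * (Real.exp (2 * s) * a ^ 2 + Real.exp (-(2 * s)) * b ^ 2))) ≤
      (2 * π * (a * b))⁻¹ *
        Real.exp (-(π * c * (Real.exp (2 * s) * a ^ 2 + Real.exp (-(2 * s)) * b ^ 2))) := by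
  set A := Real.exp (2 * s) * a ^ 2 + Real.exp (-(2 * s)) * b ^ 2 with hA
  have hA2 : 2 * (a * b) ≤ A := by
    have h1 : Real.exp s * Real.exp (-s) = 1 := by rw [← Real.exp_add, add_neg_cancel, Real.exp_zero]
    rw [hA, show 2 * s = s + s by ring, Real.exp_add, neg_add, Real.exp_add]
    nlinarith [sq_nonneg (Real.exp s * a - Real.exp (-s) * b), congrArg (· * (a * b)) h1]
  have ht0 : 0 < t := hc.trans_le ht
  have hA0 : 0 < A := lt_of_lt_of_le (by positivity) hA2
  have h1 : t * Real.exp (-(π * t * A)) ≤ (2 * π * (a * b))⁻¹ := by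
    have h2 : π * t * A * Real.exp (-(π * t * A)) ≤ 1 := by
      have := Real.add_one_le_exp (π * t * A)
      rw [Real.exp_neg, ← div_eq_mul_inv, div_le_one (Real.exp_pos _)]
      linarith
    rw [← one_div, le_div_iff₀ (by positivity : 0 < 2 * π * (a * b)), ← sub_nonneg]
    have : 2 * π * (a * b) * (t * Real.exp (-(π * t * A))) ≤ π * t * A * Real.exp (-(π * t * A)) := by
      have := mul_le_mul_of_nonneg_left hA2
        (mul_nonneg (mul_nonneg Real.pi_pos.le ht0.le) (Real.exp_pos (-(π * t * A))).le)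
      nlinarith
    linarith
  rw [show -(2 * π * t * A) = -(π * t * A) + -(π * t * A) by ring, Real.exp_add, ← mul_assoc]
  refine mul_le_mul h1 (Real.exp_le_exp.2 (neg_le_neg ?_)) (Real.exp_pos _).le (by positivity)
  exact mul_le_mul_of_nonneg_right (mul_le_mul_of_nonneg_left ht Real.pi_pos.le) hA0.le

/-- Boundedness on `t ≥ c` away from the zero vector. -/
theorem exists_ser_bound (hξ : ξ₀ ≠ 0) {coef : Latt L → ℂ} {B : ℝ} (hB : ∀ v, ‖coef v‖ ≤ B)
    (h0 : ∀ v : Latt L, β + (v : E) = 0 → coef v = 0) {c : ℝ} (hc : 0 < c) :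
    ∃ C : ℝ, ∀ x : Xinf M, (∀ w, c ≤ (x w).2) → ‖ser Q W ξ₀ L β coef x‖ ≤ C := by
  obtain ⟨R, hR⟩ := hW.exists_radius
  obtain ⟨δ, hδ, hlow⟩ := exists_qF_lower Q ξ₀ L β hξ
  set e := π * c * Real.exp (-(2 * R))
  have he : 0 < e := by positivity
  set K := |B| * ((2 * π)⁻¹ ^ Fintype.card (InfinitePlace M) * δ⁻¹)
  refine ⟨∑' v : Latt L, K * Real.exp (-(e * nY (embY Q ξ₀ (β + v)))) * ∫ s, W s, fun x hx => ?_⟩
  refine tsum_of_norm_bounded
    (((summable_gaussY Q ξ₀ L hξ β he).mul_left K).mul_right _).hasSum fun v => ?_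
  rcases eq_or_ne (β + (v : E)) 0 with hv | hv
  · rw [h0 v hv, zero_mul, norm_zero]
    exact mul_nonneg (mul_nonneg (by positivity) (Real.exp_pos _).le) (integral_nonneg hW.nonneg)
  rw [norm_mul]
  have key : ‖termW Q W ξ₀ x (β + v)‖ ≤ (2 * π)⁻¹ ^ Fintype.card (InfinitePlace M) * δ⁻¹ *
      Real.exp (-(e * nY (embY Q ξ₀ (β + v)))) * ∫ s, W s := by
    rw [← integral_const_mul]
    refine norm_integral_le_of_norm_le (hW.integrable.const_mul _) (Eventually.of_forall fun s => ?_)
    rw [norm_mul, Complex.norm_real, Real.norm_eq_abs, abs_of_nonneg (hW.nonneg s),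
      mul_comm _ (W s)]
    rcases eq_or_ne (W s) 0 with h | h
    · rw [h, zero_mul, zero_mul]
    refine mul_le_mul_of_nonneg_left ?_ (hW.nonneg s)
    set y := embY Q ξ₀ (β + (v : E))
    have hy : ∀ w, 0 < ‖(y w).1‖ ∧ 0 < ‖(y w).2‖ := fun w => by
      have hne : (y w).1 * (y w).2 ≠ 0 := by
        rw [embY_mul]
        exact (map_ne_zero _).2 (mul_ne_zero hξ fun h' => hv ((nM_eq_zero Q).1 h'))
      exact ⟨norm_pos_iff.2 (left_ne_zero_of_mul hne), norm_pos_iff.2 (right_ne_zero_of_mul hne)⟩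
    rw [term, norm_kerS]
    refine (Finset.prod_le_prod (fun w _ => mul_nonneg (le_of_lt (x w).2.2) (Real.exp_pos _).le)
      fun w _ =>
      place_bound hc (hx w) (hy w).1 (hy w).2).trans ?_
    rw [Finset.prod_mul_distrib, ← Real.exp_sum]
    refine mul_le_mul ?_ (Real.exp_le_exp.2 ?_) (Real.exp_pos _).le (by positivity)
    · simp only [mul_inv_rev, Finset.prod_mul_distrib, Finset.prod_inv_distrib, Finset.prod_const,
        Finset.card_univ]
      have hP := hlow v hv
      rw [← mul_inv, mul_comm (∏ w, ‖(y w).2‖), ← Finset.prod_mul_distrib,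
        Finset.prod_congr rfl fun w _ => show ‖(y w).1‖ * ‖(y w).2‖ =
          ‖w.embedding (qF ξ₀ (β + (v : E)))‖ by rw [← norm_mul, embY_mul],
        mul_comm, mul_pow, inv_pow, inv_pow]
      exact mul_le_mul_of_nonneg_left (inv_anti₀ hδ hP) (by positivity)
    · rw [nY, Finset.mul_sum, ← Finset.sum_neg_distrib]
      refine Finset.sum_le_sum fun w _ => neg_le_neg ?_
      have hRw := abs_le.1 (hR s h w)
      have h1 : Real.exp (-(2 * R)) ≤ Real.exp (2 * s w) := Real.exp_le_exp.2 (by linarith)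
      have h2 : Real.exp (-(2 * R)) ≤ Real.exp (-(2 * s w)) := Real.exp_le_exp.2 (by linarith)
      rw [mul_assoc (π * c), mul_add]
      gcongr
  calc ‖coef v‖ * _ ≤ |B| * _ :=
        mul_le_mul ((hB v).trans (le_abs_self B)) key (norm_nonneg _) (abs_nonneg B)
    _ = _ := by simp only [K]; ring

omit hW in
theorem term_translate_vec (x : Xinf M) (s : InfinitePlace M → ℝ) (z : InfinitePlace M → ℂ)
    (v : E) : term Q ξ₀ (translate z x) s v = term Q ξ₀ x s v * RS.trChar (qF ξ₀ v) z := by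
  have e : RS.trChar (qF ξ₀ v) z = ∏ w : InfinitePlace M,
      cexp (((4 * π * (z w * w.embedding (qF ξ₀ v)).re : ℝ) : ℂ) * Complex.I) := by
    rw [RS.trChar, RS.trPair, ← Complex.exp_sum, ← Finset.sum_mul, ← Complex.ofReal_sum,
      Finset.mul_sum]
    congr 3
    exact Finset.sum_congr rfl fun w _ => by rw [mul_comm (w.embedding _)]; ring
  rw [term, term, e, kerS, kerS, ← Finset.prod_mul_distrib]
  refine Finset.prod_congr rfl fun w _ => ?_
  rw [← embY_mul Q ξ₀ v w]
  show sTerm ((x w).1 + z w, (x w).2) _ = _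
  rw [sTerm_translate, mul_mul_mul_comm ((Real.exp (s w) : ℂ)), ← Complex.ofReal_mul,
    ← Real.exp_add, add_neg_cancel, Real.exp_zero, Complex.ofReal_one, one_mul]

omit hW in
theorem termW_translate_vec (x : Xinf M) (z : InfinitePlace M → ℂ) (v : E) :
    termW Q W ξ₀ (translate z x) v = termW Q W ξ₀ x v * RS.trChar (qF ξ₀ v) z := by
  rw [termW, termW, ← integral_mul_const]
  exact integral_congr_ae (Eventually.of_forall fun s => by
    simp only [term_translate_vec]; ring)

omit hW in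
theorem termW_zero (x : Xinf M) :
    termW Q W ξ₀ x (0 : E) = ((∫ s, W s : ℝ) : ℂ) * ∏ w, (((x w).2 : ℝ) : ℂ) := by
  rw [termW, ← integral_complex_ofReal, ← integral_mul_const]
  refine integral_congr_ae (Eventually.of_forall fun s => ?_)
  simp [term, kerS, sTerm]

/-- The mean over a box picks out the zero vector. -/
theorem integral_box_ser (hξ : ξ₀ ≠ 0) {coef : Latt L → ℂ} {B : ℝ} (hB : ∀ v, ‖coef v‖ ≤ B)
    {m : ℕ} (hm : 0 < m) (hdual : ∀ v : Latt L, RS.IsDual m (qF ξ₀ (β + (v : E))))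
    (x : Xinf M) :
    ∫ y in RS.boxSet (RS.Idx M), ser Q W ξ₀ L β coef (translate (boxVec m y) x) =
      ∑' v : Latt L, (open Classical in if β + (v : E) = 0 then coef v else 0) *
        termW Q W ξ₀ x (β + v) := by
  classical
  have hfin : (volume : Measure (RS.Idx M → ℝ)) (RS.boxSet (RS.Idx M)) < ⊤ := by
    rw [RS.volume_boxSet]; exact ENNReal.one_lt_top
  have hterm : ∀ (v : Latt L) (y : RS.Idx M → ℝ),
      coef v * termW Q W ξ₀ (translate (boxVec m y) x) (β + v) =
      (coef v * termW Q W ξ₀ x (β + v)) *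
        Theta31.echar (RS.kvec m (qF ξ₀ (β + (v : E)))) y := fun v y => by
    rw [termW_translate_vec, RS.echar_kvec (hdual v), mul_assoc]
  simp only [ser, hterm]
  have hs := summable_norm_termW Q ξ₀ L β hW hξ x
  have hint : ∀ v : Latt L, IntegrableOn (fun y => (coef v * termW Q W ξ₀ x (β + v)) *
      Theta31.echar (RS.kvec m (qF ξ₀ (β + (v : E)))) y) (RS.boxSet (RS.Idx M)) := fun v =>
    (IntegrableOn.of_bound hfin (RS.continuous_echar _).aestronglyMeasurable 1
      (Eventually.of_forall fun y => (RS.norm_echar' _ y).le)).const_mul _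
  rw [← integral_tsum_of_summable_integral_norm hint]
  · refine tsum_congr fun v => ?_
    rw [integral_const_mul]
    split_ifs with h
    · have hk : RS.kvec m (qF ξ₀ (β + (v : E))) = 0 := by
        rw [h]
        funext i
        simp [RS.kvec, RS.freq, qF, nM]
      rw [hk]
      simp [Theta31.echar, measureReal_def, RS.volume_boxSet]
    · have hk : RS.kvec m (qF ξ₀ (β + (v : E))) ≠ 0 := fun hk => by
        have := congrArg (RS.xiOf (F := M) m) hk
        rw [RS.xiOf_kvec hm (hdual v), RS.xiOf_zero] at this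
        exact mul_ne_zero hξ (fun h' => h ((nM_eq_zero Q).1 h')) this
      rw [zero_mul]
      refine mul_eq_zero_of_right _ ?_
      obtain ⟨i, hi⟩ := Function.ne_iff.1 hk
      set k := RS.kvec m (qF ξ₀ (β + (v : E)))
      have hper : RS.ZPeriodic (Theta31.echar k) :=
        ⟨RS.continuous_echar k, fun y w => Theta31.echar_add_rvec k w y⟩
      have ha : Theta31.echar k (Pi.single i (2 * (k i : ℝ))⁻¹) = -1 := by
        rw [Theta31.echar, ← Complex.exp_pi_mul_I]
        congr 1
        rw [Finset.sum_eq_single_of_mem i (Finset.mem_univ i) fun j _ hj => by simp [hj],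
          Pi.single_eq_same]
        have hk0 : ((k i : ℤ) : ℂ) ≠ 0 := Int.cast_ne_zero.2 hi
        push_cast
        field_simp
      have h2 := RS.integral_box_add hper (Pi.single i (2 * (k i : ℝ))⁻¹)
      simp only [RS.echar_add, integral_mul_const, ha] at h2
      linear_combination (-1 / 2 : ℂ) * h2
  · refine Summable.of_nonneg_of_le (fun _ => integral_nonneg fun _ => norm_nonneg _) (fun v => ?_)
      (hs.mul_left |B|)
    simp only [norm_mul, RS.norm_echar', mul_one, setIntegral_const, measureReal_def,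
      RS.volume_boxSet, ENNReal.toReal_one, one_smul]
    exact mul_le_mul_of_nonneg_right ((hB v).trans (le_abs_self B)) (norm_nonneg _)

omit hW in
include Q in
/-- A modulus of periods. -/
theorem exists_dual_modulus : ∃ m₀ : ℕ, 0 < m₀ ∧ ∀ m : ℕ, m₀ ∣ m → ∀ v : Latt L,
    RS.IsDual m (qF ξ₀ (β + (v : E))) := by
  obtain ⟨D, hD, h⟩ := exists_qF_den Q ξ₀ L β
  refine ⟨D, hD, fun m hm v i => ?_⟩
  obtain ⟨k, rfl⟩ := hm
  obtain ⟨n, hn⟩ := IsIntegrallyClosed.isIntegral_iff.1
    (Algebra.isIntegral_trace (R := ℤ) (F := M) (L := ℚ)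
      ((h v).mul (RingOfIntegers.isIntegral_coe (RingOfIntegers.basis M i))))
  refine ⟨(k : ℤ) * n, ?_⟩
  rw [RS.freq, Int.cast_mul, Int.cast_natCast, ← show algebraMap ℤ ℚ n = (n : ℚ) from rfl, hn,
    mul_assoc (D : M), ← nsmul_eq_mul D, map_nsmul, nsmul_eq_mul, Nat.cast_mul]
  ring

end FLTAgent.LT.ThetaM
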