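import Fermat.Agent.LT.ThetaM.Classes
import Fermat.Agent.LT.ThetaM.Series

/-!
# The theta function of an ideal

`theta W R 𝔞` is the sum over the ray classes `c` of `χ (c)⁻¹` times the series of the cosets
`vset (R c)` for the quadratic forms `ξ₀ N`, `ξ₀` running through `Xi 𝔞 (R c)`.
-/

set_option autoImplicit false
set_option linter.style.haveILetI false

noncomputable section

namespace FLTAgent.LT.ThetaM

open NumberField IsDedekindDomain
open scoped nonZeroDivisors

variable {M E : Type} [Field M] [NumberField M] [Field E] [NumberField E] [Algebra M E]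

/-- Fractional ideals of `M`. -/
abbrev FIM (M : Type) [Field M] [NumberField M] := FractionalIdeal (𝓞 M)⁰ M

/-- The product of the Whittaker terms. -/
def wProd (x : Xinf M) (ξ : M) : ℂ := ∏ w : InfinitePlace M, wTerm (x w) (w.embedding ξ)

/-- The normalising factor. -/
def cN (a : FIM M) : ℝ := (Real.sqrt ((FractionalIdeal.absNorm a : ℚ) : ℝ))⁻¹

namespace Data

variable (D : Data M E)

/-- A weight whose translates under the units sum to one. -/
structure IsWeight (W : (InfinitePlace M → ℝ) → ℝ) : Prop extends IsTorusWeight W where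
  total : ∀ s, HasSum (fun u : normOneUnits D.toQuad D.f =>
    W (s + logAbs M (((u : (𝓞 E)ˣ) : 𝓞 E) : E))) 1

/-- An admissible level. -/
def IsLev (N : ℕ) : Prop :=
  0 < N ∧ (N : 𝓞 M) ∈ D.nf ∧
    ∀ x : E, (∀ y ∈ D.f * D.f, ∃ n : ℤ, Algebra.trace ℚ E (x * (y : E)) = n) →
      IsIntegral ℤ ((N : E) / 2 * x)

variable (W : (InfinitePlace M → ℝ) → ℝ) (R : D.Cl → D.primeGroup)

/-- The series of one coset. -/
def part (a : (FIM M)ˣ) (r : (FIE E)ˣ) (q : D.Xi a r) (x : Xinf M) : ℂ :=
  ∑' v : D.vset r, termW D.toQuad W (Quotient.out (s := D.genSetoid a r) q).1 x (v : E)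

/-- The theta function. -/
def theta (a : (FIM M)ˣ) (x : Xinf M) : ℂ :=
  ∑ᶠ c : D.Cl, (D.chiCl c)⁻¹ * ∑ᶠ q : D.Xi a ((R c : (FIE E)ˣ)), D.part W a _ q x

/-- The normalised theta function. -/
def thetaN (a : (FIM M)ˣ) (x : Xinf M) : ℂ := (cN (a : FIM M) : ℂ) * D.theta W R a x

end Data

end FLTAgent.LT.ThetaM
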