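import Fermat.Agent.LT.ThetaM.Setting
import Mathlib.RingTheory.Ideal.Norm.RelNorm
import Mathlib.RingTheory.DedekindDomain.Factorization
import Mathlib.NumberTheory.LegendreSymbol.AddCharacter
import Mathlib.RingTheory.IntegralClosure.IntegralRestrict

/-!
# The Gauss sum of the norm form of `E / M`

For an ideal `𝔞` prime to the modulus and a primitive additive character `Ψ` modulo `𝔞`, the sum of
`Ψ (N x)` over `𝓞 E / 𝔞` is `N 𝔞 · χ (𝔞)`.
-/

set_option autoImplicit false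
set_option linter.style.haveILetI false
set_option linter.unusedSectionVars false

noncomputable section

namespace FLTAgent.LT.ThetaM

open NumberField IsDedekindDomain

variable {M E : Type} [Field M] [NumberField M] [Field E] [NumberField E] [Algebra M E]

variable (E) in
/-- Extension of integral ideals of `M` to `E`. -/
abbrev extId (a : Ideal (𝓞 M)) : Ideal (𝓞 E) := a.map (algebraMap (𝓞 M) (𝓞 E))

theorem algebraMap_OM_injective : Function.Injective (algebraMap (𝓞 M) (𝓞 E)) :=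
  FaithfulSMul.algebraMap_injective _ _

theorem extId_ne_bot {a : Ideal (𝓞 M)} (ha : a ≠ ⊥) : extId E a ≠ ⊥ :=
  (Ideal.map_eq_bot_iff_of_injective algebraMap_OM_injective).not.2 ha

theorem comap_extId_prime {P : Ideal (𝓞 M)} [P.IsMaximal] (hne : extId E P ≠ ⊤) :
    (extId E P).comap (algebraMap (𝓞 M) (𝓞 E)) = P :=
  (Ideal.IsMaximal.eq_of_le inferInstance (Ideal.comap_ne_top _ hne) Ideal.le_comap_map).symm

variable (Q : Quad M E)

include Q in
theorem absNorm_extId (a : Ideal (𝓞 M)) : Ideal.absNorm (extId E a) = Ideal.absNorm a ^ 2 := by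
  haveI := Q.finiteDimensional
  rw [extId, Ideal.absNorm_algebraMap, ← IsFractionRing.finrank_eq (𝓞 M) M (𝓞 E) E, Q.deg]

theorem coe_algebraMap_OM (m : 𝓞 M) :
    ((algebraMap (𝓞 M) (𝓞 E) m : 𝓞 E) : E) = algebraMap M E (m : M) :=
  rfl

theorem conjO_algebraMap (m : 𝓞 M) :
    Q.conjO (algebraMap (𝓞 M) (𝓞 E) m) = algebraMap (𝓞 M) (𝓞 E) m :=
  RingOfIntegers.ext (by rw [Quad.coe_conjO, coe_algebraMap_OM, Q.conj_algebraMap])

theorem conjO_conjO (x : 𝓞 E) : Q.conjO (Q.conjO x) = x :=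
  RingOfIntegers.ext (by rw [Quad.coe_conjO, Quad.coe_conjO, Q.conj_conj])

theorem algebraMap_intNorm_eq (x : 𝓞 E) :
    algebraMap (𝓞 M) (𝓞 E) (Algebra.intNorm (𝓞 M) (𝓞 E) x) = x * Q.conjO x := by
  haveI := Q.finiteDimensional
  refine RingOfIntegers.ext ?_
  show _ = (x : E) * Q.conj x
  rw [coe_algebraMap_OM, ← Q.algebraMap_norm]
  exact congrArg _ (Algebra.algebraMap_intNorm (A := 𝓞 M) (K := M) (L := E) (B := 𝓞 E) x)

theorem algebraMap_intTrace_eq (x : 𝓞 E) :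
    algebraMap (𝓞 M) (𝓞 E) (Algebra.intTrace (𝓞 M) (𝓞 E) x) = x + Q.conjO x := by
  haveI := Q.finiteDimensional
  refine RingOfIntegers.ext ?_
  show _ = (x : E) + Q.conj x
  rw [coe_algebraMap_OM, ← Q.algebraMap_trace]
  exact congrArg _ (Algebra.algebraMap_intTrace (A := 𝓞 M) (K := M) (L := E) (B := 𝓞 E) x)

include Q in
theorem intNorm_zero : Algebra.intNorm (𝓞 M) (𝓞 E) 0 = 0 :=
  algebraMap_OM_injective (E := E) (by rw [algebraMap_intNorm_eq Q, zero_mul, map_zero])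

theorem intNorm_add (x t : 𝓞 E) :
    Algebra.intNorm (𝓞 M) (𝓞 E) (x + t) = Algebra.intNorm (𝓞 M) (𝓞 E) x +
      Algebra.intTrace (𝓞 M) (𝓞 E) (Q.conjO x * t) + Algebra.intNorm (𝓞 M) (𝓞 E) t := by
  refine algebraMap_OM_injective (E := E) ?_
  rw [map_add (algebraMap (𝓞 M) (𝓞 E)), map_add (algebraMap (𝓞 M) (𝓞 E)),
    algebraMap_intNorm_eq Q, algebraMap_intNorm_eq Q, algebraMap_intNorm_eq Q,
    algebraMap_intTrace_eq Q, map_add, map_mul, conjO_conjO Q]
  ring

include Q in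
theorem intNorm_algebraMap_mul (m : 𝓞 M) (x : 𝓞 E) :
    Algebra.intNorm (𝓞 M) (𝓞 E) (algebraMap (𝓞 M) (𝓞 E) m * x) =
      m ^ 2 * Algebra.intNorm (𝓞 M) (𝓞 E) x := by
  refine algebraMap_OM_injective (E := E) ?_
  rw [map_mul (algebraMap (𝓞 M) (𝓞 E)), algebraMap_intNorm_eq Q, algebraMap_intNorm_eq Q, map_mul,
    conjO_algebraMap Q, map_pow]
  ring

theorem conjO_mem_extId {b : Ideal (𝓞 M)} {t : 𝓞 E} (ht : t ∈ extId E b) :
    Q.conjO t ∈ extId E b := by
  have h : (extId E b).map (Q.conjO : 𝓞 E →+* 𝓞 E) = extId E b := by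
    rw [extId, Ideal.map_map]
    exact congrArg (fun f : 𝓞 M →+* 𝓞 E => b.map f) (RingHom.ext (conjO_algebraMap Q))
  rw [← h]
  exact Ideal.mem_map_of_mem _ ht

theorem intTrace_mul_mem {b : Ideal (𝓞 M)} {t : 𝓞 E} (ht : t ∈ extId E b) :
    ∀ y : 𝓞 E, Algebra.intTrace (𝓞 M) (𝓞 E) (y * t) ∈ b := by
  induction ht using Submodule.span_induction with
  | mem t ht =>
    obtain ⟨m, hm, rfl⟩ := ht
    intro y
    rw [mul_comm, ← Algebra.smul_def, map_smul, smul_eq_mul]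
    exact b.mul_mem_right _ hm
  | zero => intro y; rw [mul_zero, map_zero]; exact b.zero_mem
  | add s t _ _ hs ht => intro y; rw [mul_add, map_add]; exact b.add_mem (hs y) (ht y)
  | smul r s _ hs => intro y; rw [smul_eq_mul, ← mul_assoc]; exact hs (y * r)

include Q in
theorem intNorm_mem {b : Ideal (𝓞 M)} {t : 𝓞 E} (ht : t ∈ extId E b) :
    Algebra.intNorm (𝓞 M) (𝓞 E) t ∈ b * b := by
  induction ht using Submodule.span_induction with
  | mem t ht =>
    obtain ⟨m, hm, rfl⟩ := ht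
    rw [← mul_one (algebraMap (𝓞 M) (𝓞 E) m), intNorm_algebraMap_mul Q, sq]
    exact (b * b).mul_mem_right _ (Ideal.mul_mem_mul hm hm)
  | zero => rw [intNorm_zero Q]; exact (b * b).zero_mem
  | add s t hs' ht' hs ht =>
    rw [intNorm_add Q]
    refine (b * b).add_mem ((b * b).add_mem hs ?_) ht
    have h : Q.conjO s * t ∈ extId E (b * b) := by
      rw [extId, Ideal.map_mul]
      exact Ideal.mul_mem_mul (conjO_mem_extId Q hs') ht'
    have h1 := intTrace_mul_mem h 1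
    rwa [one_mul] at h1
  | smul r s _ hs => rw [smul_eq_mul, map_mul]; exact (b * b).mul_mem_left _ hs

include Q in
theorem intNorm_sub_mem {a : Ideal (𝓞 M)} {x y : 𝓞 E} (h : x - y ∈ extId E a) :
    Algebra.intNorm (𝓞 M) (𝓞 E) x - Algebra.intNorm (𝓞 M) (𝓞 E) y ∈ a := by
  have e := intNorm_add Q y (x - y)
  rw [add_sub_cancel] at e
  rw [e, show ∀ u v w : 𝓞 M, u + v + w - u = v + w from fun u v w => by ring]
  exact a.add_mem (intTrace_mul_mem h _) (Ideal.mul_le_left (intNorm_mem Q h))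

/-- A finite type of representatives computes a sum over a quotient. -/
theorem addChar_eq_of_sub_mem {R : Type*} [CommRing R] {a : Ideal R} {Ψ : AddChar R ℂ}
    (htriv : ∀ x ∈ a, Ψ x = 1) {x y : R} (h : x - y ∈ a) : Ψ x = Ψ y := by
  rw [← sub_add_cancel x y, AddChar.map_add_eq_mul, htriv _ h, one_mul]

/-- The Gauss sum of the norm form. -/
def gauss (a : Ideal (𝓞 M)) (Ψ : AddChar (𝓞 M) ℂ) : ℂ :=
  ∑ᶠ x : 𝓞 E ⧸ extId E a, Ψ (Algebra.intNorm (𝓞 M) (𝓞 E) (Quotient.out x))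

include Q in
theorem gauss_eq_sum {ι : Type*} [Fintype ι] {a : Ideal (𝓞 M)} {Ψ : AddChar (𝓞 M) ℂ}
    (htriv : ∀ x ∈ a, Ψ x = 1) (f : ι → 𝓞 E) (hinj : ∀ i j, f i - f j ∈ extId E a → i = j)
    (hsurj : ∀ x, ∃ i, x - f i ∈ extId E a) :
    gauss (E := E) a Ψ = ∑ i, Ψ (Algebra.intNorm (𝓞 M) (𝓞 E) (f i)) := by
  have hbij : Function.Bijective fun i => Ideal.Quotient.mk (extId E a) (f i) := by
    refine ⟨fun i j h => hinj i j (Ideal.Quotient.eq.1 h), fun z => ?_⟩
    obtain ⟨x, rfl⟩ := Ideal.Quotient.mk_surjective z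
    obtain ⟨i, hi⟩ := hsurj x
    exact ⟨i, (Ideal.Quotient.eq.2 hi).symm⟩
  rw [gauss, ← finsum_comp _ hbij, finsum_eq_sum_of_fintype]
  refine Finset.sum_congr rfl fun i _ => addChar_eq_of_sub_mem htriv (intNorm_sub_mem Q ?_)
  exact Ideal.Quotient.eq.1 (Ideal.Quotient.mk_out _)

end FLTAgent.LT.ThetaM
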