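import Fermat.Agent.LT.ThetaM.GaussStep

/-!
# The Gauss sum at a prime: split and inert

At a split prime the sum is `N P`, at an inert one `- N P`.
-/

set_option autoImplicit false
set_option linter.style.haveILetI false
set_option linter.unusedSectionVars false

noncomputable section

namespace FLTAgent.LT.ThetaM

open NumberField IsDedekindDomain

section Abstract

variable {A k : Type*} [CommRing A] [Fintype A] [Field k] [Fintype k] [DecidableEq k]

/-- A multiplicative map onto a finite field: the character sum in terms of the null fibre. -/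
theorem gauss_count (N : A → k) (hmul : ∀ x y, N (x * y) = N x * N y)
    (hsurj : ∀ c : k, c ≠ 0 → ∃ u : A, IsUnit u ∧ N u = c) {ψ : AddChar k ℂ} (hψ : ψ ≠ 1) :
    (Fintype.card A : ℂ) + ((Fintype.card k : ℂ) - 1) * ∑ x, ψ (N x) =
      (Fintype.card k : ℂ) * ((Finset.univ.filter fun x => N x = 0).card : ℂ) := by
  have hrow : ∀ c : k, ∑ x, ψ (N x * c) = if c = 0 then (Fintype.card A : ℂ) else ∑ x, ψ (N x) := by
    intro c
    split_ifs with hc
    · simp [hc]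
    · obtain ⟨u, hu, hNu⟩ := hsurj c hc
      rw [← hNu]
      refine (Finset.sum_congr rfl fun x _ => by rw [← hmul]).trans ?_
      exact Fintype.sum_equiv (Units.mulRight hu.unit) (fun x => ψ (N (x * u))) (fun x => ψ (N x))
        fun x => rfl
  calc (Fintype.card A : ℂ) + ((Fintype.card k : ℂ) - 1) * ∑ x, ψ (N x)
      = ∑ c : k, ∑ x, ψ (N x * c) := by
        rw [← Finset.add_sum_erase _ _ (Finset.mem_univ (0 : k)), hrow 0, if_pos rfl,
          Finset.sum_congr rfl fun c hc => (hrow c).trans (if_neg (Finset.ne_of_mem_erase hc))]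
        rw [Finset.sum_const, Finset.card_erase_of_mem (Finset.mem_univ _), Finset.card_univ,
          nsmul_eq_mul, Nat.cast_sub Fintype.card_pos, Nat.cast_one]
    _ = ∑ x, ∑ c : k, ψ (c * N x) := by
        rw [Finset.sum_comm]
        exact Finset.sum_congr rfl fun x _ => Finset.sum_congr rfl fun c _ => by rw [mul_comm]
    _ = _ := by
        simp_rw [AddChar.sum_mulShift _ (AddChar.IsPrimitive.of_ne_one hψ)]
        simp only [Nat.cast_ite, Nat.cast_zero]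
        rw [← Finset.sum_filter, Finset.sum_const, nsmul_eq_mul, mul_comm]

end Abstract

variable {M E : Type} [Field M] [NumberField M] [Field E] [NumberField E] [Algebra M E]

theorem addChar_ne_one_of_primitive {P : Ideal (𝓞 M)} [P.IsMaximal] {Ψ : AddChar (𝓞 M) ℂ}
    (hprim : ∀ I, P < I → ∃ x ∈ I, Ψ x ≠ 1) : ∃ x, Ψ x ≠ 1 :=
  let ⟨x, _, hx⟩ := hprim ⊤ (Ideal.IsMaximal.ne_top inferInstance).lt_top
  ⟨x, hx⟩

/-- A character trivial on an ideal, on the quotient. -/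
def barChar (P : Ideal (𝓞 M)) {Ψ : AddChar (𝓞 M) ℂ} (htriv : ∀ x ∈ P, Ψ x = 1) :
    AddChar (𝓞 M ⧸ P) ℂ where
  toFun z := Ψ z.out
  map_zero_eq_one' := htriv _ (Ideal.Quotient.eq_zero_iff_mem.1 (Ideal.Quotient.mk_out _))
  map_add_eq_mul' := fun u v => by
    rw [← AddChar.map_add_eq_mul]
    refine addChar_eq_of_sub_mem htriv (Ideal.Quotient.eq.1 ?_)
    rw [map_add, Ideal.Quotient.mk_out, Ideal.Quotient.mk_out, Ideal.Quotient.mk_out]

theorem barChar_mk (P : Ideal (𝓞 M)) {Ψ : AddChar (𝓞 M) ℂ} (htriv : ∀ x ∈ P, Ψ x = 1)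
    (x : 𝓞 M) : barChar P htriv (Ideal.Quotient.mk P x) = Ψ x :=
  addChar_eq_of_sub_mem htriv (out_sub_mem P x)

/-- The norm form modulo `P`. -/
def normBar (P : Ideal (𝓞 M)) (z : 𝓞 E ⧸ extId E P) : 𝓞 M ⧸ P :=
  Ideal.Quotient.mk P (Algebra.intNorm (𝓞 M) (𝓞 E) z.out)

variable (Q : Quad M E)

include Q in
theorem normBar_mk (P : Ideal (𝓞 M)) (x : 𝓞 E) :
    normBar (E := E) P (Ideal.Quotient.mk _ x) = Ideal.Quotient.mk P (Algebra.intNorm (𝓞 M) (𝓞 E) x) :=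
  Ideal.Quotient.eq.2 (intNorm_sub_mem Q (out_sub_mem _ x))

include Q in
theorem normBar_mul (P : Ideal (𝓞 M)) (u v : 𝓞 E ⧸ extId E P) :
    normBar P (u * v) = normBar P u * normBar P v := by
  obtain ⟨x, rfl⟩ := Ideal.Quotient.mk_surjective u
  obtain ⟨y, rfl⟩ := Ideal.Quotient.mk_surjective v
  rw [← map_mul, normBar_mk Q, normBar_mk Q, normBar_mk Q, map_mul, map_mul]

include Q in
theorem isUnit_of_normBar_ne_zero {P : Ideal (𝓞 M)} [P.IsMaximal] {u : 𝓞 E ⧸ extId E P}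
    (h : normBar P u ≠ 0) : IsUnit u := by
  obtain ⟨x, rfl⟩ := Ideal.Quotient.mk_surjective u
  rw [normBar_mk Q, Ne, Ideal.Quotient.eq_zero_iff_mem] at h
  obtain ⟨m, p, hp, hmp⟩ := Ideal.IsMaximal.exists_inv inferInstance h
  refine IsUnit.of_mul_eq_one (Ideal.Quotient.mk _ (algebraMap (𝓞 M) (𝓞 E) m * Q.conjO x)) ?_
  rw [← map_mul, ← map_one (Ideal.Quotient.mk (extId E P)), Ideal.Quotient.eq,
    show x * (algebraMap (𝓞 M) (𝓞 E) m * Q.conjO x) - 1 =
      algebraMap (𝓞 M) (𝓞 E) (m * Algebra.intNorm (𝓞 M) (𝓞 E) x - 1) by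
      rw [map_sub, map_one, map_mul, algebraMap_intNorm_eq Q]; ring]
  refine Ideal.mem_map_of_mem _ ?_
  rw [← hmp, sub_add_cancel_left]
  exact neg_mem hp

include Q in
/-- The Gauss sum at a prime in terms of the null fibre. -/
theorem gauss_prime_count {P : Ideal (𝓞 M)} [P.IsMaximal] (hP : P ≠ ⊥)
    (hsurj : ∀ c : 𝓞 M, c ∉ P → ∃ x : 𝓞 E, Algebra.intNorm (𝓞 M) (𝓞 E) x - c ∈ P)
    {Ψ : AddChar (𝓞 M) ℂ} (htriv : ∀ x ∈ P, Ψ x = 1) (hprim : ∀ I, P < I → ∃ x ∈ I, Ψ x ≠ 1) :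
    (Ideal.absNorm P : ℂ) ^ 2 + ((Ideal.absNorm P : ℂ) - 1) * gauss (E := E) P Ψ =
      (Ideal.absNorm P : ℂ) *
        (Nat.card {z : 𝓞 E ⧸ extId E P // normBar P z = 0} : ℂ) := by
  classical
  letI : Field (𝓞 M ⧸ P) := Ideal.Quotient.field P
  haveI : Finite (𝓞 M ⧸ P) := Ideal.finiteQuotientOfFreeOfNeBot _ hP
  haveI : Finite (𝓞 E ⧸ extId E P) := Ideal.finiteQuotientOfFreeOfNeBot _ (extId_ne_bot hP)
  haveI := Fintype.ofFinite (𝓞 M ⧸ P)
  haveI := Fintype.ofFinite (𝓞 E ⧸ extId E P)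
  have hψ : barChar P htriv ≠ 1 := fun h => by
    obtain ⟨x, hx⟩ := addChar_ne_one_of_primitive hprim
    exact hx (by rw [← barChar_mk P htriv x, h, AddChar.one_apply])
  have hk : Fintype.card (𝓞 M ⧸ P) = Ideal.absNorm P := by
    rw [Ideal.absNorm_apply, Submodule.cardQuot_apply, Nat.card_eq_fintype_card]
  have hA : Fintype.card (𝓞 E ⧸ extId E P) = Ideal.absNorm P ^ 2 := by
    rw [← absNorm_extId Q P, Ideal.absNorm_apply, Submodule.cardQuot_apply,
      Nat.card_eq_fintype_card]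
  have h := gauss_count (normBar (E := E) P) (normBar_mul Q P) (fun c hc => by
    obtain ⟨c, rfl⟩ := Ideal.Quotient.mk_surjective c
    obtain ⟨x, hx⟩ := hsurj c (fun h => hc (Ideal.Quotient.eq_zero_iff_mem.2 h))
    have hN : normBar (E := E) P (Ideal.Quotient.mk _ x) = Ideal.Quotient.mk P c := by
      rw [normBar_mk Q]; exact Ideal.Quotient.eq.2 hx
    exact ⟨_, isUnit_of_normBar_ne_zero Q (hN ▸ hc), hN⟩) hψ
  rw [hk, hA, Nat.cast_pow] at h
  rw [gauss, finsum_eq_sum_of_fintype, Nat.card_eq_fintype_card, Fintype.card_subtype, ← h]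
  congr 2
  exact Finset.sum_congr rfl fun z _ => (barChar_mk P htriv _).symm

section Split

variable {P : Ideal (𝓞 M)} [P.IsMaximal] {q q' : Ideal (𝓞 E)} [q.IsMaximal] [q'.IsMaximal]

theorem algebraMap_mem_iff (hq : extId E P ≤ q) (m : 𝓞 M) :
    algebraMap (𝓞 M) (𝓞 E) m ∈ q ↔ m ∈ P := by
  refine ⟨fun h => ?_, fun h => hq (Ideal.mem_map_of_mem _ h)⟩
  have he : q.comap (algebraMap (𝓞 M) (𝓞 E)) = P :=
    (Ideal.IsMaximal.eq_of_le inferInstance (Ideal.comap_ne_top _ (Ideal.IsMaximal.ne_top inferInstance))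
      (Ideal.map_le_iff_le_comap.1 hq)).symm
  rw [← he]
  exact h

theorem conjO_mem_of_map_eq (hc : q.map (Q.conjO : 𝓞 E →+* 𝓞 E) = q') {x : 𝓞 E} (hx : x ∈ q) :
    Q.conjO x ∈ q' :=
  hc ▸ Ideal.mem_map_of_mem _ hx

theorem conjO_mem_of_map_eq' (hc : q.map (Q.conjO : 𝓞 E →+* 𝓞 E) = q') {x : 𝓞 E} (hx : x ∈ q') :
    Q.conjO x ∈ q := by
  rw [← hc] at hx
  obtain ⟨y, hy, rfl⟩ :=
    (Ideal.mem_map_iff_of_surjective _ Q.conjO.surjective).1 hx
  show Q.conjO (Q.conjO y) ∈ q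
  rw [conjO_conjO Q]
  exact hy

theorem split_surj (hne : q ≠ q') (hc : q.map (Q.conjO : 𝓞 E →+* 𝓞 E) = q') (hq : extId E P ≤ q)
    (c : 𝓞 M) : ∃ x : 𝓞 E, Algebra.intNorm (𝓞 M) (𝓞 E) x - c ∈ P := by
  obtain ⟨r, hr, r', hr', hrr⟩ := Submodule.mem_sup.1 (show (1 : 𝓞 E) ∈ q ⊔ q' by
    rw [Ideal.IsMaximal.coprime_of_ne inferInstance inferInstance hne]; trivial)
  set ι := algebraMap (𝓞 M) (𝓞 E) with hι
  refine ⟨ι c * r' + r, ?_⟩
  have h1 : ι c * r' + r - ι c ∈ q := by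
    rw [show ι c * r' + r - ι c = (1 - ι c) * r by linear_combination (ι c) * hrr]
    exact Ideal.mul_mem_left _ _ hr
  have h2 : Q.conjO (ι c * r' + r) - 1 ∈ q := by
    rw [← map_one Q.conjO, ← map_sub]
    refine conjO_mem_of_map_eq' Q hc ?_
    rw [show ι c * r' + r - 1 = (ι c - 1) * r' by linear_combination hrr]
    exact Ideal.mul_mem_left _ _ hr'
  refine (algebraMap_mem_iff hq _).1 ?_
  rw [map_sub, algebraMap_intNorm_eq Q, ← hι,
    show (ι c * r' + r) * Q.conjO (ι c * r' + r) - ι c =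
      (ι c * r' + r) * (Q.conjO (ι c * r' + r) - 1) + (ι c * r' + r - ι c) by ring]
  exact q.add_mem (q.mul_mem_left _ h2) h1

include Q in
theorem intNorm_mem_iff_split (hc : q.map (Q.conjO : 𝓞 E →+* 𝓞 E) = q') (hq : extId E P ≤ q)
    (x : 𝓞 E) : Algebra.intNorm (𝓞 M) (𝓞 E) x ∈ P ↔ x ∈ q ∨ x ∈ q' := by
  rw [← algebraMap_mem_iff hq, algebraMap_intNorm_eq Q,
    Ideal.IsPrime.mul_mem_iff_mem_or_mem (I := q) inferInstance]
  refine or_congr Iff.rfl ⟨fun h => ?_, fun h => conjO_mem_of_map_eq' Q hc h⟩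
  have h' := conjO_mem_of_map_eq Q hc h
  rwa [conjO_conjO Q] at h'

include Q in
/-- The Gauss sum at a split prime. -/
theorem gauss_split (hP : P ≠ ⊥) (hne : q ≠ q') (hc : q.map (Q.conjO : 𝓞 E →+* 𝓞 E) = q')
    (hPq : extId E P = q * q') {Ψ : AddChar (𝓞 M) ℂ} (htriv : ∀ x ∈ P, Ψ x = 1)
    (hprim : ∀ I, P < I → ∃ x ∈ I, Ψ x ≠ 1) : gauss (E := E) P Ψ = (Ideal.absNorm P : ℂ) := by
  classical
  have hq : extId E P ≤ q := hPq ▸ Ideal.mul_le_left
  have hsup : q ⊔ q' = ⊤ := Ideal.IsMaximal.coprime_of_ne inferInstance inferInstance hne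
  have hq0 : q ≠ ⊥ := fun h => extId_ne_bot (E := E) hP (by rw [hPq, h, Ideal.bot_mul])
  have hq0' : q' ≠ ⊥ := fun h => extId_ne_bot (E := E) hP (by rw [hPq, h, Ideal.mul_bot])
  haveI : Finite (𝓞 E ⧸ q) := Ideal.finiteQuotientOfFreeOfNeBot _ hq0
  haveI : Finite (𝓞 E ⧸ q') := Ideal.finiteQuotientOfFreeOfNeBot _ hq0'
  have hcardq : Nat.card (𝓞 E ⧸ q) = Nat.card (𝓞 E ⧸ q') :=
    Nat.card_congr (Ideal.quotientEquiv q q' Q.conjO hc.symm).toEquiv
  have hnorm : Nat.card (𝓞 E ⧸ q) * Nat.card (𝓞 E ⧸ q') = Ideal.absNorm P ^ 2 := by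
    rw [← Submodule.cardQuot_apply q, ← Submodule.cardQuot_apply q', ← Ideal.absNorm_apply,
      ← Ideal.absNorm_apply, ← map_mul, ← hPq, absNorm_extId Q]
  have hcq : Nat.card (𝓞 E ⧸ q) = Ideal.absNorm P := by
    rw [← hcardq, ← sq] at hnorm
    exact Nat.pow_left_injective two_ne_zero hnorm
  let e : 𝓞 E ⧸ extId E P ≃+* (𝓞 E ⧸ q) × (𝓞 E ⧸ q') :=
    (Ideal.quotEquivOfEq hPq).trans
      (Ideal.quotientMulEquivQuotientProd q q' (Ideal.isCoprime_iff_sup_eq.2 hsup))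
  have he : ∀ z, normBar P z = 0 ↔ (e z).1 = 0 ∨ (e z).2 = 0 := fun z => by
    obtain ⟨x, rfl⟩ := Ideal.Quotient.mk_surjective z
    rw [normBar_mk Q, Ideal.Quotient.eq_zero_iff_mem, intNorm_mem_iff_split Q hc hq]
    exact or_congr Ideal.Quotient.eq_zero_iff_mem.symm Ideal.Quotient.eq_zero_iff_mem.symm
  have hZ : (Nat.card {z : 𝓞 E ⧸ extId E P // normBar P z = 0} : ℂ) =
      (Ideal.absNorm P : ℂ) ^ 2 - ((Ideal.absNorm P : ℂ) - 1) ^ 2 := by
    haveI := Fintype.ofFinite (𝓞 E ⧸ q)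
    haveI := Fintype.ofFinite (𝓞 E ⧸ q')
    rw [Nat.card_congr (e.toEquiv.subtypeEquiv (q := fun p => p.1 = 0 ∨ p.2 = 0) he),
      Nat.card_eq_fintype_card, Fintype.card_subtype]
    have hcompl : (Finset.univ.filter fun p : (𝓞 E ⧸ q) × (𝓞 E ⧸ q') => p.1 = 0 ∨ p.2 = 0) =
        Finset.univ \ (Finset.univ.erase 0 ×ˢ Finset.univ.erase 0) := by
      ext p
      by_cases h1 : p.1 = 0 <;> by_cases h2 : p.2 = 0 <;> simp [h1, h2]
    rw [hcompl, Finset.card_sdiff_of_subset (Finset.subset_univ _), Finset.card_univ,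
      Nat.cast_sub (Finset.card_le_univ _), Finset.card_product, Fintype.card_prod,
      Finset.card_erase_of_mem (Finset.mem_univ _), Finset.card_erase_of_mem (Finset.mem_univ _),
      Finset.card_univ, Finset.card_univ, Nat.cast_mul, Nat.cast_mul,
      Nat.cast_sub Fintype.card_pos, Nat.cast_sub Fintype.card_pos, ← Nat.card_eq_fintype_card,
      ← Nat.card_eq_fintype_card, ← hcardq, hcq, Nat.cast_one]
    ring
  have h := gauss_prime_count Q hP (fun c _ => split_surj Q hne hc hq c) htriv hprim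
  rw [hZ] at h
  have h1 : (Ideal.absNorm P : ℂ) - 1 ≠ 0 := by
    rw [sub_ne_zero]
    exact_mod_cast fun h : Ideal.absNorm P = 1 =>
      (Ideal.IsMaximal.ne_top (I := P) inferInstance) (Ideal.absNorm_eq_one_iff.1 h)
  refine mul_left_cancel₀ h1 ?_
  linear_combination h

include Q in
theorem nondeg_split (hne : q ≠ q') (hc : q.map (Q.conjO : 𝓞 E →+* 𝓞 E) = q')
    (hPq : extId E P = q * q') (x : 𝓞 E)
    (hx : ∀ y, Algebra.intTrace (𝓞 M) (𝓞 E) (x * y) ∈ P) : x ∈ extId E P := by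
  have hsup : q ⊔ q' = ⊤ := Ideal.IsMaximal.coprime_of_ne inferInstance inferInstance hne
  have hq : extId E P ≤ q := hPq ▸ Ideal.mul_le_left
  have hq' : extId E P ≤ q' := hPq ▸ Ideal.mul_le_right
  obtain ⟨r, hr, r', hr', hrr⟩ := Submodule.mem_sup.1 (show (1 : 𝓞 E) ∈ q ⊔ q' by simp [hsup])
  rw [hPq, Ideal.mul_eq_inf_of_coprime hsup]
  refine ⟨?_, ?_⟩
  · have h := hq (Ideal.mem_map_of_mem (algebraMap (𝓞 M) (𝓞 E)) (hx r'))
    rw [algebraMap_intTrace_eq Q] at h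
    have h2 := q.add_mem (q.sub_mem h (show Q.conjO (x * r') ∈ q from
      conjO_mem_of_map_eq' Q hc (q'.mul_mem_left _ hr'))) (q.mul_mem_left x hr)
    rw [add_sub_cancel_right, ← mul_add, add_comm, hrr, mul_one] at h2
    exact h2
  · have h := hq' (Ideal.mem_map_of_mem (algebraMap (𝓞 M) (𝓞 E)) (hx r))
    rw [algebraMap_intTrace_eq Q] at h
    have h2 := q'.add_mem (q'.sub_mem h (show Q.conjO (x * r) ∈ q' from
      conjO_mem_of_map_eq Q hc (q.mul_mem_left _ hr))) (q'.mul_mem_left x hr')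
    rw [add_sub_cancel_right, ← mul_add, hrr, mul_one] at h2
    exact h2

end Split

section Inert

variable {P : Ideal (𝓞 M)} [P.IsMaximal]

include Q in
/-- A generator of the residue units is sent to its `N P`-th power by the involution. -/
theorem inert_generator (hP : P ≠ ⊥) [hm : (extId E P).IsMaximal] :
    ∃ g : (𝓞 E ⧸ extId E P)ˣ, (∀ u, u ∈ Subgroup.zpowers g) ∧ ∀ x : 𝓞 E,
      Ideal.Quotient.mk (extId E P) x = g →
        Ideal.Quotient.mk (extId E P) (Q.conjO x) = (g : 𝓞 E ⧸ extId E P) ^ Ideal.absNorm P ∧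
        (g : 𝓞 E ⧸ extId E P) ^ Ideal.absNorm P ≠ g := by
  classical
  letI : Field (𝓞 E ⧸ extId E P) := Ideal.Quotient.field _
  letI : Field (𝓞 M ⧸ P) := Ideal.Quotient.field P
  haveI : Finite (𝓞 M ⧸ P) := Ideal.finiteQuotientOfFreeOfNeBot _ hP
  haveI : Finite (𝓞 E ⧸ extId E P) := Ideal.finiteQuotientOfFreeOfNeBot _ (extId_ne_bot hP)
  haveI := Fintype.ofFinite (𝓞 M ⧸ P)
  obtain ⟨g, hg⟩ := IsCyclic.exists_generator (α := (𝓞 E ⧸ extId E P)ˣ)
  refine ⟨g, hg, fun x hx => ?_⟩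
  set n := Ideal.absNorm P with hn
  set π := Ideal.Quotient.mk (extId E P) with hπ
  set ι := algebraMap (𝓞 M) (𝓞 E) with hι
  have hk : Fintype.card (𝓞 M ⧸ P) = n := by
    rw [hn, Ideal.absNorm_apply, Submodule.cardQuot_apply, Nat.card_eq_fintype_card]
  have hcard : Nat.card (𝓞 E ⧸ extId E P) = n ^ 2 := by
    rw [← absNorm_extId Q P, Ideal.absNorm_apply, Submodule.cardQuot_apply]
  have hord : orderOf g = n ^ 2 - 1 := by
    rw [orderOf_eq_card_of_forall_mem_zpowers hg, Nat.card_units, hcard]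
  have h2 : 2 ≤ n := by
    rw [← hk]; exact Fintype.one_lt_card
  have hne : (g : 𝓞 E ⧸ extId E P) ^ n ≠ g := by
    intro h
    have h' : g ^ (n - 1) = 1 := by
      have h'' : g ^ n = g := Units.ext (by rw [Units.val_pow_eq_pow_val]; exact h)
      rw [← Nat.sub_add_cancel (show 1 ≤ n by omega), pow_succ] at h''
      exact mul_eq_right.1 h''
    have hd := orderOf_dvd_of_pow_eq_one h'
    rw [hord] at hd
    have hle := Nat.le_of_dvd (by omega) hd
    have : 2 * n ≤ n ^ 2 := by rw [sq]; exact Nat.mul_le_mul_right n h2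
    omega
  refine ⟨?_, hne⟩
  have hfix : ∀ m : 𝓞 M, π (ι m) ^ n = π (ι m) := fun m => by
    rw [← map_pow, ← map_pow, hπ, Ideal.Quotient.eq, ← map_sub]
    refine Ideal.mem_map_of_mem _ (Ideal.Quotient.eq.1 ?_)
    rw [map_pow, ← hk]
    exact FiniteField.pow_card _
  -- both `g` and `g ^ n` are roots of the characteristic polynomial
  have hrel : π x * π x - π (ι (Algebra.intTrace (𝓞 M) (𝓞 E) x)) * π x +
      π (ι (Algebra.intNorm (𝓞 M) (𝓞 E) x)) = 0 := by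
    rw [algebraMap_intTrace_eq Q, algebraMap_intNorm_eq Q, map_add, map_mul]
    ring
  obtain ⟨p, hp⟩ := CharP.exists (𝓞 E ⧸ extId E P)
  haveI := hp
  haveI hpp : Fact p.Prime := ⟨CharP.char_is_prime (𝓞 E ⧸ extId E P) p⟩
  haveI : CharP (𝓞 M ⧸ P) p := RingHom.charP _ (RingHom.injective
    (Ideal.quotientMap (extId E P) ι Ideal.le_comap_map)) p
  obtain ⟨⟨k, hk0⟩, -, hqk⟩ := FiniteField.card (𝓞 M ⧸ P) p
  have hnk : n = p ^ k := by rw [← hk, hqk]; rfl
  have hrel2 := congrArg (fun t => t ^ n) hrel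
  simp only [zero_pow (show n ≠ 0 by omega)] at hrel2
  rw [hnk, add_pow_char_pow, sub_pow_char_pow, mul_pow, mul_pow, ← hnk, hfix, hfix,
    algebraMap_intTrace_eq Q, algebraMap_intNorm_eq Q, map_add, map_mul] at hrel2
  have h3 : (π x ^ n - π x) * (π x ^ n - π (Q.conjO x)) = 0 := by linear_combination hrel2
  rcases mul_eq_zero.1 h3 with h | h
  · exact absurd (by rw [hx] at h; exact sub_eq_zero.1 h) hne
  · rw [← hx]; exact (sub_eq_zero.1 h).symm

include Q in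
theorem inert_surj (hP : P ≠ ⊥) [(extId E P).IsMaximal] (c : 𝓞 M) (hc : c ∉ P) :
    ∃ x : 𝓞 E, Algebra.intNorm (𝓞 M) (𝓞 E) x - c ∈ P := by
  classical
  letI : Field (𝓞 E ⧸ extId E P) := Ideal.Quotient.field _
  letI : Field (𝓞 M ⧸ P) := Ideal.Quotient.field P
  haveI : Finite (𝓞 M ⧸ P) := Ideal.finiteQuotientOfFreeOfNeBot _ hP
  haveI : Finite (𝓞 E ⧸ extId E P) := Ideal.finiteQuotientOfFreeOfNeBot _ (extId_ne_bot hP)
  obtain ⟨g, hg, hconj⟩ := inert_generator Q hP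
  obtain ⟨x, hx⟩ := Ideal.Quotient.mk_surjective (g : 𝓞 E ⧸ extId E P)
  obtain ⟨hgc, -⟩ := hconj x hx
  set n := Ideal.absNorm P with hn
  let i : 𝓞 M ⧸ P →+* 𝓞 E ⧸ extId E P := Ideal.quotientMap _ _ Ideal.le_comap_map
  set a0 : 𝓞 M ⧸ P := Ideal.Quotient.mk P (Algebra.intNorm (𝓞 M) (𝓞 E) x) with ha0
  have hia : i a0 = (g : 𝓞 E ⧸ extId E P) ^ (n + 1) := by
    rw [ha0]
    show Ideal.Quotient.mk _ (algebraMap (𝓞 M) (𝓞 E) _) = _
    rw [algebraMap_intNorm_eq Q, map_mul, hgc, hx, pow_succ, mul_comm]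
  have ha : a0 ≠ 0 := fun h => by
    rw [h, map_zero] at hia
    exact pow_ne_zero _ g.ne_zero hia.symm
  set a : (𝓞 M ⧸ P)ˣ := Units.mk0 a0 ha
  have hcard : Nat.card (𝓞 E ⧸ extId E P) = n ^ 2 := by
    rw [← absNorm_extId Q P, Ideal.absNorm_apply, Submodule.cardQuot_apply]
  have hk : Nat.card (𝓞 M ⧸ P) = n := by
    rw [hn, Ideal.absNorm_apply, Submodule.cardQuot_apply]
  have hda : orderOf a = n - 1 := by
    have h1 : Units.map (i : 𝓞 M ⧸ P →* 𝓞 E ⧸ extId E P) a = g ^ (n + 1) := Units.ext hia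
    rw [← orderOf_injective (Units.map (i : 𝓞 M ⧸ P →* 𝓞 E ⧸ extId E P))
      (Units.map_injective i.injective) a, h1, orderOf_pow' _ (Nat.succ_ne_zero n),
      orderOf_eq_card_of_forall_mem_zpowers hg, Nat.card_units, hcard]
    have hf : n ^ 2 - 1 = (n + 1) * (n - 1) := by
      simpa using Nat.sq_sub_sq n 1
    rw [hf, Nat.gcd_eq_right (dvd_mul_right _ _), Nat.mul_div_cancel_left _ (Nat.succ_pos n)]
  have htop : Subgroup.zpowers a = ⊤ := Subgroup.eq_top_of_card_eq _ (by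
    rw [Nat.card_zpowers, hda, Nat.card_units, hk])
  have hc0 : Ideal.Quotient.mk P c ≠ 0 := fun h => hc (Ideal.Quotient.eq_zero_iff_mem.1 h)
  obtain ⟨j, hj⟩ := mem_powers_iff_mem_zpowers.2 (htop ▸ Subgroup.mem_top (Units.mk0 _ hc0))
  refine ⟨x ^ j, Ideal.Quotient.eq.1 ?_⟩
  have hv := congrArg Units.val hj
  simp only [Units.val_pow_eq_pow_val, Units.val_mk0] at hv
  rw [← hv, map_pow, map_pow]
  rfl

include Q in
/-- The Gauss sum at an inert prime. -/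
theorem gauss_inert (hP : P ≠ ⊥) [hm : (extId E P).IsMaximal] {Ψ : AddChar (𝓞 M) ℂ}
    (htriv : ∀ x ∈ P, Ψ x = 1) (hprim : ∀ I, P < I → ∃ x ∈ I, Ψ x ≠ 1) :
    gauss (E := E) P Ψ = -(Ideal.absNorm P : ℂ) := by
  have hZ : Nat.card {z : 𝓞 E ⧸ extId E P // normBar P z = 0} = 1 := by
    have h0 : ∀ z : 𝓞 E ⧸ extId E P, normBar P z = 0 → z = 0 := fun z hz => by
      obtain ⟨x, rfl⟩ := Ideal.Quotient.mk_surjective z
      rw [normBar_mk Q, Ideal.Quotient.eq_zero_iff_mem] at hz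
      have h := Ideal.mem_map_of_mem (algebraMap (𝓞 M) (𝓞 E)) hz
      rw [algebraMap_intNorm_eq Q] at h
      refine Ideal.Quotient.eq_zero_iff_mem.2 ((hm.isPrime.mem_or_mem h).elim id fun h' => ?_)
      rw [← conjO_conjO Q x]
      exact conjO_mem_extId Q h'
    rw [Nat.card_eq_one_iff_unique]
    refine ⟨⟨fun u v => Subtype.ext ((h0 _ u.2).trans (h0 _ v.2).symm)⟩, ⟨⟨0, ?_⟩⟩⟩
    rw [← map_zero (Ideal.Quotient.mk (extId E P)), normBar_mk Q, intNorm_zero Q, map_zero]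
  have h := gauss_prime_count Q hP (inert_surj Q hP) htriv hprim
  rw [hZ, Nat.cast_one] at h
  have h1 : (Ideal.absNorm P : ℂ) - 1 ≠ 0 := by
    rw [sub_ne_zero]
    exact_mod_cast fun h : Ideal.absNorm P = 1 =>
      (Ideal.IsMaximal.ne_top (I := P) inferInstance) (Ideal.absNorm_eq_one_iff.1 h)
  refine mul_left_cancel₀ h1 ?_
  linear_combination h

include Q in
theorem nondeg_inert (hP : P ≠ ⊥) [hm : (extId E P).IsMaximal] (x : 𝓞 E)
    (hx : ∀ y, Algebra.intTrace (𝓞 M) (𝓞 E) (x * y) ∈ P) : x ∈ extId E P := by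
  by_contra hxP
  obtain ⟨y, p, hp, hyp⟩ := hm.exists_inv hxP
  have hall : ∀ w : 𝓞 E, Algebra.intTrace (𝓞 M) (𝓞 E) w ∈ P := fun w => by
    rw [show w = x * (y * w) + 1 * (p * w) by linear_combination -w * hyp, map_add]
    exact P.add_mem (hx _) (intTrace_mul_mem (Ideal.mul_mem_right _ _ hp) _)
  set π := Ideal.Quotient.mk (extId E P)
  have hneg : ∀ w : 𝓞 E, π w + π (Q.conjO w) = 0 := fun w => by
    rw [← map_add, Ideal.Quotient.eq_zero_iff_mem, ← algebraMap_intTrace_eq Q]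
    exact Ideal.mem_map_of_mem _ (hall w)
  obtain ⟨g, -, hconj⟩ := inert_generator Q hP
  obtain ⟨w, hw⟩ := Ideal.Quotient.mk_surjective (g : 𝓞 E ⧸ extId E P)
  obtain ⟨hgc, hne⟩ := hconj w hw
  have h1 : (1 : 𝓞 E ⧸ extId E P) + 1 = 0 := by simpa using hneg 1
  have hw2 := hneg w
  rw [hw, hgc] at hw2
  exact hne (by linear_combination hw2 - (g : 𝓞 E ⧸ extId E P) * h1)

end Inert

end FLTAgent.LT.ThetaM
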