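import Fermat.Agent.LT.ThetaM.GaussBase

/-!
# The two reduction steps for the Gauss sum: coprime factors and squared primes
-/

set_option autoImplicit false
set_option linter.style.haveILetI false
set_option linter.unusedSectionVars false

noncomputable section

namespace FLTAgent.LT.ThetaM

open NumberField IsDedekindDomain

variable {M E : Type} [Field M] [NumberField M] [Field E] [NumberField E] [Algebra M E]
  (Q : Quad M E)

/-- `Ψ (m · x)`. -/
def shiftChar {R : Type*} [CommRing R] (Ψ : AddChar R ℂ) (m : R) : AddChar R ℂ :=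
  Ψ.compAddMonoidHom (AddMonoidHom.mulLeft m)

theorem shiftChar_apply {R : Type*} [CommRing R] (Ψ : AddChar R ℂ) (m x : R) :
    shiftChar Ψ m x = Ψ (m * x) := rfl

theorem out_sub_mem {R : Type*} [CommRing R] (I : Ideal R) (x : R) :
    (Ideal.Quotient.mk I x).out - x ∈ I :=
  Ideal.Quotient.eq.1 (Ideal.Quotient.mk_out _)

theorem eq_of_out_sub_mem {R : Type*} [CommRing R] {I : Ideal R} {u w : R ⧸ I}
    (h : u.out - w.out ∈ I) : u = w := by
  rw [← Ideal.Quotient.mk_out u, ← Ideal.Quotient.mk_out w]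
  exact Ideal.Quotient.eq.2 h

theorem lt_mul_left_of_lt {R : Type*} [CommRing R] [IsDedekindDomain R]
    {P c I : Ideal R} (hP : P ≠ ⊥) (h : c < I) : P * c < P * I :=
  lt_of_le_of_ne (Ideal.mul_mono_right h.le) fun he => h.ne (mul_left_cancel₀ hP he)

/-- Primitivity passes to a coprime factor. -/
theorem shiftChar_primitive {R : Type*} [CommRing R] [IsDedekindDomain R]
    {P b : Ideal R} (hb : b ≠ ⊥) {Ψ : AddChar R ℂ} (htriv : ∀ x ∈ P * b, Ψ x = 1)
    (hprim : ∀ I, P * b < I → ∃ x ∈ I, Ψ x ≠ 1) {e e' : R} (he' : e' ∈ P) (hee : e + e' = 1)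
    (I : Ideal R) (hI : P < I) : ∃ x ∈ I, shiftChar Ψ (e ^ 2) x ≠ 1 := by
  by_contra hall
  push Not at hall
  obtain ⟨z, hz, hzne⟩ := hprim (I * b) (by
    rw [mul_comm P b, mul_comm I b]; exact lt_mul_left_of_lt hb hI)
  refine hzne ((addChar_eq_of_sub_mem htriv ?_).trans (hall z (Ideal.mul_le_left hz)))
  show z - e ^ 2 * z ∈ P * b
  rw [show z - e ^ 2 * z = e' * ((1 + e) * z) by rw [show e' = 1 - e from eq_sub_of_add_eq' hee]; ring]
  exact Ideal.mul_mem_mul he' (b.mul_mem_left _ (Ideal.mul_le_right hz))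

set_option maxHeartbeats 1000000 in
-- sums over quotients of rings of integers
/-- Coprime factors. -/
theorem gauss_mul {P b : Ideal (𝓞 M)} (hP : P ≠ ⊥) (hb : b ≠ ⊥) (hco : P ⊔ b = ⊤)
    {Ψ : AddChar (𝓞 M) ℂ} (htriv : ∀ x ∈ P * b, Ψ x = 1)
    (hprim : ∀ I, P * b < I → ∃ x ∈ I, Ψ x ≠ 1) (Qd : Quad M E) :
    ∃ Ψ₁ Ψ₂ : AddChar (𝓞 M) ℂ,
      (∀ x ∈ P, Ψ₁ x = 1) ∧ (∀ I, P < I → ∃ x ∈ I, Ψ₁ x ≠ 1) ∧
      (∀ x ∈ b, Ψ₂ x = 1) ∧ (∀ I, b < I → ∃ x ∈ I, Ψ₂ x ≠ 1) ∧
      gauss (E := E) (P * b) Ψ = gauss (E := E) P Ψ₁ * gauss (E := E) b Ψ₂ := by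
  obtain ⟨e', he', e, he, hee'⟩ := Submodule.mem_sup.1 (show (1 : 𝓞 M) ∈ P ⊔ b by simp [hco])
  have hee : e + e' = 1 := by rw [add_comm]; exact hee'
  have h₁ : ∀ x ∈ P, shiftChar Ψ (e ^ 2) x = 1 := fun x hx => htriv _ (by
    show e ^ 2 * x ∈ P * b
    rw [mul_comm P b, sq, mul_assoc]
    exact Ideal.mul_mem_mul he (P.mul_mem_left _ hx))
  have h₂ : ∀ x ∈ b, shiftChar Ψ (e' ^ 2) x = 1 := fun x hx => htriv _ (by
    show e' ^ 2 * x ∈ P * b
    rw [sq, mul_assoc]
    exact Ideal.mul_mem_mul he' (b.mul_mem_left _ hx))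
  refine ⟨_, _, h₁, shiftChar_primitive hb htriv hprim he' hee, h₂,
    shiftChar_primitive hP (fun x hx => htriv x (mul_comm b P ▸ hx))
      (fun I hI => hprim I (mul_comm b P ▸ hI)) he (by rw [add_comm]; exact hee), ?_⟩
  haveI : Fintype (𝓞 E ⧸ extId E P) :=
    @Fintype.ofFinite _ (Ideal.finiteQuotientOfFreeOfNeBot _ (extId_ne_bot hP))
  haveI : Fintype (𝓞 E ⧸ extId E b) :=
    @Fintype.ofFinite _ (Ideal.finiteQuotientOfFreeOfNeBot _ (extId_ne_bot hb))
  set ι := algebraMap (𝓞 M) (𝓞 E) with hι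
  have hιee : ι e + ι e' = 1 := by rw [← map_add, hee, map_one]
  have hιe : ι e ∈ extId E b := Ideal.mem_map_of_mem _ he
  have hιe' : ι e' ∈ extId E P := Ideal.mem_map_of_mem _ he'
  rw [gauss_eq_sum Qd htriv (ι := (𝓞 E ⧸ extId E P) × (𝓞 E ⧸ extId E b))
    (fun p => ι e * p.1.out + ι e' * p.2.out) ?_ ?_,
    gauss, gauss, finsum_eq_sum_of_fintype, finsum_eq_sum_of_fintype, Finset.sum_mul_sum,
    Fintype.sum_prod_type]
  · refine Finset.sum_congr rfl fun u _ => Finset.sum_congr rfl fun w _ => ?_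
    rw [shiftChar_apply, shiftChar_apply, ← AddChar.map_add_eq_mul, intNorm_add Qd,
      intNorm_algebraMap_mul Qd, intNorm_algebraMap_mul Qd]
    refine addChar_eq_of_sub_mem htriv ?_
    rw [show ∀ A T B : 𝓞 M, A + T + B - (A + B) = T from fun A T B => by ring]
    have h : Qd.conjO (ι e * u.out) * (ι e' * w.out) ∈ extId E (P * b) := by
      rw [mul_comm P b, extId, Ideal.map_mul]
      exact Ideal.mul_mem_mul (conjO_mem_extId Qd (Ideal.mul_mem_right _ _ hιe))
        (Ideal.mul_mem_right _ _ hιe')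
    have h1 := intTrace_mul_mem h 1
    rwa [one_mul] at h1
  · rintro ⟨u, w⟩ ⟨u', w'⟩ h
    have hP' : ι e * u.out + ι e' * w.out - (ι e * u'.out + ι e' * w'.out) ∈ extId E P :=
      Ideal.map_mono Ideal.mul_le_left h
    have hb' : ι e * u.out + ι e' * w.out - (ι e * u'.out + ι e' * w'.out) ∈ extId E b :=
      Ideal.map_mono Ideal.mul_le_right h
    refine Prod.ext (eq_of_out_sub_mem ?_) (eq_of_out_sub_mem ?_)
    · have h' := sub_mem hP' (Ideal.mul_mem_right ((w.out - w'.out) - (u.out - u'.out)) _ hιe')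
      convert h' using 1
      linear_combination -(u.out - u'.out) * hιee
    · have h' := sub_mem hb' (Ideal.mul_mem_right ((u.out - u'.out) - (w.out - w'.out)) _ hιe)
      convert h' using 1
      linear_combination -(w.out - w'.out) * hιee
  · intro x
    refine ⟨(Ideal.Quotient.mk _ x, Ideal.Quotient.mk _ x), ?_⟩
    set u := (Ideal.Quotient.mk (extId E P) x).out
    set w := (Ideal.Quotient.mk (extId E b) x).out
    rw [show x - (ι e * u + ι e' * w) = (x - u) * ι e + ι e' * (x - w) by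
      linear_combination -x * hιee, extId, Ideal.map_mul]
    exact add_mem (Ideal.mul_mem_mul (by rw [← neg_sub]; exact neg_mem (out_sub_mem _ x)) hιe)
      (Ideal.mul_mem_mul hιe' (by rw [← neg_sub]; exact neg_mem (out_sub_mem _ x)))

set_option maxHeartbeats 1600000 in
-- sums over quotients of rings of integers
/-- A squared prime. -/
theorem gauss_sq_mul {P c : Ideal (𝓞 M)} [P.IsMaximal] (hP : P ≠ ⊥) (hc : c ≠ ⊥)
    (hnd : ∀ x : 𝓞 E, (∀ y, Algebra.intTrace (𝓞 M) (𝓞 E) (x * y) ∈ P) → x ∈ extId E P)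
    {Ψ : AddChar (𝓞 M) ℂ} (htriv : ∀ x ∈ P * (P * c), Ψ x = 1)
    (hprim : ∀ I, P * (P * c) < I → ∃ x ∈ I, Ψ x ≠ 1) (Qd : Quad M E) :
    ∃ Ψ₃ : AddChar (𝓞 M) ℂ, (∀ x ∈ c, Ψ₃ x = 1) ∧ (∀ I, c < I → ∃ x ∈ I, Ψ₃ x ≠ 1) ∧
      gauss (E := E) (P * (P * c)) Ψ = (Ideal.absNorm P : ℂ) ^ 2 * gauss (E := E) c Ψ₃ := by
  classical
  set a := P * (P * c) with ha_def
  set b := P * c with hb_def
  have hb : b ≠ ⊥ := mul_ne_zero hP hc
  have ha : a ≠ ⊥ := mul_ne_zero hP hb
  have hab : a ≤ P := Ideal.mul_le_left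
  have hbb : b * b ≤ a := by
    rw [ha_def, hb_def, show P * c * (P * c) = P * (P * c) * c by ring]
    exact Ideal.mul_le_left
  obtain ⟨z, hz⟩ := exists_sup_span_eq hab ha
  have hzP : z ∈ P := hz ▸ Ideal.mem_sup_right (Ideal.subset_span rfl)
  have h₃ : ∀ x ∈ c, shiftChar Ψ (z ^ 2) x = 1 := fun x hx => htriv _ (by
    show z ^ 2 * x ∈ a
    rw [sq, mul_assoc]
    exact Ideal.mul_mem_mul hzP (Ideal.mul_mem_mul hzP hx))
  have h₃' : ∀ I, c < I → ∃ x ∈ I, shiftChar Ψ (z ^ 2) x ≠ 1 := by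
    intro I hI
    by_contra hall
    push Not at hall
    obtain ⟨t, ht, htne⟩ := hprim (P * (P * I))
      (lt_mul_left_of_lt hP (lt_mul_left_of_lt hP hI))
    have hle : P * (P * I) ≤ a ⊔ Ideal.span {z ^ 2} * I := by
      rw [← hz]
      simp only [Ideal.mul_sup, Ideal.sup_mul, sup_le_iff]
      refine ⟨⟨le_sup_of_le_left Ideal.mul_le_left, ?_⟩,
        le_sup_of_le_left Ideal.mul_le_left, ?_⟩
      · exact le_sup_of_le_left (Ideal.mul_le_right.trans Ideal.mul_le_left)
      · rw [← mul_assoc, Ideal.span_singleton_mul_span_singleton, ← sq]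
        exact le_sup_right
    obtain ⟨r, hr, s, hs, rfl⟩ := Submodule.mem_sup.1 (hle ht)
    obtain ⟨i, hi, rfl⟩ := Ideal.mem_span_singleton_mul.1 hs
    refine htne ?_
    rw [AddChar.map_add_eq_mul, htriv r hr, one_mul]
    exact hall i hi
  refine ⟨_, h₃, h₃', ?_⟩
  set ι := algebraMap (𝓞 M) (𝓞 E) with hι
  have hιz : ι z ∈ extId E P := Ideal.mem_map_of_mem _ hzP
  have hPb : extId E a = extId E P * extId E b := Ideal.map_mul _ _ _
  have hba : extId E a ≤ extId E b := Ideal.map_mono Ideal.mul_le_right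
  have hbP : extId E b ≤ extId E P := Ideal.map_mono Ideal.mul_le_left
  haveI hfa : Finite (𝓞 E ⧸ extId E a) := Ideal.finiteQuotientOfFreeOfNeBot _ (extId_ne_bot ha)
  haveI hfb : Finite (𝓞 E ⧸ extId E b) := Ideal.finiteQuotientOfFreeOfNeBot _ (extId_ne_bot hb)
  haveI hfc : Finite (𝓞 E ⧸ extId E c) := Ideal.finiteQuotientOfFreeOfNeBot _ (extId_ne_bot hc)
  haveI := Fintype.ofFinite (𝓞 E ⧸ extId E b)
  haveI := Fintype.ofFinite (𝓞 E ⧸ extId E c)
  let K : Ideal (𝓞 E ⧸ extId E a) := (extId E b).map (Ideal.Quotient.mk _)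
  haveI := Fintype.ofFinite K
  have hK : ∀ t : K, (t : 𝓞 E ⧸ extId E a).out ∈ extId E b := fun t => by
    obtain ⟨s, hs, hst⟩ :=
      (Ideal.mem_map_iff_of_surjective _ Ideal.Quotient.mk_surjective).1 t.2
    have h := out_sub_mem (extId E a) s
    rw [hst] at h
    have h' := add_mem (hba h) hs
    rwa [sub_add_cancel] at h'
  let f : (𝓞 E ⧸ extId E b) × K → 𝓞 E := fun p => p.1.out + (p.2 : 𝓞 E ⧸ extId E a).out
  have hinj : ∀ p p', f p - f p' ∈ extId E a → p = p' := by
    rintro ⟨u, t⟩ ⟨u', t'⟩ h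
    have hu : u = u' := eq_of_out_sub_mem (by
      have h' := sub_mem (hba h) (sub_mem (hK t) (hK t'))
      convert h' using 1
      simp only [f]; ring)
    subst hu
    refine Prod.ext rfl (Subtype.ext (eq_of_out_sub_mem ?_))
    simpa [f] using h
  have hsurj : ∀ x, ∃ p, x - f p ∈ extId E a := fun x => by
    set u := Ideal.Quotient.mk (extId E b) x
    have hu : x - u.out ∈ extId E b := by rw [← neg_sub]; exact neg_mem (out_sub_mem _ x)
    refine ⟨(u, ⟨Ideal.Quotient.mk _ (x - u.out), Ideal.mem_map_of_mem _ hu⟩), ?_⟩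
    show x - (u.out + _) ∈ _
    rw [← sub_sub, ← neg_sub]
    exact neg_mem (out_sub_mem _ _)
  have hcard : Fintype.card K = Ideal.absNorm P ^ 2 := by
    have hbij : Function.Bijective fun p => Ideal.Quotient.mk (extId E a) (f p) :=
      ⟨fun p p' h => hinj p p' (Ideal.Quotient.eq.1 h), fun x => by
        obtain ⟨x, rfl⟩ := Ideal.Quotient.mk_surjective x
        obtain ⟨p, hp⟩ := hsurj x
        exact ⟨p, (Ideal.Quotient.eq.2 hp).symm⟩⟩
    have h := Nat.card_eq_of_bijective _ hbij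
    have e := congrArg Ideal.absNorm hPb
    rw [map_mul, absNorm_extId Qd P] at e
    rw [Nat.card_prod, ← Submodule.cardQuot_apply (extId E b), ← Submodule.cardQuot_apply (extId E a),
      ← Ideal.absNorm_apply, ← Ideal.absNorm_apply, e,
      mul_comm (Ideal.absNorm P ^ 2), Nat.card_eq_fintype_card] at h
    exact Nat.eq_of_mul_eq_mul_left
      (Nat.pos_of_ne_zero (Ideal.absNorm_eq_zero_iff.not.2 (extId_ne_bot hb))) h
  -- the character in the small variable
  let χ : (𝓞 E ⧸ extId E b) → AddChar K ℂ := fun u =>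
    { toFun := fun t => Ψ (Algebra.intTrace (𝓞 M) (𝓞 E) (Qd.conjO u.out * (t : 𝓞 E ⧸ extId E a).out))
      map_zero_eq_one' := htriv _ (intTrace_mul_mem (Ideal.Quotient.eq_zero_iff_mem.1
        (Ideal.Quotient.mk_out (0 : 𝓞 E ⧸ extId E a))) _)
      map_add_eq_mul' := fun s t => by
        rw [← AddChar.map_add_eq_mul, ← map_add, ← mul_add]
        refine addChar_eq_of_sub_mem htriv ?_
        rw [← map_sub, ← mul_sub]
        refine intTrace_mul_mem (Ideal.Quotient.eq.1 ?_) _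
        rw [map_add, Ideal.Quotient.mk_out, Ideal.Quotient.mk_out, Ideal.Quotient.mk_out]
        rfl }
  have hχ : ∀ u, χ u = 1 ↔ u.out ∈ extId E P := fun u => by
    constructor
    · intro h1
      rw [← conjO_conjO Qd u.out]
      refine conjO_mem_extId Qd (hnd _ fun y => ?_)
      set s := Algebra.intTrace (𝓞 M) (𝓞 E) (Qd.conjO u.out * y)
      have hm : ∀ m ∈ b, Ψ (m * s) = 1 := fun m hm => by
        have hmem : ι m * y ∈ extId E b := Ideal.mul_mem_right _ _ (Ideal.mem_map_of_mem _ hm)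
        have h2 := congrArg (fun ψ : AddChar K ℂ =>
          ψ ⟨Ideal.Quotient.mk _ (ι m * y), Ideal.mem_map_of_mem _ hmem⟩) h1
        change Ψ (Algebra.intTrace (𝓞 M) (𝓞 E) (Qd.conjO u.out *
          (Ideal.Quotient.mk (extId E a) (ι m * y)).out)) = 1 at h2
        rw [← h2]
        refine addChar_eq_of_sub_mem htriv ?_
        rw [← smul_eq_mul, ← map_smul, ← map_sub, Algebra.smul_def]
        refine intTrace_mul_mem (y := 1) ?_ |> fun h => by rwa [one_mul] at h
        have h3 := Ideal.mul_mem_left _ (Qd.conjO u.out) (out_sub_mem (extId E a) (ι m * y))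
        have h4 := neg_mem h3
        convert h4 using 1
        rw [hι]; ring
      by_contra hs
      have hlt : a < b * Ideal.span {s} ⊔ a := by
        refine lt_of_le_of_ne le_sup_right fun heq => hs ?_
        have hle : b * Ideal.span {s} ≤ b * P := (le_sup_left.trans heq.ge).trans (mul_comm P b).le
        rw [← Ideal.dvd_iff_le, mul_dvd_mul_iff_left hb, Ideal.dvd_span_singleton] at hle
        exact hle
      obtain ⟨x, hx, hxne⟩ := hprim _ hlt
      obtain ⟨r, hr, r', hr', rfl⟩ := Submodule.mem_sup.1 hx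
      obtain ⟨m, hm', rfl⟩ := Ideal.mem_mul_span_singleton.1 hr
      exact hxne (by rw [AddChar.map_add_eq_mul, hm m hm', htriv r' hr', one_mul])
    · intro hu
      refine DFunLike.ext _ _ fun t => htriv _ ?_
      have h : Qd.conjO u.out * (t : 𝓞 E ⧸ extId E a).out ∈ extId E a := by
        exact hPb.ge (Ideal.mul_mem_mul (conjO_mem_extId Qd hu) (hK t))
      have h1 := intTrace_mul_mem h 1
      rwa [one_mul] at h1
  have hsum : ∀ u, ∑ t : K, Ψ (Algebra.intNorm (𝓞 M) (𝓞 E) (f (u, t))) =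
      if u.out ∈ extId E P then
        (Ideal.absNorm P : ℂ) ^ 2 * Ψ (Algebra.intNorm (𝓞 M) (𝓞 E) u.out) else 0 := fun u => by
    have hterm : ∀ t : K, Ψ (Algebra.intNorm (𝓞 M) (𝓞 E) (f (u, t))) =
        Ψ (Algebra.intNorm (𝓞 M) (𝓞 E) u.out) * χ u t := fun t => by
      show _ = _ * Ψ _
      rw [← AddChar.map_add_eq_mul]
      refine addChar_eq_of_sub_mem htriv ?_
      show Algebra.intNorm (𝓞 M) (𝓞 E) (u.out + (t : 𝓞 E ⧸ extId E a).out) - _ ∈ a
      rw [intNorm_add Qd, add_sub_cancel_left]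
      exact hbb (intNorm_mem Qd (hK t))
    rw [Finset.sum_congr rfl fun t _ => hterm t, ← Finset.mul_sum]
    split_ifs with hu
    · rw [(hχ u).2 hu]
      simp [hcard, mul_comm]
    · rw [AddChar.sum_eq_zero_of_ne_one (fun h => hu ((hχ u).1 h)), mul_zero]
  rw [gauss_eq_sum Qd htriv f hinj hsurj, Fintype.sum_prod_type,
    Finset.sum_congr rfl fun u _ => hsum u, ← Finset.sum_filter, ← Finset.mul_sum]
  congr 1
  rw [gauss, finsum_eq_sum_of_fintype]
  refine (Finset.sum_bij (fun y _ => Ideal.Quotient.mk (extId E b) (ι z * y.out)) ?_ ?_ ?_ ?_).symm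
  · intro y _
    rw [Finset.mem_filter]
    refine ⟨Finset.mem_univ _, ?_⟩
    have h := add_mem (hbP (out_sub_mem (extId E b) (ι z * y.out)))
      (Ideal.mul_mem_right y.out _ hιz)
    rwa [sub_add_cancel] at h
  · intro y _ y' _ h
    refine eq_of_out_sub_mem ?_
    have hd : ι z * (y.out - y'.out) ∈ extId E b := by rw [mul_sub]; exact Ideal.Quotient.eq.1 h
    have hle : extId E P * Ideal.span {y.out - y'.out} ≤ extId E P * extId E c := by
      rw [← Ideal.map_mul, ← hb_def]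
      conv_lhs => rw [← hz, extId, Ideal.map_sup, Ideal.map_span, Set.image_singleton]
      rw [Ideal.sup_mul, sup_le_iff, Ideal.span_singleton_mul_span_singleton,
        Ideal.span_singleton_le_iff_mem]
      exact ⟨Ideal.mul_le_left.trans hba, hd⟩
    rw [← Ideal.dvd_iff_le, mul_dvd_mul_iff_left (extId_ne_bot hP), Ideal.dvd_span_singleton] at hle
    exact hle
  · intro u hu
    rw [Finset.mem_filter] at hu
    have hmem := hu.2
    rw [extId, ← hz, Ideal.map_sup, Ideal.map_span, Set.image_singleton, Submodule.mem_sup] at hmem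
    obtain ⟨r, hr, s, hs, hrs⟩ := hmem
    obtain ⟨y, rfl⟩ := Ideal.mem_span_singleton'.1 hs
    refine ⟨Ideal.Quotient.mk _ y, Finset.mem_univ _, ?_⟩
    rw [← Ideal.Quotient.mk_out u]
    refine Ideal.Quotient.eq.2 ?_
    rw [← hrs, show ι z * (Ideal.Quotient.mk (extId E c) y).out - (r + y * ι z) =
      ι z * ((Ideal.Quotient.mk (extId E c) y).out - y) - r by ring]
    refine sub_mem ?_ (hba hr)
    rw [show extId E b = extId E P * extId E c from Ideal.map_mul _ _ _]
    exact Ideal.mul_mem_mul hιz (out_sub_mem _ y)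
  · intro y _
    rw [shiftChar_apply, ← intNorm_algebraMap_mul Qd]
    refine addChar_eq_of_sub_mem htriv ?_
    set w := ι z * y.out
    set d := (Ideal.Quotient.mk (extId E b) w).out - w
    have hd : d ∈ extId E b := out_sub_mem _ _
    rw [show (Ideal.Quotient.mk (extId E b) w).out = w + d by ring, ← neg_mem_iff, neg_sub,
      intNorm_add Qd, add_assoc, add_sub_cancel_left]
    have h : Qd.conjO w * d ∈ extId E a := by
      exact hPb.ge (Ideal.mul_mem_mul (conjO_mem_extId Qd (Ideal.mul_mem_right _ _ hιz)) hd)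
    have h1 := intTrace_mul_mem h 1
    rw [one_mul] at h1
    exact a.add_mem h1 (hbb (intNorm_mem Qd hd))

end FLTAgent.LT.ThetaM
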