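import Fermat.Agent.LT.Hyp.Act

/-!
# The archimedean theta kernel and the Bessel kernel

`sTerm p (y₁, y₂) = t exp (-2π t (|y₁|² + |y₂|²) + 4π i Re (z y₁ y₂))` for `p = z + t j` is the
Gaussian of the theta series attached to the norm form, `wTerm p ξ` its average over the torus
`(eˢ y₁, e⁻ˢ y₂)` with `ξ = y₁ y₂`.
-/

set_option autoImplicit false

noncomputable section

namespace FLTAgent.LT.ThetaM

open MeasureTheory Complex
open scoped Real ComplexConjugate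

/-- The Bessel kernel `½ ∫₀^∞ exp (-2π y (u + 1/u)) du / u`. -/
def bK (y : ℝ) : ℝ := ∫ s : ℝ, Real.exp (-(4 * π * y * Real.cosh (2 * s)))

/-- The theta kernel. -/
def sTerm (p : H3) (y : ℂ × ℂ) : ℂ :=
  ((p.2 : ℝ) : ℂ) * cexp (((-(2 * π * p.2 * (‖y.1‖ ^ 2 + ‖y.2‖ ^ 2)) : ℝ) : ℂ) +
    ((4 * π * (p.1 * (y.1 * y.2)).re : ℝ) : ℂ) * I)

/-- The Whittaker term of the frequency `ξ`. -/
def wTerm (p : H3) (ξ : ℂ) : ℂ :=
  (((p.2 : ℝ) * bK (p.2 * ‖ξ‖) : ℝ) : ℂ) * cexp (((4 * π * (p.1 * ξ).re : ℝ) : ℂ) * I)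

theorem one_add_sq_half_le_cosh (x : ℝ) : 1 + x ^ 2 / 2 ≤ Real.cosh x := by
  have h := Real.cosh_two_mul (x / 2)
  rw [show 2 * (x / 2) = x by ring, Real.cosh_sq] at h
  have h2 : (x / 2) ^ 2 ≤ Real.sinh (x / 2) ^ 2 := by
    rw [← sq_abs (x / 2), ← sq_abs (Real.sinh (x / 2)), Real.abs_sinh]
    gcongr
    exact Real.self_le_sinh_iff.2 (abs_nonneg _)
  linarith [h, h2]

theorem integrable_exp_neg_cosh {c k : ℝ} (hc : 0 < c) (hk : k ≠ 0) :
    Integrable fun s : ℝ => Real.exp (-(c * Real.cosh (k * s))) := by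
  refine (integrable_exp_neg_mul_sq (b := c * k ^ 2 / 2) (by positivity)).mono'
    (by fun_prop) (Filter.Eventually.of_forall fun s => ?_)
  rw [Real.norm_eq_abs, abs_of_pos (Real.exp_pos _), Real.exp_le_exp]
  have := one_add_sq_half_le_cosh (k * s)
  nlinarith [mul_le_mul_of_nonneg_left this hc.le]

theorem integrable_bK {y : ℝ} (hy : 0 < y) :
    Integrable fun s : ℝ => Real.exp (-(4 * π * y * Real.cosh (2 * s))) :=
  integrable_exp_neg_cosh (by positivity) two_ne_zero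

theorem bK_nonneg (y : ℝ) : 0 ≤ bK y := integral_nonneg fun _ => (Real.exp_pos _).le

theorem bK_pos {y : ℝ} (hy : 0 < y) : 0 < bK y :=
  integral_exp_pos (integrable_bK hy)

theorem bK_anti {x y : ℝ} (hx : 0 < x) (hxy : x ≤ y) : bK y ≤ bK x := by
  refine integral_mono (integrable_bK (hx.trans_le hxy)) (integrable_bK hx) fun s => ?_
  simp only [Real.exp_le_exp, neg_le_neg_iff]
  exact mul_le_mul_of_nonneg_right (mul_le_mul_of_nonneg_left hxy (by positivity))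
    (Real.cosh_pos _).le

theorem continuousOn_bK : ContinuousOn bK (Set.Ioi 0) := by
  intro y₀ hy₀
  have h2 : (0 : ℝ) < y₀ / 2 := half_pos hy₀
  refine ContinuousAt.continuousWithinAt ?_
  refine continuousAt_of_dominated
    (bound := fun s => Real.exp (-(4 * π * (y₀ / 2) * Real.cosh (2 * s))))
    (Filter.Eventually.of_forall fun _ => by fun_prop) ?_ (integrable_bK h2)
    (Filter.Eventually.of_forall fun _ => by fun_prop)
  filter_upwards [Ioi_mem_nhds (half_lt_self hy₀)] with y hy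
  refine Filter.Eventually.of_forall fun s => ?_
  rw [Real.norm_eq_abs, abs_of_pos (Real.exp_pos _), Real.exp_le_exp, neg_le_neg_iff]
  exact mul_le_mul_of_nonneg_right (mul_le_mul_of_nonneg_left (le_of_lt hy) (by positivity))
    (Real.cosh_pos _).le

theorem norm_sTerm (p : H3) (y : ℂ × ℂ) :
    ‖sTerm p y‖ = (p.2 : ℝ) * Real.exp (-(2 * π * p.2 * (‖y.1‖ ^ 2 + ‖y.2‖ ^ 2))) := by
  rw [sTerm, norm_mul, Complex.norm_exp, Complex.norm_real, Real.norm_eq_abs,
    abs_of_pos p.2.2]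
  simp only [Complex.add_re, Complex.ofReal_re, Complex.mul_re, Complex.I_re, Complex.I_im,
    Complex.ofReal_im, mul_zero, mul_one, sub_zero, add_zero]

theorem norm_wTerm (p : H3) (ξ : ℂ) : ‖wTerm p ξ‖ = (p.2 : ℝ) * bK (p.2 * ‖ξ‖) := by
  have hp : (0 : ℝ) < p.2 := p.2.2
  rw [wTerm, norm_mul, Complex.norm_exp_ofReal_mul_I, mul_one, Complex.norm_real,
    Real.norm_eq_abs, abs_of_nonneg (mul_nonneg hp.le (bK_nonneg _))]

theorem continuous_sTerm : Continuous fun x : H3 × (ℂ × ℂ) => sTerm x.1 x.2 := by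
  unfold sTerm
  fun_prop

theorem continuous_sTerm_right (p : H3) : Continuous (sTerm p) :=
  continuous_sTerm.comp (Continuous.prodMk_right p)

theorem sTerm_swap (p : H3) (y : ℂ × ℂ) : sTerm p y.swap = sTerm p y := by
  simp [sTerm, add_comm, mul_comm]

/-- Rotating the two variables against each other does nothing. -/
theorem sTerm_rotate (p : H3) (ω : ℂ) (hω : ‖ω‖ = 1) (y : ℂ × ℂ) :
    sTerm p (ω * y.1, ω⁻¹ * y.2) = sTerm p y := by
  have h0 : ω ≠ 0 := fun h => by simp [h] at hω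
  have : ω * y.1 * (ω⁻¹ * y.2) = y.1 * y.2 := by field_simp
  simp only [sTerm, norm_mul, norm_inv, hω, inv_one, one_mul, this]

theorem sTerm_translate (p : H3) (β : ℂ) (y : ℂ × ℂ) :
    sTerm (p.1 + β, p.2) y =
      sTerm p y * cexp (((4 * π * (β * (y.1 * y.2)).re : ℝ) : ℂ) * I) := by
  simp only [sTerm]
  rw [mul_assoc ((p.2 : ℝ) : ℂ), ← Complex.exp_add, add_mul p.1 β, Complex.add_re]
  congr 2
  push_cast
  ring

theorem sTerm_scale (p : H3) {a : ℂ} (ha : a ≠ 0) (y : ℂ × ℂ) :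
    sTerm (a ^ 2 * p.1, ⟨‖a‖ ^ 2 * p.2, mul_pos (pow_pos (norm_pos_iff.2 ha) 2) p.2.2⟩) y =
      ((‖a‖ ^ 2 : ℝ) : ℂ) * sTerm p (a * y.1, a * y.2) := by
  simp only [sTerm, norm_mul]
  rw [show a * y.1 * (a * y.2) = a ^ 2 * (y.1 * y.2) by ring]
  push_cast
  ring_nf

theorem integral_sTerm_scale (p : H3) (y : ℂ × ℂ) (h1 : y.1 ≠ 0) (h2 : y.2 ≠ 0) :
    Integrable (fun s : ℝ => sTerm p ((Real.exp s : ℂ) * y.1, (Real.exp (-s) : ℂ) * y.2)) ∧
      ∫ s : ℝ, sTerm p ((Real.exp s : ℂ) * y.1, (Real.exp (-s) : ℂ) * y.2) =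
        wTerm p (y.1 * y.2) := by
  obtain ⟨t, rfl⟩ : ∃ t : ℝ, t = p.2 := ⟨_, rfl⟩
  have ht : (0 : ℝ) < p.2 := p.2.2
  set A := ‖y.1‖
  set B := ‖y.2‖
  have hA : 0 < A := norm_pos_iff.2 h1
  have hB : 0 < B := norm_pos_iff.2 h2
  have hy : 0 < (p.2 : ℝ) * (A * B) := by positivity
  obtain ⟨c, hc⟩ : ∃ c : ℝ, Real.exp c = A / B :=
    ⟨Real.log (A / B), Real.exp_log (div_pos hA hB)⟩
  have hexp : ∀ s : ℝ, sTerm p ((Real.exp s : ℂ) * y.1, (Real.exp (-s) : ℂ) * y.2) =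
      cexp (((4 * π * (p.1 * (y.1 * y.2)).re : ℝ) : ℂ) * I) *
        (((p.2 : ℝ) * Real.exp (-(4 * π * (p.2 * (A * B)) * Real.cosh (2 * (s + c / 2)))) : ℝ) :
          ℂ) := by
    intro s
    have e1 : (Real.exp s : ℂ) * y.1 * ((Real.exp (-s) : ℂ) * y.2) = y.1 * y.2 := by
      rw [mul_mul_mul_comm, ← Complex.ofReal_mul, ← Real.exp_add, add_neg_cancel, Real.exp_zero,
        Complex.ofReal_one, one_mul]
    have e2 : (Real.exp s * A) ^ 2 + (Real.exp (-s) * B) ^ 2 =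
        2 * (A * B) * Real.cosh (2 * (s + c / 2)) := by
      rw [Real.cosh_eq, show -(2 * (s + c / 2)) = -s + -s + -c by ring,
        show 2 * (s + c / 2) = s + s + c by ring, Real.exp_add, Real.exp_add, Real.exp_add,
        Real.exp_add, Real.exp_neg c, hc]
      field_simp
    simp only [sTerm, e1, norm_mul, Complex.norm_real, Real.norm_eq_abs, Real.abs_exp]
    rw [e2, Complex.exp_add, ← Complex.ofReal_exp]
    push_cast
    ring_nf
  simp only [hexp]
  have hi : Integrable fun s : ℝ =>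
      (p.2 : ℝ) * Real.exp (-(4 * π * (p.2 * (A * B)) * Real.cosh (2 * (s + c / 2)))) :=
    ((integrable_bK hy).comp_add_right (c / 2)).const_mul _
  refine ⟨hi.ofReal.const_mul _, ?_⟩
  rw [integral_const_mul, integral_complex_ofReal, integral_const_mul,
    integral_add_right_eq_self (μ := volume)
      (fun s => Real.exp (-(4 * π * (p.2 * (A * B)) * Real.cosh (2 * s))))]
  rw [wTerm, norm_mul]
  exact mul_comm _ _

/-! ### The Fourier transform -/

/-- Gaussian integrals over `ℂ`. -/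
theorem integral_gauss_complex {β : ℝ} (hβ : 0 < β) (p q : ℂ) :
    ∫ y : ℂ, cexp (-(β : ℂ) * ((‖y‖ ^ 2 : ℝ) : ℂ) + p * (y.re : ℂ) + q * (y.im : ℂ)) =
      (π / β : ℂ) * cexp ((p ^ 2 + q ^ 2) / (4 * β)) := by
  rw [← Complex.volume_preserving_equiv_real_prod.symm.integral_comp
    Complex.measurableEquivRealProd.symm.measurableEmbedding]
  have hf : ∀ x : ℝ × ℝ,
      cexp (-(β : ℂ) * ((‖Complex.measurableEquivRealProd.symm x‖ ^ 2 : ℝ) : ℂ) +
          p * ((Complex.measurableEquivRealProd.symm x).re : ℂ) +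
          q * ((Complex.measurableEquivRealProd.symm x).im : ℂ)) =
        cexp ((-β : ℂ) * (x.1 : ℂ) ^ 2 + p * (x.1 : ℂ) + 0) *
          cexp ((-β : ℂ) * (x.2 : ℂ) ^ 2 + q * (x.2 : ℂ) + 0) := by
    intro x
    rw [← Complex.exp_add, Complex.sq_norm, Complex.normSq_apply]
    simp only [Complex.measurableEquivRealProd_symm_apply]
    push_cast
    ring_nf
  simp only [hf]
  rw [MeasureTheory.Measure.volume_eq_prod, integral_prod_mul (L := ℂ)
    (fun x : ℝ => cexp ((-β : ℂ) * (x : ℂ) ^ 2 + p * (x : ℂ) + 0))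
    (fun x : ℝ => cexp ((-β : ℂ) * (x : ℂ) ^ 2 + q * (x : ℂ) + 0))]
  have hb : ((-β : ℂ)).re < 0 := by simpa using hβ
  rw [integral_cexp_quadratic hb, integral_cexp_quadratic hb, mul_mul_mul_comm,
    ← Complex.exp_add, neg_neg, ← Complex.cpow_add _ _ (div_ne_zero (ofReal_ne_zero.2
      Real.pi_ne_zero) (ofReal_ne_zero.2 hβ.ne')), add_halves, Complex.cpow_one]
  congr 2
  field_simp
  ring

/-- Inversion. -/
def wC : GL (Fin 2) ℂ :=
  Matrix.GeneralLinearGroup.mkOfDetNeZero !![0, -1; 1, 0] (by simp [Matrix.det_fin_two_of])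

theorem den_wC (p : H3) : den wC p = Complex.normSq p.1 + (p.2 : ℝ) ^ 2 := by
  simp [den, wC]

theorem act_wC_fst (p : H3) : (act wC p).1 = -conj p.1 / (den wC p : ℂ) := by
  rw [Hyp.coe_act_fst]
  simp [wC]

theorem act_wC_snd (p : H3) : ((act wC p).2 : ℝ) = (p.2 : ℝ) / den wC p := by
  rw [Hyp.coe_act_snd, show (Matrix.GeneralLinearGroup.det wC : ℂ) = 1 by
    simp [wC, Matrix.det_fin_two_of], norm_one, one_mul]

/-- Integrability of Gaussians on `ℂ`. -/
theorem integrable_gaussC {b : ℝ} (hb : 0 < b) :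
    Integrable fun y : ℂ => Real.exp (-b * ‖y‖ ^ 2) := by
  have := (GaussianFourier.integrable_cexp_neg_mul_sq_norm_add
    (b := ((b : ℝ) : ℂ)) (by simpa using hb) 0 (0 : ℂ)).norm
  simpa [Complex.norm_exp, ← Complex.ofReal_pow] using this

theorem integrable_sTerm (p : H3) : Integrable (sTerm p) := by
  have ht : (0 : ℝ) < p.2 := p.2.2
  have hg : Integrable fun y : ℂ => Real.exp (-(2 * π * p.2) * ‖y‖ ^ 2) :=
    integrable_gaussC (by positivity)
  refine ((hg.mul_prod hg).const_mul (p.2 : ℝ)).mono'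
    (continuous_sTerm_right p).aestronglyMeasurable (Filter.Eventually.of_forall fun y => ?_)
  rw [norm_sTerm, ← Real.exp_add]
  exact le_of_eq (by ring_nf)

/-- The kernel is its own Fourier transform up to inversion. -/
theorem fourier_sTerm (p : H3) (a b : ℂ) :
    ∫ y : ℂ × ℂ, sTerm p y * cexp (((-(4 * π * (y.1 * a + y.2 * b).re) : ℝ) : ℂ) * I) =
      4⁻¹ * sTerm (act wC p) (a, b) := by
  have ht : (0 : ℝ) < p.2 := p.2.2
  have hD : 0 < den wC p := den_pos wC p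
  have hint : Integrable fun y : ℂ × ℂ =>
      sTerm p y * cexp (((-(4 * π * (y.1 * a + y.2 * b).re) : ℝ) : ℂ) * I) :=
    (integrable_sTerm p).mul_bdd (c := 1) (by fun_prop)
      (Filter.Eventually.of_forall fun y => (Complex.norm_exp_ofReal_mul_I _).le)
  rw [MeasureTheory.Measure.volume_eq_prod] at hint ⊢
  rw [integral_prod_symm _ hint]
  obtain ⟨t, htd⟩ : ∃ t : ℝ, t = p.2 := ⟨_, rfl⟩
  obtain ⟨D, hDd⟩ : ∃ D : ℝ, D = den wC p := ⟨_, rfl⟩
  have hDv : (D : ℂ) = (p.1.re : ℂ) ^ 2 + (p.1.im : ℂ) ^ 2 + (t : ℂ) ^ 2 := by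
    rw [hDd, den_wC, htd, Complex.normSq_apply]
    push_cast
    ring
  have ht' : (t : ℂ) ≠ 0 := ofReal_ne_zero.2 (htd ▸ ht.ne')
  have hD' : (D : ℂ) ≠ 0 := ofReal_ne_zero.2 (hDd ▸ hD.ne')
  -- first variable
  have h1 : ∀ y₂ : ℂ,
      ∫ y₁ : ℂ, sTerm p (y₁, y₂) * cexp (((-(4 * π * (y₁ * a + y₂ * b).re) : ℝ) : ℂ) * I) =
        (1 / 2 : ℂ) * cexp (-((2 * π * D / t : ℝ) : ℂ) * ((‖y₂‖ ^ 2 : ℝ) : ℂ) +
          ((4 * π / t * (p.1 * conj a).re : ℝ) - (4 * π * b.re : ℝ) * I) * (y₂.re : ℂ) +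
          ((-(4 * π / t * (p.1 * conj a).im) : ℝ) + (4 * π * b.im : ℝ) * I) * (y₂.im : ℂ)) *
          cexp ((-(2 * π * ‖a‖ ^ 2 / t) : ℝ) : ℂ) := by
    intro y₂
    obtain ⟨c, hc⟩ : ∃ c : ℂ, c = p.1 * y₂ - a := ⟨_, rfl⟩
    have hf : ∀ y₁ : ℂ,
        sTerm p (y₁, y₂) * cexp (((-(4 * π * (y₁ * a + y₂ * b).re) : ℝ) : ℂ) * I) =
        ((t : ℂ) * cexp ((-(2 * π * t * ‖y₂‖ ^ 2) : ℝ) + (-(4 * π * (y₂ * b).re) : ℝ) * I)) *
          cexp (-((2 * π * t : ℝ) : ℂ) * ((‖y₁‖ ^ 2 : ℝ) : ℂ) +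
            ((4 * π * c.re : ℝ) * I) * (y₁.re : ℂ) +
            ((-(4 * π * c.im) : ℝ) * I) * (y₁.im : ℂ)) := by
      intro y₁
      simp only [sTerm, hc, ← htd]
      rw [mul_assoc (t : ℂ), mul_assoc (t : ℂ), ← Complex.exp_add, ← Complex.exp_add]
      congr 2
      simp only [Complex.add_re, Complex.sub_re, Complex.sub_im, Complex.mul_re, Complex.mul_im]
      push_cast
      ring
    simp only [hf]
    rw [integral_const_mul, integral_gauss_complex (by rw [htd]; positivity)]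
    rw [show (π / ((2 * π * t : ℝ) : ℂ) : ℂ) = 1 / (2 * (t : ℂ)) by
      push_cast; field_simp [ofReal_ne_zero.2 Real.pi_ne_zero]]
    rw [show ((1 / 2 : ℂ)) = (t : ℂ) * (1 / (2 * (t : ℂ))) by field_simp]
    rw [mul_mul_mul_comm, ← Complex.exp_add, mul_assoc _ (cexp _) (cexp _), ← Complex.exp_add]
    congr 2
    rw [hc]
    simp only [Complex.sq_norm, Complex.normSq_apply, Complex.sub_re, Complex.sub_im,
      Complex.mul_re, Complex.mul_im, Complex.conj_re, Complex.conj_im]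
    push_cast
    rw [hDv]
    field_simp [ofReal_ne_zero.2 Real.pi_ne_zero]
    ring_nf
    simp only [Complex.I_sq]
    ring
  simp only [h1]
  rw [integral_mul_const, integral_const_mul,
    integral_gauss_complex (by rw [hDd, htd]; positivity)]
  rw [sTerm, act_wC_fst, act_wC_snd, ← hDd, ← htd,
    show (π / ((2 * π * D / t : ℝ) : ℂ) : ℂ) = (t : ℂ) / (2 * (D : ℂ)) by
      push_cast; field_simp [ofReal_ne_zero.2 Real.pi_ne_zero]]
  rw [show (1 / 2 : ℂ) * ((t : ℂ) / (2 * (D : ℂ)) * cexp _) = _ from rfl]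
  rw [mul_assoc, mul_assoc, ← Complex.exp_add, ← mul_assoc, ← mul_assoc]
  congr 1
  · push_cast
    field_simp
    ring
  · congr 1
    simp only [Complex.sq_norm, Complex.normSq_apply, neg_div, neg_mul, Complex.neg_re,
      Complex.div_ofReal_re, Complex.div_ofReal_im, Complex.mul_re, Complex.mul_im,
      Complex.conj_re, Complex.conj_im]
    push_cast
    rw [hDv] at hD' ⊢
    field_simp [ofReal_ne_zero.2 Real.pi_ne_zero]
    ring_nf
    simp only [Complex.I_sq]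
    ring

end FLTAgent.LT.ThetaM
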