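import Fermat.Agent.LT.ThetaM.HeckeDiag
import Mathlib.RingTheory.DedekindDomain.IntegralClosure

/-!
# Levels, eigenvalues and nonvanishing from the expansion

Admissible levels exist, the eigenvalues of a function with the theta expansion are real and match
the traces, and such a function is not zero.
-/

set_option autoImplicit false
set_option linter.style.haveILetI false
set_option linter.unusedSectionVars false

noncomputable section

namespace FLTAgent.LT.ThetaM

open NumberField IsDedekindDomain MeasureTheory Module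
open FractionalIdeal (spanSingleton)
open scoped nonZeroDivisors ComplexConjugate

variable {M E : Type} [Field M] [NumberField M] [Field E] [NumberField E] [Algebra M E]

theorem Data.IsLev.dvd {D : Data M E} {N N' : ℕ} (h : D.IsLev N) (hN' : 0 < N') (hd : N ∣ N') :
    D.IsLev N' := by
  obtain ⟨k, rfl⟩ := hd
  refine ⟨hN', ?_, fun x hx => ?_⟩
  · rw [Nat.cast_mul]; exact D.nf.mul_mem_right _ h.2.1
  · rw [show ((N * k : ℕ) : E) / 2 * x = (k : E) * ((N : E) / 2 * x) by push_cast; ring]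
    refine IsIntegral.mul ?_ (h.2.2 x hx)
    simpa using isIntegral_algebraMap (R := ℤ) (A := E) (x := (k : ℤ))

theorem exists_isLev (D : Data M E) {N₀ : ℕ} (hN₀ : 0 < N₀) : ∃ N, N₀ ∣ N ∧ D.IsLev N := by
  classical
  set B := Algebra.traceForm ℚ E
  set b := integralBasis E
  set db := B.dualBasis (traceForm_nondegenerate ℚ E) b
  obtain ⟨y, hy0, hy⟩ := exists_integral_multiples (A := ℤ) (K := ℚ) (L := E)
    (Finset.univ.image fun i => db i)
  have hy' : ∀ i, IsIntegral ℤ ((y.natAbs : E) * db i) := fun i => by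
    have h := hy _ (Finset.mem_image_of_mem _ (Finset.mem_univ i))
    rw [zsmul_eq_mul] at h
    rcases Int.natAbs_eq y with e | e <;> rw [e] at h
    · simpa using h
    · simpa using h.neg
  set n := Ideal.absNorm (D.f * D.f)
  have hn : 0 < n := Nat.pos_of_ne_zero fun h =>
    mul_ne_zero D.f_ne_bot D.f_ne_bot (Ideal.absNorm_eq_zero_iff.1 h)
  set m := Ideal.absNorm D.nf
  have hm : 0 < m := Nat.pos_of_ne_zero (mt Ideal.absNorm_eq_zero_iff.1 D.nf_ne_bot)
  refine ⟨N₀ * (2 * (m * (n * y.natAbs))), dvd_mul_right _ _,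
    Nat.mul_pos hN₀ (Nat.mul_pos two_pos (Nat.mul_pos hm
      (Nat.mul_pos hn (Int.natAbs_pos.2 hy0)))), ?_, fun x hx => ?_⟩
  · push_cast
    exact D.nf.mul_mem_left _ (D.nf.mul_mem_left _ (D.nf.mul_mem_right _ (Ideal.absNorm_mem _)))
  have hc : ∀ i, ∃ k : ℤ, db.repr ((n : E) * x) i = (k : ℚ) := fun i => by
    obtain ⟨k, hk⟩ := hx ((n : 𝓞 E) * RingOfIntegers.basis E i)
      ((D.f * D.f).mul_mem_right _ (Ideal.absNorm_mem _))
    refine ⟨k, ?_⟩
    rw [LinearMap.BilinForm.dualBasis_repr_apply, Algebra.traceForm_apply, ← hk]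
    congr 1
    rw [show b i = (RingOfIntegers.basis E i : E) from integralBasis_apply E i]
    push_cast
    ring
  have key : IsIntegral ℤ ((y.natAbs : E) * ((n : E) * x)) := by
    rw [← db.sum_repr ((n : E) * x), Finset.mul_sum]
    refine IsIntegral.sum _ fun i _ => ?_
    obtain ⟨k, hk⟩ := hc i
    rw [hk, show ((k : ℚ) • db i) = (k : E) * db i by rw [Int.cast_smul_eq_zsmul, zsmul_eq_mul],
      mul_left_comm]
    exact (isIntegral_algebraMap (R := ℤ) (x := k)).mul (hy' i)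
  rw [show ((N₀ * (2 * (m * (n * y.natAbs))) : ℕ) : E) / 2 * x =
    ((N₀ * m : ℕ) : ℤ) * ((y.natAbs : E) * ((n : E) * x)) by push_cast; ring]
  exact (isIntegral_algebraMap (R := ℤ) (x := ((N₀ * m : ℕ) : ℤ))).mul key

theorem exists_real_coef (D : Data M E) {v : HeightOneSpectrum (𝓞 M)} (hv : ¬ D.nf ≤ v.asIdeal) :
    ∃ c : ℝ, D.coef v.asIdeal = (c : ℂ) := by
  have hv1 : ¬ v.asIdeal ∣ (⊤ : Ideal (𝓞 M)) := fun h =>
    v.isPrime.ne_top (top_le_iff.1 (Ideal.le_of_dvd h))
  rcases D.places v hv with ⟨P, P', hne, hmap, hσ, hchi⟩ | ⟨P, hmap, hchi⟩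
  · have h1 := D.coef_rec_split hv hne hmap hσ hchi (m := ⊤) top_ne_bot
    rw [dif_neg hv1, D.coef_top, mul_one, sub_zero, Ideal.mul_top] at h1
    have hP : P.asIdeal ⊔ D.f = ⊤ := D.sup_of_above hv P (hmap ▸ dvd_mul_right _ _)
    refine ⟨2 * (D.chi P.asIdeal).re, ?_⟩
    rw [h1, eq_inv_of_mul_eq_one_right hchi, Complex.inv_eq_conj (D.norm_chi hP),
      Complex.add_conj]
  · have h1 := D.coef_rec_inert hv hmap hchi (m := ⊤) top_ne_bot
    rw [dif_neg hv1, neg_zero, Ideal.mul_top] at h1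
    exact ⟨0, by rw [h1, Complex.ofReal_zero]⟩

variable [IsTotallyComplex M]

/-- The expansion on the diagonal. -/
def HasExpansion (D : Data M E) (φ : Form M) : Prop :=
  ∀ (a : (Af M)ˣ) (x : Xinf M), HasSum (fun ξ : {ξ : M // ξ ≠ 0} =>
    (cN (fId a : FIM M) : ℂ) * D.coefFrac (spanSingleton (𝓞 M)⁰ (ξ : M) * (fId a : FIM M)) *
      wProd x ξ) (φ x (diagGF a))

theorem fullEigen_of_exp (D : Data M E) {N : ℕ} (hlev : D.IsLev N) {φ : Form M}
    (ha : Automorphic N φ) (hexp : HasExpansion D φ) : FullEigen N φ := by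
  intro v hv
  obtain ⟨c, hc⟩ := exists_real_coef D fun h => hv (h hlev.2.1)
  refine ⟨Real.sqrt (Nat.card (𝓞 M ⧸ v.asIdeal)) * c, fun x g => ?_⟩
  rw [hecke_eq D hlev ha hexp v hv, hc, Complex.ofReal_mul]

theorem eigenRho_of_exp {d : Octa} {E' : Type} [Field E'] [NumberField E'] [Algebra d.Mf E']
    [IsTotallyComplex d.Mf] (D : Data d.Mf E') {N : ℕ} (hlev : D.IsLev N) {φ : Form d.Mf}
    (ha : Automorphic N φ) (hexp : HasExpansion D φ)
    (hcoef : ∀ p : ℕ, p.Prime → ¬ p ∣ N → ∀ A : ValuationSubring Qb, A.LiesOverPrime p →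
      ∀ v : HeightOneSpectrum (𝓞 d.Mf),
        (∀ x : 𝓞 d.Mf, x ∈ v.asIdeal ↔ ((x : d.Mf) : Qb) ∈ A.nonunits) →
        ∀ σ : Gam, A.IsFrobeniusAt σ p → ∀ f : ℕ, Nat.card (𝓞 d.Mf ⧸ v.asIdeal) = p ^ f →
          σ ^ f ∈ d.GM → D.coef v.asIdeal = d.tr0 (σ ^ f)) :
    EigenRho d d.Mf N φ := by
  intro p hp hpN A hA v hv σ hσ f hf hfG x g
  have hp' : (p : 𝓞 d.Mf) ∈ v.asIdeal := by
    rw [hv]
    have h : ((p : ℕ) : Qb) ∈ A.nonunits := hA
    simpa using h
  have hN : (N : 𝓞 d.Mf) ∉ v.asIdeal := fun h => by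
    refine v.isPrime.ne_top ((Ideal.eq_top_iff_one _).2 ?_)
    obtain ⟨a, b, hab⟩ := (Nat.isCoprime_iff_coprime.2 ((hp.coprime_iff_not_dvd).2 hpN))
    rw [← Int.cast_one (R := 𝓞 d.Mf), ← hab, Int.cast_add, Int.cast_mul, Int.cast_mul,
      Int.cast_natCast, Int.cast_natCast]
    exact v.asIdeal.add_mem (v.asIdeal.mul_mem_left _ hp') (v.asIdeal.mul_mem_left _ h)
  rw [hecke_eq D hlev ha hexp v hN, hcoef p hp hpN A hA v hv σ hσ f hf hfG, hf]
  norm_num

theorem wTerm_ne_zero (p : H3) {ξ : ℂ} (hξ : ξ ≠ 0) : wTerm p ξ ≠ 0 :=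
  mul_ne_zero (Complex.ofReal_ne_zero.2 (mul_pos p.2.2
    (bK_pos (mul_pos p.2.2 (norm_pos_iff.2 hξ)))).ne') (Complex.exp_ne_zero _)

theorem wProd_translate_vec (x : Xinf M) (z : InfinitePlace M → ℂ) (ξ : M) :
    wProd (translate z x) ξ = wProd x ξ * RS.trChar ξ z := by
  have e : RS.trChar ξ z = ∏ w : InfinitePlace M,
      Complex.exp (((4 * Real.pi * (z w * w.embedding ξ).re : ℝ) : ℂ) * Complex.I) := by
    rw [RS.trChar, RS.trPair, ← Complex.exp_sum, ← Finset.sum_mul, ← Complex.ofReal_sum,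
      Finset.mul_sum]
    congr 3
    exact Finset.sum_congr rfl fun w _ => by rw [mul_comm (z w)]; ring
  rw [e, wProd, wProd, ← Finset.prod_mul_distrib]
  exact Finset.prod_congr rfl fun w _ => wTerm_translate _ _ _

theorem integral_echar_eq_zero {ι : Type*} [Fintype ι] {k : ι → ℤ} (hk : k ≠ 0) :
    ∫ y in RS.boxSet ι, Theta31.echar k y = 0 := by
  classical
  obtain ⟨i, hi⟩ := Function.ne_iff.1 hk
  have hper : RS.ZPeriodic (Theta31.echar k) :=
    ⟨RS.continuous_echar k, fun y w => Theta31.echar_add_rvec k w y⟩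
  have ha : Theta31.echar k (Pi.single i (2 * (k i : ℝ))⁻¹) = -1 := by
    rw [Theta31.echar, ← Complex.exp_pi_mul_I]
    congr 1
    rw [Finset.sum_eq_single_of_mem i (Finset.mem_univ i) fun j _ hj => by simp [hj],
      Pi.single_eq_same]
    have hk0 : ((k i : ℤ) : ℂ) ≠ 0 := Int.cast_ne_zero.2 hi
    push_cast
    field_simp
  have h2 := RS.integral_box_add hper (Pi.single i (2 * (k i : ℝ))⁻¹)
  simp only [RS.echar_add, integral_mul_const, ha] at h2
  linear_combination (-1 / 2 : ℂ) * h2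

/-- Absolutely convergent series of distinct characters separate their coefficients. -/
theorem coeff_eq_zero_of_echar {ι T : Type*} [Fintype ι] [Countable T] {c : T → ℂ}
    (hc : Summable fun t => ‖c t‖) {K : T → ι → ℤ} {t₀ : T}
    (hK : ∀ t, c t ≠ 0 → K t = K t₀ → t = t₀)
    (h : ∀ y, HasSum (fun t => c t * Theta31.echar (K t) y) 0) : c t₀ = 0 := by
  classical
  have hfin : (volume : Measure (ι → ℝ)) (RS.boxSet ι) < ⊤ := by
    rw [RS.volume_boxSet]; exact ENNReal.one_lt_top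
  set F := fun t (y : ι → ℝ) => c t * (Theta31.echar (K t) y * Theta31.echar (-(K t₀)) y)
  have hint : ∀ t, IntegrableOn (F t) (RS.boxSet ι) := fun t =>
    (IntegrableOn.of_bound hfin
      ((RS.continuous_echar _).mul (RS.continuous_echar _)).aestronglyMeasurable 1
      (Filter.Eventually.of_forall fun y => by
        rw [Pi.mul_apply, norm_mul, RS.norm_echar', RS.norm_echar', one_mul])).const_mul _
  have hs : Summable fun t => ∫ y in RS.boxSet ι, ‖F t y‖ := by
    simpa [F, RS.norm_echar', measureReal_def, RS.volume_boxSet] using hc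
  have h1 := integral_tsum_of_summable_integral_norm hint hs
  have hz : ∀ y, ∑' t, F t y = 0 := fun y => by
    simp only [F, ← mul_assoc]
    rw [tsum_mul_right, (h y).tsum_eq, zero_mul]
  simp only [hz, integral_zero] at h1
  rw [tsum_eq_single t₀ fun t ht => ?_] at h1
  · rw [show F t₀ = fun _ => c t₀ from funext fun y => by
      simp only [F, mul_comm (Theta31.echar (K t₀) y), RS.echar_neg_mul, mul_one],
      setIntegral_const, measureReal_def, RS.volume_boxSet] at h1
    simpa using h1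
  · rw [integral_const_mul]
    rcases eq_or_ne (c t) 0 with h0 | h0
    · rw [h0, zero_mul]
    refine mul_eq_zero_of_right _ ?_
    have hne : K t + -(K t₀) ≠ 0 := fun he => ht (hK t h0 (add_neg_eq_zero.1 he))
    rw [← integral_echar_eq_zero hne]
    refine setIntegral_congr_fun RS.measurableSet_boxSet fun y _ => ?_
    simp only [Theta31.echar, ← Complex.exp_add, ← mul_add, ← Finset.sum_add_distrib]
    push_cast [Pi.add_apply, Pi.neg_apply]
    simp only [add_mul]

theorem ne_zero_of_exp (D : Data M E) {φ : Form M} (hexp : HasExpansion D φ) : φ ≠ 0 := by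
  classical
  haveI : Countable M := (RS.ratBasis M).equivFun.toEquiv.injective.countable
  intro hφ
  set x0 : Xinf M := fun _ => (0, ⟨1, Set.mem_Ioi.2 one_pos⟩)
  set c : {ξ : M // ξ ≠ 0} → ℂ := fun ξ => (cN (fId (1 : (Af M)ˣ) : FIM M) : ℂ) *
    D.coefFrac (spanSingleton (𝓞 M)⁰ (ξ : M) * (fId (1 : (Af M)ˣ) : FIM M)) * wProd x0 ξ
  have hs : Summable fun ξ => ‖c ξ‖ := (hexp 1 x0).summable.norm
  have hdual : ∀ ξ, c ξ ≠ 0 → RS.IsDual 1 ((ξ : {ξ : M // ξ ≠ 0}) : M) := fun ξ hξ i => by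
    have h1 : spanSingleton (𝓞 M)⁰ (ξ : M) * (fId (1 : (Af M)ˣ) : FIM M) ≤ 1 := by
      by_contra hle
      exact hξ (by simp only [c, D.coefFrac_eq_zero hle, mul_zero, zero_mul])
    rw [map_one, Units.val_one, mul_one, FractionalIdeal.spanSingleton_le_iff_mem,
      FractionalIdeal.mem_one_iff] at h1
    obtain ⟨y, hy⟩ := h1
    obtain ⟨k, hk⟩ := IsIntegrallyClosed.isIntegral_iff.1 (Algebra.isIntegral_trace (R := ℤ)
      (F := M) (L := ℚ) ((y * RingOfIntegers.basis M i : 𝓞 M).isIntegral_coe))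
    refine ⟨k, ?_⟩
    rw [map_mul] at hk
    rw [RS.freq, ← hy, Nat.cast_one, one_mul, ← hk]
    rfl
  have h := coeff_eq_zero_of_echar (t₀ := ⟨(1 : M), one_ne_zero⟩) hs
    (K := fun ξ => RS.kvec 1 (ξ : M)) ?_ fun y => ?_
  · have e1 : cN (1 : FIM M) = 1 := by rw [cN, map_one]; simp
    simp only [c, map_one, Units.val_one, FractionalIdeal.spanSingleton_one, mul_one, e1] at h
    rw [← FractionalIdeal.coeIdeal_top, D.coefFrac_coe, D.coef_top] at h
    simp only [Complex.ofReal_one, one_mul] at h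
    exact Finset.prod_ne_zero_iff.2
      (fun w _ => wTerm_ne_zero _ ((map_ne_zero w.embedding).2 one_ne_zero)) h
  · intro t ht he
    have hd1 : RS.IsDual 1 (1 : M) := fun i => by
      obtain ⟨k, hk⟩ := IsIntegrallyClosed.isIntegral_iff.1 (Algebra.isIntegral_trace (R := ℤ)
        (F := M) (L := ℚ) (RingOfIntegers.basis M i).isIntegral_coe)
      exact ⟨k, by rw [RS.freq, one_mul, Nat.cast_one, one_mul, ← hk]; rfl⟩
    have h2 := congrArg (RS.xiOf (F := M) 1) he
    rw [RS.xiOf_kvec one_pos (hdual t ht), RS.xiOf_kvec one_pos hd1] at h2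
    exact Subtype.ext h2
  · have h1 := hexp 1 (translate (boxVec 1 y) x0)
    rw [hφ] at h1
    refine h1.congr_fun fun ξ => ?_
    rcases eq_or_ne (c ξ) 0 with h0 | h0
    · rw [h0, zero_mul, wProd_translate_vec, ← mul_assoc]
      simp only [c] at h0
      rw [h0, zero_mul]
    · rw [RS.echar_kvec (hdual ξ h0), wProd_translate_vec]
      simp only [c]
      ring

end FLTAgent.LT.ThetaM
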